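/-
P-S44 / block C2 (helper83): the logarithmic derivative of Laurent series and the formal
weight-2 Hecke operator.

* `dlog f = θ f / f` on `LaurentSeries k` (`k` a field), additive on nonzero series,
  `dlog (f(q^N)) = N (dlog f)(q^N)`, `dlog (f(ζ q)) = (dlog f)(ζ q)`, and in characteristic `p`
  it kills `p`-th powers;
* `Uop ℓ` (`a_n ↦ a_{ℓ n}`), `heckeT ℓ = Uop ℓ + ℓ • qExpand ℓ` (weight 2);
* `sum_twist` : `∑_{b<ℓ} φ(ζ^b q) = ℓ (U_ℓ φ)(q^ℓ)` for a primitive `ℓ`-th root of unity `ζ`;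
* `dlog_of_norm_formula` : if `g(q^ℓ) = f(q^{ℓ²}) ∏_{b<ℓ} f(ζ^b q)` (the shape of the landed
  `S35x.NormQ.normQExp_beta` applied to `α^* f`), then `dlog g = T_ℓ (dlog f)`.
-/
import Mathlib
import Fermat.Agent.S16.Two.QSeries
import Fermat.Agent.Gateway.Kummer.Twist

set_option autoImplicit false

noncomputable section

namespace Fermat.Agent.S40x.C2.DlogHecke

open ModularCurve HahnSeries Fermat.Agent.S16.Two Fermat.Agent.Gateway.Kummer

/-! ### `θ` and the substitutions -/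

section Ring

variable {R : Type*} [CommRing R]

theorem thetaL_twist (ζ : Rˣ) (f : LaurentSeries R) :
    thetaL (twist ζ f) = twist ζ (thetaL f) := by
  ext n
  rw [thetaL_coeff, twist_coeff, twist_coeff, thetaL_coeff]
  ring

theorem thetaL_C (c : R) : thetaL (HahnSeries.C c : LaurentSeries R) = 0 := by
  ext n
  rw [thetaL_coeff, HahnSeries.coeff_zero]
  by_cases hn : n = 0
  · subst hn; simp
  · rw [HahnSeries.C_apply, HahnSeries.coeff_single_of_ne hn, mul_zero]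

theorem thetaL_natCast (a : ℕ) : thetaL ((a : LaurentSeries R)) = 0 := by
  have h : ((a : LaurentSeries R)) = HahnSeries.C (a : R) := by simp
  rw [h, thetaL_C]

theorem thetaL_natCast_mul (a : ℕ) (f : LaurentSeries R) :
    thetaL ((a : LaurentSeries R) * f) = (a : LaurentSeries R) * thetaL f := by
  rw [thetaL_mul, thetaL_natCast, zero_mul, zero_add]

/-- `θ (f ^ n) = n f^(n-1) θ f`, all `n`. -/
theorem thetaL_pow (f : LaurentSeries R) (n : ℕ) :
    thetaL (f ^ n) = (n : LaurentSeries R) * f ^ (n - 1) * thetaL f := by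
  cases n with
  | zero => simp [thetaL_one]
  | succ n => rw [thetaL_pow_succ, Nat.add_sub_cancel]

/-- the operator `U_ℓ : a_n ↦ a_{ℓ n}` -/
def Uop (ℓ : ℕ) [NeZero ℓ] (φ : LaurentSeries R) : LaurentSeries R :=
  HahnSeries.ofSuppBddBelow (fun n : ℤ => φ.coeff ((ℓ : ℤ) * n)) (by
    refine ⟨min φ.order 0, fun n hn => ?_⟩
    by_contra hlt
    rw [not_le] at hlt
    have hn0 : n < 0 := lt_of_lt_of_le hlt (min_le_right _ _)
    have hnm : n < φ.order := lt_of_lt_of_le hlt (min_le_left _ _)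
    have hℓ : (1 : ℤ) ≤ (ℓ : ℤ) := by exact_mod_cast Nat.pos_of_ne_zero (NeZero.ne ℓ)
    have h1 : (ℓ : ℤ) * n ≤ n := by nlinarith
    exact hn (HahnSeries.coeff_eq_zero_of_lt_order (lt_of_le_of_lt h1 hnm)))

@[simp]
theorem Uop_coeff (ℓ : ℕ) [NeZero ℓ] (φ : LaurentSeries R) (n : ℤ) :
    (Uop ℓ φ).coeff n = φ.coeff ((ℓ : ℤ) * n) := by
  rw [Uop, HahnSeries.coeff_ofSuppBddBelow]

/-- the formal Hecke operator of weight 2: `a_n ↦ a_{ℓ n} + ℓ a_{n/ℓ}` -/
def heckeT (ℓ : ℕ) [NeZero ℓ] (φ : LaurentSeries R) : LaurentSeries R :=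
  Uop ℓ φ + (ℓ : LaurentSeries R) * qExpand R ℓ φ

theorem natCast_mul_coeff (a : ℕ) (f : LaurentSeries R) (n : ℤ) :
    (((a : LaurentSeries R)) * f).coeff n = (a : R) * f.coeff n := by
  have h : ((a : LaurentSeries R)) = HahnSeries.C (a : R) := by simp
  rw [h, HahnSeries.C_mul_eq_smul, HahnSeries.coeff_smul, smul_eq_mul]

theorem heckeT_coeff_mul (ℓ : ℕ) [NeZero ℓ] (φ : LaurentSeries R) (n : ℤ) :
    (heckeT ℓ φ).coeff ((ℓ : ℤ) * n) = φ.coeff ((ℓ : ℤ) * ((ℓ : ℤ) * n)) + (ℓ : R) * φ.coeff n := by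
  rw [heckeT, HahnSeries.coeff_add, Uop_coeff, natCast_mul_coeff, qExpand_coeff_mul]

theorem heckeT_coeff_of_not_dvd (ℓ : ℕ) [NeZero ℓ] (φ : LaurentSeries R) {n : ℤ}
    (hn : ¬ (ℓ : ℤ) ∣ n) : (heckeT ℓ φ).coeff n = φ.coeff ((ℓ : ℤ) * n) := by
  rw [heckeT, HahnSeries.coeff_add, Uop_coeff, natCast_mul_coeff,
    qExpand_coeff_of_not_dvd ℓ _ hn, mul_zero, add_zero]

theorem Uop_add (ℓ : ℕ) [NeZero ℓ] (φ ψ : LaurentSeries R) :
    Uop ℓ (φ + ψ) = Uop ℓ φ + Uop ℓ ψ := by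
  ext n; simp

theorem heckeT_add (ℓ : ℕ) [NeZero ℓ] (φ ψ : LaurentSeries R) :
    heckeT ℓ (φ + ψ) = heckeT ℓ φ + heckeT ℓ ψ := by
  rw [heckeT, heckeT, heckeT, Uop_add, map_add]
  ring

end Ring

/-! ### The sum over the twists -/

section Sum

variable {k : Type*} [CommRing k] [IsDomain k]

theorem sum_zpow_of_primitiveRoot {ℓ : ℕ} {ζ : kˣ} (hζ : IsPrimitiveRoot ζ ℓ)
    (n : ℤ) :
    ∑ b ∈ Finset.range ℓ, (((ζ ^ b) ^ n : kˣ) : k) = if (ℓ : ℤ) ∣ n then (ℓ : k) else 0 := by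
  have hcomm : ∀ b : ℕ, (((ζ ^ b) ^ n : kˣ) : k) = (((ζ ^ n : kˣ) : k)) ^ b := by
    intro b
    rw [← Units.val_pow_eq_pow_val, ← zpow_natCast (ζ ^ n) b, ← zpow_mul, ← zpow_natCast ζ b,
      ← zpow_mul, mul_comm]
  simp_rw [hcomm]
  split_ifs with h
  · have h1 : ζ ^ n = 1 := (hζ.zpow_eq_one_iff_dvd n).mpr h
    rw [h1]
    simp
  · have h1 : ζ ^ n ≠ 1 := fun h' => h ((hζ.zpow_eq_one_iff_dvd n).mp h')
    have h2 : ((ζ ^ n : kˣ) : k) ≠ 1 := fun h' => h1 (Units.ext h')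
    have h3 : (((ζ ^ n : kˣ) : k)) ^ ℓ = 1 := by
      rw [← Units.val_pow_eq_pow_val, ← zpow_natCast (ζ ^ n) ℓ, ← zpow_mul, mul_comm, zpow_mul,
        zpow_natCast, hζ.pow_eq_one, one_zpow, Units.val_one]
    have h4 := mul_neg_geom_sum (((ζ ^ n : kˣ) : k)) ℓ
    rw [h3, sub_self] at h4
    rcases mul_eq_zero.mp h4 with h5 | h5
    · exact absurd (sub_eq_zero.mp h5).symm h2
    · exact h5

theorem sum_twist {ℓ : ℕ} [NeZero ℓ] {ζ : kˣ} (hζ : IsPrimitiveRoot ζ ℓ)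
    (φ : LaurentSeries k) :
    ∑ b ∈ Finset.range ℓ, twist (ζ ^ b) φ = (ℓ : LaurentSeries k) * qExpand k ℓ (Uop ℓ φ) := by
  ext n
  rw [HahnSeries.coeff_sum, natCast_mul_coeff]
  simp_rw [twist_coeff]
  rw [← Finset.sum_mul, sum_zpow_of_primitiveRoot hζ n]
  split_ifs with h
  · obtain ⟨m, rfl⟩ := h
    rw [qExpand_coeff_mul, Uop_coeff]
  · rw [qExpand_coeff_of_not_dvd ℓ _ h, zero_mul, mul_zero]

end Sum

/-! ### The logarithmic derivative -/

section Field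

variable {k : Type*} [Field k]

/-- the logarithmic derivative `θ f / f` -/
def dlog (f : LaurentSeries k) : LaurentSeries k := thetaL f / f

theorem dlog_mul {f g : LaurentSeries k} (hf : f ≠ 0) (hg : g ≠ 0) :
    dlog (f * g) = dlog f + dlog g := by
  rw [dlog, dlog, dlog, thetaL_mul]
  field_simp

theorem dlog_one : dlog (1 : LaurentSeries k) = 0 := by
  rw [dlog, thetaL_one, zero_div]

theorem dlog_prod {ι : Type*} (s : Finset ι) (f : ι → LaurentSeries k)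
    (hf : ∀ i ∈ s, f i ≠ 0) : dlog (∏ i ∈ s, f i) = ∑ i ∈ s, dlog (f i) := by
  classical
  induction s using Finset.induction_on with
  | empty => simp [dlog_one]
  | insert a s ha ih =>
    rw [Finset.prod_insert ha, Finset.sum_insert ha,
      dlog_mul (hf a (Finset.mem_insert_self a s))
        (Finset.prod_ne_zero_iff.mpr fun i hi => hf i (Finset.mem_insert_of_mem hi)),
      ih fun i hi => hf i (Finset.mem_insert_of_mem hi)]

theorem dlog_C_mul (c : k) (hc : c ≠ 0) {f : LaurentSeries k} (hf : f ≠ 0) :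
    dlog (HahnSeries.C c * f) = dlog f := by
  have hC : (HahnSeries.C c : LaurentSeries k) ≠ 0 := fun h =>
    hc (HahnSeries.C_injective (by rw [h, map_zero]))
  rw [dlog_mul hC hf, dlog, thetaL_C, zero_div, zero_add]

theorem dlog_qExpand (N : ℕ) [NeZero N] (f : LaurentSeries k) :
    dlog (qExpand k N f) = (N : LaurentSeries k) * qExpand k N (dlog f) := by
  rw [dlog, dlog, thetaL_qExpand, map_div₀, mul_div_assoc]

theorem dlog_twist (ζ : kˣ) (f : LaurentSeries k) :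
    dlog (twist ζ f) = twist ζ (dlog f) := by
  rw [dlog, dlog, thetaL_twist, map_div₀]

/-- in characteristic `p` the logarithmic derivative kills `p`-th powers -/
theorem dlog_pow_char (p : ℕ) [CharP k p] (h : LaurentSeries k) : dlog (h ^ p) = 0 := by
  rw [dlog, thetaL_pow]
  have hp : ((p : LaurentSeries k)) = 0 := by
    have h1 : ((p : k)) = 0 := CharP.cast_eq_zero k p
    rw [← map_natCast (HahnSeries.C : k →+* LaurentSeries k), h1, map_zero]
  rw [hp, zero_mul, zero_mul, zero_div]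

theorem dlog_mul_pow_char (p : ℕ) [CharP k p] {f h : LaurentSeries k} (hf : f ≠ 0) (hh : h ≠ 0) :
    dlog (f * h ^ p) = dlog f := by
  rw [dlog_mul hf (pow_ne_zero p hh), dlog_pow_char, add_zero]

theorem twist_ne_zero (ζ : kˣ) {f : LaurentSeries k} (hf : f ≠ 0) : twist ζ f ≠ 0 :=
  fun h => hf (by
    have hinj : Function.Injective (twist ζ : LaurentSeries k →+* LaurentSeries k) :=
      RingHom.injective _
    exact hinj (by rw [h, map_zero]))

/-- **The Hecke relation for logarithmic derivatives.**  If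
`g(q^ℓ) = f(q^{ℓ²}) ∏_{b<ℓ} f(ζ^b q)` with `ζ` a primitive `ℓ`-th root of unity and `ℓ ≠ 0` in
`k`, then `dlog g = T_ℓ (dlog f)` (weight 2: `a_n ↦ a_{ℓ n} + ℓ a_{n/ℓ}`). -/
theorem dlog_of_norm_formula {ℓ : ℕ} [NeZero ℓ] (hℓk : (ℓ : k) ≠ 0)
    {ζ : kˣ} (hζ : IsPrimitiveRoot ζ ℓ) {f g : LaurentSeries k} (hf : f ≠ 0)
    (h : qExpand k ℓ g = qExpand k ℓ (qExpand k ℓ f) * ∏ b ∈ Finset.range ℓ, twist (ζ ^ b) f) :
    dlog g = heckeT ℓ (dlog f) := by
  have hq : ∀ x : LaurentSeries k, x ≠ 0 → qExpand k ℓ x ≠ 0 := fun x hx h0 =>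
    hx (qExpand_injective ℓ (by rw [h0, map_zero]))
  have h1 := congrArg dlog h
  rw [dlog_qExpand, dlog_mul (hq _ (hq _ hf))
      (Finset.prod_ne_zero_iff.mpr fun b _ => twist_ne_zero _ hf),
    dlog_qExpand, dlog_qExpand, dlog_prod _ _ (fun b _ => twist_ne_zero _ hf)] at h1
  simp_rw [dlog_twist] at h1
  rw [sum_twist hζ, map_mul, map_natCast] at h1
  have hℓL : ((ℓ : LaurentSeries k)) ≠ 0 := by
    rw [← map_natCast (HahnSeries.C : k →+* LaurentSeries k)]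
    intro h0
    exact hℓk (HahnSeries.C_injective (by rw [h0, map_zero]))
  have h3 : (ℓ : LaurentSeries k) * qExpand k ℓ (dlog g) =
      (ℓ : LaurentSeries k) * qExpand k ℓ (heckeT ℓ (dlog f)) := by
    rw [h1, heckeT, map_add, map_mul, map_natCast]
    ring
  exact qExpand_injective ℓ (mul_left_cancel₀ hℓL h3)

end Field

end Fermat.Agent.S40x.C2.DlogHecke
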