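/-
P-S44 (block C2, route OMEGA: `delta x = 0 ↔ r_inf x = 0`; route D item (1)) -- leaf by helper75.

Kernel of a derivation on a function field in one variable over a perfect field of
characteristic `p`: if `K / k(t)` is algebraic separable, `k` perfect, `M` any `K`-module,
`D : Derivation k K M` with `D t ≠ 0`, then `D f = 0` implies that `f` is a `p`-th power in `K`
(`exists_pow_eq_of_derivation_eq_zero`). Typical use: `K = Fk k M₀ ≤ k((q))`, `M = k((q))`,
`D = q d/dq`, `t` = reduction of the Hauptmodul (`TLineHurwitz.isSeparable_t4`).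
By-products: `adjoin_pow_eq_top : K = K^p(t)`, `finrank_adjoin_eq : [K^p(t) : K^p] = p`.

Mathlib only.
-/
import Mathlib

set_option autoImplicit false

namespace Fermat.Agent.S40x.C2.DerivKernel

open IntermediateField Polynomial

variable {k K : Type*} [Field k] [Field K] [Algebra k K]
variable {M : Type*} [AddCommGroup M] [Module K M] [Module k M]

section Constants

/-- the subfield of constants of a derivation. -/
def constSubfield (D : Derivation k K M) : Subfield K where
  carrier := {x | D x = 0}
  mul_mem' := by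
    intro a b ha hb
    change D a = 0 at ha
    change D b = 0 at hb
    change D (a * b) = 0
    rw [D.leibniz, ha, hb]; simp
  one_mem' := by change D 1 = 0; simp
  add_mem' := by
    intro a b ha hb
    change D a = 0 at ha
    change D b = 0 at hb
    change D (a + b) = 0
    rw [map_add, ha, hb, add_zero]
  zero_mem' := by change D 0 = 0; simp
  neg_mem' := by
    intro a ha
    change D a = 0 at ha
    change D (-a) = 0
    rw [map_neg, ha, neg_zero]
  inv_mem' := by
    intro a ha
    change D a = 0 at ha
    change D a⁻¹ = 0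
    by_cases h0 : a = 0
    · subst h0; simp
    · have h1 : D (a * a⁻¹) = 0 := by rw [mul_inv_cancel₀ h0]; simp
      rw [D.leibniz, ha, smul_zero, add_zero] at h1
      exact (smul_eq_zero.1 h1).resolve_left h0

theorem mem_constSubfield (D : Derivation k K M) (x : K) : x ∈ constSubfield D ↔ D x = 0 :=
  Iff.rfl

theorem pow_mem_constSubfield (p : ℕ) [CharP K p] (D : Derivation k K M) (x : K) :
    x ^ p ∈ constSubfield D := by
  rw [mem_constSubfield, D.leibniz_pow, ← Nat.cast_smul_eq_nsmul K, CharP.cast_eq_zero K p,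
    zero_smul]

end Constants

section Main

variable (p : ℕ) [hp : Fact p.Prime] [CharP K p]

/-- the subfield `K ^ p` of `p`-th powers. -/
def powSubfield (K : Type*) [Field K] (p : ℕ) [Fact p.Prime] [CharP K p] : Subfield K :=
  (frobenius K p).fieldRange

theorem mem_powSubfield (x : K) : x ∈ powSubfield K p ↔ ∃ y : K, y ^ p = x := by
  unfold powSubfield
  rw [RingHom.mem_fieldRange]
  simp [frobenius_def]

theorem pow_mem_powSubfield (y : K) : y ^ p ∈ powSubfield K p :=
  (mem_powSubfield p _).2 ⟨y, rfl⟩

/-- `t` is a root of `X ^ p - t ^ p` over `K ^ p`. -/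
theorem aeval_X_pow_sub (t : K) :
    aeval t (X ^ p - C (⟨t ^ p, pow_mem_powSubfield p t⟩ : powSubfield K p)) = 0 := by
  simp only [map_sub, map_pow, aeval_X, aeval_C]
  exact sub_self _

theorem isIntegral_over_pow (t : K) : IsIntegral (powSubfield K p) t :=
  ⟨X ^ p - C (⟨t ^ p, pow_mem_powSubfield p t⟩ : powSubfield K p),
    monic_X_pow_sub_C _ hp.out.ne_zero, aeval_X_pow_sub p t⟩

/-- if `t` is not a `p`-th power then `[K^p(t) : K^p] = p`. -/
theorem finrank_adjoin_eq (t : K) (ht : ¬ ∃ y : K, y ^ p = t) :
    Module.finrank (powSubfield K p) (powSubfield K p)⟮t⟯ = p := by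
  rw [adjoin.finrank (isIntegral_over_pow p t)]
  have hirr : Irreducible (X ^ p - C (⟨t ^ p, pow_mem_powSubfield p t⟩ : powSubfield K p)) := by
    apply X_pow_sub_C_irreducible_of_prime hp.out
    rintro ⟨b, hb⟩ hbt
    obtain ⟨y, rfl⟩ := (mem_powSubfield p b).1 hb
    have h1 : (y ^ p) ^ p = t ^ p := by
      have := congrArg Subtype.val hbt
      simpa using this
    have h2 : y ^ p = t := by
      have hinj := frobenius_inj K p
      apply hinj
      simpa [frobenius_def] using h1
    exact ht ⟨y, h2⟩
  rw [← minpoly.eq_of_irreducible_of_monic hirr (aeval_X_pow_sub p t)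
    (monic_X_pow_sub_C _ hp.out.ne_zero)]
  exact natDegree_X_pow_sub_C

end Main

section Final

variable (p : ℕ) [hp : Fact p.Prime] [CharP k p] [PerfectField k]

/-- `K = K^p(t)` when `K / k(t)` is algebraic separable and `k` is perfect. -/
theorem adjoin_pow_eq_top [CharP K p] (t : K) [Algebra.IsSeparable k⟮t⟯ K] :
    (powSubfield K p)⟮t⟯ = ⊤ := by
  have : ExpChar k p := ExpChar.prime hp.out
  have : PerfectRing k p := PerfectField.toPerfectRing p
  -- constants of `k` are `p`-th powers
  have hk : ∀ a : k, algebraMap k K a ∈ ((powSubfield K p)⟮t⟯).toSubfield := by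
    intro a
    obtain ⟨b, rfl⟩ := surjective_frobenius k p a
    have h1 : algebraMap k K (frobenius k p b) = (algebraMap k K b) ^ p := by
      rw [frobenius_def, map_pow]
    rw [h1]
    have h2 : (algebraMap k K b) ^ p ∈ (powSubfield K p)⟮t⟯ :=
      ((powSubfield K p)⟮t⟯).algebraMap_mem ⟨_, pow_mem_powSubfield p (algebraMap k K b)⟩
    exact h2
  -- hence `k(t)` lies in `K^p(t)`
  let L' : IntermediateField k K :=
    Subfield.toIntermediateField ((powSubfield K p)⟮t⟯).toSubfield hk
  have hL' : k⟮t⟯ ≤ L' := by
    rw [adjoin_simple_le_iff]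
    exact mem_adjoin_simple_self (powSubfield K p) t
  have hF : ∀ y : k⟮t⟯, algebraMap k⟮t⟯ K y ∈ ((powSubfield K p)⟮t⟯).toSubfield := by
    intro y
    exact hL' y.2
  let L : IntermediateField k⟮t⟯ K :=
    Subfield.toIntermediateField ((powSubfield K p)⟮t⟯).toSubfield hF
  have : CharP k⟮t⟯ p := charP_of_injective_algebraMap (algebraMap k k⟮t⟯).injective p
  have : ExpChar k⟮t⟯ p := ExpChar.prime hp.out
  have htop : (⊤ : IntermediateField k⟮t⟯ K) ≤ L := by
    rw [← adjoin_univ, adjoin_eq_adjoin_pow_expChar_of_isSeparable' k⟮t⟯ K Set.univ p,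
      adjoin_le_iff]
    rintro _ ⟨y, -, rfl⟩
    have h2 : y ^ p ∈ (powSubfield K p)⟮t⟯ :=
      ((powSubfield K p)⟮t⟯).algebraMap_mem ⟨_, pow_mem_powSubfield p y⟩
    exact h2
  rw [eq_top_iff]
  intro x _
  have hx : x ∈ L := htop (mem_top)
  exact hx

/-- **Kernel of a derivation.** `k` perfect of characteristic `p`, `K / k(t)` algebraic
separable, `D : Derivation k K M` (any `K`-module `M`) with `D t ≠ 0`. Then `D f = 0` implies
`f ∈ K ^ p`. -/
theorem exists_pow_eq_of_derivation_eq_zero (t : K) [Algebra.IsSeparable k⟮t⟯ K]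
    (D : Derivation k K M) (hDt : D t ≠ 0) (f : K) (hf : D f = 0) :
    ∃ g : K, g ^ p = f := by
  have : CharP K p := charP_of_injective_algebraMap (algebraMap k K).injective p
  -- `t` is not a `p`-th power
  have ht : ¬ ∃ y : K, y ^ p = t := by
    rintro ⟨y, rfl⟩
    exact hDt ((mem_constSubfield D _).1 (pow_mem_constSubfield p D y))
  have htop := adjoin_pow_eq_top (k := k) p t
  have hfin : Module.finrank (powSubfield K p) (powSubfield K p)⟮t⟯ = p :=
    finrank_adjoin_eq p t ht
  have : FiniteDimensional (powSubfield K p) (powSubfield K p)⟮t⟯ :=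
    adjoin.finiteDimensional (isIntegral_over_pow p t)
  -- the constants as an intermediate field of `K / K^p`
  let C : IntermediateField (powSubfield K p) K :=
    Subfield.toIntermediateField (constSubfield D) (by
      rintro ⟨x, hx⟩
      obtain ⟨y, rfl⟩ := (mem_powSubfield p x).1 hx
      exact pow_mem_constSubfield p D y)
  have hKfin : Module.finrank (powSubfield K p) K = p := by
    rw [← finrank_top', ← htop]; exact hfin
  have : FiniteDimensional (powSubfield K p) K :=
    Module.finite_of_finrank_pos (by rw [hKfin]; exact hp.out.pos)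
  have htower : Module.finrank (powSubfield K p) C * Module.finrank C K = p := by
    rw [Module.finrank_mul_finrank, hKfin]
  have hdvd : Module.finrank (powSubfield K p) C ∣ p := ⟨_, htower.symm⟩
  rcases (Nat.dvd_prime hp.out).1 hdvd with h1 | h1
  · -- `C = ⊥`
    have hbot : C = ⊥ := finrank_eq_one_iff.1 h1
    have hfC : f ∈ C := hf
    rw [hbot, mem_bot] at hfC
    obtain ⟨⟨x, hx⟩, rfl⟩ := hfC
    exact (mem_powSubfield p x).1 hx
  · -- `C = ⊤`, impossible since `D t ≠ 0`
    exfalso
    have hCtop : C = ⊤ := by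
      apply eq_of_le_of_finrank_eq le_top
      rw [h1, finrank_top', hKfin]
    have htC : t ∈ C := by rw [hCtop]; exact mem_top
    exact hDt htC

end Final

end Fermat.Agent.S40x.C2.DerivKernel
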