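/-
P-S44 (block C2, route OMEGA, leaf C2-REG) -- helper23.

The `p`-basis trick.  `K / k(s)` algebraic separable, `k` perfect of characteristic `p`: by the
landed `DerivKernel.adjoin_pow_eq_top`, `K = K^p(s)`, so every `f : K` is
`f = ∑_{i<p} y i ^ p * s ^ i` (`exists_pbasis`).  For a `ℤᵐ⁰`-valued valuation `v` with
`v s = exp (-1)` (`s` a uniformiser) the nonzero terms have pairwise distinct valuations
(`exp (p a - i)`), hence each term is `≤ v f` (`le_map_sum_of_pairwise`), and if `v f = exp (p m)`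
the formal derivative `g = ∑ i * y i ^ p * s ^ (i-1)` satisfies `v g ≤ v f` (`val_deriv_le`):
`dlog f = g / f` is regular at a place where `f` has order divisible by `p` and `s` is a
uniformiser.  No derivation on `K` is needed.

Mathlib + landed `S40x/C2/DerivKernel` only.
-/
import Mathlib
import Fermat.Agent.S40x.C2.DerivKernel

set_option autoImplicit false

namespace Fermat.Agent.S40x.C2.PBasisVal

open Polynomial IntermediateField Fermat.Agent.S40x.C2.DerivKernel

section Val

variable {R Γ : Type*} [Ring R] [LinearOrderedCommGroupWithZero Γ] (v : Valuation R Γ)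

/-- If the nonzero terms of a finite sum have pairwise distinct valuations, every term has
valuation at most the valuation of the sum. -/
theorem le_map_sum_of_pairwise {ι : Type*} (s : Finset ι) (x : ι → R)
    (h : ∀ i ∈ s, ∀ j ∈ s, i ≠ j → v (x i) = v (x j) → v (x i) = 0) :
    ∀ i ∈ s, v (x i) ≤ v (∑ j ∈ s, x j) := by
  classical
  intro i hi
  obtain ⟨i0, hi0, hmax⟩ := Finset.exists_max_image s (fun j => v (x j)) ⟨i, hi⟩
  by_cases h0 : v (x i0) = 0
  · have h1 : v (x i) ≤ 0 := h0 ▸ hmax i hi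
    exact le_trans h1 zero_le
  · have hlt : ∀ j ∈ s.erase i0, v (x j) < v (x i0) := by
      intro j hj
      obtain ⟨hne, hjs⟩ := Finset.mem_erase.mp hj
      refine lt_of_le_of_ne (hmax j hjs) fun heq => h0 ?_
      rw [← heq]
      exact h j hjs i0 hi0 hne heq
    have hsum : v (∑ j ∈ s.erase i0, x j) < v (x i0) := Valuation.map_sum_lt v h0 hlt
    rw [← Finset.add_sum_erase s x hi0, Valuation.map_add_eq_of_lt_left v hsum]
    exact hmax i hi

end Val

section Loc

open WithZero

variable {F : Type*} [Field F] (p : ℕ) [hp : Fact p.Prime] (v : Valuation F ℤᵐ⁰)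

theorem val_natCast_le_one (n : ℕ) : v (n : F) ≤ 1 := by
  induction n with
  | zero => simp
  | succ n ih =>
    rw [Nat.cast_succ]
    exact le_trans (v.map_add _ _) (max_le ih (by rw [v.map_one]))

/-- **Regularity of the formal derivative.** -/
theorem val_deriv_le (s : F) (hs : v s = exp (-1 : ℤ)) (y : ℕ → F) (f : F)
    (hf : f = ∑ i ∈ Finset.range p, y i ^ p * s ^ i)
    (hdvd : ∃ m : ℤ, v f = exp ((p : ℤ) * m)) :
    v (∑ i ∈ Finset.range p, (i : F) * y i ^ p * s ^ (i - 1)) ≤ v f := by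
  have hs0 : s ≠ 0 := by
    rintro rfl
    rw [map_zero] at hs
    exact exp_ne_zero hs.symm
  -- valuation of a nonzero term
  have hterm : ∀ i : ℕ, y i ≠ 0 →
      v (y i ^ p * s ^ i) = exp ((p : ℤ) * log (v (y i)) - (i : ℤ)) := by
    intro i hyi
    have hvy : v (y i) ≠ 0 := (Valuation.ne_zero_iff v).mpr hyi
    rw [map_mul, map_pow, map_pow, hs, ← exp_log hvy, ← exp_nsmul, ← exp_nsmul, ← exp_add,
      log_exp]
    congr 1
    simp only [nsmul_eq_mul]
    ring
  have hzero : ∀ i : ℕ, y i = 0 → y i ^ p * s ^ i = 0 := by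
    intro i hyi
    rw [hyi, zero_pow hp.out.ne_zero, zero_mul]
  -- pairwise distinct
  have hpair : ∀ i ∈ Finset.range p, ∀ j ∈ Finset.range p, i ≠ j →
      v (y i ^ p * s ^ i) = v (y j ^ p * s ^ j) → v (y i ^ p * s ^ i) = 0 := by
    intro i hi j hj hij heq
    by_cases hyi : y i = 0
    · rw [hzero i hyi, map_zero]
    by_cases hyj : y j = 0
    · rw [heq, hzero j hyj, map_zero]
    exfalso
    rw [hterm i hyi, hterm j hyj, exp_inj] at heq
    rw [Finset.mem_range] at hi hj
    have h1 : (p : ℤ) ∣ (i : ℤ) - (j : ℤ) := by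
      refine ⟨log (v (y i)) - log (v (y j)), ?_⟩
      linarith
    have h2 : (i : ℤ) - j = 0 := by
      apply Int.eq_zero_of_abs_lt_dvd h1
      rw [abs_lt]
      constructor <;> omega
    omega
  have hle := le_map_sum_of_pairwise v (Finset.range p) (fun i => y i ^ p * s ^ i) hpair
  rw [← hf] at hle
  obtain ⟨m, hm⟩ := hdvd
  apply Valuation.map_sum_le
  intro i hi
  by_cases hyi : y i = 0
  · rw [hyi, zero_pow hp.out.ne_zero, mul_zero, zero_mul, map_zero]
    exact zero_le
  by_cases hi0 : i = 0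
  · subst hi0
    simp
  have hi' := Finset.mem_range.mp hi
  have h1 := hle i hi
  rw [hterm i hyi, hm, exp_le_exp] at h1
  have hne : (p : ℤ) * log (v (y i)) - (i : ℤ) ≠ (p : ℤ) * m := by
    intro heq
    have h2 : (p : ℤ) ∣ (i : ℤ) := ⟨log (v (y i)) - m, by linarith⟩
    have h3 := Int.le_of_dvd (by omega) h2
    omega
  have hlt : (p : ℤ) * log (v (y i)) - (i : ℤ) + 1 ≤ (p : ℤ) * m := by omega
  have hsi : s ^ (i - 1) = s ^ i * s⁻¹ := by
    rw [← Nat.sub_add_cancel (Nat.pos_of_ne_zero hi0), Nat.add_sub_cancel, pow_succ, mul_assoc,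
      mul_inv_cancel₀ hs0, mul_one]
  rw [hsi, show (i : F) * y i ^ p * (s ^ i * s⁻¹) = (i : F) * ((y i ^ p * s ^ i) * s⁻¹) by ring,
    map_mul, map_mul, hterm i hyi, map_inv₀, hs, hm, ← exp_neg, neg_neg, ← exp_add]
  calc v (i : F) * exp ((p : ℤ) * log (v (y i)) - (i : ℤ) + 1)
      ≤ 1 * exp ((p : ℤ) * log (v (y i)) - (i : ℤ) + 1) :=
        mul_le_mul_left (val_natCast_le_one v i) _
    _ = exp ((p : ℤ) * log (v (y i)) - (i : ℤ) + 1) := one_mul _
    _ ≤ exp ((p : ℤ) * m) := exp_le_exp.mpr hlt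

end Loc

section Basis

variable {k K : Type*} [Field k] [Field K] [Algebra k K]
  (p : ℕ) [hp : Fact p.Prime] [CharP k p] [PerfectField k] [CharP K p]

/-- **The `p`-basis decomposition**: `K = ⊕_{i<p} K^p s^i` (existence part). -/
theorem exists_pbasis (s : K) [Algebra.IsSeparable k⟮s⟯ K] (f : K) :
    ∃ y : ℕ → K, f = ∑ i ∈ Finset.range p, y i ^ p * s ^ i := by
  have htop := adjoin_pow_eq_top (k := k) p s
  have hf : f ∈ (powSubfield K p)⟮s⟯ := by rw [htop]; exact mem_top
  have hint := isIntegral_over_pow p s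
  have hf' : f ∈ Algebra.adjoin (powSubfield K p) {s} := by
    rw [← adjoin_simple_toSubalgebra_of_isAlgebraic hint.isAlgebraic]
    exact hf
  rw [Algebra.adjoin_singleton_eq_range_aeval] at hf'
  obtain ⟨P, hP⟩ := hf'
  have hP' : aeval s P = f := hP
  set m : (powSubfield K p)[X] := X ^ p - C (⟨s ^ p, pow_mem_powSubfield p s⟩ : powSubfield K p)
    with hm
  have hmon : m.Monic := monic_X_pow_sub_C _ hp.out.ne_zero
  have hmroot : aeval s m = 0 := aeval_X_pow_sub p s
  have hmdeg : m.natDegree = p := natDegree_X_pow_sub_C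
  have hm1 : m ≠ 1 := by
    intro h
    rw [h, natDegree_one] at hmdeg
    exact hp.out.ne_zero hmdeg.symm
  have hR : aeval s (P %ₘ m) = aeval s P := by
    conv_rhs => rw [← modByMonic_add_div P m]
    rw [map_add, map_mul, hmroot, zero_mul, add_zero]
  have hRdeg : (P %ₘ m).natDegree < p :=
    lt_of_lt_of_eq (natDegree_modByMonic_lt P hmon hm1) hmdeg
  have hy : ∀ i : ℕ, ∃ z : K, z ^ p = (((P %ₘ m).coeff i : powSubfield K p) : K) :=
    fun i => (mem_powSubfield p _).1 ((P %ₘ m).coeff i).2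
  choose y hy using hy
  refine ⟨y, ?_⟩
  rw [← hP', ← hR, aeval_eq_sum_range' hRdeg]
  refine Finset.sum_congr rfl fun i _ => ?_
  rw [hy i]
  rfl

end Basis

end Fermat.Agent.S40x.C2.PBasisVal
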