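/-
P-S44 (block C2, route OMEGA, leaf C2-REG) -- helper23.

Regularity of logarithmic differentials on the special fibre `Fk k N` (`k` algebraically closed
of characteristic `p`, `(N : k) ≠ 0`).  Let `t : Fk k N` with `Fk k N / k(t)` separable,
`D t ≠ 0` (as `q`-series), and such that `t - c` is a uniformiser at every place off the cusps
(hypothesis `hunr` = leaf C2-UNR).  If `fb ≠ 0` has order divisible by `p` at EVERY place, then
`hb := (d fb / dt) / fb` exists in `Fk k N`, is integral over `k[j]`, `hb dt` is regular at every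
cusp embedding, and `hb * fb * D t = D fb` as `q`-series (`exists_dlog_regular`).

No derivation on `Fk k N` is used: by the `p`-basis decomposition `fb = ∑_{i<p} y_i^p s^i`
(`PBasisVal.exists_pbasis`) the function `g = ∑ i y_i^p s^(i-1)` satisfies the chain rule
`D (τ fb) = τ g * D (τ t)` for EVERY embedding `τ` into `k((z))` (`D_map_pbasis`).
-/
import Mathlib
import Fermat.Agent.S40x.C2.PBasisVal
import Fermat.Agent.Gateway.GoodRed.Instantiate.GenusFinal
import Fermat.Agent.Gateway.GoodRed.ConjFamily.Places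

set_option autoImplicit false
set_option linter.unusedSectionVars false
set_option linter.style.haveILetI false

noncomputable section

namespace Fermat.Agent.S40x.C2.DlogReg

open Polynomial IntermediateField HahnSeries AlgebraicCurve ModularCurve
open Fermat.Agent.Lib.Residue Fermat.Agent.S28 Fermat.Agent.S24.ZP
open Fermat.Agent.Gateway.GoodRed Fermat.Agent.Gateway.GoodRed.ConjFamily
open Fermat.Agent.Gateway.GoodRed.PlacesAtInfinity
open Fermat.Agent.S40x.C2.PBasisVal

/-! ### Laurent series in characteristic `p` -/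

section LS

variable {k : Type*} [Field k] (p : ℕ) [hp : Fact p.Prime] [CharP k p]

theorem natCast_LS_eq_zero : ((p : ℕ) : LaurentSeries k) = 0 := by
  have h : ((p : ℕ) : LaurentSeries k) = HahnSeries.C ((p : ℕ) : k) := by
    rw [map_natCast]
  rw [h, CharP.cast_eq_zero, map_zero]

theorem D_pow_nat (a : LaurentSeries k) (i : ℕ) :
    D (a ^ i) = (i : LaurentSeries k) * a ^ (i - 1) * D a := by
  rcases i with _ | i
  · simp [D_one]
  · rw [D_pow, Nat.add_sub_cancel]

theorem D_pow_char (a : LaurentSeries k) : D (a ^ p) = 0 := by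
  rw [D_pow_nat, natCast_LS_eq_zero p, zero_mul, zero_mul]

theorem D_sum {ι : Type*} (s : Finset ι) (f : ι → LaurentSeries k) :
    D (∑ i ∈ s, f i) = ∑ i ∈ s, D (f i) := by
  classical
  induction s using Finset.induction_on with
  | empty => simp
  | insert a s ha ih => rw [Finset.sum_insert ha, Finset.sum_insert ha, D_add, ih]

/-- the chain rule for a `p`-basis expansion. -/
theorem D_pbasis (Y : ℕ → LaurentSeries k) (S : LaurentSeries k) :
    D (∑ i ∈ Finset.range p, Y i ^ p * S ^ i) =
      (∑ i ∈ Finset.range p, (i : LaurentSeries k) * Y i ^ p * S ^ (i - 1)) * D S := by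
  rw [D_sum, Finset.sum_mul]
  refine Finset.sum_congr rfl fun i _ => ?_
  rw [D_mul, D_pow_char p, zero_mul, zero_add, D_pow_nat]
  ring

/-- if `p ∣ ord F` then `D F / F` is a power series. -/
theorem coeff_eq_zero_of_mul_eq_D (F G : LaurentSeries k) (hF : F ≠ 0)
    (hdvd : (p : ℤ) ∣ F.order) (h : G * F = D F) (a : ℤ) (ha : a < 0) : G.coeff a = 0 := by
  set m := F.order with hm
  set u := F.powerSeriesPart with hu
  have hFu : F = single m (1 : k) * (u : LaurentSeries k) :=
    (LaurentSeries.single_order_mul_powerSeriesPart F).symm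
  have hmk : ((m : ℤ) : k) = 0 := (CharP.intCast_eq_zero_iff k p m).mpr hdvd
  have hDF : D F = single m (1 : k) * ((PowerSeries.derivative k u : PowerSeries k) :
      LaurentSeries k) := by
    conv_lhs => rw [hFu]
    rw [D_single_mul, D_coe, hmk, zero_mul, single_eq_zero, zero_mul, zero_add]
  have hs0 : (single m (1 : k) : LaurentSeries k) ≠ 0 := single_ne_zero one_ne_zero
  have h1 : G * (u : LaurentSeries k) =
      ((PowerSeries.derivative k u : PowerSeries k) : LaurentSeries k) := by
    apply mul_left_cancel₀ hs0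
    rw [← hDF, ← h]
    conv_rhs => rw [hFu]
    ring
  have hu0 : PowerSeries.constantCoeff u ≠ 0 := by
    rw [← PowerSeries.coeff_zero_eq_constantCoeff_apply, hu, LaurentSeries.powerSeriesPart_coeff,
      Nat.cast_zero, add_zero]
    exact fun h0 => hF (HahnSeries.coeff_order_eq_zero.mp h0)
  have hinv : u * u⁻¹ = 1 := PowerSeries.mul_inv_cancel u hu0
  have h2 : G = ((PowerSeries.derivative k u * u⁻¹ : PowerSeries k) : LaurentSeries k) := by
    rw [PowerSeries.coe_mul, ← h1, mul_assoc, ← PowerSeries.coe_mul, hinv, PowerSeries.coe_one,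
      mul_one]
  rw [h2, PowerSeries.coeff_coe, if_pos ha]

end LS

/-! ### The chain rule for embeddings -/

section Chain

variable {k : Type*} [Field k] (p : ℕ) [hp : Fact p.Prime] [CharP k p]
  {K : Type*} [Field K] [Algebra k K]

theorem D_map_pbasis (τ : K →+* LaurentSeries k)
    (hτ : ∀ c : k, τ (algebraMap k K c) = HahnSeries.C c) (t : K) (c : k) (y : ℕ → K) :
    D (τ (∑ i ∈ Finset.range p, y i ^ p * (t - algebraMap k K c) ^ i)) =
      τ (∑ i ∈ Finset.range p, (i : K) * y i ^ p * (t - algebraMap k K c) ^ (i - 1)) *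
        D (τ t) := by
  have h1 : τ (∑ i ∈ Finset.range p, y i ^ p * (t - algebraMap k K c) ^ i) =
      ∑ i ∈ Finset.range p, (τ (y i)) ^ p * (τ (t - algebraMap k K c)) ^ i := by
    rw [map_sum]
    refine Finset.sum_congr rfl fun i _ => ?_
    rw [map_mul, map_pow, map_pow]
  have h2 : τ (∑ i ∈ Finset.range p, (i : K) * y i ^ p * (t - algebraMap k K c) ^ (i - 1)) =
      ∑ i ∈ Finset.range p, (i : LaurentSeries k) * (τ (y i)) ^ p *
        (τ (t - algebraMap k K c)) ^ (i - 1) := by
    rw [map_sum]
    refine Finset.sum_congr rfl fun i _ => ?_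
    rw [map_mul, map_mul, map_pow, map_pow, map_natCast]
  have h3 : D (τ (t - algebraMap k K c)) = D (τ t) := by
    rw [map_sub, hτ, D_sub, D_C, sub_zero]
  rw [h1, h2, D_pbasis p, h3]

end Chain

/-! ### The special fibre -/

section Main

variable {k : Type} [Field k] [IsAlgClosed k] {N : ℕ} [NeZero N]
  (p : ℕ) [hp : Fact p.Prime] [CharP k p]

theorem adjoin_sub_algebraMap {K : Type*} [Field K] [Algebra k K] (t : K) (c : k) :
    k⟮t - algebraMap k K c⟯ = k⟮t⟯ := by
  apply le_antisymm
  · rw [adjoin_simple_le_iff]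
    exact sub_mem (mem_adjoin_simple_self k t) (IntermediateField.algebraMap_mem _ c)
  · rw [adjoin_simple_le_iff]
    have h := add_mem (mem_adjoin_simple_self k (t - algebraMap k K c))
      (IntermediateField.algebraMap_mem k⟮t - algebraMap k K c⟯ c)
    rwa [sub_add_cancel] at h

/-- the inclusion `Fk k N → k((q))`. -/
def incl : Fk k N →+* LaurentSeries k := (algebraMap (Fk k N) (LaurentSeries k))

theorem incl_apply (f : Fk k N) : incl (k := k) (N := N) f = (f : LaurentSeries k) := rfl

theorem incl_algebraMap (c : k) :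
    incl (k := k) (N := N) (algebraMap k (Fk k N) c) = HahnSeries.C c := by
  rw [incl_apply]
  show algebraMap k (LaurentSeries k) c = _
  rw [C_eq_algebraMap_laurent]

/-- **C2-REG.** -/
theorem exists_dlog_regular (hNk : ((N : ℕ) : k) ≠ 0) (t : Fk k N)
    (hsep : Algebra.IsSeparable k⟮t⟯ (Fk k N)) (hDt : D (t : LaurentSeries k) ≠ 0)
    (hunr : ∀ P : Place k (Fk k N), 0 ≤ P.ord (jFk k N) →
      ∃ c : k, P.ord (t - algebraMap k (Fk k N) c) = 1)
    (fb : Fk k N) (hfb : fb ≠ 0) (hf : ∀ P : Place k (Fk k N), (p : ℤ) ∣ P.ord fb) :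
    ∃ hb : Fk k N, IsIntegral (Algebra.adjoin k {jFk k N}) hb ∧
      (∀ (τ : Emb k N) (a : ℤ), a < 0 → (τ.1 hb * D (τ.1 t)).coeff a = 0) ∧
      (hb : LaurentSeries k) * (fb : LaurentSeries k) * D (t : LaurentSeries k) =
        D (fb : LaurentSeries k) := by
  classical
  haveI : CharP (Fk k N) p := charP_of_injective_algebraMap (algebraMap k (Fk k N)).injective p
  -- the `p`-basis decomposition with respect to `t - c`
  have hdec : ∀ c : k, ∃ y : ℕ → Fk k N,
      fb = ∑ i ∈ Finset.range p, y i ^ p * (t - algebraMap k (Fk k N) c) ^ i := by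
    intro c
    haveI : Algebra.IsSeparable k⟮t - algebraMap k (Fk k N) c⟯ (Fk k N) := by
      rw [adjoin_sub_algebraMap]
      exact hsep
    exact exists_pbasis (k := k) p (t - algebraMap k (Fk k N) c) fb
  -- the global derivative
  obtain ⟨y0, hy0⟩ := hdec 0
  set g : Fk k N :=
    ∑ i ∈ Finset.range p, (i : Fk k N) * y0 i ^ p * (t - algebraMap k (Fk k N) 0) ^ (i - 1)
    with hg
  have hchain : ∀ (τ : Fk k N →+* LaurentSeries k),
      (∀ c : k, τ (algebraMap k (Fk k N) c) = HahnSeries.C c) →
      D (τ fb) = τ g * D (τ t) := by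
    intro τ hτ
    conv_lhs => rw [hy0]
    exact D_map_pbasis p τ hτ t 0 y0
  have hfbL : (fb : LaurentSeries k) ≠ 0 := fun h => hfb (Subtype.ext h)
  refine ⟨g / fb, ?_, ?_, ?_⟩
  · -- integrality over `k[j]`
    haveI := finiteDimensional_Fk hNk
    haveI := isSeparable_Fk hNk
    rw [PlacesIntegral.isIntegral_iff_forall_ord_nonneg (jFk k N) transcendental_jFk]
    intro P hP
    obtain ⟨c, hc⟩ := hunr P hP
    obtain ⟨y, hy⟩ := hdec c
    set s : Fk k N := t - algebraMap k (Fk k N) c with hs
    set gP : Fk k N := ∑ i ∈ Finset.range p, (i : Fk k N) * y i ^ p * s ^ (i - 1) with hgP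
    -- `gP = g`
    have h1 : D (incl fb) = incl gP * D (incl t) := by
      conv_lhs => rw [hy]
      exact D_map_pbasis p incl incl_algebraMap t c y
    have h2 := hchain incl incl_algebraMap
    have hgg : gP = g := by
      have h3 : incl gP * D (incl t) = incl g * D (incl t) := by rw [← h1, ← h2]
      have h4 := mul_right_cancel₀ (by rwa [incl_apply]) h3
      exact (incl (k := k) (N := N)).injective h4
    -- the valuation estimate
    have hs0 : s ≠ 0 := by
      intro h0
      rw [h0, Place.ord_zero] at hc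
      exact zero_ne_one hc
    have hvs : P.adicValuation s = WithZero.exp (-1 : ℤ) := by
      rw [adicValuation_eq_exp_neg_ord P hs0, hc]
    obtain ⟨m, hm⟩ := hf P
    have hvf : P.adicValuation fb = WithZero.exp ((p : ℤ) * (-m)) := by
      rw [adicValuation_eq_exp_neg_ord P hfb, hm]
      congr 1
      ring
    have hle := val_deriv_le p P.adicValuation s hvs y fb hy ⟨-m, hvf⟩
    rw [← hgP, hgg] at hle
    rcases eq_or_ne (g / fb) 0 with h0 | h0
    · rw [h0, Place.ord_zero]
    rw [ord_nonneg_iff P h0, ← adicValuation_le_one_iff, map_div₀]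
    exact div_le_one_of_le₀ hle zero_le
  · -- regularity at the cusps
    intro τ a ha
    obtain ⟨ζ, hζ⟩ := Fermat.Agent.S28.Tower.exists_primitiveRoot_unit (k := k) N hNk
    letI := fintypeEmb hNk
    letI : DecidableEq (Emb k N) := Classical.decEq _
    obtain ⟨pl, hpl⟩ := exists_polePlaces_Fk hNk ζ hζ
    have hord := hpl.2.2.2.2 τ fb
    have hτfb : τ.1 fb ≠ 0 := (map_ne_zero_iff _ τ.1.injective).mpr hfb
    have hdvd : (p : ℤ) ∣ (τ.1 fb).order := by
      rw [hord]
      exact Dvd.dvd.mul_left (hf (pl τ)) _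
    have hmul : (τ.1 (g / fb) * D (τ.1 t)) * τ.1 fb = D (τ.1 fb) := by
      rw [hchain τ.1 (emb_algebraMap τ), map_div₀]
      field_simp
    exact coeff_eq_zero_of_mul_eq_D p (τ.1 fb) _ hτfb hdvd hmul a ha
  · have h2 := hchain incl incl_algebraMap
    rw [incl_apply, incl_apply] at h2
    rw [h2]
    have hcoe : ((g / fb : Fk k N) : LaurentSeries k) =
        (g : LaurentSeries k) / (fb : LaurentSeries k) := rfl
    rw [hcoe, incl_apply]
    field_simp

end Main

end Fermat.Agent.S40x.C2.DlogReg

end
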