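import Mathlib
import Fermat.Agent.Gateway.GoodRed.Instantiate.GenusFinal

set_option autoImplicit false

/-!
# P-S44 (C2, dlog route): LEMMA OMEGA, abstract core

On the special fibre `Fk k N` of a level `N` at which the cuspidal upper bound
`UpperBoundStatement k N hNk tq` holds (good levels: `upperBoundStatement_four`,
`upperBoundStatement_nine`), every family of `g` linearly independent functions `h i`, integral
over `k[j]`, with `h i dt` regular at every cusp, has `g ≤ genusFF k (Fk k N)`
(`le_genusFF_of_family`; this is the body of `GenusFour.le_genusFF_of_forms` for an arbitrary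
family).  Consequently, if such a family already has `genusFF k (Fk k N)` elements, every further
function `hb`, integral over `k[j]` with `hb dt` regular at every cusp, lies in its `k`-span
(`mem_span_of_regular`): the regular differentials of the special fibre are spanned by any
`genus` many independent ones.
-/

set_option linter.unusedSectionVars false
set_option linter.style.haveILetI false

noncomputable section

namespace Fermat.Agent.S40x.C2.OmegaCore

open Polynomial ModularCurve Fermat.Agent.S28 Fermat.Agent.Gateway.Red Fermat.Agent.Lib.Residue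
open IntermediateField HahnSeries AlgebraicCurve
open Fermat.Agent.Gateway.GoodRed Fermat.Agent.Gateway.GoodRed.ConjFamily

variable {k : Type} [Field k] [IsAlgClosed k] {N : ℕ} [NeZero N]

/-- Any family of `g` independent cusp-regular differentials `h i dt` on the special fibre has
`g ≤ genus`. -/
theorem le_genusFF_of_family (hNk : ((N : ℕ) : k) ≠ 0) (tq : LaurentSeries k)
    (hUB : UpperBoundStatement k N hNk tq) (t : Fk k N) (ht : (t : LaurentSeries k) = tq)
    {g : ℕ} (h : Fin g → Fk k N)
    (hint : ∀ i, IsIntegral (Algebra.adjoin k {jFk k N}) (h i))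
    (hli : LinearIndependent k h)
    (hreg : ∀ i (τ : Emb k N) (a : ℤ), a < 0 → (τ.1 (h i) * D (τ.1 t)).coeff a = 0) :
    g ≤ genusFF k (Fk k N) := by
  classical
  obtain ⟨ζ, hζ⟩ := Fermat.Agent.S28.Tower.exists_primitiveRoot_unit (k := k) N hNk
  letI := fintypeEmb hNk
  haveI := finiteDimensional_Fk hNk
  haveI := isSeparable_Fk hNk
  have hub := hUB t ht g h hint hli hreg ζ hζ
  exact le_genusFF_of_upper_bound (fun τ : Emb k N => τ.1) (rot ζ hζ.pow_eq_one) emb_algebraMap
    (fun τ f => rot_apply ζ hζ.pow_eq_one τ f) hζ emb_val_injective (jFk k N)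
    (qExpand k N (jqModC k)) emb_jFk order_qExpand_jqModC (card_emb_fintype hNk).ge g embInfty hub

/-- **LEMMA OMEGA (abstract core).**  If `g = genus` independent cusp-regular differentials
`h i dt` are given, every cusp-regular differential `hb dt` (with `hb` integral over `k[j]`) is a
`k`-linear combination of them. -/
theorem mem_span_of_regular (hNk : ((N : ℕ) : k) ≠ 0) (tq : LaurentSeries k)
    (hUB : UpperBoundStatement k N hNk tq) (t : Fk k N) (ht : (t : LaurentSeries k) = tq)
    {g : ℕ} (h : Fin g → Fk k N)
    (hint : ∀ i, IsIntegral (Algebra.adjoin k {jFk k N}) (h i))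
    (hli : LinearIndependent k h)
    (hreg : ∀ i (τ : Emb k N) (a : ℤ), a < 0 → (τ.1 (h i) * D (τ.1 t)).coeff a = 0)
    (hgen : genusFF k (Fk k N) ≤ g)
    (hb : Fk k N) (hbint : IsIntegral (Algebra.adjoin k {jFk k N}) hb)
    (hbreg : ∀ (τ : Emb k N) (a : ℤ), a < 0 → (τ.1 hb * D (τ.1 t)).coeff a = 0) :
    hb ∈ Submodule.span k (Set.range h) := by
  by_contra hmem
  have hli' : LinearIndependent k (Fin.cons hb h : Fin (g + 1) → Fk k N) :=
    linearIndependent_finCons.mpr ⟨hli, hmem⟩
  have hle := le_genusFF_of_family hNk tq hUB t ht (Fin.cons hb h : Fin (g + 1) → Fk k N)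
    (fun i => by
      refine Fin.cases ?_ (fun j => ?_) i
      · simpa using hbint
      · simpa using hint j)
    hli'
    (fun i τ a ha => by
      refine Fin.cases ?_ (fun j => ?_) i
      · simpa using hbreg τ a ha
      · simpa using hreg j τ a ha)
  omega

end Fermat.Agent.S40x.C2.OmegaCore

end
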