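import Mathlib
import Fermat.Agent.S40x.C2.OmegaCore
import Fermat.Agent.Gateway.C0.ExportsModular

set_option autoImplicit false

/-!
# P-S44 (C2, dlog route): LEMMA OMEGA at a good level divisible by four

`ℓ ∤ N`, `4 ∣ N`, `A` a valuation subring of `ℚ̄` over `ℓ` with a surjection `π : A → k` onto an
algebraically closed field of characteristic `ℓ`.  There is a basis `f i` of `S₂(Γ₀(N))` with
integral `q`-expansions `qf i`, whose reductions are `k`-linearly independent, such that for every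
function `hb` of the special fibre `Fk k N`, integral over `k[j]`, with `hb dx₄` regular at every
cusp, the `q`-series `hb * (q dx₄/dq)` is a `k`-linear combination of the reductions of the `qf i`
(`exists_basis_span_four`): **every regular differential of the special fibre is the reduction of a
weight two cusp form of level `N`**.
-/

set_option linter.unusedSectionVars false
set_option linter.style.haveILetI false

noncomputable section

namespace Fermat.Agent.S40x.C2.Omega4

open Polynomial ModularCurve Fermat.Agent.S28 Fermat.Agent.Gateway.Red Fermat.Agent.Lib.Residue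
open IntermediateField HahnSeries AlgebraicCurve CongruenceSubgroup Fermat.Agent.S24.Setup
open Fermat.Agent.Gateway.AuxLevel Fermat.Agent.Gateway.GoodRed
open Fermat.Agent.Gateway.GoodRed.ConjFamily UpperHalfPlane Fermat.Agent.S40x.C2.OmegaCore

variable {N : ℕ} [NeZero N] (ℓ : ℕ) [Fact ℓ.Prime] (A : ValuationSubring Kbar)
  {k : Type} [Field k] [IsAlgClosed k] [CharP k ℓ] (π : A →+* k)
  (hπ : Function.Surjective π) (hℓN : ¬ ℓ ∣ N)

include hπ hℓN in
set_option maxHeartbeats 1000000 in
/-- **LEMMA OMEGA at a good level divisible by four.** -/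
theorem exists_basis_span_four (h4 : 4 ∣ N) (hA : A.LiesOverPrime ℓ) :
    ∃ (f : Fin (Module.finrank ℂ (CuspForm (Gamma0 N) 2)) → CuspForm (Gamma0 N) 2)
      (qf : Fin (Module.finrank ℂ (CuspForm (Gamma0 N) 2)) → PowerSeries ℤ),
      (∀ i, qExpansion 1 (f i) = (qf i).map (Int.castRingHom ℂ)) ∧
      (∀ i, PowerSeries.constantCoeff (qf i) = 0) ∧
      LinearIndependent ℂ f ∧ Submodule.span ℂ (Set.range f) = ⊤ ∧
      LinearIndependent k (fun i => (qf i).map (Int.castRingHom k)) ∧
      ∀ (t : Fk k N), (t : LaurentSeries k) = TLine4.x4k k →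
        ∀ hb : Fk k N, IsIntegral (Algebra.adjoin k {jFk k N}) hb →
          (∀ (τ : Emb k N) (a : ℤ), a < 0 → (τ.1 hb * D (τ.1 t)).coeff a = 0) →
          ∃ c : Fin (Module.finrank ℂ (CuspForm (Gamma0 N) 2)) → k,
            (hb : LaurentSeries k) * (HahnSeries.single (1 : ℤ) (1 : k) * D (TLine4.x4k k)) =
              ∑ i, HahnSeries.C (c i) *
                HahnSeries.ofPowerSeries ℤ k ((qf i).map (Int.castRingHom k)) := by
  classical
  have hℓ : ℓ.Prime := Fact.out
  have hNk : ((N : ℕ) : k) ≠ 0 := natCast_ne_zero_final ℓ hℓN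
  obtain ⟨f, qf, hqf, hc0, hfli, hfspan, hsat⟩ := Forms.exists_saturated_basis N
  refine ⟨f, qf, hqf, hc0, hfli, hfspan, hsat k ℓ hℓ, ?_⟩
  -- the forms data at level `N` with `t = x₄`
  set AD := Forms.formsData4 N h4 with hAD
  have htq : AD.tq = coeffMap (Int.castRingHom Kbar) L4.x4 := Forms.formsData4_tq' N h4
  have hu := L4.isUnit_leadingCoeff_x4
  have hqf' : ∀ i, qExpansion 1 ((f i : CuspForm (Gamma0 N) 2) : ℍ → ℂ) =
      ((qf i).map (Int.castRingHom Kbar)).map iota := by
    intro i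
    rw [hqf i]
    ext n
    simp only [PowerSeries.coeff_map, eq_intCast, map_intCast]
  choose hZ hZ1 hZ2 using fun i => AD.hq_int L4.x4 htq hu (qf i)
  -- the functions `h i = qf i / G` on the generic fibre
  set h : Fin (Module.finrank ℂ (CuspForm (Gamma0 N) 2)) → FBar Kbar N :=
    fun i => AD.hF (f i) ((qf i).map (Int.castRingHom Kbar)) (hqf' i) with hh
  have hcoe : ∀ i, ((h i : FBar Kbar N) : LaurentSeries Kbar) =
      coeffMap (Int.castRingHom Kbar) (hZ i) := fun i => (hZ2 i).symm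
  have hint : ∀ i, IsIntegral (Algebra.adjoin Kbar {jF Kbar N}) (h i) := by
    intro i
    have := AD.hF_isIntegral (f i) ((qf i).map (Int.castRingHom Kbar)) (hqf' i)
    rwa [jF_setup_eq] at this
  -- the Hauptmodul on the generic fibre
  set tL : FBar Kbar N := ⟨L4.x4K, L4.x4K_mem_of_dvd h4⟩ with htL
  have htLcoe : (tL : LaurentSeries Kbar) = coeffMap (Int.castRingHom Kbar) L4.x4 := rfl
  have htLint : IsIntegral (Algebra.adjoin Kbar {jF Kbar N}) tL := by
    have := Forms.isIntegral_bar_of_rel N L4.x4K (L4.x4K_mem_of_dvd h4) L4.P4 L4.Q4 Forms.monic_P4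
      (Polynomial.degree_lt_degree (by rw [L4.natDegree_P4, L4.natDegree_Q4]; norm_num))
      L4.rel_x4K.symm
    rwa [jF_setup_eq] at this
  have htF : AD.tF = tL := Forms.formsData4_tF N h4
  have hγ : ∀ i (σ : FBar Kbar N →+* LaurentSeries Kbar),
      (∀ c : Kbar, σ (algebraMap Kbar (FBar Kbar N) c) = HahnSeries.C c) →
      σ (jF Kbar N) = qExpand Kbar N (jqModC Kbar) →
      ∀ n : ℤ, n < 0 → (σ (h i) * D (σ tL)).coeff n = 0 := by
    intro i σ hσC hσj n hn
    have := AD.cusp_regular (f i) ((qf i).map (Int.castRingHom Kbar)) (hqf' i) σ hσC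
      (by rw [jF_setup_eq, hσj, jK_eq, qExpand_one_apply]) hn
    rwa [htF] at this
  -- reductions
  have hS5 := persistStatement ℓ A π hπ hℓN
  have hG3 := integralRedStatement ℓ A π hπ hℓN
  set t0 : Fk k N := resFk A π N ℓ hπ hℓN ⟨tL, intElt_mem_OvVal π ℓ hπ hℓN htLcoe⟩ with ht0
  have ht0coe : (t0 : LaurentSeries k) = coeffMap (Int.castRingHom k) L4.x4 :=
    coe_resFk_intElt π ℓ hπ hℓN htLcoe
  set hk : Fin (Module.finrank ℂ (CuspForm (Gamma0 N) 2)) → Fk k N :=
    fun i => resFk A π N ℓ hπ hℓN ⟨h i, intElt_mem_OvVal π ℓ hπ hℓN (hcoe i)⟩ with hhk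
  have hkcoe : ∀ i, ((hk i : Fk k N) : LaurentSeries k) = coeffMap (Int.castRingHom k) (hZ i) :=
    fun i => coe_resFk_intElt π ℓ hπ hℓN (hcoe i)
  have hkint : ∀ i, IsIntegral (Algebra.adjoin k {jFk k N}) (hk i) :=
    fun i => hG3 _ (intElt_mem_OvVal π ℓ hπ hℓN (hcoe i)) (hint i)
  have hkli : LinearIndependent k hk :=
    linearIndependent_of_mul_eq hZ _ qf hZ1 (hsat k ℓ hℓ) _ hkcoe
  have hkreg : ∀ i (τ : Emb k N) (a : ℤ), a < 0 → (τ.1 (hk i) * D (τ.1 t0)).coeff a = 0 :=
    fun i τ a ha =>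
      regular_red π ℓ hπ hℓN hS5 htLcoe (hcoe i) htLint (hint i) (hγ i) τ a ha
  -- the genus of the special fibre
  have H : Fermat.Agent.Gateway.C0.GoodLevelFacts A π N ℓ hπ hℓN :=
    ⟨genusFF_le_of_four_dvd ℓ A π hπ hℓN h4,
      IntegralRed.isIntegral_resFk_of_isIntegral_j A π N ℓ hπ hℓN,
      IntegralRed.isIntegral_resFk_of_isIntegral_jinv A π N ℓ hπ hℓN⟩
  have hgen : genusFF k (Fk k N) ≤ Module.finrank ℂ (CuspForm (Gamma0 N) 2) := by
    rw [Fermat.Agent.Gateway.C0.genusFF_Fk_eq A π N ℓ hπ hℓN hA H]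
    exact (genusFF_eq_finrank_cuspForm N).le
  have hUB : UpperBoundStatement k N hNk (TLine4.x4k k) := upperBoundStatement_four h4 hNk
  intro t ht hb hbint hbreg
  have htt0 : t = t0 := Subtype.ext (ht.trans ht0coe.symm)
  subst htt0
  have hmem := mem_span_of_regular hNk (TLine4.x4k k) hUB t0 ht hk hkint hkli hkreg hgen hb
    hbint hbreg
  obtain ⟨c, hc⟩ := (Submodule.mem_span_range_iff_exists_fun k).mp hmem
  refine ⟨c, ?_⟩
  have h1 : (hb : LaurentSeries k) =
      ∑ i, HahnSeries.C (c i) * ((hk i : Fk k N) : LaurentSeries k) := by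
    have := congrArg (fun f : Fk k N => (f : LaurentSeries k)) hc
    simp only [AddSubmonoidClass.coe_finsetSum] at this
    rw [← this]
    refine Finset.sum_congr rfl fun i _ => ?_
    rw [Algebra.smul_def, MulMemClass.coe_mul]
    congr 1
    show algebraMap k (LaurentSeries k) (c i) = HahnSeries.C (c i)
    rw [algebraMap_laurentSeries_eq_single]
    rfl
  have hGk : HahnSeries.single (1 : ℤ) (1 : k) * D (TLine4.x4k k) =
      coeffMap (Int.castRingHom k) (HahnSeries.single (1 : ℤ) (1 : ℤ) * D L4.x4) := by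
    rw [map_mul, coeffMap_single, ← D_coeffMap, eq_intCast, Int.cast_one]
    rfl
  rw [h1, Finset.sum_mul]
  refine Finset.sum_congr rfl fun i _ => ?_
  rw [hkcoe, hGk, mul_assoc, ← map_mul, hZ1, coeffMap_ofPowerSeries]

end Fermat.Agent.S40x.C2.Omega4

end
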