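/-
P-S44 (block C2, route OMEGA) -- helper23.

Steps 1-4 of the C2 proof in one consumer theorem.  Level `N` with `4 ∣ N`, `ℓ ∤ N`, `k`
algebraically closed of characteristic `ℓ` (residue field of a valuation subring `A` of `ℚ̄` over
`ℓ`).  Assume (`hunr`, leaf C2-UNR) that `x₄ - c` is a uniformiser at every place of the special
fibre `Fk k N` off the cusps.  Then for every `fb ≠ 0` in `Fk k N` whose order is divisible by `ℓ`
at EVERY place, the logarithmic derivative `q fb'/fb` is a `k`-linear combination of the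
reductions of a saturated integral basis of `S₂(Γ₀(N))` (`exists_basis_dlog_span`):

  `single 1 1 * D fb = fb * ∑ i, C (c i) * (qf i mod ℓ)`.

= landed `Omega4.exists_basis_span_four` (LEMMA OMEGA) + `DlogReg.exists_dlog_regular` (C2-REG).
-/
import Mathlib
import Fermat.Agent.S40x.C2.Omega4
import Fermat.Agent.S40x.C2.DlogReg
import Fermat.Agent.Gateway.GoodRed.TLineHurwitz

set_option autoImplicit false
set_option linter.unusedSectionVars false
set_option linter.style.haveILetI false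

noncomputable section

namespace Fermat.Agent.S40x.C2.DlogSpan

open Polynomial ModularCurve Fermat.Agent.S28 Fermat.Agent.Gateway.Red Fermat.Agent.Lib.Residue
open IntermediateField HahnSeries AlgebraicCurve CongruenceSubgroup Fermat.Agent.S24.Setup
open Fermat.Agent.Gateway.AuxLevel Fermat.Agent.Gateway.GoodRed
open Fermat.Agent.Gateway.GoodRed.ConjFamily UpperHalfPlane
open Fermat.Agent.S40x.C2.Omega4 Fermat.Agent.S40x.C2.DlogReg

section X4

variable (k : Type) [Field k]

/-- the `q`-derivative of the Hauptmodul `x₄` does not vanish. -/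
theorem D_x4k_ne_zero : D (TLine4.x4k k) ≠ 0 := by
  intro h
  have h1 := Fermat.Agent.Gateway.GoodRed.isParam_coeff_inv_ne_zero (TLine4.isParam_pInf k)
  rw [TLine4.pInf, inv_inv] at h1
  have h2 : (D (TLine4.x4k k)).coeff (-2) = 0 := by rw [h]; rfl
  rw [D_coeff] at h2
  norm_num at h2
  exact h1 h2

end X4

variable {N : ℕ} [NeZero N] (ℓ : ℕ) [Fact ℓ.Prime] (A : ValuationSubring Kbar)
  {k : Type} [Field k] [IsAlgClosed k] [CharP k ℓ] (π : A →+* k)
  (hπ : Function.Surjective π) (hℓN : ¬ ℓ ∣ N)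

include hπ hℓN in
/-- **Logarithmic differentials of the special fibre are reductions of cusp forms**
(C2, Steps 1-4). -/
theorem exists_basis_dlog_span (h4 : 4 ∣ N) (hA : A.LiesOverPrime ℓ)
    (t : Fk k N) (ht : (t : LaurentSeries k) = TLine4.x4k k)
    (hunr : ∀ P : Place k (Fk k N), 0 ≤ P.ord (jFk k N) →
      ∃ c : k, P.ord (t - algebraMap k (Fk k N) c) = 1) :
    ∃ (f : Fin (Module.finrank ℂ (CuspForm (Gamma0 N) 2)) → CuspForm (Gamma0 N) 2)
      (qf : Fin (Module.finrank ℂ (CuspForm (Gamma0 N) 2)) → PowerSeries ℤ),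
      (∀ i, qExpansion 1 (f i) = (qf i).map (Int.castRingHom ℂ)) ∧
      (∀ i, PowerSeries.constantCoeff (qf i) = 0) ∧
      LinearIndependent ℂ f ∧ Submodule.span ℂ (Set.range f) = ⊤ ∧
      LinearIndependent k (fun i => (qf i).map (Int.castRingHom k)) ∧
      ∀ fb : Fk k N, fb ≠ 0 → (∀ P : Place k (Fk k N), (ℓ : ℤ) ∣ P.ord fb) →
        ∃ c : Fin (Module.finrank ℂ (CuspForm (Gamma0 N) 2)) → k,
          HahnSeries.single (1 : ℤ) (1 : k) * D (fb : LaurentSeries k) =
            (fb : LaurentSeries k) * ∑ i, HahnSeries.C (c i) *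
              HahnSeries.ofPowerSeries ℤ k ((qf i).map (Int.castRingHom k)) := by
  classical
  have hNk : ((N : ℕ) : k) ≠ 0 := natCast_ne_zero_final ℓ hℓN
  obtain ⟨f, qf, hqf, hc0, hfli, hfspan, hsat, hspan⟩ :=
    exists_basis_span_four ℓ A π hπ hℓN h4 hA
  refine ⟨f, qf, hqf, hc0, hfli, hfspan, hsat, ?_⟩
  intro fb hfb hf
  have hsep : Algebra.IsSeparable k⟮t⟯ (Fk k N) := TLineHurwitz.isSeparable_t4 N hNk t ht
  have hDt : D (t : LaurentSeries k) ≠ 0 := by
    rw [ht]
    exact D_x4k_ne_zero k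
  obtain ⟨hb, hbint, hbreg, hbeq⟩ := exists_dlog_regular ℓ hNk t hsep hDt hunr fb hfb hf
  obtain ⟨c, hc⟩ := hspan t ht hb hbint hbreg
  refine ⟨c, ?_⟩
  rw [← hc, ← hbeq, ht]
  ring

end Fermat.Agent.S40x.C2.DlogSpan

end
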