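import Mathlib
import Fermat.Agent.S16.Two.HurwitzPlace
import Fermat.Agent.Gateway.GoodRed.HurwitzGenus
import Fermat.Agent.Gateway.GoodRed.TLineHurwitz
import Fermat.Agent.Gateway.GoodRed.GoodLevelNumerics
import Fermat.Agent.Gateway.GoodRed.Instantiate.CuspPlaces
import Fermat.Agent.Gateway.GoodRed.Instantiate.GenusFinal
import Fermat.Agent.Gateway.C0.ExportsModular
import Fermat.Agent.Gateway.FkBasics.Sep

/-!
# P-S44 (C2, leaf UNR, independent second): unramified off the cusps at a good level

`K` algebraically closed of any characteristic, `F / K(x)` finite separable of degree `n`.  The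
landed Hurwitz inequality in `Place` language (`S16/Two/HurwitzPlace.sum_sub_one_le_two_genusFF`)
bounds the total ramification `∑ (e_c - 1)` over ANY finite set of places by `2 g - 2 + 2 n`.
If the "cuspidal" part of the ramification (the fibres of `x` over `∞` and over a finite set `R`
of values, all contained in the pole set of an auxiliary function `y` with at most `c` poles)
already exhausts the bound, i.e. `2 g - 2 ≤ (#R - 1) n - c`, then no place off the poles of `y`
is ramified: `ord_v (x - a) = 1` whenever `x(v) = a` and `y` is regular at `v`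
(`ord_sub_eq_one_of_genus_le`).  This is used as a black box; no differents are touched.

At a level `N` with `4 ∣ N`, over an algebraically closed field `k` of characteristic `ℓ ∤ N`
(residue field of a valuation subring of `ℚ̄`), `x = x₄`, `y = j`: the genus of the special fibre
is the characteristic zero genus (`C0.genusFF_Fk_eq`), `12 g - 12 = ψ(N) - 6 ν_∞(N)`
(`GoodLevelNumerics.genusFF_good`), `6 [Fk : k(x₄)] = ψ(N)` (`TLineHurwitz.finrank_t4`), the
function `j` has at most `ν_∞(N)` poles (`CuspPlaces.card_polePlaces_le`), and these contain the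
fibres of `x₄` over `∞, 0, 16` (`TLineHurwitz.poles_t4`).  Hence `Fk k N / k(x₄)` is unramified
off the cusps: `ord_sub_eq_one_four`, `exists_ord_sub_eq_one_four`.
-/

set_option autoImplicit false
set_option linter.unusedSectionVars false
set_option linter.style.haveILetI false

noncomputable section

namespace Fermat.Agent.S40x.C2.HurwitzEqB

open AlgebraicCurve Polynomial IntermediateField Module
open Fermat.Agent.Lib.RiemannRoch Fermat.Agent.Lib.RiemannRoch.FunctionFieldRR
open Fermat.Agent.S16.Two

section Generic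

variable {K F : Type*} [Field K] [IsAlgClosed K] [Field F] [Algebra K F] {x : F}
  (hx : Transcendental K x) [FiniteDimensional K⟮x⟯ F] [Algebra.IsSeparable K⟮x⟯ F]

include hx in
/-- **Equality case of the Hurwitz inequality, finite-set form.**  If the fibres of `x` over `∞`
and over the values in `R` lie in a finite set `T` of places with
`2 g - 2 ≤ (#R - 1) [F : K(x)] - #T`, then `F / K(x)` is unramified at every place outside `T`. -/
theorem ord_sub_eq_one_of_finset (R : Finset K) (T : Finset (Place K F))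
    (hT : ∀ v : Place K F,
      (v.ord x < 0 ∨ ∃ a ∈ R, 0 < v.ord (x - algebraMap K F a)) → v ∈ T)
    (hg : 2 * (genusFF K F : ℤ) - 2 ≤
      ((R.card : ℤ) - 1) * (finrank K⟮x⟯ F : ℤ) - (T.card : ℤ))
    (v : Place K F) (hv : v ∉ T) (a : K) (ha : 0 < v.ord (x - algebraMap K F a)) :
    v.ord (x - algebraMap K F a) = 1 := by
  classical
  have hdeg1 : ∀ v : Place K F, v.deg = 1 := deg_eq_one x
  set n : ℤ := (finrank K⟮x⟯ F : ℤ) with hn
  obtain ⟨E, hEv, hEdeg⟩ := exists_cuspDivisor hx R
  have hE0 : ∀ w : Place K F, 0 ≤ E w := fun w => by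
    rw [hEv]
    exact add_nonneg (le_max_left _ _) (Finset.sum_nonneg fun a _ => le_max_left _ _)
  have hEsupp := mem_support_iff_of_cuspDivisor hEv
  have hsub : E.support ⊆ T := fun w hw => hT w ((hEsupp w).mp hw)
  have hcard : (E.support.card : ℤ) ≤ T.card := by exact_mod_cast Finset.card_le_card hsub
  have hvE : v ∉ E.support := fun h => hv (hsub h)
  have hsum : ∑ c ∈ E.support, E c = ((R.card : ℤ) + 1) * n := by
    rw [← hEdeg, degree_eq_sum, Finsupp.sum]
    exact Finset.sum_congr rfl fun v _ => by rw [hdeg1 v]; simp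
  -- ramification indices on `E.support ∪ {v}`
  set e : Place K F → ℕ := fun w =>
    if w ∈ E.support then (E w).toNat else (v.ord (x - algebraMap K F a)).toNat with hedef
  have heE : ∀ w ∈ E.support, (e w : ℤ) = E w := fun w hw => by
    rw [hedef]
    simp only [if_pos hw]
    exact Int.toNat_of_nonneg (hE0 w)
  have hev : (e v : ℤ) = v.ord (x - algebraMap K F a) := by
    rw [hedef]
    simp only [if_neg hvE]
    exact Int.toNat_of_nonneg ha.le
  have hS : ∀ c ∈ insert v E.support, 1 ≤ e c ∧ (c.ord x = -(e c : ℤ) ∨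
      ∃ a : K, c.ord (x - algebraMap K F a) = e c) := by
    intro c hc
    rcases Finset.mem_insert.mp hc with rfl | hc
    · refine ⟨by omega, Or.inr ⟨a, hev.symm⟩⟩
    · have hc0 : E c ≠ 0 := Finsupp.mem_support_iff.mp hc
      have hpos : 0 < E c := lt_of_le_of_ne (hE0 c) (Ne.symm hc0)
      refine ⟨by have := heE c hc; omega, ?_⟩
      rw [heE c hc]
      rcases (hEsupp c).mp hc with h | ⟨b, hb, h⟩
      · left
        rw [hEv, max_eq_right (by omega : (0 : ℤ) ≤ -(c.ord x)),
          Finset.sum_eq_zero fun a _ => max_eq_left ?_]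
        · ring
        · by_contra hcon
          push Not at hcon
          have := ord_nonneg_of_ord_sub_pos c hcon
          omega
      · right
        refine ⟨b, ?_⟩
        have hx0 : 0 ≤ c.ord x := ord_nonneg_of_ord_sub_pos c h
        rw [hEv, max_eq_left (by omega : -(c.ord x) ≤ 0), zero_add,
          Finset.sum_eq_single_of_mem b hb, max_eq_right h.le]
        intro b' _ hb'
        exact max_eq_left (ord_sub_nonpos_of_ord_sub_pos c (Ne.symm hb') h)
  have key := sum_sub_one_le_two_genusFF hx (insert v E.support) e hS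
  rw [Finset.sum_insert hvE, Finset.sum_sub_distrib,
    Finset.sum_congr rfl fun c hc => heE c hc, hsum, Finset.sum_const, nsmul_eq_mul, mul_one,
    hev] at key
  have hle : v.ord (x - algebraMap K F a) - 1 ≤ 0 := by nlinarith
  omega

include hx in
/-- **Equality case of the Hurwitz inequality, counting form.**  If the poles of an auxiliary
function `y` (at most `c` of them) contain the fibres of `x` over `∞` and over `R`, and
`2 g - 2 ≤ (#R - 1) [F : K(x)] - c`, then `F / K(x)` is unramified at every place where `y` is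
regular. -/
theorem ord_sub_eq_one_of_genus_le (R : Finset K) (y : F)
    (hpoles : ∀ v : Place K F,
      (v.ord x < 0 ∨ ∃ a ∈ R, 0 < v.ord (x - algebraMap K F a)) → v.ord y < 0)
    {c : ℕ} (hc : Nat.card {v : Place K F // v.ord y < 0} ≤ c)
    (hg : 2 * (genusFF K F : ℤ) - 2 ≤ ((R.card : ℤ) - 1) * (finrank K⟮x⟯ F : ℤ) - (c : ℤ))
    (v : Place K F) (hv : 0 ≤ v.ord y) (a : K) (ha : 0 < v.ord (x - algebraMap K F a)) :
    v.ord (x - algebraMap K F a) = 1 := by
  classical
  have hfin := Fermat.Agent.Gateway.GoodRed.HurwitzIneq.finite_poles hx y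
  have h2 : hfin.toFinset.card = Nat.card {v : Place K F // v.ord y < 0} := by
    rw [← Set.ncard_eq_toFinset_card _ hfin]
    exact (Nat.card_coe_set_eq {v : Place K F | v.ord y < 0}).symm
  have h3 : (hfin.toFinset.card : ℤ) ≤ c := by
    rw [h2]
    exact_mod_cast hc
  refine ord_sub_eq_one_of_finset hx R hfin.toFinset
    (fun w hw => hfin.mem_toFinset.mpr (hpoles w hw)) (by linarith) v ?_ a ha
  rw [hfin.mem_toFinset]
  exact not_lt.mpr hv

end Generic

section Level4

open ModularCurve Fermat.Agent.S24.Setup Fermat.Agent.Gateway.GoodRed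
open Fermat.Agent.Gateway.GoodRed.ConjFamily Fermat.Agent.Gateway.GoodRed.TLineHurwitz

/-- **Unramified off the cusps at a level divisible by four, hypothesis form.**  `k` algebraically
closed with `(N : k) ≠ 0`, `4 ∣ N`; if `j` has at most `ν_∞(N)` poles on `Fk k N` and the genus of
`Fk k N` is at most the characteristic zero genus, then `x₄ - a` is a uniformiser at every place
over `x₄ = a` at which `j` is regular. -/
theorem ord_sub_eq_one_four_of_facts {k : Type} [Field k] [IsAlgClosed k] {N : ℕ} [NeZero N]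
    (h4 : 4 ∣ N) (hNk : ((N : ℕ) : k) ≠ 0)
    (hcusp : Nat.card {P : Place k (Fk k N) // P.ord (jFk k N) < 0} ≤ cuspCount N)
    (hgen : genusFF k (Fk k N) ≤ genusFF Kbar (FBar Kbar N))
    (t : Fk k N) (ht : (t : LaurentSeries k) = TLine4.x4k k)
    (v : Place k (Fk k N)) (hv : 0 ≤ v.ord (jFk k N)) (a : k)
    (ha : 0 < v.ord (t - algebraMap k (Fk k N) a)) :
    v.ord (t - algebraMap k (Fk k N) a) = 1 := by
  obtain ⟨N', hN⟩ := h4
  haveI : NeZero N' := ⟨by rintro rfl; exact NeZero.ne N (by simpa using hN)⟩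
  have h2 : (2 : k) ≠ 0 := by
    intro h2
    apply hNk
    rw [hN]
    push_cast
    have : (4 : k) = 2 * 2 := by norm_num
    rw [this, h2]
    simp
  have hx := transcendental_t4 N t ht
  haveI := finiteDimensional_t4 N hNk t ht
  haveI := isSeparable_t4 N hNk t ht
  have hfin := finrank_t4 h2 N N' hN hNk t ht
  obtain ⟨S, hScard, hS⟩ := poles_t4 h2 N t ht
  have hgood := GoodLevelNumerics.genusFF_good N (Or.inl ⟨N', hN⟩)
  have hgen' : (genusFF k (Fk k N) : ℤ) ≤ (genusFF Kbar (FBar Kbar N) : ℤ) := by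
    exact_mod_cast hgen
  have hfin' : (finrank k⟮t⟯ (Fk k N) : ℤ) * 6 = (dedekindPsi N : ℤ) := by exact_mod_cast hfin
  refine ord_sub_eq_one_of_genus_le hx S (jFk k N) hS hcusp ?_ v hv a ha
  rw [hScard]
  have hgood' : 12 * (genusFF Kbar (FBar Kbar N) : ℤ) - 12 =
      (dedekindPsi N : ℤ) - 6 * (cuspCount N : ℤ) := hgood
  push_cast
  linarith

variable {N : ℕ} [NeZero N] (ℓ : ℕ) [Fact ℓ.Prime] (A : ValuationSubring Kbar)
  {k : Type} [Field k] [IsAlgClosed k] [CharP k ℓ] (π : A →+* k)
  (hπ : Function.Surjective π) (hℓN : ¬ ℓ ∣ N)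

include hπ hℓN in
/-- **Leaf UNR (shape of `DerivPlace.isIntegral_dlog`).**  `ℓ ∤ N`, `4 ∣ N`: the special fibre
`Fk k N` is unramified over the `x₄`-line off the cusps: if `j` is regular at `v` and
`x₄(v) = a`, then `x₄ - a` is a uniformiser at `v`. -/
theorem ord_sub_eq_one_four (h4 : 4 ∣ N) (hA : A.LiesOverPrime ℓ) (t : Fk k N)
    (ht : (t : LaurentSeries k) = TLine4.x4k k) (v : Place k (Fk k N)) (a : k)
    (hv : 0 ≤ v.ord (jFk k N)) (ha : 0 < v.ord (t - algebraMap k (Fk k N) a)) :
    v.ord (t - algebraMap k (Fk k N) a) = 1 := by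
  have hNk : ((N : ℕ) : k) ≠ 0 := natCast_ne_zero_final ℓ hℓN
  have H : Fermat.Agent.Gateway.C0.GoodLevelFacts A π N ℓ hπ hℓN :=
    ⟨genusFF_le_of_four_dvd ℓ A π hπ hℓN h4,
      IntegralRed.isIntegral_resFk_of_isIntegral_j A π N ℓ hπ hℓN,
      IntegralRed.isIntegral_resFk_of_isIntegral_jinv A π N ℓ hπ hℓN⟩
  have hgen := Fermat.Agent.Gateway.C0.genusFF_Fk_eq A π N ℓ hπ hℓN hA H
  exact ord_sub_eq_one_four_of_facts h4 hNk (CuspPlaces.card_polePlaces_le A π N ℓ hπ hℓN)
    hgen.le t ht v hv a ha

include hπ hℓN in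
/-- **Leaf UNR (shape `hunr` of `DlogReg.exists_dlog_regular`).**  `ℓ ∤ N`, `4 ∣ N`: at every
place `P` of the special fibre `Fk k N` at which `j` is regular there is a constant `c` such that
`x₄ - c` is a uniformiser at `P`. -/
theorem exists_ord_sub_eq_one_four (h4 : 4 ∣ N) (hA : A.LiesOverPrime ℓ) (t : Fk k N)
    (ht : (t : LaurentSeries k) = TLine4.x4k k) (P : Place k (Fk k N))
    (hP : 0 ≤ P.ord (jFk k N)) :
    ∃ c : k, P.ord (t - algebraMap k (Fk k N) c) = 1 := by
  have hNk : ((N : ℕ) : k) ≠ 0 := natCast_ne_zero_final ℓ hℓN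
  have h2 : (2 : k) ≠ 0 := by
    intro h2
    apply hNk
    obtain ⟨N', hN⟩ := h4
    rw [hN]
    push_cast
    have : (4 : k) = 2 * 2 := by norm_num
    rw [this, h2]
    simp
  have hx := transcendental_t4 N t ht
  haveI := finiteDimensional_t4 N hNk t ht
  haveI := isSeparable_t4 N hNk t ht
  obtain ⟨S, -, hS⟩ := poles_t4 h2 N t ht
  have ht0 : t ≠ 0 := fun h0 => hx (h0 ▸ isAlgebraic_zero)
  have hreg : 0 ≤ P.ord t := by
    by_contra hcon
    push Not at hcon
    have := hS P (Or.inl hcon)
    omega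
  have hmem : t ∈ P.toValuationSubring :=
    (Fermat.Agent.S24.ZD.PlaceLemmas.mem_iff_ord P t).mpr (Or.inr hreg)
  obtain ⟨c, hc | hc⟩ := Fermat.Agent.Gateway.FkBasics.exists_const_sub_ord_pos hx P hmem
  · exact absurd (hc ▸ isAlgebraic_algebraMap c) hx
  · exact ⟨c, ord_sub_eq_one_four ℓ A π hπ hℓN h4 hA t ht P c hP hc⟩

end Level4

end Fermat.Agent.S40x.C2.HurwitzEqB

end
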