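import Fermat.Agent.S40x.C2.AsmAbs
import Fermat.Agent.S40x.C2.DlogSpan
import Fermat.Agent.S40x.C2.HurwitzEqB
import Fermat.Agent.S40x.C2.DlogHecke
import Fermat.Agent.S40x.Slope.InstMq
import Fermat.Agent.Gateway.AuxLevel.MembershipFk

/-!
# P-S44, block C2 (route OMEGA): assembly `G4+` at a level `M q` with `4 ∣ M`

Instance of `AsmAbs.eigen_of_rep` at helper47's `Slope/InstMq` (`L = ℚ̄`, `F = F_{Mq}`, the two
Gauss valuations `valInfty`, `valZero`, residue maps onto `E = Fk k M`), with

* `M = k((q))` as a module over `Fk k M` (through the coercion), `Dq = thetaDer` (`θ = q d/dq`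
  on the coercion), `t = x₄`, `dl f = dlog (f : k((q)))`;
* `S` = the `k`-span of the reductions of the saturated integral basis of `S₂(Γ₀(M))` delivered by
  helper23's `DlogSpan.exists_basis_dlog_span` (LEMMA OMEGA + regularity), whose hypothesis `hunr`
  is helper97's `HurwitzEqB.exists_ord_sub_eq_one_four`.

The Hecke side (leaf KH) stays a hypothesis: `T i` on `Pic⁰(F_{Mq})`, `Hop i` on `k((q))`, with
`hKH₁` (at `v_∞`) and `hKH₂` (at `v_0`).

`eigen_four` : for `ξ ∈ X^f`, `ξ ∉ K_q`, `T i ξ = a i • ξ`, and ANY Kummer function `w` of `ξ` which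
is a unit at both valuations, one of the two reductions `fb` of `w` has
`dlog fb = ∑ c_i (qf_i mod q) ≠ 0` and `Hop i (dlog fb) = a i • dlog fb`.
-/

set_option autoImplicit false
set_option linter.style.haveILetI false
set_option linter.unusedSectionVars false

noncomputable section

namespace Fermat.Agent.S40x.C2.Asm4

open ModularCurve AlgebraicCurve IntermediateField IsLocalRing HahnSeries CongruenceSubgroup
open UpperHalfPlane
open Fermat.Agent.Gateway.Hecke Fermat.Agent.Gateway.ESC Fermat.Agent.Gateway.Kummer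
open Fermat.Agent.Gateway.Red Fermat.Agent.Gateway.GoodRed
open Fermat.Agent.Gateway.GoodRed.ConjFamily (Fk jFk)
open Fermat.Agent.S24.Setup
open Fermat.Agent.S34x.TwoVal Fermat.Agent.S34x.C0two
open Fermat.Agent.S34x.Inst.RedSetupInst Fermat.Agent.S34x.Inst
open Fermat.Agent.S33x.KummerPn
open Fermat.Agent.S40x.Slope.UnitTwo Fermat.Agent.S40x.Slope.SlopeInv Fermat.Agent.S40x.Slope.Xf
  Fermat.Agent.S40x.Slope.OfRedSetup Fermat.Agent.S40x.Slope.InstMq
open Fermat.Agent.S16.Two Fermat.Agent.S40x.C2.DlogHecke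

/-! ### The derivation `θ` on `Fk k M` with values in `k((q))` -/

section Der

variable (k : Type) [Field k] (M : ℕ)

theorem thetaL_algebraMap (c : k) : thetaL (algebraMap k (LaurentSeries k) c) = 0 := by
  rw [algebraMap_laurentSeries_eq_single]
  exact thetaL_C c

/-- `θ = q d/dq` as a `k`-derivation of `Fk k M` with values in `k((q))`. -/
def thetaDer : Derivation k (modularFunctionFieldFullC k M) (LaurentSeries k) :=
  Derivation.mk'
    { toFun := fun f => thetaL (f : LaurentSeries k)
      map_add' := fun f g => by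
        show thetaL (((f + g : modularFunctionFieldFullC k M)) : LaurentSeries k) = _
        rw [AddMemClass.coe_add, thetaL_add]
      map_smul' := fun c f => by
        show thetaL (((c • f : modularFunctionFieldFullC k M)) : LaurentSeries k) = _
        rw [IntermediateField.coe_smul, RingHom.id_apply, Algebra.smul_def,
          thetaL_mul, thetaL_algebraMap, zero_mul, zero_add, ← HahnSeries.C_mul_eq_smul,
          algebraMap_laurentSeries_eq_single]
        rfl }
    (fun a b => by
      show thetaL (((a * b : modularFunctionFieldFullC k M)) : LaurentSeries k) =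
        a • thetaL (b : LaurentSeries k) + b • thetaL (a : LaurentSeries k)
      rw [MulMemClass.coe_mul, thetaL_mul, Algebra.smul_def, Algebra.smul_def]
      show _ = (a : LaurentSeries k) * _ + (b : LaurentSeries k) * _
      ring)

theorem thetaDer_apply (f : modularFunctionFieldFullC k M) :
    thetaDer k M f = thetaL (f : LaurentSeries k) := rfl

theorem smul_dlog (f : modularFunctionFieldFullC k M) (hf : f ≠ 0) :
    f • dlog (f : LaurentSeries k) = thetaDer k M f := by
  have hf' : (f : LaurentSeries k) ≠ 0 := fun h => hf (Subtype.ext h)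
  rw [thetaDer_apply, Algebra.smul_def]
  show (f : LaurentSeries k) * dlog (f : LaurentSeries k) = _
  rw [dlog, mul_div_cancel₀ _ hf']

end Der

/-! ### The assembly -/

/-- `ℚ̄ / ℚ` is algebraic (local instance, needed by `Slope/InstMq`) -/
theorem isAlgebraic_Kbar : Algebra.IsAlgebraic ℚ Kbar := AlgebraicClosure.isAlgebraic ℚ

attribute [local instance] isAlgebraic_Kbar

variable {A : ValuationSubring Kbar}
  {k : Type} [Field k] {π : A →+* k} [IsAlgClosed k]
variable {M q : ℕ} [NeZero M] [NeZero q] [Fact q.Prime] [CharP k q]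
variable {hdeg : finrankAlong Kbar (heckeAlphaBar Kbar M q) = q + 1} {hq : q.Prime}
  {hqM : ¬ q ∣ M}
variable {hrk : ∀ x ∈ maximalIdeal A, ∀ c : A, c ≠ 0 → ∃ j : ℕ, c ∣ x ^ j}
  {hπ : Function.Surjective π}
variable (H : ResidueFacts A π M q hdeg hq hqM hrk hπ) (hA : A.LiesOverPrime q)

/-- **`G4+` at a level `M q`, `4 ∣ M`** (Hecke side as a hypothesis). -/
theorem eigen_four (h4 : 4 ∣ M) :
    ∃ (f : Fin (Module.finrank ℂ (CuspForm (Gamma0 M) 2)) → CuspForm (Gamma0 M) 2)
      (qf : Fin (Module.finrank ℂ (CuspForm (Gamma0 M) 2)) → PowerSeries ℤ),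
      (∀ i, qExpansion 1 (f i) = (qf i).map (Int.castRingHom ℂ)) ∧
      (∀ i, PowerSeries.constantCoeff (qf i) = 0) ∧
      LinearIndependent ℂ f ∧ Submodule.span ℂ (Set.range f) = ⊤ ∧
      LinearIndependent k (fun i => (qf i).map (Int.castRingHom k)) ∧
      ∀ {ι : Type} (T : ι → Pic0 Kbar (FL Kbar (M * q)) → Pic0 Kbar (FL Kbar (M * q)))
        (Hop : ι → LaurentSeries k → LaurentSeries k) (a : ι → ℤ),
        (∀ (i : ι) (ξ : Pic0 Kbar (FL Kbar (M * q))) (w : FL Kbar (M * q)), IsKummerRep q ξ w →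
          UnitTwo (valInfty A π M q hrk hπ hqM) (valZero A π M q hdeg hq hqM hrk hπ) w →
          T i ξ = a i • ξ →
          Hop i (dlog ((red (valInfty A π M q hrk hπ hqM) (redSetupInfty H hA).res w :
              modularFunctionFieldFullC k M) : LaurentSeries k)) =
            ((a i : ℤ) : k) • dlog ((red (valInfty A π M q hrk hπ hqM) (redSetupInfty H hA).res w :
              modularFunctionFieldFullC k M) : LaurentSeries k)) →
        (∀ (i : ι) (ξ : Pic0 Kbar (FL Kbar (M * q))) (w : FL Kbar (M * q)), IsKummerRep q ξ w →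
          UnitTwo (valInfty A π M q hrk hπ hqM) (valZero A π M q hdeg hq hqM hrk hπ) w →
          T i ξ = a i • ξ →
          Hop i (dlog ((red (valZero A π M q hdeg hq hqM hrk hπ) (redSetupZero H hA).res w :
              modularFunctionFieldFullC k M) : LaurentSeries k)) =
            ((a i : ℤ) : k) • dlog ((red (valZero A π M q hdeg hq hqM hrk hπ)
              (redSetupZero H hA).res w : modularFunctionFieldFullC k M) : LaurentSeries k)) →
        ∀ {ξ : Pic0 Kbar (FL Kbar (M * q))}, ξ ∈ XfMq H hA hq.pos → ξ ∉ Km H hA q →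
          (∀ i, T i ξ = a i • ξ) →
          ∀ {w : FL Kbar (M * q)}, IsKummerRep q ξ w →
            UnitTwo (valInfty A π M q hrk hπ hqM) (valZero A π M q hdeg hq hqM hrk hπ) w →
            ∃ fb : modularFunctionFieldFullC k M,
              (fb = red (valInfty A π M q hrk hπ hqM) (redSetupInfty H hA).res w ∨
                fb = red (valZero A π M q hdeg hq hqM hrk hπ) (redSetupZero H hA).res w) ∧
              fb ≠ 0 ∧ dlog (fb : LaurentSeries k) ≠ 0 ∧
              (∃ c : Fin (Module.finrank ℂ (CuspForm (Gamma0 M) 2)) → k,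
                dlog (fb : LaurentSeries k) = ∑ i, HahnSeries.C (c i) *
                  HahnSeries.ofPowerSeries ℤ k ((qf i).map (Int.castRingHom k))) ∧
              ∀ i, Hop i (dlog (fb : LaurentSeries k)) =
                ((a i : ℤ) : k) • dlog (fb : LaurentSeries k) := by
  classical
  have hMk : ((M : ℕ) : k) ≠ 0 := natCast_M_ne_zero hqM
  haveI : HasPrincipalDivisors k (modularFunctionFieldFullC k M) :=
    Fermat.Agent.Gateway.FkBasics.hasPrincipalDivisors_Fk k M hMk
  -- the Hauptmodul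
  set t : Fk k M := ⟨TLine4.x4k k, Fermat.Agent.Gateway.AuxLevel.L4.x4k_mem h4 hMk⟩ with htdef
  have ht : (t : LaurentSeries k) = TLine4.x4k k := rfl
  have hunr : ∀ P : Place k (Fk k M), 0 ≤ P.ord (jFk k M) →
      ∃ c : k, P.ord (t - algebraMap k (Fk k M) c) = 1 := fun P hP =>
    HurwitzEqB.exists_ord_sub_eq_one_four q A π hπ hqM h4 hA t ht P hP
  obtain ⟨f, qf, hqf, hc0, hfli, hfspan, hsat, hspan⟩ :=
    DlogSpan.exists_basis_dlog_span q A π hπ hqM h4 hA t ht hunr
  refine ⟨f, qf, hqf, hc0, hfli, hfspan, hsat, ?_⟩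
  intro ι T Hop a hKH₁ hKH₂ ξ hξf hξ1 heig w hw hU
  haveI hsep : Algebra.IsSeparable k⟮t⟯ (Fk k M) := TLineHurwitz.isSeparable_t4 M hMk t ht
  -- the span
  set S : Submodule k (LaurentSeries k) := Submodule.span k (Set.range fun i =>
    HahnSeries.ofPowerSeries ℤ k ((qf i).map (Int.castRingHom k))) with hS
  have hDt : thetaDer k M t ≠ 0 := by
    rw [thetaDer_apply, ht, thetaL]
    exact mul_ne_zero (by simp) (DlogSpan.D_x4k_ne_zero k)
  have hOmega : ∀ fb : Fk k M, fb ≠ 0 → (∀ P : Place k (Fk k M), (q : ℤ) ∣ P.ord fb) →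
      dlog (fb : LaurentSeries k) ∈ S := by
    intro fb hfb hord
    obtain ⟨c, hc⟩ := hspan fb hfb hord
    have hfb' : (fb : LaurentSeries k) ≠ 0 := fun h => hfb (Subtype.ext h)
    have h1 : dlog (fb : LaurentSeries k) = ∑ i, HahnSeries.C (c i) *
        HahnSeries.ofPowerSeries ℤ k ((qf i).map (Int.castRingHom k)) := by
      rw [dlog, thetaL, hc, mul_div_assoc, mul_comm, div_mul_cancel₀ _ hfb']
    rw [h1]
    refine Submodule.sum_mem _ fun i _ => ?_
    rw [HahnSeries.C_mul_eq_smul]
    exact Submodule.smul_mem _ _ (Submodule.subset_span ⟨i, rfl⟩)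
  have hK1 : ξ ∉ K1 (valInfty A π M q hrk hπ hqM) (valZero A π M q hdeg hq hqM hrk hπ)
      (redSetupInfty H hA).res (redSetupZero H hA).res q := by
    rw [K1_eq_Km]
    exact hξ1
  obtain ⟨⟨hm₁, hm₂⟩, hne, he₁, he₂⟩ := AsmAbs.eigen_of_rep (flatDataMq H hA hq.pos)
    (Fermat.Agent.Gateway.FkBasics.hconstk k M hMk) jointLift t (thetaDer k M) hDt
    (fun f => dlog (f : LaurentSeries k)) (smul_dlog k M) S hOmega T Hop a hKH₁ hKH₂ hξf hK1 heig
    hw hU
  have hspan' : ∀ g ∈ S, ∃ c : Fin (Module.finrank ℂ (CuspForm (Gamma0 M) 2)) → k,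
      g = ∑ i, HahnSeries.C (c i) *
        HahnSeries.ofPowerSeries ℤ k ((qf i).map (Int.castRingHom k)) := by
    intro g hg
    obtain ⟨c, hc⟩ := (Submodule.mem_span_range_iff_exists_fun k).mp hg
    refine ⟨c, ?_⟩
    rw [← hc]
    exact Finset.sum_congr rfl fun i _ => (HahnSeries.C_mul_eq_smul).symm
  have hnz : ∀ fb : modularFunctionFieldFullC k M, dlog (fb : LaurentSeries k) ≠ 0 → fb ≠ 0 := by
    rintro fb h rfl
    apply h
    show dlog ((0 : LaurentSeries k)) = 0
    rw [dlog, thetaL_zero, zero_div]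
  rcases hne with h | h
  · exact ⟨_, Or.inl rfl, hnz _ h, h, hspan' _ hm₁, he₁⟩
  · exact ⟨_, Or.inr rfl, hnz _ h, h, hspan' _ hm₂, he₂⟩

end Fermat.Agent.S40x.C2.Asm4

end
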