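import Fermat.Agent.S40x.Slope.Xf
import Fermat.Agent.S40x.C2.DerivKernel

/-!
# P-S44, block C2 (route OMEGA), abstract assembly `G4+`

Setting of `Slope/Xf`: two valuation subrings `O₁ O₂` of a function field `F / L` with residue
maps `ρ₁ ρ₂` onto a function field `E / k` (`k` algebraically closed of characteristic `p`),
`FlatData`.  Moreover a `k`-derivation `Dq : E → M` into an `E`-module `M` (instance: `E = Fk k M̂`,
`M = k((q))`, `Dq = θ_q ∘ coe`) with `Dq t ≠ 0` for a separating element `t`, a "logarithmic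
derivative" `dl : E → M` (`f • dl f = Dq f`), a `k`-subspace `S ≤ M` (the reductions of the weight
two cusp forms) and operators `H i` on `M` (the formal Hecke operators).  Hypotheses (= the leaves
of the block):

* `hOmega` (leaves INT + UNR + DER + OMEGA): if `p ∣ ord_P f` at every place `P` of `E` then
  `dl f ∈ S`;
* `hKH₁`, `hKH₂` (leaves KH-a + KH-b + DLOG): if `T i ξ = a i • ξ` then the logarithmic derivatives
  of the two reductions of a unit-normalised Kummer function of `ξ` are eigenvectors of `H i` with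
  eigenvalue `a i`.

Conclusion (`exists_eigen_of_mem_Xf_of_not_mem_K1`): a class `ξ ∈ X^f`, `ξ ∉ K₁`, which is a
simultaneous eigenvector of the `T i` produces a nonzero simultaneous eigenvector of the `H i` in
`S` with the same eigenvalues.
-/

set_option autoImplicit false
set_option linter.unusedSectionVars false

noncomputable section

namespace Fermat.Agent.S40x.C2.AsmAbs

open AlgebraicCurve IntermediateField Fermat.Agent.Gateway.Kummer Fermat.Agent.S40x.Slope.UnitTwo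
  Fermat.Agent.S40x.Slope.SlopeInv Fermat.Agent.S40x.Slope.Xf

variable {L : Type*} [Field L] {F : Type*} [Field F] [Algebra L F] [HasPrincipalDivisors L F]
  {k : Type*} [Field k] {E : Type*} [Field E] [Algebra k E] [HasPrincipalDivisors k E]
  {O₁ O₂ : ValuationSubring F} {ρ₁ : O₁ →+* E} {ρ₂ : O₂ →+* E} {p : ℕ}

/-- A Kummer function of a nonzero class is not a `p`-th power. -/
theorem not_pow_of_isKummerRep {η : Pic0 k E} (hp : p ≠ 0) (hη : η ≠ 0) {f : E}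
    (hf : IsKummerRep p η f) : ¬ ∃ g : E, g ^ p = f := by
  rintro ⟨g, rfl⟩
  exact hη (hf.eq_zero_of_eq_pow hp rfl)

/-- **Non-vanishing of the logarithmic derivative.**  If `η ≠ 0` and `f` is a Kummer function of
`η` then `Dq f ≠ 0` (kernel of a derivation = `p`-th powers, `DerivKernel`). -/
theorem deriv_ne_zero_of_isKummerRep [hp : Fact p.Prime] [CharP k p] [PerfectField k]
    {M : Type*} [AddCommGroup M] [Module E M] [Module k M]
    (t : E) [Algebra.IsSeparable k⟮t⟯ E] (Dq : Derivation k E M) (hDt : Dq t ≠ 0)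
    {η : Pic0 k E} (hη : η ≠ 0) {f : E} (hf : IsKummerRep p η f) : Dq f ≠ 0 := fun h0 =>
  not_pow_of_isKummerRep hp.out.ne_zero hη hf
    (DerivKernel.exists_pow_eq_of_derivation_eq_zero p t Dq hDt f h0)

/-- **`G4+`, abstract form.** -/
theorem exists_eigen_of_mem_Xf_of_not_mem_K1 [IsAlgClosed L] [IsAlgClosed k]
    [hp : Fact p.Prime] [CharP k p]
    (hD : FlatData (L := L) O₁ O₂ ρ₁ ρ₂ p)
    (hconstE : ∀ g : E, g ≠ 0 → (∀ v : Place k E, v.ord g = 0) → ∃ c : k, g = algebraMap k E c)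
    (hSA : ∀ a b : E, ∃ (g : F) (h₁ : g ∈ O₁) (h₂ : g ∈ O₂), ρ₁ ⟨g, h₁⟩ = a ∧ ρ₂ ⟨g, h₂⟩ = b)
    -- the derivation `θ_q` on the residue function field and the logarithmic derivative
    {M : Type*} [AddCommGroup M] [Module E M] [Module k M]
    (t : E) [Algebra.IsSeparable k⟮t⟯ E] (Dq : Derivation k E M) (hDt : Dq t ≠ 0)
    (dl : E → M) (hdl : ∀ f : E, f ≠ 0 → f • dl f = Dq f)
    -- LEMMA OMEGA (with INT): logarithmic differentials with `p ∣ div` are reduced cusp forms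
    (S : Submodule k M)
    (hOmega : ∀ f : E, f ≠ 0 → (∀ P : Place k E, (p : ℤ) ∣ P.ord f) → dl f ∈ S)
    -- Hecke operators on classes and on `q`-series
    {ι : Type*} (T : ι → Pic0 L F → Pic0 L F) (H : ι → M → M) (a : ι → ℤ)
    (hKH₁ : ∀ (i : ι) (ξ : Pic0 L F) (w : F), IsKummerRep p ξ w → UnitTwo O₁ O₂ w →
      T i ξ = a i • ξ → H i (dl (red O₁ ρ₁ w)) = ((a i : ℤ) : k) • dl (red O₁ ρ₁ w))
    (hKH₂ : ∀ (i : ι) (ξ : Pic0 L F) (w : F), IsKummerRep p ξ w → UnitTwo O₁ O₂ w →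
      T i ξ = a i • ξ → H i (dl (red O₂ ρ₂ w)) = ((a i : ℤ) : k) • dl (red O₂ ρ₂ w))
    {ξ : Pic0 L F} (hξf : ξ ∈ Xf k hD) (hξ1 : ξ ∉ K1 O₁ O₂ ρ₁ ρ₂ p)
    (heig : ∀ i, T i ξ = a i • ξ) :
    ∃ g ∈ S, g ≠ 0 ∧ ∀ i, H i g = ((a i : ℤ) : k) • g := by
  obtain ⟨⟨η₁, h₁⟩, ⟨η₂, h₂⟩⟩ := exists_redClass_of_mem_Xf hD hξf
  obtain ⟨w, hw, hU⟩ := hD.S₁.exists_rep ξ hξf.1
  have hk₁ : IsKummerRep p η₁ (red O₁ ρ₁ w) := h₁.of_rep hD.S₁ hw hU
  have hk₂ : IsKummerRep p η₂ (red O₂ ρ₂ w) := h₂.of_rep hD.S₂ hw hU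
  -- one of the two images is nonzero
  have hne : η₁ ≠ 0 ∨ η₂ ≠ 0 := by
    by_contra hcon
    rw [not_or, not_not, not_not] at hcon
    refine hξ1 (mem_K1_of_redClass_zero hD hconstE hSA ?_ ?_)
    · rw [← hcon.1]; exact h₁
    · rw [← hcon.2]; exact h₂
  -- the general step
  have key : ∀ {η : Pic0 k E} {f : E}, η ≠ 0 → IsKummerRep p η f →
      (∀ i, H i (dl f) = ((a i : ℤ) : k) • dl f) →
      ∃ g ∈ S, g ≠ 0 ∧ ∀ i, H i g = ((a i : ℤ) : k) • g := by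
    intro η f hη hf hH
    refine ⟨dl f, hOmega f hf.ne_zero hf.dvd_ord, ?_, hH⟩
    intro h0
    have h1 := hdl f hf.ne_zero
    rw [h0, smul_zero] at h1
    exact deriv_ne_zero_of_isKummerRep t Dq hDt hη hf h1.symm
  rcases hne with hη | hη
  · exact key hη hk₁ fun i => hKH₁ i ξ w hw hU (heig i)
  · exact key hη hk₂ fun i => hKH₂ i ξ w hw hU (heig i)

/-- **`G4+`, abstract form, for a GIVEN unit-normalised Kummer function `w`** (the descent to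
level `M'` needs the reductions of a Kummer function coming from level `N = p M'`): both
logarithmic derivatives lie in `S`, are simultaneous eigenvectors, and one of them is nonzero. -/
theorem eigen_of_rep [IsAlgClosed L] [IsAlgClosed k]
    [hp : Fact p.Prime] [CharP k p]
    (hD : FlatData (L := L) O₁ O₂ ρ₁ ρ₂ p)
    (hconstE : ∀ g : E, g ≠ 0 → (∀ v : Place k E, v.ord g = 0) → ∃ c : k, g = algebraMap k E c)
    (hSA : ∀ a b : E, ∃ (g : F) (h₁ : g ∈ O₁) (h₂ : g ∈ O₂), ρ₁ ⟨g, h₁⟩ = a ∧ ρ₂ ⟨g, h₂⟩ = b)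
    {M : Type*} [AddCommGroup M] [Module E M] [Module k M]
    (t : E) [Algebra.IsSeparable k⟮t⟯ E] (Dq : Derivation k E M) (hDt : Dq t ≠ 0)
    (dl : E → M) (hdl : ∀ f : E, f ≠ 0 → f • dl f = Dq f)
    (S : Submodule k M)
    (hOmega : ∀ f : E, f ≠ 0 → (∀ P : Place k E, (p : ℤ) ∣ P.ord f) → dl f ∈ S)
    {ι : Type*} (T : ι → Pic0 L F → Pic0 L F) (H : ι → M → M) (a : ι → ℤ)
    (hKH₁ : ∀ (i : ι) (ξ : Pic0 L F) (w : F), IsKummerRep p ξ w → UnitTwo O₁ O₂ w →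
      T i ξ = a i • ξ → H i (dl (red O₁ ρ₁ w)) = ((a i : ℤ) : k) • dl (red O₁ ρ₁ w))
    (hKH₂ : ∀ (i : ι) (ξ : Pic0 L F) (w : F), IsKummerRep p ξ w → UnitTwo O₁ O₂ w →
      T i ξ = a i • ξ → H i (dl (red O₂ ρ₂ w)) = ((a i : ℤ) : k) • dl (red O₂ ρ₂ w))
    {ξ : Pic0 L F} (hξf : ξ ∈ Xf k hD) (hξ1 : ξ ∉ K1 O₁ O₂ ρ₁ ρ₂ p)
    (heig : ∀ i, T i ξ = a i • ξ) {w : F} (hw : IsKummerRep p ξ w) (hU : UnitTwo O₁ O₂ w) :
    (dl (red O₁ ρ₁ w) ∈ S ∧ dl (red O₂ ρ₂ w) ∈ S) ∧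
      (dl (red O₁ ρ₁ w) ≠ 0 ∨ dl (red O₂ ρ₂ w) ≠ 0) ∧
      (∀ i, H i (dl (red O₁ ρ₁ w)) = ((a i : ℤ) : k) • dl (red O₁ ρ₁ w)) ∧
      ∀ i, H i (dl (red O₂ ρ₂ w)) = ((a i : ℤ) : k) • dl (red O₂ ρ₂ w) := by
  obtain ⟨⟨η₁, h₁⟩, ⟨η₂, h₂⟩⟩ := exists_redClass_of_mem_Xf hD hξf
  have hk₁ : IsKummerRep p η₁ (red O₁ ρ₁ w) := h₁.of_rep hD.S₁ hw hU
  have hk₂ : IsKummerRep p η₂ (red O₂ ρ₂ w) := h₂.of_rep hD.S₂ hw hU
  have hne : η₁ ≠ 0 ∨ η₂ ≠ 0 := by
    by_contra hcon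
    rw [not_or, not_not, not_not] at hcon
    refine hξ1 (mem_K1_of_redClass_zero hD hconstE hSA ?_ ?_)
    · rw [← hcon.1]; exact h₁
    · rw [← hcon.2]; exact h₂
  have key : ∀ {η : Pic0 k E} {f : E}, η ≠ 0 → IsKummerRep p η f → dl f ≠ 0 := by
    intro η f hη hf h0
    have h1 := hdl f hf.ne_zero
    rw [h0, smul_zero] at h1
    exact deriv_ne_zero_of_isKummerRep t Dq hDt hη hf h1.symm
  refine ⟨⟨hOmega _ hk₁.ne_zero hk₁.dvd_ord, hOmega _ hk₂.ne_zero hk₂.dvd_ord⟩, ?_,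
    fun i => hKH₁ i ξ w hw hU (heig i), fun i => hKH₂ i ξ w hw hU (heig i)⟩
  rcases hne with hη | hη
  · exact Or.inl (key hη hk₁)
  · exact Or.inr (key hη hk₂)

end Fermat.Agent.S40x.C2.AsmAbs

end
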