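/-
P-S44 (block C2, route OMEGA) -- helper23.

UNCONDITIONAL form of Steps 1-4 of the C2 proof = the hypothesis `hOmega` of the landed abstract
assembly `AsmAbs.exists_eigen_of_mem_Xf_of_not_mem_K1`, at a level `N` with `4 ∣ N`, `ℓ ∤ N`
(`k` = residue field of a valuation subring of `ℚ̄` over `ℓ`, algebraically closed):

there is a saturated integral basis `f i` / `qf i` of `S₂(Γ₀(N))` such that for every `fb ≠ 0` in
the special fibre `Fk k N` whose order is divisible by `ℓ` at EVERY place,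

  `dlog fb = θ fb / fb ∈ span_k {qf i mod ℓ}`     (`exists_basis_hOmega`).

= `DlogSpan.exists_basis_dlog_span` (LEMMA OMEGA + C2-REG) with its hypothesis `hunr` discharged
by the landed leaf UNR `HurwitzEqB.exists_ord_sub_eq_one_four` (helper97), and the element of
`Fk k N` with `q`-expansion `x₄` constructed as in `Omega4` (`exists_x4_elt`).
-/
import Mathlib
import Fermat.Agent.S40x.C2.DlogSpan
import Fermat.Agent.S40x.C2.HurwitzEqB
import Fermat.Agent.S40x.C2.DlogHecke

set_option autoImplicit false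
set_option linter.unusedSectionVars false
set_option linter.style.haveILetI false

noncomputable section

namespace Fermat.Agent.S40x.C2.OmegaFinal

open Polynomial ModularCurve Fermat.Agent.S28 Fermat.Agent.Gateway.Red Fermat.Agent.Lib.Residue
open IntermediateField HahnSeries AlgebraicCurve CongruenceSubgroup Fermat.Agent.S24.Setup
open Fermat.Agent.Gateway.AuxLevel Fermat.Agent.Gateway.GoodRed
open Fermat.Agent.Gateway.GoodRed.ConjFamily UpperHalfPlane
open Fermat.Agent.S40x.C2.DlogSpan Fermat.Agent.S16.Two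

variable {N : ℕ} [NeZero N] (ℓ : ℕ) [Fact ℓ.Prime] (A : ValuationSubring Kbar)
  {k : Type} [Field k] [IsAlgClosed k] [CharP k ℓ] (π : A →+* k)
  (hπ : Function.Surjective π) (hℓN : ¬ ℓ ∣ N)

include hπ hℓN in
/-- the Hauptmodul `x₄` as an element of the special fibre at a level divisible by four. -/
theorem exists_x4_elt (h4 : 4 ∣ N) : ∃ t : Fk k N, (t : LaurentSeries k) = TLine4.x4k k := by
  set tL : FBar Kbar N := ⟨L4.x4K, L4.x4K_mem_of_dvd h4⟩ with htL
  have htLcoe : (tL : LaurentSeries Kbar) = coeffMap (Int.castRingHom Kbar) L4.x4 := rfl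
  exact ⟨resFk A π N ℓ hπ hℓN ⟨tL, intElt_mem_OvVal π ℓ hπ hℓN htLcoe⟩,
    coe_resFk_intElt π ℓ hπ hℓN htLcoe⟩

include hπ hℓN in
/-- **`hOmega` at a good level divisible by four**: logarithmic derivatives of functions of the
special fibre with divisor divisible by `ℓ` are `k`-combinations of reduced cusp forms. -/
theorem exists_basis_hOmega (h4 : 4 ∣ N) (hA : A.LiesOverPrime ℓ) :
    ∃ (f : Fin (Module.finrank ℂ (CuspForm (Gamma0 N) 2)) → CuspForm (Gamma0 N) 2)
      (qf : Fin (Module.finrank ℂ (CuspForm (Gamma0 N) 2)) → PowerSeries ℤ),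
      (∀ i, qExpansion 1 (f i) = (qf i).map (Int.castRingHom ℂ)) ∧
      (∀ i, PowerSeries.constantCoeff (qf i) = 0) ∧
      LinearIndependent ℂ f ∧ Submodule.span ℂ (Set.range f) = ⊤ ∧
      LinearIndependent k (fun i => (qf i).map (Int.castRingHom k)) ∧
      ∀ fb : Fk k N, fb ≠ 0 → (∀ P : Place k (Fk k N), (ℓ : ℤ) ∣ P.ord fb) →
        Fermat.Agent.S40x.C2.DlogHecke.dlog (fb : LaurentSeries k) ∈
          Submodule.span k (Set.range fun i : Fin (Module.finrank ℂ (CuspForm (Gamma0 N) 2)) =>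
            (HahnSeries.ofPowerSeries ℤ k ((qf i).map (Int.castRingHom k)) :
              LaurentSeries k)) := by
  classical
  obtain ⟨t, ht⟩ := exists_x4_elt ℓ A π hπ hℓN h4
  obtain ⟨f, qf, hqf, hc0, hfli, hfspan, hsat, hdl⟩ :=
    exists_basis_dlog_span ℓ A π hπ hℓN h4 hA t ht
      (Fermat.Agent.S40x.C2.HurwitzEqB.exists_ord_sub_eq_one_four ℓ A π hπ hℓN h4 hA t ht)
  refine ⟨f, qf, hqf, hc0, hfli, hfspan, hsat, ?_⟩
  intro fb hfb hf
  obtain ⟨c, hc⟩ := hdl fb hfb hf
  have hfbL : (fb : LaurentSeries k) ≠ 0 := fun h => hfb (Subtype.ext h)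
  have hd : Fermat.Agent.S40x.C2.DlogHecke.dlog (fb : LaurentSeries k) =
      ∑ i, c i • (HahnSeries.ofPowerSeries ℤ k ((qf i).map (Int.castRingHom k)) :
        LaurentSeries k) := by
    rw [Fermat.Agent.S40x.C2.DlogHecke.dlog, thetaL, hc, mul_div_assoc, mul_comm,
      div_mul_cancel₀ _ hfbL]
    refine Finset.sum_congr rfl fun i _ => ?_
    rw [HahnSeries.C_mul_eq_smul]
  rw [hd]
  exact Submodule.sum_mem _ fun i _ =>
    Submodule.smul_mem _ _ (Submodule.subset_span ⟨i, rfl⟩)

end Fermat.Agent.S40x.C2.OmegaFinal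

end
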