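import Fermat.Agent.S40x.C2.Asm4
import Fermat.Agent.S40x.C2.KH.Main
import Fermat.Agent.S40x.C2.Descent.OmegaDescended

/-!
# P-S44, block C2 (route OMEGA): the main theorem `c2_main` (`G4+` at the level `M'`)

Levels `M' ∣ Mh`, `4 ∣ Mh`, `q ∤ Mh` (`q = p` the residue characteristic, `Mh = lcm(4, M')` in the
application); `ξ ∈ Pic⁰(F_{Mh q})` a class of `X^f` outside `K_q` which is a simultaneous
eigenvector of the Hecke correspondences `T_ℓ`, `ℓ ∤ Mh q`, with eigenvalues `a ℓ ∈ ℤ`; `w` a Kummer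
function of `ξ`, unit at both Gauss valuations, whose two reductions lie in `Fk k M'` (`w` comes from
the level `M' q`).  Then there is a nonzero `k`-linear combination `g` of the reductions of a
saturated integral basis of `S₂(Γ₀(M'))` with `T_ℓ g = a ℓ • g` for every prime `ℓ ∤ Mh q`, `ℓ ∈ I`
(formal weight two Hecke operator `DlogHecke.heckeT`; `I` an arbitrary set of primes on which the
eigen-relations are known).

Inputs which are still hypotheses here:
* `hdesc` = helper53's `Descent.exists_cuspForm_of_descends` (note 2775), consumed through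
  helper23's `OmegaDescended.exists_basis_hOmega_descended`;
* `hKH₂` = Kummer-Hecke at the valuation `v_0` (helper42, in progress); the `v_∞` side is
  discharged by the landed `KH.heckeT_dlog_resInfty_Qb`.
-/

set_option autoImplicit false
set_option linter.style.haveILetI false
set_option linter.unusedSectionVars false

noncomputable section

namespace Fermat.Agent.S40x.C2.AsmMain

open ModularCurve AlgebraicCurve IntermediateField IsLocalRing HahnSeries CongruenceSubgroup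
open UpperHalfPlane
open Fermat.Agent.Gateway.Hecke Fermat.Agent.Gateway.ESC Fermat.Agent.Gateway.Kummer
open Fermat.Agent.Gateway.Red Fermat.Agent.Gateway.GoodRed
open Fermat.Agent.Gateway.GoodRed.ConjFamily (Fk jFk)
open Fermat.Agent.S24.Setup Fermat.Agent.Lib.Residue
open Fermat.Agent.S34x.TwoVal Fermat.Agent.S34x.C0two
open Fermat.Agent.S34x.Inst.RedSetupInst Fermat.Agent.S34x.Inst
open Fermat.Agent.S33x.KummerPn
open Fermat.Agent.S40x.Slope.UnitTwo Fermat.Agent.S40x.Slope.SlopeInv Fermat.Agent.S40x.Slope.Xf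
  Fermat.Agent.S40x.Slope.OfRedSetup Fermat.Agent.S40x.Slope.InstMq
open Fermat.Agent.S16.Two Fermat.Agent.S40x.C2.DlogHecke

attribute [local instance] Asm4.isAlgebraic_Kbar

/-! ### `X^f` gives divisibility of the orders of both reductions -/

section Abstract

variable {L : Type*} [Field L] {F : Type*} [Field F] [Algebra L F] [HasPrincipalDivisors L F]
  {k : Type*} [Field k] {E : Type*} [Field E] [Algebra k E] [HasPrincipalDivisors k E]
  {O₁ O₂ : ValuationSubring F} {ρ₁ : O₁ →+* E} {ρ₂ : O₂ →+* E} {p : ℕ}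

/-- for `ξ ∈ X^f` the orders of both reductions of a unit-normalised Kummer function are divisible
by `p` at every place -/
theorem dvd_ord_red_of_mem_Xf [IsAlgClosed L] (hD : FlatData (L := L) O₁ O₂ ρ₁ ρ₂ p)
    {ξ : Pic0 L F} (hξf : ξ ∈ Xf k hD) {w : F} (hw : IsKummerRep p ξ w)
    (hU : UnitTwo O₁ O₂ w) (P : Place k E) :
    (p : ℤ) ∣ P.ord (red O₁ ρ₁ w) ∧ (p : ℤ) ∣ P.ord (red O₂ ρ₂ w) := by
  obtain ⟨⟨η₁, h₁⟩, ⟨η₂, h₂⟩⟩ := exists_redClass_of_mem_Xf hD hξf
  exact ⟨(h₁.of_rep hD.S₁ hw hU).dvd_ord P, (h₂.of_rep hD.S₂ hw hU).dvd_ord P⟩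

end Abstract

/-! ### The main theorem -/

variable {A : ValuationSubring Kbar}
  {k : Type} [Field k] {π : A →+* k} [IsAlgClosed k]
variable {Mh q : ℕ} [NeZero Mh] [NeZero q] [Fact q.Prime] [CharP k q]
variable {hdeg : finrankAlong Kbar (heckeAlphaBar Kbar Mh q) = q + 1} {hq : q.Prime}
  {hqM : ¬ q ∣ Mh}
variable {hrk : ∀ x ∈ maximalIdeal A, ∀ c : A, c ≠ 0 → ∃ j : ℕ, c ∣ x ^ j}
  {hπ : Function.Surjective π}
variable (H : ResidueFacts A π Mh q hdeg hq hqM hrk hπ) (hA : A.LiesOverPrime q)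

/-- **`c2_main`**: `G4+` at the level `M'`.  The saturated integral basis `(f', qf')` of
`S₂(Γ₀(M'))` is chosen FIRST (it does not depend on the class). -/
theorem c2_main {M' : ℕ} [NeZero M'] (hM : M' ∣ Mh) (h4 : 4 ∣ Mh)
    (hdesc : ∀ (s : CuspForm (Gamma0 Mh) 2) (qs : PowerSeries A),
      qExpansion 1 s = qs.map (iota.comp A.subtype) →
      ∀ y0 : LaurentSeries k, y0 ∈ Fk k M' →
      HahnSeries.ofPowerSeries ℤ k (qs.map π) =
        y0 * (HahnSeries.single (1 : ℤ) (1 : k) * D (jqModC k)) →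
      ∃ (s' : CuspForm (Gamma0 M') 2) (qs' : PowerSeries A),
        qExpansion 1 s' = qs'.map (iota.comp A.subtype) ∧ qs'.map π = qs.map π) :
    ∃ (f' : Fin (Module.finrank ℂ (CuspForm (Gamma0 M') 2)) → CuspForm (Gamma0 M') 2)
      (qf' : Fin (Module.finrank ℂ (CuspForm (Gamma0 M') 2)) → PowerSeries ℤ),
      (∀ j, qExpansion 1 (f' j) = (qf' j).map (Int.castRingHom ℂ)) ∧
      (∀ j, PowerSeries.constantCoeff (qf' j) = 0) ∧
      LinearIndependent ℂ f' ∧ Submodule.span ℂ (Set.range f') = ⊤ ∧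
      LinearIndependent k (fun j => (qf' j).map (Int.castRingHom k)) ∧
      ∀ (a : ℕ → ℤ) (I : Set ℕ),
        (∀ (ℓ : ℕ) [NeZero ℓ], ℓ.Prime → ¬ ℓ ∣ Mh * q → ℓ ∈ I →
          ∀ (ξ : Pic0 Kbar (FL Kbar (Mh * q))) (w : FL Kbar (Mh * q)), IsKummerRep q ξ w →
            UnitTwo (valInfty A π Mh q hrk hπ hqM) (valZero A π Mh q hdeg hq hqM hrk hπ) w →
            heckeOperatorAlong Kbar (Mh * q) ℓ ξ = a ℓ • ξ →
            heckeT ℓ (dlog ((red (valZero A π Mh q hdeg hq hqM hrk hπ) (redSetupZero H hA).res w :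
                modularFunctionFieldFullC k Mh) : LaurentSeries k)) =
              ((a ℓ : ℤ) : k) • dlog ((red (valZero A π Mh q hdeg hq hqM hrk hπ)
                (redSetupZero H hA).res w : modularFunctionFieldFullC k Mh) : LaurentSeries k)) →
        ∀ {ξ : Pic0 Kbar (FL Kbar (Mh * q))}, ξ ∈ XfMq H hA hq.pos → ξ ∉ Km H hA q →
          (∀ (ℓ : ℕ) [NeZero ℓ], ℓ.Prime → ¬ ℓ ∣ Mh * q → ℓ ∈ I →
            heckeOperatorAlong Kbar (Mh * q) ℓ ξ = a ℓ • ξ) →
          ∀ {w : FL Kbar (Mh * q)}, IsKummerRep q ξ w →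
            UnitTwo (valInfty A π Mh q hrk hπ hqM) (valZero A π Mh q hdeg hq hqM hrk hπ) w →
            ((red (valInfty A π Mh q hrk hπ hqM) (redSetupInfty H hA).res w :
              modularFunctionFieldFullC k Mh) : LaurentSeries k) ∈ Fk k M' →
            ((red (valZero A π Mh q hdeg hq hqM hrk hπ) (redSetupZero H hA).res w :
              modularFunctionFieldFullC k Mh) : LaurentSeries k) ∈ Fk k M' →
            ∃ (c : Fin (Module.finrank ℂ (CuspForm (Gamma0 M') 2)) → k) (g : LaurentSeries k),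
              g = ∑ j, HahnSeries.C (c j) *
                HahnSeries.ofPowerSeries ℤ k ((qf' j).map (Int.castRingHom k)) ∧
              g ≠ 0 ∧
              ∀ (ℓ : ℕ) [NeZero ℓ], ℓ.Prime → ¬ ℓ ∣ Mh * q → ℓ ∈ I →
                heckeT ℓ g = HahnSeries.C ((a ℓ : ℤ) : k) * g := by
  classical
  have hMk : ((Mh : ℕ) : k) ≠ 0 := natCast_M_ne_zero hqM
  haveI : HasPrincipalDivisors k (modularFunctionFieldFullC k Mh) :=
    Fermat.Agent.Gateway.FkBasics.hasPrincipalDivisors_Fk k Mh hMk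
  -- the descended `hOmega`
  obtain ⟨f', qf', hqf', hc0', hfli', hfspan', hsat', hOm'⟩ :=
    Descent.OmegaDescended.exists_basis_hOmega_descended q A π hπ hM h4 hqM hA hdesc
  refine ⟨f', qf', hqf', hc0', hfli', hfspan', hsat', ?_⟩
  intro a I hKH₂ ξ hξf hξ1 heig w hw hU hw₁ hw₂
  -- the assembly at the level `Mh`
  obtain ⟨f, qf, -, -, -, -, -, hfour⟩ := Asm4.eigen_four H hA h4
  -- the Hecke data
  let ι : Type := {ℓ : ℕ // ℓ.Prime ∧ ¬ ℓ ∣ Mh * q ∧ ℓ ∈ I}
  let T : ι → Pic0 Kbar (FL Kbar (Mh * q)) → Pic0 Kbar (FL Kbar (Mh * q)) := fun i =>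
    haveI : NeZero i.1 := ⟨i.2.1.ne_zero⟩
    heckeOperatorAlong Kbar (Mh * q) i.1
  let Hop : ι → LaurentSeries k → LaurentSeries k := fun i =>
    haveI : NeZero i.1 := ⟨i.2.1.ne_zero⟩
    heckeT i.1
  have hcast : ∀ (n : ℤ) (x : LaurentSeries k), (n : LaurentSeries k) * x = ((n : ℤ) : k) • x := by
    intro n x
    rw [← HahnSeries.C_mul_eq_smul, map_intCast]
  have hKH₁' : ∀ (i : ι) (ξ : Pic0 Kbar (FL Kbar (Mh * q))) (w : FL Kbar (Mh * q)),
      IsKummerRep q ξ w →
      UnitTwo (valInfty A π Mh q hrk hπ hqM) (valZero A π Mh q hdeg hq hqM hrk hπ) w →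
      T i ξ = (fun i : ι => a i.1) i • ξ →
      Hop i (dlog ((red (valInfty A π Mh q hrk hπ hqM) (redSetupInfty H hA).res w :
          modularFunctionFieldFullC k Mh) : LaurentSeries k)) =
        (((fun i : ι => a i.1) i : ℤ) : k) • dlog ((red (valInfty A π Mh q hrk hπ hqM)
          (redSetupInfty H hA).res w : modularFunctionFieldFullC k Mh) : LaurentSeries k) := by
    intro i ξ' w' hw' hU' hx
    haveI : NeZero i.1 := ⟨i.2.1.ne_zero⟩
    obtain ⟨hfO, hkey⟩ := KH.heckeT_dlog_resInfty_Qb H i.2.1 i.2.2.1 hx hw' hU'.1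
    have hred : red (valInfty A π Mh q hrk hπ hqM) (redSetupInfty H hA).res w' =
        resInfty H ⟨w', hfO⟩ := red_of_mem hfO
    rw [hred]
    show heckeT i.1 _ = _
    rw [hkey, hcast]
  have hKH₂' : ∀ (i : ι) (ξ : Pic0 Kbar (FL Kbar (Mh * q))) (w : FL Kbar (Mh * q)),
      IsKummerRep q ξ w →
      UnitTwo (valInfty A π Mh q hrk hπ hqM) (valZero A π Mh q hdeg hq hqM hrk hπ) w →
      T i ξ = (fun i : ι => a i.1) i • ξ →
      Hop i (dlog ((red (valZero A π Mh q hdeg hq hqM hrk hπ) (redSetupZero H hA).res w :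
          modularFunctionFieldFullC k Mh) : LaurentSeries k)) =
        (((fun i : ι => a i.1) i : ℤ) : k) • dlog ((red (valZero A π Mh q hdeg hq hqM hrk hπ)
          (redSetupZero H hA).res w : modularFunctionFieldFullC k Mh) : LaurentSeries k) := by
    intro i ξ' w' hw' hU' hx
    haveI : NeZero i.1 := ⟨i.2.1.ne_zero⟩
    exact hKH₂ i.1 i.2.1 i.2.2.1 i.2.2.2 ξ' w' hw' hU' hx
  have heig' : ∀ i : ι, T i ξ = (fun i : ι => a i.1) i • ξ := by
    intro i
    haveI : NeZero i.1 := ⟨i.2.1.ne_zero⟩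
    exact heig i.1 i.2.1 i.2.2.1 i.2.2.2
  obtain ⟨fb, hfb, hfb0, hdl0, -, heigfb⟩ :=
    hfour T Hop (fun i : ι => a i.1) hKH₁' hKH₂' hξf hξ1 heig' hw hU
  -- `fb` comes from the level `M'` and has orders divisible by `q`
  have hfbM' : (fb : LaurentSeries k) ∈ Fk k M' := by
    rcases hfb with rfl | rfl
    · exact hw₁
    · exact hw₂
  have hord : ∀ P : Place k (Fk k Mh), (q : ℤ) ∣ P.ord fb := by
    intro P
    have h := dvd_ord_red_of_mem_Xf (flatDataMq H hA hq.pos) hξf hw hU P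
    rcases hfb with rfl | rfl
    · exact h.1
    · exact h.2
  have hmem := hOm' fb hfb0 hfbM' hord
  obtain ⟨c, hc⟩ := (Submodule.mem_span_range_iff_exists_fun k).mp hmem
  refine ⟨c, dlog (fb : LaurentSeries k), ?_, hdl0, ?_⟩
  · rw [← hc]
    exact Finset.sum_congr rfl fun j _ => (HahnSeries.C_mul_eq_smul).symm
  · intro ℓ _ hℓ hℓN hℓI
    have h := heigfb ⟨ℓ, hℓ, hℓN, hℓI⟩
    rw [HahnSeries.C_mul_eq_smul]
    exact h

end Fermat.Agent.S40x.C2.AsmMain

end
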