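import Fermat.Agent.S40x.Slope.InstMq
import Fermat.Agent.S40x.Slope.UnitTwoSub
import Fermat.Agent.S34x.TwoVal.Iota0Level
import Fermat.Agent.S34x.TwoVal.ResidueInst
import Fermat.Agent.S34x.Inst.HDeg

/-!
# P-S44, block C2 (route OMEGA): compatibility of the levels `M' q ∣ Mh q` (seam (G-b) of `c2_main`)

Setting of `Slope/InstMq` at the level `Mh q` (`q ∤ Mh` the residue characteristic), `M' ∣ Mh`.
The function field `F_{M' q}` sits inside `F_{Mh q}` (`inc`), and

* `inc_mem_valInfty_iff`, `inc_mem_valZero_iff` : the two Gauss valuation rings of `F_{Mh q}`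
  restrict to the two Gauss valuation rings of `F_{M' q}`;
* `coe_resInfty_inc`, `coe_resZero_inc` : the two reductions of an element coming from `F_{M' q}`
  are its reductions at the level `M' q`; in particular they lie in `Fk k M'`
  (`coe_resInfty_inc_mem`, `coe_resZero_inc_mem`);
* `exists_node_inc` : a node element (unit at `v_∞`, small at `v_0`) in the image of `F_{M' q}`;
* `exists_rep_reductions_mem` : **a class of `Pic⁰(F_{Mh q})` with a Kummer function coming from
  `F_{M' q}` has a Kummer function `w` which is a unit at both valuations and whose two reductions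
  lie in `Fk k M'`** = the hypotheses `hw`, `hU`, `hw₁`, `hw₂` of `AsmMain.c2_main`.
-/

set_option autoImplicit false
set_option linter.style.haveILetI false
set_option linter.unusedSectionVars false

noncomputable section

namespace Fermat.Agent.S40x.C2.LevelCompat

open ModularCurve AlgebraicCurve IntermediateField IsLocalRing
open Fermat.Agent.Gateway.Hecke Fermat.Agent.Gateway.ESC Fermat.Agent.Gateway.Kummer
open Fermat.Agent.Gateway.Red Fermat.Agent.Gateway.GoodRed
open Fermat.Agent.S34x.TwoVal Fermat.Agent.S34x.C0two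
open Fermat.Agent.S34x.Inst.RedSetupInst Fermat.Agent.S34x.Inst
open Fermat.Agent.S33x.KummerPn
open Fermat.Agent.S40x.Slope.UnitTwo Fermat.Agent.S40x.Slope.SlopeInv Fermat.Agent.S40x.Slope.Xf
  Fermat.Agent.S40x.Slope.OfRedSetup Fermat.Agent.S40x.Slope.InstMq

variable {L : Type} [Field L] [Algebra ℚ L] [IsAlgClosed L] [Algebra.IsAlgebraic ℚ L]
  {A : ValuationSubring L}
  {k : Type} [Field k] {π : A →+* k} [IsAlgClosed k]
variable {Mh q : ℕ} [NeZero Mh] [NeZero q] [Fact q.Prime] [CharP k q]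
variable {hdeg : finrankAlong L (heckeAlphaBar L Mh q) = q + 1} {hq : q.Prime} {hqM : ¬ q ∣ Mh}
variable {hrk : ∀ x ∈ maximalIdeal A, ∀ c : A, c ≠ 0 → ∃ j : ℕ, c ∣ x ^ j}
  {hπ : Function.Surjective π}
variable {M' : ℕ} [NeZero M']
  {hdeg' : finrankAlong L (heckeAlphaBar L M' q) = q + 1} {hqM' : ¬ q ∣ M'}

/-- the inclusion `F_{M' q} → F_{Mh q}` -/
def inc (hM : M' ∣ Mh) : FL L (M' * q) →ₐ[L] FL L (Mh * q) :=
  IntermediateField.inclusion (FL_le_of_dvd (L := L) (mul_dvd_mul_right hM q))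

theorem coe_inc (hM : M' ∣ Mh) (x : FL L (M' * q)) :
    ((inc (L := L) (q := q) hM x : FL L (Mh * q)) : LaurentSeries L) = (x : LaurentSeries L) :=
  IntermediateField.coe_inclusion _ x

/-- `v_∞` restricts to `v_∞` -/
theorem inc_mem_valInfty_iff (hM : M' ∣ Mh) (x : FL L (M' * q)) :
    inc (L := L) (q := q) hM x ∈ valInfty A π Mh q hrk hπ hqM ↔
      x ∈ valInfty A π M' q hrk hπ hqM' := by
  rw [mem_valInfty_iff, mem_valInfty_iff, mem_Ov_iff, mem_Ov_iff]
  show ((inc (L := L) (q := q) hM x : FL L (Mh * q)) : LaurentSeries L) ∈ gaussRing A π ↔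
    (x : LaurentSeries L) ∈ gaussRing A π
  rw [coe_inc]

/-- `v_0` restricts to `v_0` -/
theorem inc_mem_valZero_iff (hM : M' ∣ Mh) (x : FL L (M' * q)) :
    inc (L := L) (q := q) hM x ∈ valZero A π Mh q hdeg hq hqM hrk hπ ↔
      x ∈ valZero A π M' q hdeg' hq hqM' hrk hπ :=
  inclusion_mem_Ov0_iff hM hdeg' hdeg hq hqM' hqM A π x

/-! ### The reductions -/

/-- the `v_∞`-reduction of an element coming from `F_{M' q}` is its reduction at the level `M' q` -/
theorem coe_resInfty_inc (H : ResidueFacts A π Mh q hdeg hq hqM hrk hπ)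
    (H' : ResidueFacts A π M' q hdeg' hq hqM' hrk hπ) (hM : M' ∣ Mh) (x : FL L (M' * q))
    (hx : x ∈ valInfty A π M' q hrk hπ hqM') :
    ((resInfty H ⟨inc (L := L) (q := q) hM x,
        (inc_mem_valInfty_iff (hqM := hqM) (hqM' := hqM') hM x).mpr hx⟩ :
      modularFunctionFieldFullC k Mh) : LaurentSeries k) =
    ((resInfty H' ⟨x, hx⟩ : modularFunctionFieldFullC k M') : LaurentSeries k) := by
  rw [coe_resInfty, coe_resInfty, redV_apply, redV_apply]
  exact gaussRed_congr A π (coe_inc hM x) _ _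

/-- the `v_0`-reduction of an element coming from `F_{M' q}` is its reduction at the level `M' q` -/
theorem coe_resZero_inc (H : ResidueFacts A π Mh q hdeg hq hqM hrk hπ)
    (H' : ResidueFacts A π M' q hdeg' hq hqM' hrk hπ) (hM : M' ∣ Mh) (x : FL L (M' * q))
    (hx : x ∈ valZero A π M' q hdeg' hq hqM' hrk hπ) :
    ((resZero H ⟨inc (L := L) (q := q) hM x,
        (inc_mem_valZero_iff (hdeg := hdeg) (hqM := hqM) hM x).mpr hx⟩ :
      modularFunctionFieldFullC k Mh) : LaurentSeries k) =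
    ((resZero H' ⟨x, hx⟩ : modularFunctionFieldFullC k M') : LaurentSeries k) := by
  rw [coe_resZero, coe_resZero]
  exact red0_inclusion hM hdeg' hdeg hq hqM' hqM A π x hx

theorem coe_resInfty_inc_mem (H : ResidueFacts A π Mh q hdeg hq hqM hrk hπ)
    (H' : ResidueFacts A π M' q hdeg' hq hqM' hrk hπ) (hM : M' ∣ Mh) (x : FL L (M' * q))
    (hx : x ∈ valInfty A π M' q hrk hπ hqM') :
    ((resInfty H ⟨inc (L := L) (q := q) hM x,
        (inc_mem_valInfty_iff (hqM := hqM) (hqM' := hqM') hM x).mpr hx⟩ :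
      modularFunctionFieldFullC k Mh) : LaurentSeries k) ∈ modularFunctionFieldFullC k M' := by
  rw [coe_resInfty_inc H H' hM x hx]
  exact (resInfty H' ⟨x, hx⟩).2

theorem coe_resZero_inc_mem (H : ResidueFacts A π Mh q hdeg hq hqM hrk hπ)
    (H' : ResidueFacts A π M' q hdeg' hq hqM' hrk hπ) (hM : M' ∣ Mh) (x : FL L (M' * q))
    (hx : x ∈ valZero A π M' q hdeg' hq hqM' hrk hπ) :
    ((resZero H ⟨inc (L := L) (q := q) hM x,
        (inc_mem_valZero_iff (hdeg := hdeg) (hqM := hqM) hM x).mpr hx⟩ :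
      modularFunctionFieldFullC k Mh) : LaurentSeries k) ∈ modularFunctionFieldFullC k M' := by
  rw [coe_resZero_inc H H' hM x hx]
  exact (resZero H' ⟨x, hx⟩).2

/-! ### A node element coming from the level `M' q` -/

/-- **a node element in the image of `F_{M' q}`**: unit at `v_∞`, small at `v_0`. -/
theorem exists_node_inc (H : ResidueFacts A π Mh q hdeg hq hqM hrk hπ) (hA : A.LiesOverPrime q)
    (H' : ResidueFacts A π M' q hdeg' hq hqM' hrk hπ) (hM : M' ∣ Mh) :
    ∃ u : FL L (M' * q),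
      (valInfty A π Mh q hrk hπ hqM).valuation (inc (L := L) (q := q) hM u) = 1 ∧
      ∃ ϖ₀ : L, ϖ₀ ≠ 0 ∧ A.valuation ϖ₀ < 1 ∧
        (valZero A π Mh q hdeg hq hqM hrk hπ).valuation (inc (L := L) (q := q) hM u) ≤
          (valZero A π Mh q hdeg hq hqM hrk hπ).valuation (algebraMap L (FL L (Mh * q)) ϖ₀) := by
  obtain ⟨s, hs, hs0, h1, h2⟩ := exists_separating' A π M' q hdeg' hq hqM' hπ
  have hsO₁ : inc (L := L) (q := q) hM s ∈ valInfty A π Mh q hrk hπ hqM :=
    (inc_mem_valInfty_iff (hqM := hqM) (hqM' := hqM') hM s).mpr hs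
  have hsO₂ : inc (L := L) (q := q) hM s ∈ valZero A π Mh q hdeg hq hqM hrk hπ :=
    (inc_mem_valZero_iff (hdeg := hdeg) (hqM := hqM) hM s).mpr hs0
  have e₁ : (redSetupInfty H hA).res ⟨inc (L := L) (q := q) hM s, hsO₁⟩ = 1 := by
    apply Subtype.ext
    show ((resInfty H ⟨inc (L := L) (q := q) hM s, hsO₁⟩ : modularFunctionFieldFullC k Mh) :
      LaurentSeries k) = _
    rw [coe_resInfty_inc H H' hM s hs, coe_resInfty]
    exact h1
  have e₂ : (redSetupZero H hA).res ⟨inc (L := L) (q := q) hM s, hsO₂⟩ = 0 := by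
    apply Subtype.ext
    show ((resZero H ⟨inc (L := L) (q := q) hM s, hsO₂⟩ : modularFunctionFieldFullC k Mh) :
      LaurentSeries k) = _
    rw [coe_resZero_inc H H' hM s hs0, coe_resZero]
    exact h2
  have hv1 : (valInfty A π Mh q hrk hπ hqM).valuation (inc (L := L) (q := q) hM s) = 1 :=
    val_eq_one_of_res_ne_zero (redSetupInfty H hA) hsO₁ (by rw [e₁]; exact one_ne_zero)
  have hv2 : (valZero A π Mh q hdeg hq hqM hrk hπ).valuation (inc (L := L) (q := q) hM s) < 1 :=
    ((redSetupZero H hA).res_ker ⟨_, hsO₂⟩).mp e₂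
  obtain ⟨ϖ, hϖ, y, hy, hsy⟩ := (redSetupZero H hA).base.unram _ hv2
  have hs0' : inc (L := L) (q := q) hM s ≠ 0 := by
    intro h0
    rw [h0, map_zero] at hv1
    exact zero_ne_one hv1
  have hϖ0 : (ϖ : L) ≠ 0 := by
    intro h0
    have : ϖ = 0 := Subtype.ext h0
    exact hs0' (by rw [hsy, this, zero_smul])
  refine ⟨s, hv1, (ϖ : L), hϖ0, (A.valuation_lt_one_iff _).mp hϖ, ?_⟩
  have hy1 : (valZero A π Mh q hdeg hq hqM hrk hπ).valuation y ≤ 1 :=
    (ValuationSubring.valuation_le_one_iff _ _).mpr hy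
  rw [hsy, (redSetupZero H hA).smul_eq, map_mul]
  exact mul_le_of_le_one_right' hy1

/-! ### The seam (G-b) of `c2_main` -/

/-- **Kummer functions coming from the level `M' q`**: if the class `ξ ∈ Pic⁰(F_{Mh q})` has a
Kummer function in (the image of) `F_{M' q}`, `M' ∣ Mh`, then it has a Kummer function `w`, again
in the image of `F_{M' q}`, which is a unit at both Gauss valuations and whose two reductions lie in
`Fk k M'`. -/
theorem exists_rep_reductions_mem (H : ResidueFacts A π Mh q hdeg hq hqM hrk hπ)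
    (hA : A.LiesOverPrime q) (hM : M' ∣ Mh) {ξ : Pic0 L (FL L (Mh * q))} {w₀ : FL L (M' * q)}
    (hw₀ : IsKummerRep q ξ (inc (L := L) (q := q) hM w₀)) :
    ∃ w : FL L (Mh * q), IsKummerRep q ξ w ∧
      UnitTwo (valInfty A π Mh q hrk hπ hqM) (valZero A π Mh q hdeg hq hqM hrk hπ) w ∧
      ((red (valInfty A π Mh q hrk hπ hqM) (redSetupInfty H hA).res w :
        modularFunctionFieldFullC k Mh) : LaurentSeries k) ∈ modularFunctionFieldFullC k M' ∧
      ((red (valZero A π Mh q hdeg hq hqM hrk hπ) (redSetupZero H hA).res w :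
        modularFunctionFieldFullC k Mh) : LaurentSeries k) ∈ modularFunctionFieldFullC k M' ∧
      ∃ w' : FL L (M' * q), inc (L := L) (q := q) hM w' = w := by
  have hqM' : ¬ q ∣ M' := fun h => hqM (h.trans hM)
  have hdeg' : finrankAlong L (heckeAlphaBar L M' q) = q + 1 :=
    Fermat.Agent.S34x.Inst.HDeg.finrankAlong_alpha L M' q hq hqM'
  have H' : ResidueFacts A π M' q hdeg' hq hqM' hrk hπ :=
    ResidueInst.residueFacts A π M' q hdeg' hq hqM' hrk hπ
  obtain ⟨u, hu1, ϖ₀, hϖ₀0, hϖ₀, hu2⟩ := exists_node_inc H hA H' hM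
  obtain ⟨w, ⟨w', rfl⟩, hw, hU⟩ :=
    Fermat.Agent.S40x.Slope.UnitTwoSub.exists_unitTwo_kummerRep_mem (twoValDataMq H hA)
      (inc (L := L) (q := q) hM).fieldRange ⟨u, rfl⟩ hu1 hϖ₀0 hϖ₀ hu2 hq.pos hw₀ ⟨w₀, rfl⟩
  have hm₁ : w' ∈ valInfty A π M' q hrk hπ hqM' :=
    (inc_mem_valInfty_iff (hqM := hqM) (hqM' := hqM') hM w').mp hU.mem₁
  have hm₂ : w' ∈ valZero A π M' q hdeg' hq hqM' hrk hπ :=
    (inc_mem_valZero_iff (hdeg := hdeg) (hqM := hqM) hM w').mp hU.mem₂
  refine ⟨_, hw, hU, ?_, ?_, w', rfl⟩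
  · rw [red_of_mem hU.mem₁]
    exact coe_resInfty_inc_mem H H' hM w' hm₁
  · rw [red_of_mem hU.mem₂]
    exact coe_resZero_inc_mem H H' hM w' hm₂

end Fermat.Agent.S40x.C2.LevelCompat

end
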