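import Fermat.Agent.S40x.C2.DescentB.C2Closed
import Fermat.Agent.S40x.C2.LevelCompat

/-!
# P-S44, block C2 (route OMEGA): `c2_closed` for a class with a Kummer function from the level `M' q`

`DescentB/C2Closed.c2_closed` (helper23: `AsmMain.c2_main` with `hdesc` and `hKH₂` discharged) still
asks for ONE Kummer function `w` of the class `ξ ∈ Pic⁰(F_{Mh q})`, unit at both Gauss valuations,
whose two reductions lie in `Fk k M'` (hypotheses `hw`, `hU`, `hw₁`, `hw₂`).  By
`LevelCompat.exists_rep_reductions_mem` it suffices that `ξ` has SOME Kummer function coming from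
the function field of level `M' q`, i.e. of the form `LevelCompat.inc hM w₀`, `w₀ : F_{M' q}`
(`KummerPull.isKummerRep_pullbackPic` gives one for the pull-back of a class of level `M' q`;
`Incl.incl (mul_dvd_mul_right hM q) u` and `LevelCompat.inc hM u` are definitionally equal).

`c2_closed_of_level` : NO hypothesis of block C2 is left: the inputs are the class `ξ ∈ X^f`,
`ξ ∉ K_q`, its eigen-relations on `I`, and `hw₀`.
-/

set_option autoImplicit false
set_option linter.style.haveILetI false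
set_option linter.unusedSectionVars false

noncomputable section

namespace Fermat.Agent.S40x.C2.AsmMainLevel

open ModularCurve AlgebraicCurve IntermediateField IsLocalRing HahnSeries CongruenceSubgroup
open UpperHalfPlane
open Fermat.Agent.Gateway.Hecke Fermat.Agent.Gateway.ESC Fermat.Agent.Gateway.Kummer
open Fermat.Agent.Gateway.Red Fermat.Agent.Gateway.GoodRed
open Fermat.Agent.Gateway.GoodRed.ConjFamily (Fk jFk)
open Fermat.Agent.S24.Setup Fermat.Agent.Lib.Residue
open Fermat.Agent.S34x.TwoVal Fermat.Agent.S34x.C0two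
open Fermat.Agent.S34x.Inst.RedSetupInst Fermat.Agent.S34x.Inst
open Fermat.Agent.S33x.KummerPn
open Fermat.Agent.S40x.Slope.UnitTwo Fermat.Agent.S40x.Slope.SlopeInv Fermat.Agent.S40x.Slope.Xf
  Fermat.Agent.S40x.Slope.OfRedSetup Fermat.Agent.S40x.Slope.InstMq
open Fermat.Agent.S16.Two Fermat.Agent.S40x.C2.DlogHecke

attribute [local instance] Fermat.Agent.S40x.C2.Asm4.isAlgebraic_Kbar

variable {A : ValuationSubring Kbar}
  {k : Type} [Field k] {π : A →+* k} [IsAlgClosed k]
variable {Mh q : ℕ} [NeZero Mh] [NeZero q] [Fact q.Prime] [CharP k q]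
variable {hdeg : finrankAlong Kbar (heckeAlphaBar Kbar Mh q) = q + 1} {hq : q.Prime}
  {hqM : ¬ q ∣ Mh}
variable {hrk : ∀ x ∈ maximalIdeal A, ∀ c : A, c ≠ 0 → ∃ j : ℕ, c ∣ x ^ j}
  {hπ : Function.Surjective π}
variable (H : ResidueFacts A π Mh q hdeg hq hqM hrk hπ) (hA : A.LiesOverPrime q)

/-- **`c2_closed` for classes with a Kummer function from the level `M' q`.** -/
theorem c2_closed_of_level {M' : ℕ} [NeZero M'] (hM : M' ∣ Mh) (h4 : 4 ∣ Mh)
    (hMh : Mh ∣ Nat.lcm 4 M') (h5 : 5 ≤ q) :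
    ∃ (f' : Fin (Module.finrank ℂ (CuspForm (Gamma0 M') 2)) → CuspForm (Gamma0 M') 2)
      (qf' : Fin (Module.finrank ℂ (CuspForm (Gamma0 M') 2)) → PowerSeries ℤ),
      (∀ j, qExpansion 1 (f' j) = (qf' j).map (Int.castRingHom ℂ)) ∧
      (∀ j, PowerSeries.constantCoeff (qf' j) = 0) ∧
      LinearIndependent ℂ f' ∧ Submodule.span ℂ (Set.range f') = ⊤ ∧
      LinearIndependent k (fun j => (qf' j).map (Int.castRingHom k)) ∧
      ∀ (a : ℕ → ℤ) (I : Set ℕ),
        ∀ {ξ : Pic0 Kbar (FL Kbar (Mh * q))}, ξ ∈ XfMq H hA hq.pos → ξ ∉ Km H hA q →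
          (∀ (ℓ : ℕ) [NeZero ℓ], ℓ.Prime → ¬ ℓ ∣ Mh * q → ℓ ∈ I →
            heckeOperatorAlong Kbar (Mh * q) ℓ ξ = a ℓ • ξ) →
          ∀ {w₀ : FL Kbar (M' * q)},
            IsKummerRep q ξ (LevelCompat.inc (L := Kbar) (q := q) hM w₀) →
            ∃ (c : Fin (Module.finrank ℂ (CuspForm (Gamma0 M') 2)) → k) (g : LaurentSeries k),
              g = ∑ j, HahnSeries.C (c j) *
                HahnSeries.ofPowerSeries ℤ k ((qf' j).map (Int.castRingHom k)) ∧
              g ≠ 0 ∧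
              ∀ (ℓ : ℕ) [NeZero ℓ], ℓ.Prime → ¬ ℓ ∣ Mh * q → ℓ ∈ I →
                heckeT ℓ g = HahnSeries.C ((a ℓ : ℤ) : k) * g := by
  obtain ⟨f', qf', hqf', hc0', hfli', hfspan', hsat', hmain⟩ :=
    Fermat.Agent.S40x.C2.DescentB.C2Closed.c2_closed H hA hM h4 hMh h5
  refine ⟨f', qf', hqf', hc0', hfli', hfspan', hsat', ?_⟩
  intro a I ξ hξf hξ1 heig w₀ hw₀
  obtain ⟨w, hw, hU, hw₁, hw₂, -⟩ := LevelCompat.exists_rep_reductions_mem H hA hM hw₀
  exact hmain a I hξf hξ1 heig hw hU hw₁ hw₂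

end Fermat.Agent.S40x.C2.AsmMainLevel

end
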