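import Fermat.Agent.S40x.C2.AsmMain

/-!
# P-S44, block C2 (route OMEGA): `c2_main` restricted to a set of primes (helper66)

`AsmMain.c2_main` asks for the eigen-relation `T_ℓ ξ = a ℓ • ξ` at EVERY prime `ℓ ∤ Mh q`, but the
producer (`Level/G0.EigenAt`) only supplies it for the primes `ℓ ∉ S` (the character `θ` lives on the
Hecke algebra away from the finite set `S`, which is arbitrary in `LeafGEO'`).  Here is the same
theorem with an extra predicate `Pr` on the primes: the hypotheses `heig`, `hKH₂` and the conclusion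
are restricted to the primes `ℓ ∤ Mh q` with `Pr ℓ` (application: `Pr ℓ := ℓ ∉ S`).  The proof is
the proof of `c2_main` with the index type `{ℓ // ℓ.Prime ∧ ¬ ℓ ∣ Mh * q ∧ Pr ℓ}`.
-/

set_option autoImplicit false
set_option linter.style.haveILetI false
set_option linter.unusedSectionVars false

noncomputable section

namespace Fermat.Agent.S40x.C2.AsmMainS

open ModularCurve AlgebraicCurve IntermediateField IsLocalRing HahnSeries CongruenceSubgroup
open UpperHalfPlane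
open Fermat.Agent.Gateway.Hecke Fermat.Agent.Gateway.ESC Fermat.Agent.Gateway.Kummer
open Fermat.Agent.Gateway.Red Fermat.Agent.Gateway.GoodRed
open Fermat.Agent.Gateway.GoodRed.ConjFamily (Fk jFk)
open Fermat.Agent.S24.Setup Fermat.Agent.Lib.Residue
open Fermat.Agent.S34x.TwoVal Fermat.Agent.S34x.C0two
open Fermat.Agent.S34x.Inst.RedSetupInst Fermat.Agent.S34x.Inst
open Fermat.Agent.S33x.KummerPn
open Fermat.Agent.S40x.Slope.UnitTwo Fermat.Agent.S40x.Slope.SlopeInv Fermat.Agent.S40x.Slope.Xf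
  Fermat.Agent.S40x.Slope.OfRedSetup Fermat.Agent.S40x.Slope.InstMq
open Fermat.Agent.S16.Two Fermat.Agent.S40x.C2.DlogHecke
open Fermat.Agent.S40x.C2.AsmMain

attribute [local instance] Asm4.isAlgebraic_Kbar

/-! ### The main theorem -/

variable {A : ValuationSubring Kbar}
  {k : Type} [Field k] {π : A →+* k} [IsAlgClosed k]
variable {Mh q : ℕ} [NeZero Mh] [NeZero q] [Fact q.Prime] [CharP k q]
variable {hdeg : finrankAlong Kbar (heckeAlphaBar Kbar Mh q) = q + 1} {hq : q.Prime}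
  {hqM : ¬ q ∣ Mh}
variable {hrk : ∀ x ∈ maximalIdeal A, ∀ c : A, c ≠ 0 → ∃ j : ℕ, c ∣ x ^ j}
  {hπ : Function.Surjective π}
variable (H : ResidueFacts A π Mh q hdeg hq hqM hrk hπ) (hA : A.LiesOverPrime q)

/-- **`c2_main_of_pred`**: `G4+` at the level `M'`, for the primes `ℓ ∤ Mh q` satisfying `Pr`. -/
theorem c2_main_of_pred (Pr : ℕ → Prop) {M' : ℕ} [NeZero M'] (hM : M' ∣ Mh) (h4 : 4 ∣ Mh)
    (hdesc : ∀ (s : CuspForm (Gamma0 Mh) 2) (qs : PowerSeries A),
      qExpansion 1 s = qs.map (iota.comp A.subtype) →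
      ∀ y0 : LaurentSeries k, y0 ∈ Fk k M' →
      HahnSeries.ofPowerSeries ℤ k (qs.map π) =
        y0 * (HahnSeries.single (1 : ℤ) (1 : k) * D (jqModC k)) →
      ∃ (s' : CuspForm (Gamma0 M') 2) (qs' : PowerSeries A),
        qExpansion 1 s' = qs'.map (iota.comp A.subtype) ∧ qs'.map π = qs.map π)
    (a : ℕ → ℤ)
    (hKH₂ : ∀ (ℓ : ℕ) [NeZero ℓ], ℓ.Prime → ¬ ℓ ∣ Mh * q → Pr ℓ →
      ∀ (ξ : Pic0 Kbar (FL Kbar (Mh * q))) (w : FL Kbar (Mh * q)), IsKummerRep q ξ w →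
        UnitTwo (valInfty A π Mh q hrk hπ hqM) (valZero A π Mh q hdeg hq hqM hrk hπ) w →
        heckeOperatorAlong Kbar (Mh * q) ℓ ξ = a ℓ • ξ →
        heckeT ℓ (dlog ((red (valZero A π Mh q hdeg hq hqM hrk hπ) (redSetupZero H hA).res w :
            modularFunctionFieldFullC k Mh) : LaurentSeries k)) =
          ((a ℓ : ℤ) : k) • dlog ((red (valZero A π Mh q hdeg hq hqM hrk hπ)
            (redSetupZero H hA).res w : modularFunctionFieldFullC k Mh) : LaurentSeries k))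
    {ξ : Pic0 Kbar (FL Kbar (Mh * q))} (hξf : ξ ∈ XfMq H hA hq.pos) (hξ1 : ξ ∉ Km H hA q)
    (heig : ∀ (ℓ : ℕ) [NeZero ℓ], ℓ.Prime → ¬ ℓ ∣ Mh * q → Pr ℓ →
      heckeOperatorAlong Kbar (Mh * q) ℓ ξ = a ℓ • ξ)
    {w : FL Kbar (Mh * q)} (hw : IsKummerRep q ξ w)
    (hU : UnitTwo (valInfty A π Mh q hrk hπ hqM) (valZero A π Mh q hdeg hq hqM hrk hπ) w)
    (hw₁ : ((red (valInfty A π Mh q hrk hπ hqM) (redSetupInfty H hA).res w :
      modularFunctionFieldFullC k Mh) : LaurentSeries k) ∈ Fk k M')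
    (hw₂ : ((red (valZero A π Mh q hdeg hq hqM hrk hπ) (redSetupZero H hA).res w :
      modularFunctionFieldFullC k Mh) : LaurentSeries k) ∈ Fk k M') :
    ∃ (f' : Fin (Module.finrank ℂ (CuspForm (Gamma0 M') 2)) → CuspForm (Gamma0 M') 2)
      (qf' : Fin (Module.finrank ℂ (CuspForm (Gamma0 M') 2)) → PowerSeries ℤ),
      (∀ j, qExpansion 1 (f' j) = (qf' j).map (Int.castRingHom ℂ)) ∧
      (∀ j, PowerSeries.constantCoeff (qf' j) = 0) ∧
      LinearIndependent ℂ f' ∧ Submodule.span ℂ (Set.range f') = ⊤ ∧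
      LinearIndependent k (fun j => (qf' j).map (Int.castRingHom k)) ∧
      ∃ (c : Fin (Module.finrank ℂ (CuspForm (Gamma0 M') 2)) → k) (g : LaurentSeries k),
        g = ∑ j, HahnSeries.C (c j) *
          HahnSeries.ofPowerSeries ℤ k ((qf' j).map (Int.castRingHom k)) ∧
        g ≠ 0 ∧
        ∀ (ℓ : ℕ) [NeZero ℓ], ℓ.Prime → ¬ ℓ ∣ Mh * q → Pr ℓ →
          heckeT ℓ g = HahnSeries.C ((a ℓ : ℤ) : k) * g := by
  classical
  have hMk : ((Mh : ℕ) : k) ≠ 0 := natCast_M_ne_zero hqM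
  haveI : HasPrincipalDivisors k (modularFunctionFieldFullC k Mh) :=
    Fermat.Agent.Gateway.FkBasics.hasPrincipalDivisors_Fk k Mh hMk
  -- the descended `hOmega`
  obtain ⟨f', qf', hqf', hc0', hfli', hfspan', hsat', hOm'⟩ :=
    Descent.OmegaDescended.exists_basis_hOmega_descended q A π hπ hM h4 hqM hA hdesc
  refine ⟨f', qf', hqf', hc0', hfli', hfspan', hsat', ?_⟩
  -- the assembly at the level `Mh`
  obtain ⟨f, qf, -, -, -, -, -, hfour⟩ := Asm4.eigen_four H hA h4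
  -- the Hecke data
  let ι : Type := {ℓ : ℕ // ℓ.Prime ∧ ¬ ℓ ∣ Mh * q ∧ Pr ℓ}
  let T : ι → Pic0 Kbar (FL Kbar (Mh * q)) → Pic0 Kbar (FL Kbar (Mh * q)) := fun i =>
    haveI : NeZero i.1 := ⟨i.2.1.ne_zero⟩
    heckeOperatorAlong Kbar (Mh * q) i.1
  let Hop : ι → LaurentSeries k → LaurentSeries k := fun i =>
    haveI : NeZero i.1 := ⟨i.2.1.ne_zero⟩
    heckeT i.1
  have hcast : ∀ (n : ℤ) (x : LaurentSeries k), (n : LaurentSeries k) * x = ((n : ℤ) : k) • x := by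
    intro n x
    rw [← HahnSeries.C_mul_eq_smul, map_intCast]
  have hKH₁' : ∀ (i : ι) (ξ : Pic0 Kbar (FL Kbar (Mh * q))) (w : FL Kbar (Mh * q)),
      IsKummerRep q ξ w →
      UnitTwo (valInfty A π Mh q hrk hπ hqM) (valZero A π Mh q hdeg hq hqM hrk hπ) w →
      T i ξ = (fun i : ι => a i.1) i • ξ →
      Hop i (dlog ((red (valInfty A π Mh q hrk hπ hqM) (redSetupInfty H hA).res w :
          modularFunctionFieldFullC k Mh) : LaurentSeries k)) =
        (((fun i : ι => a i.1) i : ℤ) : k) • dlog ((red (valInfty A π Mh q hrk hπ hqM)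
          (redSetupInfty H hA).res w : modularFunctionFieldFullC k Mh) : LaurentSeries k) := by
    intro i ξ' w' hw' hU' hx
    haveI : NeZero i.1 := ⟨i.2.1.ne_zero⟩
    obtain ⟨hfO, hkey⟩ := KH.heckeT_dlog_resInfty_Qb H i.2.1 i.2.2.1 hx hw' hU'.1
    have hred : red (valInfty A π Mh q hrk hπ hqM) (redSetupInfty H hA).res w' =
        resInfty H ⟨w', hfO⟩ := red_of_mem hfO
    rw [hred]
    show heckeT i.1 _ = _
    rw [hkey, hcast]
  have hKH₂' : ∀ (i : ι) (ξ : Pic0 Kbar (FL Kbar (Mh * q))) (w : FL Kbar (Mh * q)),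
      IsKummerRep q ξ w →
      UnitTwo (valInfty A π Mh q hrk hπ hqM) (valZero A π Mh q hdeg hq hqM hrk hπ) w →
      T i ξ = (fun i : ι => a i.1) i • ξ →
      Hop i (dlog ((red (valZero A π Mh q hdeg hq hqM hrk hπ) (redSetupZero H hA).res w :
          modularFunctionFieldFullC k Mh) : LaurentSeries k)) =
        (((fun i : ι => a i.1) i : ℤ) : k) • dlog ((red (valZero A π Mh q hdeg hq hqM hrk hπ)
          (redSetupZero H hA).res w : modularFunctionFieldFullC k Mh) : LaurentSeries k) := by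
    intro i ξ' w' hw' hU' hx
    haveI : NeZero i.1 := ⟨i.2.1.ne_zero⟩
    exact hKH₂ i.1 i.2.1 i.2.2.1 i.2.2.2 ξ' w' hw' hU' hx
  have heig' : ∀ i : ι, T i ξ = (fun i : ι => a i.1) i • ξ := by
    intro i
    haveI : NeZero i.1 := ⟨i.2.1.ne_zero⟩
    exact heig i.1 i.2.1 i.2.2.1 i.2.2.2
  obtain ⟨fb, hfb, hfb0, hdl0, -, heigfb⟩ :=
    hfour T Hop (fun i : ι => a i.1) hKH₁' hKH₂' hξf hξ1 heig' hw hU
  -- `fb` comes from the level `M'` and has orders divisible by `q`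
  have hfbM' : (fb : LaurentSeries k) ∈ Fk k M' := by
    rcases hfb with rfl | rfl
    · exact hw₁
    · exact hw₂
  have hord : ∀ P : Place k (Fk k Mh), (q : ℤ) ∣ P.ord fb := by
    intro P
    have h := dvd_ord_red_of_mem_Xf (flatDataMq H hA hq.pos) hξf hw hU P
    rcases hfb with rfl | rfl
    · exact h.1
    · exact h.2
  have hmem := hOm' fb hfb0 hfbM' hord
  obtain ⟨c, hc⟩ := (Submodule.mem_span_range_iff_exists_fun k).mp hmem
  refine ⟨c, dlog (fb : LaurentSeries k), ?_, hdl0, ?_⟩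
  · rw [← hc]
    exact Finset.sum_congr rfl fun j _ => (HahnSeries.C_mul_eq_smul).symm
  · intro ℓ _ hℓ hℓN hℓP
    have h := heigfb ⟨ℓ, hℓ, hℓN, hℓP⟩
    rw [HahnSeries.C_mul_eq_smul]
    exact h

end Fermat.Agent.S40x.C2.AsmMainS

end
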