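import Fermat.Agent.S40x.C2.AsmMainS
import Fermat.Agent.S40x.C2.DescB.MainJ
import Fermat.Agent.S40x.C2.Descent.Index

/-!
# P-S44, block C2 (route OMEGA): `c2_main` for a set of primes, WITHOUT `hdesc` (helper66)

`AsmMainS.c2_main_of_pred` (the predicate form of helper90's `AsmMain.c2_main`: eigen-relations and
conclusion only for the primes `ℓ ∤ Mh q` with `Pr ℓ`, e.g. `Pr ℓ := ℓ ∉ S`) with the descent
hypothesis `hdesc` discharged by helper64's landed `DescB.exists_cuspForm_of_descends`: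

* `c2_main_of_pred_idx` : index condition `¬ q ∣ [Γ₀(M') : Γ₀(Mh)]` instead of `hdesc`;
* `c2_main_of_pred_lcm` : `Mh ∣ lcm 4 M'`, `5 ≤ q` (then the index condition is automatic,
  `Descent.Index.not_dvd_relIndex`).

These are the predicate twins of helper23's `DescentB/AsmMainB.c2_mainB`, `c2_mainB_lcm`.
-/

set_option autoImplicit false
set_option linter.style.haveILetI false
set_option linter.unusedSectionVars false

noncomputable section

namespace Fermat.Agent.S40x.C2.AsmMainSB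

open ModularCurve AlgebraicCurve IntermediateField IsLocalRing HahnSeries CongruenceSubgroup
open UpperHalfPlane
open Fermat.Agent.Gateway.Hecke Fermat.Agent.Gateway.ESC Fermat.Agent.Gateway.Kummer
open Fermat.Agent.Gateway.Red Fermat.Agent.Gateway.GoodRed
open Fermat.Agent.Gateway.GoodRed.ConjFamily (Fk jFk)
open Fermat.Agent.S24.Setup Fermat.Agent.Lib.Residue
open Fermat.Agent.S34x.TwoVal Fermat.Agent.S34x.C0two
open Fermat.Agent.S34x.Inst.RedSetupInst Fermat.Agent.S34x.Inst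
open Fermat.Agent.S33x.KummerPn
open Fermat.Agent.S40x.Slope.UnitTwo Fermat.Agent.S40x.Slope.SlopeInv Fermat.Agent.S40x.Slope.Xf
  Fermat.Agent.S40x.Slope.OfRedSetup Fermat.Agent.S40x.Slope.InstMq
open Fermat.Agent.S16.Two Fermat.Agent.S40x.C2.DlogHecke
open Fermat.Agent.S40x.C2.AsmMain Fermat.Agent.S40x.C2.AsmMainS

attribute [local instance] Asm4.isAlgebraic_Kbar

/-! ### The main theorem -/

variable {A : ValuationSubring Kbar}
  {k : Type} [Field k] {π : A →+* k} [IsAlgClosed k]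
variable {Mh q : ℕ} [NeZero Mh] [NeZero q] [Fact q.Prime] [CharP k q]
variable {hdeg : finrankAlong Kbar (heckeAlphaBar Kbar Mh q) = q + 1} {hq : q.Prime}
  {hqM : ¬ q ∣ Mh}
variable {hrk : ∀ x ∈ maximalIdeal A, ∀ c : A, c ≠ 0 → ∃ j : ℕ, c ∣ x ^ j}
  {hπ : Function.Surjective π}
variable (H : ResidueFacts A π Mh q hdeg hq hqM hrk hπ) (hA : A.LiesOverPrime q)

/-- **`c2_main_of_pred_idx`**: `G4+` at the level `M'` for the primes `ℓ ∤ Mh q` satisfying `Pr`,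
index condition instead of `hdesc`. -/
theorem c2_main_of_pred_idx (Pr : ℕ → Prop) {M' : ℕ} [NeZero M'] (hM : M' ∣ Mh) (h4 : 4 ∣ Mh)
    (hidx : ¬ q ∣ (Gamma0 Mh).relIndex (Gamma0 M'))
    (a : ℕ → ℤ)
    (hKH₂ : ∀ (ℓ : ℕ) [NeZero ℓ], ℓ.Prime → ¬ ℓ ∣ Mh * q → Pr ℓ →
      ∀ (ξ : Pic0 Kbar (FL Kbar (Mh * q))) (w : FL Kbar (Mh * q)), IsKummerRep q ξ w →
        UnitTwo (valInfty A π Mh q hrk hπ hqM) (valZero A π Mh q hdeg hq hqM hrk hπ) w →
        heckeOperatorAlong Kbar (Mh * q) ℓ ξ = a ℓ • ξ →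
        heckeT ℓ (dlog ((red (valZero A π Mh q hdeg hq hqM hrk hπ) (redSetupZero H hA).res w :
            modularFunctionFieldFullC k Mh) : LaurentSeries k)) =
          ((a ℓ : ℤ) : k) • dlog ((red (valZero A π Mh q hdeg hq hqM hrk hπ)
            (redSetupZero H hA).res w : modularFunctionFieldFullC k Mh) : LaurentSeries k))
    {ξ : Pic0 Kbar (FL Kbar (Mh * q))} (hξf : ξ ∈ XfMq H hA hq.pos) (hξ1 : ξ ∉ Km H hA q)
    (heig : ∀ (ℓ : ℕ) [NeZero ℓ], ℓ.Prime → ¬ ℓ ∣ Mh * q → Pr ℓ →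
      heckeOperatorAlong Kbar (Mh * q) ℓ ξ = a ℓ • ξ)
    {w : FL Kbar (Mh * q)} (hw : IsKummerRep q ξ w)
    (hU : UnitTwo (valInfty A π Mh q hrk hπ hqM) (valZero A π Mh q hdeg hq hqM hrk hπ) w)
    (hw₁ : ((red (valInfty A π Mh q hrk hπ hqM) (redSetupInfty H hA).res w :
      modularFunctionFieldFullC k Mh) : LaurentSeries k) ∈ Fk k M')
    (hw₂ : ((red (valZero A π Mh q hdeg hq hqM hrk hπ) (redSetupZero H hA).res w :
      modularFunctionFieldFullC k Mh) : LaurentSeries k) ∈ Fk k M') :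
    ∃ (f' : Fin (Module.finrank ℂ (CuspForm (Gamma0 M') 2)) → CuspForm (Gamma0 M') 2)
      (qf' : Fin (Module.finrank ℂ (CuspForm (Gamma0 M') 2)) → PowerSeries ℤ),
      (∀ j, qExpansion 1 (f' j) = (qf' j).map (Int.castRingHom ℂ)) ∧
      (∀ j, PowerSeries.constantCoeff (qf' j) = 0) ∧
      LinearIndependent ℂ f' ∧ Submodule.span ℂ (Set.range f') = ⊤ ∧
      LinearIndependent k (fun j => (qf' j).map (Int.castRingHom k)) ∧
      ∃ (c : Fin (Module.finrank ℂ (CuspForm (Gamma0 M') 2)) → k) (g : LaurentSeries k),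
        g = ∑ j, HahnSeries.C (c j) *
          HahnSeries.ofPowerSeries ℤ k ((qf' j).map (Int.castRingHom k)) ∧
        g ≠ 0 ∧
        ∀ (ℓ : ℕ) [NeZero ℓ], ℓ.Prime → ¬ ℓ ∣ Mh * q → Pr ℓ →
          heckeT ℓ g = HahnSeries.C ((a ℓ : ℤ) : k) * g :=
  c2_main_of_pred H hA Pr hM h4
    (fun s qs hqs y0 hy0 hred =>
      Fermat.Agent.S40x.C2.DescB.exists_cuspForm_of_descends q A π hπ hM h4 hqM hidx s qs hqs y0 hy0
        hred)
    a hKH₂ hξf hξ1 heig hw hU hw₁ hw₂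

/-- **`c2_main_of_pred_lcm`**: `G4+` at the level `M'` for the primes `ℓ ∤ Mh q` satisfying `Pr`, for
`Mh ∣ lcm 4 M'` and `5 ≤ q`; neither `hdesc` nor an index condition. -/
theorem c2_main_of_pred_lcm (Pr : ℕ → Prop) {M' : ℕ} [NeZero M'] (hM : M' ∣ Mh) (h4 : 4 ∣ Mh)
    (hMh : Mh ∣ Nat.lcm 4 M') (h5 : 5 ≤ q)
    (a : ℕ → ℤ)
    (hKH₂ : ∀ (ℓ : ℕ) [NeZero ℓ], ℓ.Prime → ¬ ℓ ∣ Mh * q → Pr ℓ →
      ∀ (ξ : Pic0 Kbar (FL Kbar (Mh * q))) (w : FL Kbar (Mh * q)), IsKummerRep q ξ w →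
        UnitTwo (valInfty A π Mh q hrk hπ hqM) (valZero A π Mh q hdeg hq hqM hrk hπ) w →
        heckeOperatorAlong Kbar (Mh * q) ℓ ξ = a ℓ • ξ →
        heckeT ℓ (dlog ((red (valZero A π Mh q hdeg hq hqM hrk hπ) (redSetupZero H hA).res w :
            modularFunctionFieldFullC k Mh) : LaurentSeries k)) =
          ((a ℓ : ℤ) : k) • dlog ((red (valZero A π Mh q hdeg hq hqM hrk hπ)
            (redSetupZero H hA).res w : modularFunctionFieldFullC k Mh) : LaurentSeries k))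
    {ξ : Pic0 Kbar (FL Kbar (Mh * q))} (hξf : ξ ∈ XfMq H hA hq.pos) (hξ1 : ξ ∉ Km H hA q)
    (heig : ∀ (ℓ : ℕ) [NeZero ℓ], ℓ.Prime → ¬ ℓ ∣ Mh * q → Pr ℓ →
      heckeOperatorAlong Kbar (Mh * q) ℓ ξ = a ℓ • ξ)
    {w : FL Kbar (Mh * q)} (hw : IsKummerRep q ξ w)
    (hU : UnitTwo (valInfty A π Mh q hrk hπ hqM) (valZero A π Mh q hdeg hq hqM hrk hπ) w)
    (hw₁ : ((red (valInfty A π Mh q hrk hπ hqM) (redSetupInfty H hA).res w :
      modularFunctionFieldFullC k Mh) : LaurentSeries k) ∈ Fk k M')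
    (hw₂ : ((red (valZero A π Mh q hdeg hq hqM hrk hπ) (redSetupZero H hA).res w :
      modularFunctionFieldFullC k Mh) : LaurentSeries k) ∈ Fk k M') :
    ∃ (f' : Fin (Module.finrank ℂ (CuspForm (Gamma0 M') 2)) → CuspForm (Gamma0 M') 2)
      (qf' : Fin (Module.finrank ℂ (CuspForm (Gamma0 M') 2)) → PowerSeries ℤ),
      (∀ j, qExpansion 1 (f' j) = (qf' j).map (Int.castRingHom ℂ)) ∧
      (∀ j, PowerSeries.constantCoeff (qf' j) = 0) ∧
      LinearIndependent ℂ f' ∧ Submodule.span ℂ (Set.range f') = ⊤ ∧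
      LinearIndependent k (fun j => (qf' j).map (Int.castRingHom k)) ∧
      ∃ (c : Fin (Module.finrank ℂ (CuspForm (Gamma0 M') 2)) → k) (g : LaurentSeries k),
        g = ∑ j, HahnSeries.C (c j) *
          HahnSeries.ofPowerSeries ℤ k ((qf' j).map (Int.castRingHom k)) ∧
        g ≠ 0 ∧
        ∀ (ℓ : ℕ) [NeZero ℓ], ℓ.Prime → ¬ ℓ ∣ Mh * q → Pr ℓ →
          heckeT ℓ g = HahnSeries.C ((a ℓ : ℤ) : k) * g :=
  c2_main_of_pred_idx H hA Pr hM h4
    (Fermat.Agent.S40x.C2.Descent.Index.not_dvd_relIndex hq h5 hMh) a hKH₂ hξf hξ1 heig hw hU hw₁ hw₂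

end Fermat.Agent.S40x.C2.AsmMainSB

end
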