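import Mathlib
import Fermat.Agent.Lib.Residue.P1

/-!
# P-S44, block C2 (route OMEGA), leaf DER items (4),(5) (helper14): chain rule and Laurent `dlog`

Mathlib + the landed `Lib/Residue` (`D` = derivative of Laurent series, `IsPS`).

* `chain_rule` : `K` a field, `F/K(t)` separable algebraic, `Dt : Derivation K F F` with `Dt t = 1`,
  `τ : F →+* K⸨X⸩` the identity on constants.  Then `τ (Dt u) * D (τ t) = D (τ u)` for all `u`
  (uniqueness of derivations on separable extensions).
* `dlog_eq` : for `f ≠ 0` in `K⸨X⸩`, `D f / f = (ord f) / X + (power series)`;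
  `coeff_dlog_of_lt_neg_one`, `coeff_dlog_neg_one`.
* `coeff_map_dlog_mul_D` : the exact shape of hypothesis (ii) (cusp regularity) of
  `Omega4.exists_basis_span_four` for `hb = Dt fb / fb`: if `p ∣ ord (τ fb)` (`CharP K p`) then
  `(τ (Dt fb / fb) * D (τ t)).coeff a = 0` for every `a < 0`.
-/

set_option autoImplicit false

namespace Fermat.Agent.S40x.C2.ChainRule

open HahnSeries LaurentSeries Fermat.Agent.Lib.Residue IntermediateField Polynomial

/-! ### Twisted derivations -/

section Twisted

variable {F L : Type*} [Field F] [CommRing L] (τ : F →+* L) (δ : F → L)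

/-- `δ (aeval u P) = τ (P'(u)) * δ u` for a `τ`-derivation `δ` killing the coefficients of `P`. -/
theorem twisted_map_aeval (hadd : ∀ a b, δ (a + b) = δ a + δ b)
    (hmul : ∀ a b, δ (a * b) = τ a * δ b + τ b * δ a)
    {R : Type*} [CommRing R] [Algebra R F] (hR : ∀ r : R, δ (algebraMap R F r) = 0)
    (P : R[X]) (u : F) : δ (aeval u P) = τ (aeval u (derivative P)) * δ u := by
  induction P using Polynomial.induction_on with
  | C a => simp [hR]
  | add p q hp hq => simp [hadd, hp, hq, add_mul]
  | monomial n a h =>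
    have e1 : aeval u (Polynomial.C a * X ^ (n + 1) : R[X]) =
        aeval u (Polynomial.C a * X ^ n : R[X]) * u := by
      simp only [map_mul, map_pow, aeval_X, aeval_C]
      ring
    have e2 : derivative (Polynomial.C a * X ^ (n + 1) : R[X]) =
        derivative (Polynomial.C a * X ^ n : R[X]) * X + Polynomial.C a * X ^ n := by
      rw [pow_succ, ← mul_assoc, derivative_mul, derivative_X, mul_one]
    rw [e1, hmul, h, e2]
    simp only [map_add, map_mul, map_pow, aeval_X, aeval_C]
    ring

end Twisted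

/-! ### The chain rule -/

section ChainRule

variable {K F : Type*} [Field K] [Field F] [Algebra K F]

/-- The defect of the chain rule. -/
noncomputable def defect (Dt : Derivation K F F) (τ : F →+* K⸨X⸩) (t : F) (u : F) : K⸨X⸩ :=
  τ (Dt u) * D (τ t) - D (τ u)

theorem defect_add (Dt : Derivation K F F) (τ : F →+* K⸨X⸩) (t a b : F) :
    defect Dt τ t (a + b) = defect Dt τ t a + defect Dt τ t b := by
  simp only [defect, map_add, D_add]
  ring

theorem defect_mul (Dt : Derivation K F F) (τ : F →+* K⸨X⸩) (t a b : F) :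
    defect Dt τ t (a * b) = τ a * defect Dt τ t b + τ b * defect Dt τ t a := by
  simp only [defect, map_mul, D_mul, Derivation.leibniz, smul_eq_mul, map_add]
  ring

/-- The zero locus of the defect, a subfield. -/
noncomputable def defectSubfield (Dt : Derivation K F F) (τ : F →+* K⸨X⸩) (t : F) : Subfield F where
  carrier := {u | defect Dt τ t u = 0}
  mul_mem' {a b} ha hb := by
    show defect Dt τ t (a * b) = 0
    rw [defect_mul, show defect Dt τ t a = 0 from ha, show defect Dt τ t b = 0 from hb]
    simp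
  one_mem' := by
    show defect Dt τ t 1 = 0
    simp [defect, D_one]
  add_mem' {a b} ha hb := by
    show defect Dt τ t (a + b) = 0
    rw [defect_add, show defect Dt τ t a = 0 from ha, show defect Dt τ t b = 0 from hb, add_zero]
  zero_mem' := by
    show defect Dt τ t 0 = 0
    simp [defect]
  neg_mem' {a} ha := by
    show defect Dt τ t (-a) = 0
    have h := show defect Dt τ t a = 0 from ha
    simp only [defect, map_neg, D_neg] at h ⊢
    linear_combination -h
  inv_mem' a ha := by
    show defect Dt τ t a⁻¹ = 0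
    by_cases h0 : a = 0
    · subst h0
      simp [defect]
    · have h1 : defect Dt τ t (a * a⁻¹) = 0 := by
        rw [mul_inv_cancel₀ h0]
        simp [defect, D_one]
      rw [defect_mul, show defect Dt τ t a = 0 from ha, mul_zero, add_zero] at h1
      have hτa : τ a ≠ 0 := (map_ne_zero τ).mpr h0
      exact (mul_eq_zero.mp h1).resolve_left hτa

variable (t : F) [Algebra.IsSeparable K⟮t⟯ F]

/-- **Chain rule** for an embedding of a separably generated function field into Laurent series. -/
theorem chain_rule (Dt : Derivation K F F) (hDt : Dt t = 1) (τ : F →+* K⸨X⸩)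
    (hτ : ∀ c : K, τ (algebraMap K F c) = HahnSeries.C c) (u : F) :
    τ (Dt u) * D (τ t) = D (τ u) := by
  -- the defect vanishes on `K⟮t⟯`
  have hle : (K⟮t⟯).toSubfield ≤ defectSubfield Dt τ t := by
    apply IntermediateField.adjoin_le_subfield
    · rintro _ ⟨c, rfl⟩
      show defect Dt τ t (algebraMap K F c) = 0
      rw [defect, Derivation.map_algebraMap, map_zero, zero_mul, hτ, D_C, sub_zero]
    · intro x hx
      rw [Set.mem_singleton_iff] at hx
      rw [hx]
      show defect Dt τ t t = 0
      simp [defect, hDt]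
  have hR : ∀ r : K⟮t⟯, defect Dt τ t (algebraMap K⟮t⟯ F r) = 0 := fun r => hle r.2
  -- the minimal polynomial argument
  have hsep : (minpoly K⟮t⟯ u).Separable := Algebra.IsSeparable.isSeparable K⟮t⟯ u
  have h1 := twisted_map_aeval τ (defect Dt τ t) (defect_add Dt τ t) (defect_mul Dt τ t) hR
    (minpoly K⟮t⟯ u) u
  rw [minpoly.aeval] at h1
  have h0 : defect Dt τ t 0 = 0 := by simp [defect]
  rw [h0] at h1
  have hne : τ (aeval u (derivative (minpoly K⟮t⟯ u))) ≠ 0 :=
    (map_ne_zero τ).mpr (hsep.aeval_derivative_ne_zero (minpoly.aeval _ _))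
  have h2 : defect Dt τ t u = 0 := (mul_eq_zero.mp h1.symm).resolve_left hne
  exact sub_eq_zero.mp h2

end ChainRule

/-! ### The logarithmic derivative of a Laurent series -/

section Dlog

variable {K : Type*} [Field K]

/-- `D f / f = ord(f) / X + power series`. -/
theorem dlog_eq {f : K⸨X⸩} (hf : f ≠ 0) :
    ∃ g : PowerSeries K, D f / f = single (-1) ((f.order : ℤ) : K) + (g : K⸨X⸩) := by
  set n : ℤ := f.order with hn
  set p : PowerSeries K := f.powerSeriesPart with hp
  have hfp : f = single n (1 : K) * (p : K⸨X⸩) := (single_order_mul_powerSeriesPart f).symm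
  have hp0 : PowerSeries.constantCoeff p ≠ 0 := by
    rw [hp, ← PowerSeries.coeff_zero_eq_constantCoeff_apply, LaurentSeries.powerSeriesPart_coeff]
    simpa using (HahnSeries.coeff_order_eq_zero (x := f)).not.mpr hf
  obtain ⟨pinv, hpinv⟩ := IsPS.inv_coe hp0
  obtain ⟨dp, hdp⟩ := (IsPS.coe p).D
  have hpne : (p : K⸨X⸩) ≠ 0 := by
    intro h0
    rw [h0, mul_zero] at hfp
    exact hf hfp
  have hsne : (single n (1 : K) : K⸨X⸩) ≠ 0 := by
    intro h0
    rw [h0, zero_mul] at hfp
    exact hf hfp
  refine ⟨dp * pinv, ?_⟩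
  have hD : D f = single (n - 1) ((n : K) * 1) * (p : K⸨X⸩) + single n (1 : K) * D (p : K⸨X⸩) := by
    conv_lhs => rw [hfp, D_mul, D_single]
  have hs : (single (n - 1) ((n : K) * 1) : K⸨X⸩) =
      single (-1) (n : K) * single n (1 : K) := by
    rw [single_mul_single, show (-1 : ℤ) + n = n - 1 by ring]
  rw [eq_comm, PowerSeries.coe_mul, hpinv, hdp, hD, hs]
  conv_rhs => rw [hfp]
  field_simp

theorem coeff_coe_of_neg (g : PowerSeries K) {a : ℤ} (ha : a < 0) : (g : K⸨X⸩).coeff a = 0 := by
  rw [PowerSeries.coeff_coe, if_pos ha]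

theorem coeff_dlog_of_lt_neg_one {f : K⸨X⸩} (hf : f ≠ 0) {a : ℤ} (ha : a < -1) :
    (D f / f).coeff a = 0 := by
  obtain ⟨g, hg⟩ := dlog_eq hf
  rw [hg, HahnSeries.coeff_add, coeff_single_of_ne (ne_of_lt ha), coeff_coe_of_neg g (by omega),
    add_zero]

theorem coeff_dlog_neg_one {f : K⸨X⸩} (hf : f ≠ 0) :
    (D f / f).coeff (-1) = ((f.order : ℤ) : K) := by
  obtain ⟨g, hg⟩ := dlog_eq hf
  rw [hg, HahnSeries.coeff_add, coeff_single_same, coeff_coe_of_neg g (by omega), add_zero]

/-- If `p ∣ ord f` in characteristic `p`, then `D f / f` has no polar part. -/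
theorem coeff_dlog_of_neg (p : ℕ) [CharP K p] {f : K⸨X⸩} (hf : f ≠ 0) (hdvd : (p : ℤ) ∣ f.order)
    {a : ℤ} (ha : a < 0) : (D f / f).coeff a = 0 := by
  rcases lt_or_eq_of_le (show a ≤ -1 by omega) with h | h
  · exact coeff_dlog_of_lt_neg_one hf h
  · rw [h, coeff_dlog_neg_one hf]
    obtain ⟨m, hm⟩ := hdvd
    rw [hm]
    push_cast
    rw [CharP.cast_eq_zero K p, zero_mul]

end Dlog

/-! ### The cusp regularity hypothesis of LEMMA OMEGA for a logarithmic derivative -/

section Consumer

variable {K F : Type*} [Field K] [Field F] [Algebra K F] (t : F) [Algebra.IsSeparable K⟮t⟯ F]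

/-- **Hypothesis (ii) of `Omega4.exists_basis_span_four` for `hb = Dt fb / fb`.** -/
theorem coeff_map_dlog_mul_D (p : ℕ) [CharP K p] (Dt : Derivation K F F) (hDt : Dt t = 1)
    (τ : F →+* K⸨X⸩) (hτ : ∀ c : K, τ (algebraMap K F c) = HahnSeries.C c) {fb : F} (hfb : fb ≠ 0)
    (hdvd : (p : ℤ) ∣ (τ fb).order) {a : ℤ} (ha : a < 0) :
    (τ (Dt fb / fb) * D (τ t)).coeff a = 0 := by
  have hτfb : τ fb ≠ 0 := (map_ne_zero τ).mpr hfb
  have h1 : τ (Dt fb / fb) * D (τ t) = D (τ fb) / τ fb := by
    rw [map_div₀, div_mul_eq_mul_div, chain_rule t Dt hDt τ hτ fb]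
  rw [h1]
  exact coeff_dlog_of_neg p hτfb hdvd ha

end Consumer

end Fermat.Agent.S40x.C2.ChainRule
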