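import Fermat.Agent.S40x.C2.DlogHecke

/-!
# P-S44, block C2 (route OMEGA): the slope at the base cusp is free

For a nonzero Laurent series `f` over a field `k`, `dlog f = θ f / f` has no negative coefficients
and its constant coefficient is the order of `f` (`dlog_coeff_of_neg`, `dlog_coeff_zero`).  The
constant coefficient of `T_ℓ φ` is `(1 + ℓ) φ₀` (`heckeT_coeff_zero`).  Hence, if `dlog f` is an
eigenvector of the formal Hecke operator `T_ℓ` with an eigenvalue `a ≠ 1 + ℓ` (non-Eisenstein), the
order of `f` vanishes in `k`; in characteristic `p` this says `p ∣ order f`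
(`dvd_order_of_heckeT_dlog`): the slope at the base cusp of a non-Eisenstein eigenclass vanishes,
without any geometry.
-/

set_option autoImplicit false

noncomputable section

namespace Fermat.Agent.S40x.C2.CuspBase

open ModularCurve HahnSeries Fermat.Agent.S16.Two Fermat.Agent.S40x.C2.DlogHecke

variable {k : Type*} [Field k]

theorem thetaL_eq_dlog_mul {f : LaurentSeries k} (hf : f ≠ 0) : thetaL f = dlog f * f := by
  rw [dlog, div_mul_cancel₀ _ hf]

theorem order_mul' {x y : LaurentSeries k} (hx : x ≠ 0) (hy : y ≠ 0) :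
    (x * y).order = x.order + y.order :=
  HahnSeries.order_mul_of_ne_zero
    (mul_ne_zero (HahnSeries.leadingCoeff_ne_zero.mpr hx) (HahnSeries.leadingCoeff_ne_zero.mpr hy))

/-- `θ f` has order at least the order of `f`. -/
theorem order_le_order_thetaL {f : LaurentSeries k} (hθ : thetaL f ≠ 0) :
    f.order ≤ (thetaL f).order := by
  rw [HahnSeries.le_order_iff_forall hθ]
  intro j hj
  rw [thetaL_coeff, HahnSeries.coeff_eq_zero_of_lt_order hj, mul_zero]

/-- the order of `dlog f` is nonnegative -/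
theorem order_dlog_nonneg {f : LaurentSeries k} (hf : f ≠ 0) (hd : dlog f ≠ 0) :
    0 ≤ (dlog f).order := by
  have hθ : thetaL f ≠ 0 := by
    rw [thetaL_eq_dlog_mul hf]
    exact mul_ne_zero hd hf
  have h1 : (thetaL f).order = (dlog f).order + f.order := by
    rw [thetaL_eq_dlog_mul hf, order_mul' hd hf]
  have h2 := order_le_order_thetaL hθ
  omega

/-- `dlog f` has no negative coefficients. -/
theorem dlog_coeff_of_neg {f : LaurentSeries k} (hf : f ≠ 0) {n : ℤ} (hn : n < 0) :
    (dlog f).coeff n = 0 := by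
  by_cases hd : dlog f = 0
  · rw [hd, HahnSeries.coeff_zero]
  exact HahnSeries.coeff_eq_zero_of_lt_order (lt_of_lt_of_le hn (order_dlog_nonneg hf hd))

/-- **the constant coefficient of `dlog f` is the order of `f`** -/
theorem dlog_coeff_zero {f : LaurentSeries k} (hf : f ≠ 0) :
    (dlog f).coeff 0 = ((f.order : ℤ) : k) := by
  have hlc : f.coeff f.order ≠ 0 := fun h => hf (HahnSeries.coeff_order_eq_zero.mp h)
  have hθc : (thetaL f).coeff f.order = ((f.order : ℤ) : k) * f.coeff f.order := thetaL_coeff f _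
  by_cases hd : dlog f = 0
  · -- `θ f = 0`
    have h0 : thetaL f = 0 := by rw [thetaL_eq_dlog_mul hf, hd, zero_mul]
    rw [h0, HahnSeries.coeff_zero] at hθc
    rw [hd, HahnSeries.coeff_zero]
    exact ((mul_eq_zero.mp hθc.symm).resolve_right hlc).symm
  have hnn := order_dlog_nonneg hf hd
  rcases hnn.lt_or_eq with hpos | hzero
  · -- the order of `dlog f` is positive
    have hθ : thetaL f ≠ 0 := by
      rw [thetaL_eq_dlog_mul hf]
      exact mul_ne_zero hd hf
    have h1 : (thetaL f).order = (dlog f).order + f.order := by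
      rw [thetaL_eq_dlog_mul hf, order_mul' hd hf]
    have h2 : (thetaL f).coeff f.order = 0 :=
      HahnSeries.coeff_eq_zero_of_lt_order (by omega)
    rw [h2] at hθc
    rw [HahnSeries.coeff_eq_zero_of_lt_order hpos]
    exact ((mul_eq_zero.mp hθc.symm).resolve_right hlc).symm
  · -- the order of `dlog f` is zero
    have h3 := HahnSeries.coeff_mul_order_add_order (dlog f) f
    rw [← thetaL_eq_dlog_mul hf, ← hzero, zero_add, hθc, HahnSeries.leadingCoeff_eq,
      HahnSeries.leadingCoeff_eq, ← hzero] at h3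
    exact (mul_right_cancel₀ hlc h3).symm

/-- the constant coefficient of `T_ℓ φ` is `(1 + ℓ) φ₀` -/
theorem heckeT_coeff_zero (ℓ : ℕ) [NeZero ℓ] (φ : LaurentSeries k) :
    (heckeT ℓ φ).coeff 0 = (1 + (ℓ : k)) * φ.coeff 0 := by
  have h := heckeT_coeff_mul ℓ φ 0
  rw [mul_zero, mul_zero] at h
  rw [h]
  ring

/-- **The slope at the base cusp is free.**  If `dlog f` is an eigenvector of `T_ℓ` with
eigenvalue `a ≠ 1 + ℓ`, then the order of `f` vanishes in `k`. -/
theorem order_eq_zero_of_heckeT_dlog {f : LaurentSeries k} (hf : f ≠ 0) (ℓ : ℕ) [NeZero ℓ]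
    {a : k} (ha : a ≠ 1 + (ℓ : k))
    (h : heckeT ℓ (dlog f) = HahnSeries.C a * dlog f) : ((f.order : ℤ) : k) = 0 := by
  have h0 := congrArg (fun x : LaurentSeries k => x.coeff 0) h
  simp only [heckeT_coeff_zero, HahnSeries.C_mul_eq_smul, HahnSeries.coeff_smul, smul_eq_mul] at h0
  rw [← dlog_coeff_zero hf]
  have h1 : (1 + (ℓ : k) - a) * (dlog f).coeff 0 = 0 := by rw [sub_mul, h0, sub_self]
  exact (mul_eq_zero.mp h1).resolve_left (sub_ne_zero.mpr (Ne.symm ha))

/-- characteristic `p` form: `p ∣ order f`. -/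
theorem dvd_order_of_heckeT_dlog (p : ℕ) [CharP k p] {f : LaurentSeries k} (hf : f ≠ 0) (ℓ : ℕ)
    [NeZero ℓ] {a : k} (ha : a ≠ 1 + (ℓ : k))
    (h : heckeT ℓ (dlog f) = HahnSeries.C a * dlog f) : (p : ℤ) ∣ f.order :=
  (CharP.intCast_eq_zero_iff k p _).mp (order_eq_zero_of_heckeT_dlog hf ℓ ha h)

end Fermat.Agent.S40x.C2.CuspBase

end
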