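/-
helper69 (P-S44, block C2, CUSP GAP of red-team note 2707, part (a)): the slope at the BASE CUSP
is free.  If `g = dlog f` (`f` a nonzero Laurent series over a field `k`) is an eigenvector of the
formal weight-2 Hecke operator `heckeT l` of `S40x/C2/DlogHecke` with an eigenvalue `a != l + 1`
(non-Eisenstein), then the order of `f` vanishes in `k`; in characteristic `p` this says
`p | ord_q f`.  Reason: `dlog f = ord f + O(q)` and the constant term of `heckeT l g` is
`(1 + l) g_0`.
-/
import Fermat.Agent.S40x.C2.DlogHecke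

set_option autoImplicit false

noncomputable section

namespace Fermat.Agent.S40x.C2.CuspInfty

open ModularCurve HahnSeries Fermat.Agent.S16.Two
open Fermat.Agent.S40x.C2.DlogHecke

variable {k : Type*} [Field k]

/-- lowest coefficient of a product, given lower bounds for the supports. -/
theorem coeff_mul_of_bounds {x y : LaurentSeries k} {a b : ℤ}
    (hx : ∀ i < a, x.coeff i = 0) (hy : ∀ j < b, y.coeff j = 0) :
    (x * y).coeff (a + b) = x.coeff a * y.coeff b := by
  rw [HahnSeries.coeff_mul]
  rw [Finset.sum_eq_single (a, b)]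
  · rintro ⟨i, j⟩ hij hne
    rw [Finset.mem_antidiagonal] at hij
    obtain ⟨hi, hj, hsum⟩ := hij
    simp only at hi hj hsum
    have hia : a ≤ i := by
      by_contra h
      exact hi (hx i (not_le.1 h))
    have hjb : b ≤ j := by
      by_contra h
      exact hj (hy j (not_le.1 h))
    exfalso
    apply hne
    have : i = a ∧ j = b := by omega
    rw [this.1, this.2]
  · intro h
    rw [Finset.mem_antidiagonal] at h
    simp only [not_and] at h
    by_cases h1 : x.coeff a = 0
    · rw [h1, zero_mul]
    · by_cases h2 : y.coeff b = 0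
      · rw [h2, mul_zero]
      · exact absurd trivial (h h1 h2)

/-- coefficients of `theta f` below the order of `f` vanish. -/
theorem thetaL_coeff_of_lt_order (f : LaurentSeries k) {n : ℤ} (hn : n < f.order) :
    (thetaL f).coeff n = 0 := by
  rw [thetaL_coeff, HahnSeries.coeff_eq_zero_of_lt_order hn, mul_zero]

/-- `dlog f` has no negative coefficients. -/
theorem dlog_coeff_of_neg {f : LaurentSeries k} (hf : f ≠ 0) {n : ℤ} (hn : n < 0) :
    (dlog f).coeff n = 0 := by
  by_cases hg : dlog f = 0
  · rw [hg, HahnSeries.coeff_zero]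
  · apply HahnSeries.coeff_eq_zero_of_lt_order
    have h1 : dlog f * f = thetaL f := by
      rw [dlog, div_mul_cancel₀ _ hf]
    have h2 : (dlog f * f).order = (dlog f).order + f.order := HahnSeries.order_mul hg hf
    have hth : thetaL f ≠ 0 := by
      rw [← h1]
      exact mul_ne_zero hg hf
    have h3 : f.order ≤ (thetaL f).order := by
      by_contra hlt
      rw [not_le] at hlt
      exact hth (HahnSeries.coeff_order_eq_zero.1 (thetaL_coeff_of_lt_order f hlt))
    rw [← h1, h2] at h3
    omega

/-- the constant term of `dlog f` is the order of `f`. -/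
theorem dlog_coeff_zero {f : LaurentSeries k} (hf : f ≠ 0) :
    (dlog f).coeff 0 = ((f.order : ℤ) : k) := by
  have h1 : dlog f * f = thetaL f := by
    rw [dlog, div_mul_cancel₀ _ hf]
  have h2 := coeff_mul_of_bounds (x := dlog f) (y := f) (a := 0) (b := f.order)
    (fun i hi => dlog_coeff_of_neg hf hi)
    (fun j hj => HahnSeries.coeff_eq_zero_of_lt_order hj)
  rw [h1, zero_add, thetaL_coeff] at h2
  have hne : f.coeff f.order ≠ 0 := fun h => hf (HahnSeries.coeff_order_eq_zero.1 h)
  exact (mul_right_cancel₀ hne h2).symm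

/-- the constant term of `heckeT l g` is `(1 + l) g_0`. -/
theorem heckeT_coeff_zero (l : ℕ) [NeZero l] (g : LaurentSeries k) :
    (heckeT l g).coeff 0 = g.coeff 0 + (l : k) * g.coeff 0 := by
  have h := heckeT_coeff_mul l g 0
  rwa [mul_zero, mul_zero] at h

/-- **Non-Eisenstein eigenvalue kills the constant term**: if `heckeT l g = c * g` with `c` a
constant series `C a`, `a != l + 1`, then `g_0 = 0`. -/
theorem coeff_zero_eq_zero_of_heckeT_eigen (l : ℕ) [NeZero l] {g : LaurentSeries k} {a : k}
    (h : heckeT l g = HahnSeries.C a * g) (ha : a ≠ (l : k) + 1) : g.coeff 0 = 0 := by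
  have h0 := congrArg (fun x : LaurentSeries k => x.coeff 0) h
  simp only [heckeT_coeff_zero, HahnSeries.C_mul_eq_smul, HahnSeries.coeff_smul,
    smul_eq_mul] at h0
  have h1 : ((l : k) + 1 - a) * g.coeff 0 = 0 := by
    rw [sub_mul, add_mul, one_mul, ← h0]
    ring
  rcases mul_eq_zero.1 h1 with h2 | h2
  · exact absurd (sub_eq_zero.1 h2).symm ha
  · exact h2

/-- **Slope at the base cusp is free**: `heckeT l (dlog f) = a * dlog f`, `a != l + 1`
implies `ord f = 0` in `k`. -/
theorem order_eq_zero_of_heckeT_eigen (l : ℕ) [NeZero l] {f : LaurentSeries k} (hf : f ≠ 0)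
    {a : k} (h : heckeT l (dlog f) = HahnSeries.C a * dlog f) (ha : a ≠ (l : k) + 1) :
    ((f.order : ℤ) : k) = 0 := by
  rw [← dlog_coeff_zero hf]
  exact coeff_zero_eq_zero_of_heckeT_eigen l h ha

/-- integer-eigenvalue form (the shape delivered by the Kummer-Hecke leaf). -/
theorem order_eq_zero_of_heckeT_eigen_int (l : ℕ) [NeZero l] {f : LaurentSeries k} (hf : f ≠ 0)
    {a : ℤ} (h : heckeT l (dlog f) = (a : LaurentSeries k) * dlog f)
    (ha : (a : k) ≠ (l : k) + 1) : ((f.order : ℤ) : k) = 0 := by
  have hC : ((a : LaurentSeries k)) = HahnSeries.C (a : k) := by simp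
  rw [hC] at h
  exact order_eq_zero_of_heckeT_eigen l hf h ha

/-- characteristic `p` form: `p` divides the `q`-order of `f`. -/
theorem dvd_order_of_heckeT_eigen (p : ℕ) [CharP k p] (l : ℕ) [NeZero l] {f : LaurentSeries k}
    (hf : f ≠ 0) {a : k} (h : heckeT l (dlog f) = HahnSeries.C a * dlog f)
    (ha : a ≠ (l : k) + 1) : (p : ℤ) ∣ f.order :=
  (CharP.intCast_eq_zero_iff k p _).1 (order_eq_zero_of_heckeT_eigen l hf h ha)

end Fermat.Agent.S40x.C2.CuspInfty
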