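/-
P-S44, block C2 (route OMEGA), leaf DEL (instance side), SECOND helper91.

The arguments `M, Dq, t, hDt, dl, hdl, S, hOmega` of the landed abstract assembly
`AsmAbs.exists_eigen_of_mem_Xf_of_not_mem_K1` at the instance `E = Fk k N` (special fibre of a good level
`N`, `4 ∣ N`), `M = k((q))`:

* `thetaDer k N : Derivation k (Fk k N) (LaurentSeries k)`, `f ↦ θ_q (f : k((q)))`
  (`Module k (LaurentSeries k)` is the DEFAULT instance `HahnSeries.instModule`);
* `thetaDer_t_ne_zero` : `θ_q x₄ ≠ 0`;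
* `dl f := DlogHecke.dlog (f : k((q)))`, `smul_dl` : `f • dl f = thetaDer f`;
* `spanS qf` : the `k`-span of the reduced `q`-expansions, and `dl_mem_spanS` : the conclusion of the
  landed `DlogSpan.exists_basis_dlog_span` in the shape `hOmega` of `AsmAbs`;
* `exists_omega_data` : everything in one statement.
-/
import Mathlib
import Fermat.Agent.S40x.C2.AsmAbs
import Fermat.Agent.S40x.C2.DlogHecke
import Fermat.Agent.S40x.C2.DlogSpan

set_option autoImplicit false
set_option linter.style.haveILetI false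
set_option linter.unusedSectionVars false

noncomputable section

namespace Fermat.Agent.S40x.C2.DelInst

open HahnSeries ModularCurve IntermediateField AlgebraicCurve CongruenceSubgroup
open Fermat.Agent.S16.Two Fermat.Agent.Lib.Residue Fermat.Agent.Gateway.GoodRed
open Fermat.Agent.Gateway.GoodRed.ConjFamily Fermat.Agent.S40x.C2.DlogHecke

section Theta

variable (k : Type) [Field k] (N : ℕ) [NeZero N]

theorem smul_eq_C_mul (c : k) (x : LaurentSeries k) : c • x = HahnSeries.C c * x := by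
  ext n
  rw [HahnSeries.coeff_smul, HahnSeries.C_apply, coeff_single_mul', sub_zero, smul_eq_mul]

theorem coe_smul_Fk (c : k) (f : Fk k N) :
    ((c • f : Fk k N) : LaurentSeries k) = HahnSeries.C c * (f : LaurentSeries k) := by
  have h1 : ((c • f : Fk k N) : LaurentSeries k) =
      algebraMap k (LaurentSeries k) c * (f : LaurentSeries k) := by
    rw [Algebra.smul_def]
    rfl
  rw [h1, algebraMap_laurentSeries_eq_single, HahnSeries.C_apply]

/-- `θ_q ∘ coe` as a `k`-derivation `Fk k N → k((q))`. -/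
def thetaDer : Derivation k (Fk k N) (LaurentSeries k) where
  toFun f := thetaL (f : LaurentSeries k)
  map_add' f g := by
    show thetaL ((f + g : Fk k N) : LaurentSeries k) = _
    rw [AddMemClass.coe_add, thetaL_add]
  map_smul' c f := by
    show thetaL ((c • f : Fk k N) : LaurentSeries k) = c • thetaL (f : LaurentSeries k)
    rw [coe_smul_Fk, thetaL_mul, thetaL_C, zero_mul, zero_add, smul_eq_C_mul]
  map_one_eq_zero' := by
    show thetaL ((1 : Fk k N) : LaurentSeries k) = 0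
    rw [OneMemClass.coe_one, thetaL_one]
  leibniz' f g := by
    show thetaL ((f * g : Fk k N) : LaurentSeries k) =
      f • thetaL (g : LaurentSeries k) + g • thetaL (f : LaurentSeries k)
    rw [MulMemClass.coe_mul, thetaL_mul, IntermediateField.smul_def, IntermediateField.smul_def,
      smul_eq_mul, smul_eq_mul]
    ring

@[simp] theorem thetaDer_apply (f : Fk k N) : thetaDer k N f = thetaL (f : LaurentSeries k) := rfl

/-- `θ_q x₄ ≠ 0`. -/
theorem thetaDer_t_ne_zero (t : Fk k N) (ht : (t : LaurentSeries k) = TLine4.x4k k) :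
    thetaDer k N t ≠ 0 := by
  rw [thetaDer_apply, ht, thetaL]
  exact mul_ne_zero (by simp) (DlogSpan.D_x4k_ne_zero k)

/-- the logarithmic derivative on `Fk` -/
def dl (f : Fk k N) : LaurentSeries k := dlog (f : LaurentSeries k)

theorem smul_dl (f : Fk k N) (hf : f ≠ 0) : f • dl k N f = thetaDer k N f := by
  have hf' : (f : LaurentSeries k) ≠ 0 := fun h => hf (Subtype.ext h)
  rw [IntermediateField.smul_def, smul_eq_mul, dl, dlog, thetaDer_apply, mul_div_cancel₀ _ hf']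

/-- the `k`-span of the reductions of integral `q`-expansions -/
def spanS {ι : Type*} (qf : ι → PowerSeries ℤ) : Submodule k (LaurentSeries k) :=
  Submodule.span k (Set.range fun i =>
    HahnSeries.ofPowerSeries ℤ k ((qf i).map (Int.castRingHom k)))

theorem mem_spanS_of_eq {ι : Type*} [Fintype ι] (qf : ι → PowerSeries ℤ) (c : ι → k)
    {x : LaurentSeries k}
    (hx : x = ∑ i, HahnSeries.C (c i) *
      HahnSeries.ofPowerSeries ℤ k ((qf i).map (Int.castRingHom k))) : x ∈ spanS k qf := by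
  rw [hx]
  refine Submodule.sum_mem _ fun i _ => ?_
  rw [← smul_eq_C_mul]
  exact Submodule.smul_mem _ _ (Submodule.subset_span ⟨i, rfl⟩)

/-- from the literal of `DlogSpan.exists_basis_dlog_span` to `dl fb ∈ S` -/
theorem dl_mem_spanS {ι : Type*} [Fintype ι] (qf : ι → PowerSeries ℤ) (c : ι → k) (fb : Fk k N)
    (hfb : fb ≠ 0)
    (h : HahnSeries.single (1 : ℤ) (1 : k) * D (fb : LaurentSeries k) =
      (fb : LaurentSeries k) * ∑ i, HahnSeries.C (c i) *
        HahnSeries.ofPowerSeries ℤ k ((qf i).map (Int.castRingHom k))) :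
    dl k N fb ∈ spanS k qf := by
  have hfb' : (fb : LaurentSeries k) ≠ 0 := fun h => hfb (Subtype.ext h)
  apply mem_spanS_of_eq k qf c
  rw [dl, dlog, thetaL, h, mul_div_assoc, mul_comm, div_mul_cancel₀ _ hfb']

end Theta

/-! ### Everything in one statement -/

section Omega

open UpperHalfPlane Fermat.Agent.Gateway.Red Fermat.Agent.S24.Setup

variable {N : ℕ} [NeZero N] (ℓ : ℕ) [Fact ℓ.Prime] (A : ValuationSubring Kbar)
  {k : Type} [Field k] [IsAlgClosed k] [CharP k ℓ] (π : A →+* k)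
  (hπ : Function.Surjective π) (hℓN : ¬ ℓ ∣ N)

include hπ hℓN in
/-- **The `(t, Dq, hDt, dl, hdl, S, hOmega)` arguments of `AsmAbs.exists_eigen_of_mem_Xf_of_not_mem_K1` at a
good level `N`, `4 ∣ N`** (given the unramifiedness `hunr` of leaf UNR). -/
theorem exists_omega_data (h4 : 4 ∣ N) (hA : A.LiesOverPrime ℓ)
    (t : Fk k N) (ht : (t : LaurentSeries k) = TLine4.x4k k)
    (hunr : ∀ P : Place k (Fk k N), 0 ≤ P.ord (jFk k N) →
      ∃ c : k, P.ord (t - algebraMap k (Fk k N) c) = 1) :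
    Algebra.IsSeparable k⟮t⟯ (Fk k N) ∧ thetaDer k N t ≠ 0 ∧
    (∀ f : Fk k N, f ≠ 0 → f • dl k N f = thetaDer k N f) ∧
    ∃ (f : Fin (Module.finrank ℂ (CuspForm (Gamma0 N) 2)) → CuspForm (Gamma0 N) 2)
      (qf : Fin (Module.finrank ℂ (CuspForm (Gamma0 N) 2)) → PowerSeries ℤ),
      (∀ i, qExpansion 1 (f i) = (qf i).map (Int.castRingHom ℂ)) ∧
      (∀ i, PowerSeries.constantCoeff (qf i) = 0) ∧
      LinearIndependent ℂ f ∧ Submodule.span ℂ (Set.range f) = ⊤ ∧
      LinearIndependent k (fun i => (qf i).map (Int.castRingHom k)) ∧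
      ∀ fb : Fk k N, fb ≠ 0 → (∀ P : Place k (Fk k N), (ℓ : ℤ) ∣ P.ord fb) →
        dl k N fb ∈ spanS k qf := by
  have hNk : ((N : ℕ) : k) ≠ 0 := natCast_ne_zero_final ℓ hℓN
  refine ⟨TLineHurwitz.isSeparable_t4 N hNk t ht, thetaDer_t_ne_zero k N t ht,
    fun f hf => smul_dl k N f hf, ?_⟩
  obtain ⟨f, qf, hqf, hc0, hfli, hfspan, hsat, hspan⟩ :=
    DlogSpan.exists_basis_dlog_span ℓ A π hπ hℓN h4 hA t ht hunr
  refine ⟨f, qf, hqf, hc0, hfli, hfspan, hsat, fun fb hfb hdiv => ?_⟩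
  obtain ⟨c, hc⟩ := hspan fb hfb hdiv
  exact dl_mem_spanS k N qf c fb hfb hc

include hπ hℓN in
/-- **`G4+` at a good level `N`, `4 ∣ N`, modulo the Slope instance (`hD`, `hconstE`, `hSA`), the
unramifiedness `hunr` (leaf UNR) and the Kummer-Hecke hypotheses (`hKH₁`, `hKH₂`, leaf KH)**: the landed
abstract assembly with all the `q`-series arguments filled in. -/
theorem exists_eigen_of_mem_Xf_of_not_mem_K1 (h4 : 4 ∣ N) (hA : A.LiesOverPrime ℓ)
    {L : Type*} [Field L] [IsAlgClosed L] {F : Type*} [Field F] [Algebra L F]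
    [HasPrincipalDivisors L F] [HasPrincipalDivisors k (Fk k N)]
    {O₁ O₂ : ValuationSubring F} {ρ₁ : O₁ →+* Fk k N} {ρ₂ : O₂ →+* Fk k N}
    (hD : Fermat.Agent.S40x.Slope.Xf.FlatData (L := L) O₁ O₂ ρ₁ ρ₂ ℓ)
    (hconstE : ∀ g : Fk k N, g ≠ 0 → (∀ v : Place k (Fk k N), v.ord g = 0) →
      ∃ c : k, g = algebraMap k (Fk k N) c)
    (hSA : ∀ a b : Fk k N, ∃ (g : F) (h₁ : g ∈ O₁) (h₂ : g ∈ O₂), ρ₁ ⟨g, h₁⟩ = a ∧ ρ₂ ⟨g, h₂⟩ = b)
    (t : Fk k N) (ht : (t : LaurentSeries k) = TLine4.x4k k)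
    (hunr : ∀ P : Place k (Fk k N), 0 ≤ P.ord (jFk k N) →
      ∃ c : k, P.ord (t - algebraMap k (Fk k N) c) = 1)
    {ι : Type*} (T : ι → Pic0 L F → Pic0 L F) (H : ι → LaurentSeries k → LaurentSeries k)
    (a : ι → ℤ)
    (hKH₁ : ∀ (i : ι) (ξ : Pic0 L F) (w : F), Fermat.Agent.Gateway.Kummer.IsKummerRep ℓ ξ w →
      Fermat.Agent.S40x.Slope.UnitTwo.UnitTwo O₁ O₂ w → T i ξ = a i • ξ →
      H i (dl k N (Fermat.Agent.S40x.Slope.SlopeInv.red O₁ ρ₁ w)) =
        ((a i : ℤ) : k) • dl k N (Fermat.Agent.S40x.Slope.SlopeInv.red O₁ ρ₁ w))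
    (hKH₂ : ∀ (i : ι) (ξ : Pic0 L F) (w : F), Fermat.Agent.Gateway.Kummer.IsKummerRep ℓ ξ w →
      Fermat.Agent.S40x.Slope.UnitTwo.UnitTwo O₁ O₂ w → T i ξ = a i • ξ →
      H i (dl k N (Fermat.Agent.S40x.Slope.SlopeInv.red O₂ ρ₂ w)) =
        ((a i : ℤ) : k) • dl k N (Fermat.Agent.S40x.Slope.SlopeInv.red O₂ ρ₂ w))
    {ξ : Pic0 L F} (hξf : ξ ∈ Fermat.Agent.S40x.Slope.Xf.Xf k hD)
    (hξ1 : ξ ∉ Fermat.Agent.S40x.Slope.Xf.K1 O₁ O₂ ρ₁ ρ₂ ℓ) (heig : ∀ i, T i ξ = a i • ξ) :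
    ∃ (f : Fin (Module.finrank ℂ (CuspForm (Gamma0 N) 2)) → CuspForm (Gamma0 N) 2)
      (qf : Fin (Module.finrank ℂ (CuspForm (Gamma0 N) 2)) → PowerSeries ℤ),
      (∀ i, qExpansion 1 (f i) = (qf i).map (Int.castRingHom ℂ)) ∧
      (∀ i, PowerSeries.constantCoeff (qf i) = 0) ∧
      LinearIndependent ℂ f ∧ Submodule.span ℂ (Set.range f) = ⊤ ∧
      LinearIndependent k (fun i => (qf i).map (Int.castRingHom k)) ∧
      ∃ g ∈ spanS k qf, g ≠ 0 ∧ ∀ i, H i g = ((a i : ℤ) : k) • g := by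
  obtain ⟨hsep, hDt, hdl, f, qf, hqf, hc0, hfli, hfspan, hsat, hOmega⟩ :=
    exists_omega_data ℓ A π hπ hℓN h4 hA t ht hunr
  refine ⟨f, qf, hqf, hc0, hfli, hfspan, hsat, ?_⟩
  haveI := hsep
  exact AsmAbs.exists_eigen_of_mem_Xf_of_not_mem_K1 hD hconstE hSA t (thetaDer k N) hDt
    (dl k N) hdl (spanS k qf) hOmega T H a hKH₁ hKH₂ hξf hξ1 heig

end Omega

end Fermat.Agent.S40x.C2.DelInst
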