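/-
P-S44, block C2 (route OMEGA), leaf (Dt) (helper77): characteristic-free
"`d/dx` preserves the local ring at a place where `x - c` is a uniformizer", the integrality of
logarithmic derivatives `D f / f` at such a place when the characteristic divides `ord_v f`, and
the global consequence: `D f / f` is integral over `K[y]`.
-/
import Mathlib
import Fermat.Agent.S24.DiffOrd
import Fermat.Agent.S24.DiffOrdSpec
import Fermat.Agent.S24.PlacesDedekind
import Fermat.Agent.Gateway.GoodRed.PlacesIntegral
import Fermat.Agent.Lib.RiemannRoch.FunctionFieldRR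

set_option autoImplicit false
set_option linter.unusedSectionVars false
set_option linter.style.haveILetI false

noncomputable section

open KaehlerDifferential AlgebraicCurve IsLocalRing IsDedekindDomain IntermediateField

namespace Fermat.Agent.S40x.C2.DerivPlace

open Fermat.Agent.S24 Fermat.Agent.S24.ZP Fermat.Agent.Gateway.GoodRed.PlacesIntegral
open scoped IntermediateField.algebraAdjoinAdjoin

variable {K F : Type*} [Field K] [Field F] [Algebra K F] {x : F}

section Finite

variable (hx : Transcendental K x) [FiniteDimensional K⟮x⟯ F] [Algebra.IsSeparable K⟮x⟯ F]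

include hx in
/-- The integral closure of `K[x]` in `F` is a finitely generated `K`-algebra. -/
theorem finiteType_integralClosure :
    Algebra.FiniteType K (integralClosure (Algebra.adjoin K {x}) F) := by
  have hpid := isPrincipalIdealRing_adjoin x hx
  have hfin : Module.Finite (Algebra.adjoin K {x}) (integralClosure (Algebra.adjoin K {x}) F) :=
    IsIntegralClosure.finite (Algebra.adjoin K {x}) K⟮x⟯ F _
  have h1 : Algebra.FiniteType K (Algebra.adjoin K {x}) := by
    rw [← Subalgebra.fg_iff_finiteType]
    have := Subalgebra.fg_adjoin_finset (R := K) (A := F) {x}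
    simpa using this
  have h2 : Algebra.FiniteType (Algebra.adjoin K {x})
      (integralClosure (Algebra.adjoin K {x}) F) := inferInstance
  exact Algebra.FiniteType.trans h1 h2

include hx in
/-- **Finitely generated differentials, any characteristic.**  At a place where `x` is regular the
local ring is a localization of the integral closure of `K[x]`. -/
theorem finite_kaehler_of_mem (v : Place K F) (hv : x ∈ v.toValuationSubring) :
    Module.Finite v.toValuationSubring Ω[v.toValuationSubring⁄K] := by
  have hD := isDedekindDomain_integralClosure_of_separable x hx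
  have hFr := isFractionRing_integralClosure_of_finite (k := K) (E := F) x
  have hft := finiteType_integralClosure (F := F) hx
  have hB : ∀ b : integralClosure (Algebra.adjoin K {x}) F,
      algebraMap (integralClosure (Algebra.adjoin K {x}) F) F b ∈ v.toValuationSubring :=
    fun b => integralClosure_le_place x v hv b
  have h1 := PD.placeOfPrime_primeOfPlace v hB
  refine finite_kaehler_of_eq_valuationSubringAtPrime v (PD.primeOfPlace v hB) ?_
  rw [HeightOneSpectrum.valuationSubringAtPrime_eq_valuationSubring]
  exact (congrArg Place.toValuationSubring h1).symm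

end Finite

section Local

variable [IsAlgClosed K] (hx : Transcendental K x) [FiniteDimensional K⟮x⟯ F]
  [Algebra.IsSeparable K⟮x⟯ F]

omit [IsAlgClosed K] [FiniteDimensional K⟮x⟯ F] [Algebra.IsSeparable K⟮x⟯ F] in
include hx in
theorem sub_algebraMap_ne_zero (c : K) : x - algebraMap K F c ≠ 0 := by
  intro h
  rw [sub_eq_zero] at h
  exact hx (h ▸ isAlgebraic_algebraMap c)

/-- If `ord_v (x - c) = 1` then `x - c` is an irreducible element of the local ring at `v`. -/
theorem irreducible_of_ord_eq_one (v : Place K F) {y : F} (hy : v.ord y = 1)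
    (hymem : y ∈ v.toValuationSubring) : Irreducible (⟨y, hymem⟩ : v.toValuationSubring) := by
  have hy0 : y ≠ 0 := by
    rintro rfl
    simp at hy
  obtain ⟨ϖ, hϖ⟩ := IsDiscreteValuationRing.exists_irreducible v.toValuationSubring
  obtain ⟨w, hw⟩ := v.exists_unit_mul_zpow hy0 hϖ
  rw [hy, zpow_one] at hw
  have e : (⟨y, hymem⟩ : v.toValuationSubring) = (w : v.toValuationSubring) * ϖ := by
    apply Subtype.ext
    exact hw
  rw [e, irreducible_units_mul]
  exact hϖ

include hx in
/-- **(Dt), local statement, any characteristic.**  At a place `v` where `x - c` is a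
uniformizer, a `K`-derivation `D` of `F` with `D x = 1` preserves the local ring. -/
theorem derivation_mem_valuationSubring (D : Derivation K F F) (hD : D x = 1) (v : Place K F)
    {c : K} (hc : v.ord (x - algebraMap K F c) = 1) {u : F} (hu : u ∈ v.toValuationSubring) :
    D u ∈ v.toValuationSubring := by
  set y : F := x - algebraMap K F c with hy_def
  have hy0 : y ≠ 0 := sub_algebraMap_ne_zero hx c
  have hymem : y ∈ v.toValuationSubring := (PD.place_mem_iff v hy0).mpr (by omega)
  have hxmem : x ∈ v.toValuationSubring := by
    have := v.toValuationSubring.add_mem _ _ hymem (v.algebraMap_mem' c)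
    simpa [hy_def] using this
  haveI : v.FiniteResidue := Fermat.Agent.Lib.RiemannRoch.FunctionFieldRR.finiteResidue x v
  have hres : ResidueTrivial v := residueTrivial_of_finiteResidue v
  have hπ := irreducible_of_ord_eq_one v hc hymem
  haveI := finite_kaehler_of_mem hx v hxmem
  obtain ⟨a, ha⟩ := exists_D_eq_smul_D_irreducible v hres hπ ⟨u, hu⟩
  have key := congrArg D.liftKaehlerDifferential ha
  rw [map_smul, Derivation.liftKaehlerDifferential_comp_D,
    Derivation.liftKaehlerDifferential_comp_D] at key
  have hDy : D y = 1 := by rw [hy_def, map_sub, hD, D.map_algebraMap, sub_zero]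
  change D u = (a : F) • D y at key
  rw [hDy, smul_eq_mul, mul_one] at key
  rw [key]
  exact a.2

include hx in
/-- **Logarithmic derivatives are integral where the characteristic divides the order.** -/
theorem dlog_mem_valuationSubring (p : ℕ) [CharP K p] (D : Derivation K F F) (hD : D x = 1)
    (v : Place K F) {c : K} (hc : v.ord (x - algebraMap K F c) = 1) {f : F} (hf : f ≠ 0)
    (hdiv : (p : ℤ) ∣ v.ord f) : D f / f ∈ v.toValuationSubring := by
  set y : F := x - algebraMap K F c with hy_def
  have hy0 : y ≠ 0 := sub_algebraMap_ne_zero hx c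
  have hymem : y ∈ v.toValuationSubring := (PD.place_mem_iff v hy0).mpr (by omega)
  have hπ := irreducible_of_ord_eq_one v hc hymem
  obtain ⟨w, hw⟩ := v.exists_unit_mul_zpow hf hπ
  obtain ⟨m, hm⟩ := hdiv
  haveI : CharP F p := charP_of_injective_algebraMap (algebraMap K F).injective p
  have hpow : (y : F) ^ v.ord f = (y ^ m) ^ p := by
    rw [hm, mul_comm, zpow_mul, zpow_natCast]
  change f = ((w : v.toValuationSubring) : F) * y ^ v.ord f at hw
  rw [hpow] at hw
  have hDpow : D ((y ^ m) ^ p) = 0 := by
    rw [Derivation.leibniz_pow]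
    have : ((p : ℕ) : F) = 0 := CharP.cast_eq_zero F p
    rw [← Nat.cast_smul_eq_nsmul F, this, zero_smul]
  have hw0 : ((w : v.toValuationSubring) : F) ≠ 0 := by
    simp [ne_eq, ZeroMemClass.coe_eq_zero]
  have hz0 : (y ^ m) ^ p ≠ 0 := pow_ne_zero _ (zpow_ne_zero _ hy0)
  have hDf : D f = D ((w : v.toValuationSubring) : F) * (y ^ m) ^ p := by
    rw [hw, Derivation.leibniz, hDpow, smul_zero, zero_add, smul_eq_mul, mul_comm]
  have hquot : D f / f = D ((w : v.toValuationSubring) : F) * ((w⁻¹ : v.toValuationSubringˣ) : F) := by
    have hinv : ((w⁻¹ : v.toValuationSubringˣ) : F) = (((w : v.toValuationSubring) : F))⁻¹ := by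
      have h3 : ((w : v.toValuationSubring) : F) * ((w⁻¹ : v.toValuationSubringˣ) : F) = 1 := by
        rw [← MulMemClass.coe_mul, Units.mul_inv]; rfl
      exact (inv_eq_of_mul_eq_one_right h3).symm
    rw [hinv, hDf]
    conv_lhs => rw [hw]
    field_simp
  rw [hquot]
  exact v.toValuationSubring.mul_mem _ _
    (derivation_mem_valuationSubring hx D hD v hc (SetLike.coe_mem _)) (SetLike.coe_mem _)

end Local

section Global

variable [IsAlgClosed K] (hx : Transcendental K x) [FiniteDimensional K⟮x⟯ F]
  [Algebra.IsSeparable K⟮x⟯ F]

include hx in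
/-- At a place where `x` is regular there is a value `c` of `x` with `0 < ord_v (x - c)`. -/
theorem exists_ord_sub_pos (v : Place K F) (hv : 0 ≤ v.ord x) :
    ∃ c : K, 0 < v.ord (x - algebraMap K F c) := by
  have hx0 : x ≠ 0 := by
    have := sub_algebraMap_ne_zero hx 0
    simpa using this
  have hxmem : x ∈ v.toValuationSubring := (PD.place_mem_iff v hx0).mpr hv
  haveI : v.FiniteResidue := Fermat.Agent.Lib.RiemannRoch.FunctionFieldRR.finiteResidue x v
  have hres : ResidueTrivial v := residueTrivial_of_finiteResidue v
  obtain ⟨c, hc⟩ := hres ⟨x, hxmem⟩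
  refine ⟨c, ?_⟩
  have hymem : x - algebraMap K F c ∈ v.toValuationSubring :=
    v.toValuationSubring.sub_mem hxmem (v.algebraMap_mem' c)
  have hc' : (⟨x - algebraMap K F c, hymem⟩ : v.toValuationSubring) ∈
      IsLocalRing.maximalIdeal v.toValuationSubring := hc
  exact (PD.place_mem_maximalIdeal_iff v ⟨x - algebraMap K F c, hymem⟩
    (sub_algebraMap_ne_zero hx c)).mp hc'

include hx in
/-- **(i) of LEMMA OMEGA, abstract form.**  `F / K` a function field over an algebraically closed
field of characteristic `p`, `x` a separating element, `D = d/dx`.  Let `y` be another separating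
element all of whose finite places are finite for `x` and unramified over the `x`-line.  If
`p ∣ ord_v f` at every finite place of `y`, then `D f / f` is integral over `K[y]`. -/
theorem isIntegral_dlog (p : ℕ) [CharP K p] {y : F} (hy : Transcendental K y)
    [FiniteDimensional K⟮y⟯ F] [Algebra.IsSeparable K⟮y⟯ F]
    (D : Derivation K F F) (hD : D x = 1)
    (hpole : ∀ v : Place K F, v.ord x < 0 → v.ord y < 0)
    (hunr : ∀ (v : Place K F) (a : K), 0 ≤ v.ord y → 0 < v.ord (x - algebraMap K F a) →
      v.ord (x - algebraMap K F a) = 1)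
    {f : F} (hf : f ≠ 0) (hdiv : ∀ v : Place K F, 0 ≤ v.ord y → (p : ℤ) ∣ v.ord f) :
    IsIntegral (Algebra.adjoin K {y}) (D f / f) := by
  rw [isIntegral_iff_forall_ord_nonneg y hy]
  intro P hP
  have hxord : 0 ≤ P.ord x := by
    by_contra h
    rw [not_le] at h
    have := hpole P h
    omega
  obtain ⟨c, hc⟩ := exists_ord_sub_pos hx P hxord
  have h1 := hunr P c hP hc
  have hmem := dlog_mem_valuationSubring hx p D hD P h1 hf (hdiv P hP)
  rcases eq_or_ne (D f / f) 0 with h0 | h0
  · rw [h0]; simp
  · exact (PD.place_mem_iff P h0).mp hmem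

end Global

end Fermat.Agent.S40x.C2.DerivPlace
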