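import Mathlib
import Fermat.Prelude.Def_AlgebraicCurve_Repartitions
import Fermat.Agent.S24.ZP.PlaceBasics
import Fermat.Agent.S24.DiffOrd
import Fermat.Agent.Lib.RiemannRoch.FunctionFieldRR
import Fermat.Agent.Gateway.GoodRed.PlacesIntegral

/-!
# P-S44, block C2, leaf DER (independent SECOND, helper34): `d/dx` at the places of a separably
generated function field in characteristic `p`

Second of `S40x/C2/DerivPlace.lean` (helper77, literal note `S44-IFACE-C2-Dt`), by a different,
purely characteristic-`p` route: no Kaehler differentials, no completions.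

`κ / k(t)` separable algebraic, `k` perfect of characteristic `p`.  Then `κ = κ^p(t)`: every
element is `∑_{i<p} cᵢ^p (t - c)ⁱ`.  At a place where `π = t - c` is a uniformiser the terms have
pairwise distinct orders `p ord(cᵢ) + i`, so the order of the sum is the minimum, and the formal
derivative `∑ i cᵢ^p πⁱ⁻¹` can be estimated term by term:

* `derivation_mem_valuationSubring` : `u ∈ O_v → D u ∈ O_v`;
* `dlog_mem_valuationSubring` : `p ∣ ord_v f → D f / f ∈ O_v`;
* `isIntegral_dlog` : global integrality of `D f / f` over `k[y]`.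

The first sections are stated for a bare Leibniz map `D : L → L` along an embedding `ι : κ →+* L`
(`val_deriv`, `deriv_place`), which also gives the chain rule for arbitrary embeddings
(`exists_deriv`: `D (ι u) = ι w * D (ι π)` with `w : κ` independent of `(ι, D)`).
-/

set_option autoImplicit false
set_option linter.style.haveILetI false
set_option linter.unusedSectionVars false

namespace Fermat.Agent.S40x.C2.DerivPlaceB

open Polynomial IntermediateField WithZero AlgebraicCurve

/-! ## Part 1: `κ = κ^p(t)` and linear independence -/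

section Part1



section Leibniz

variable {L : Type*} [CommRing L] (D : L → L)
  (hadd : ∀ x y, D (x + y) = D x + D y) (hmul : ∀ x y, D (x * y) = D x * y + x * D y)

include hmul in
theorem D_one : D 1 = 0 := by
  have h := hmul 1 1
  simp only [mul_one, one_mul] at h
  have : D 1 + 0 = D 1 + D 1 := by rw [add_zero]; exact h
  exact (add_left_cancel this).symm

include hadd in
theorem D_zero : D 0 = 0 := by
  have h := hadd 0 0
  rw [add_zero] at h
  have : D 0 + 0 = D 0 + D 0 := by rw [add_zero]; exact h
  exact (add_left_cancel this).symm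

include hmul in
theorem D_pow (x : L) (n : ℕ) : D (x ^ (n + 1)) = ((n + 1 : ℕ) : L) * x ^ n * D x := by
  induction n with
  | zero => simp
  | succ n ih =>
    rw [pow_succ, hmul, ih]
    push_cast
    ring

include hmul in
theorem D_pow_char (p : ℕ) [Fact p.Prime] [CharP L p] (x : L) : D (x ^ p) = 0 := by
  obtain ⟨n, hn⟩ : ∃ n, p = n + 1 := ⟨p - 1, by have := (Fact.out : p.Prime).pos; omega⟩
  rw [hn, D_pow D hmul, ← hn, CharP.cast_eq_zero, zero_mul, zero_mul]

include hadd in
theorem D_sum {ι : Type*} (s : Finset ι) (f : ι → L) : D (∑ i ∈ s, f i) = ∑ i ∈ s, D (f i) := by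
  classical
  induction s using Finset.induction_on with
  | empty => simpa using D_zero D hadd
  | insert a s ha ih => rw [Finset.sum_insert ha, hadd, ih, Finset.sum_insert ha]

end Leibniz

variable {κ : Type*} [Field κ] (p : ℕ) [Fact p.Prime] [CharP κ p]

/-- The subring of `κ` of polynomial expressions in `t` with `p`-th power coefficients. -/
noncomputable def frobSubring (t : κ) : Subring κ := (eval₂RingHom (frobenius κ p) t).range

theorem pow_mem_frobSubring (t c : κ) : c ^ p ∈ frobSubring p t :=
  ⟨C c, by simp [frobenius_def]⟩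

theorem self_mem_frobSubring (t : κ) : t ∈ frobSubring p t :=
  ⟨X, by simp⟩

theorem inv_mem_frobSubring (t : κ) {g : κ} (hg : g ∈ frobSubring p t) : g⁻¹ ∈ frobSubring p t := by
  by_cases h0 : g = 0
  · rw [h0, inv_zero]; exact Subring.zero_mem _
  · have hp : 1 ≤ p := (Fact.out : p.Prime).pos
    have : g⁻¹ = g ^ (p - 1) * (g⁻¹) ^ p := by
      have h1 : g ^ (p - 1) * (g⁻¹) ^ p = g ^ (p - 1) * (g ^ p)⁻¹ := by rw [inv_pow]
      rw [h1]
      have h2 : g ^ p = g ^ (p - 1) * g := by
        rw [← pow_succ]; congr 1; omega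
      rw [h2, mul_inv, ← mul_assoc, mul_inv_cancel₀ (pow_ne_zero _ h0), one_mul]
    rw [this]
    exact Subring.mul_mem _ (Subring.pow_mem _ hg _) (pow_mem_frobSubring p t _)

/-- `frobSubring` as a subfield. -/
noncomputable def frobSubfield (t : κ) : Subfield κ :=
  { frobSubring p t with
    inv_mem' := fun _ hg => inv_mem_frobSubring p t hg }

theorem mem_frobSubfield_iff (t g : κ) : g ∈ frobSubfield p t ↔ g ∈ frobSubring p t := Iff.rfl

/-- Every element of `frobSubring` is a polynomial expression of degree `< p`. -/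
theorem exists_natDegree_lt_of_mem (t : κ) {g : κ} (hg : g ∈ frobSubring p t) :
    ∃ r : κ[X], r.natDegree < p ∧ eval₂ (frobenius κ p) t r = g := by
  obtain ⟨r, hr⟩ := hg
  have hp : 0 < p := (Fact.out : p.Prime).pos
  have hmonic : (X ^ p - C t : κ[X]).Monic := monic_X_pow_sub_C t hp.ne'
  have hdeg : (X ^ p - C t : κ[X]).natDegree = p := natDegree_X_pow_sub_C
  refine ⟨r %ₘ (X ^ p - C t), ?_, ?_⟩
  · have := natDegree_modByMonic_lt r hmonic (by
      intro h1
      have := congrArg natDegree h1
      rw [hdeg, natDegree_one] at this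
      omega)
    rwa [hdeg] at this
  · have hdiv := modByMonic_add_div r (X ^ p - C t)
    have hev : eval₂ (frobenius κ p) t (X ^ p - C t) = 0 := by
      simp [frobenius_def]
    have : eval₂ (frobenius κ p) t r =
        eval₂ (frobenius κ p) t (r %ₘ (X ^ p - C t)) := by
      conv_lhs => rw [← hdiv]
      rw [eval₂_add, eval₂_mul, hev, zero_mul, add_zero]
    rw [← this]
    exact hr

variable {k : Type*} [Field k] [Algebra k κ] [PerfectField k]

include k in
/-- If `κ / k(t)` is separable with `k` perfect, then `κ = κ^p(t)`. -/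
theorem frobSubfield_eq_top (t : κ) [Algebra.IsSeparable k⟮t⟯ κ] : frobSubfield p t = ⊤ := by
  haveI : CharP k p := ((algebraMap k κ).charP_iff (algebraMap k κ).injective p).mpr inferInstance
  haveI : ExpChar k p := ExpChar.prime (Fact.out)
  -- `k ⊆ S`
  have hk : ∀ a : k, algebraMap k κ a ∈ frobSubfield p t := by
    intro a
    obtain ⟨b, hb⟩ := surjective_frobenius k p a
    rw [← hb, frobenius_def, map_pow]
    exact pow_mem_frobSubring p t _
  -- `k(t) ⊆ S`
  have hkt : (k⟮t⟯).toSubfield ≤ frobSubfield p t := by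
    show Subfield.closure _ ≤ _
    rw [Subfield.closure_le]
    rintro x (⟨a, rfl⟩ | hx)
    · exact hk a
    · rw [Set.mem_singleton_iff] at hx
      rw [hx]; exact self_mem_frobSubring p t
  rw [eq_top_iff]
  intro g _
  haveI : ExpChar k⟮t⟯ p := expChar_of_injective_algebraMap (algebraMap k k⟮t⟯).injective p
  have hsep : IsSeparable k⟮t⟯ g := Algebra.IsSeparable.isSeparable k⟮t⟯ g
  have h1 := adjoin_simple_eq_adjoin_pow_expChar_of_isSeparable (k⟮t⟯) κ hsep p
  have hg : g ∈ (k⟮t⟯)⟮g ^ p⟯ := h1 ▸ mem_adjoin_simple_self _ g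
  have hle : ((k⟮t⟯)⟮g ^ p⟯).toSubfield ≤ frobSubfield p t := by
    show Subfield.closure _ ≤ _
    rw [Subfield.closure_le]
    rintro x (⟨a, rfl⟩ | hx)
    · exact hkt a.2
    · rw [Set.mem_singleton_iff] at hx
      rw [hx]; exact pow_mem_frobSubring p t g
  exact hle hg

section Main

variable {L : Type*} [Field L] (ι : κ →+* L) (D : L → L)
  (hadd : ∀ x y, D (x + y) = D x + D y) (hmul : ∀ x y, D (x * y) = D x * y + x * D y)

include hadd hmul in
/-- Chain rule: `D (ι (∑ cᵢ^p tⁱ)) = ι (∑ i cᵢ^p tⁱ⁻¹) * D (ι t)`. -/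
theorem D_eval₂ (t : κ) (r : κ[X]) :
    D (ι (eval₂ (frobenius κ p) t r)) =
      ι (eval₂ (frobenius κ p) t (derivative r)) * D (ι t) := by
  haveI : CharP L p := (ι.charP_iff ι.injective p).mp inferInstance
  induction r using Polynomial.induction_on' with
  | add a b ha hb =>
    rw [eval₂_add, map_add, hadd, ha, hb, derivative_add, eval₂_add, map_add, add_mul]
  | monomial n a =>
    rw [eval₂_monomial, map_mul, map_pow, frobenius_def, map_pow, hmul,
      D_pow_char D hmul p, zero_mul, zero_add]
    cases n with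
    | zero =>
      simp only [pow_zero, monomial_zero_left, derivative_C, eval₂_zero, map_zero, zero_mul,
        mul_eq_zero]
      right
      exact D_one D hmul
    | succ n =>
      rw [D_pow D hmul, derivative_monomial, eval₂_monomial, map_mul, map_pow, frobenius_def]
      simp only [map_mul, map_pow, map_natCast, Nat.add_sub_cancel]
      have hfr : ((n + 1 : ℕ) : L) ^ p = ((n + 1 : ℕ) : L) := by
        have := map_natCast (frobenius L p) (n + 1)
        rwa [frobenius_def] at this
      rw [mul_pow, hfr]
      ring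

include hadd hmul in
/-- `1, t, …, t^(p-1)` are linearly independent over `κ^p` when `D (ι t) ≠ 0`. -/
theorem eq_zero_of_eval₂_eq_zero (t : κ) (ht : D (ι t) ≠ 0) :
    ∀ (n : ℕ) (r : κ[X]), r.natDegree ≤ n → r.natDegree < p →
      eval₂ (frobenius κ p) t r = 0 → r = 0 := by
  haveI : CharP L p := (ι.charP_iff ι.injective p).mp inferInstance
  intro n
  induction n with
  | zero =>
    intro r hr _ h0
    rw [Nat.le_zero] at hr
    rw [eq_C_of_natDegree_eq_zero hr] at h0 ⊢
    rw [eval₂_C, frobenius_def] at h0
    rw [pow_eq_zero_iff (Fact.out : p.Prime).ne_zero] at h0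
    rw [h0, C_0]
  | succ n ih =>
    intro r hr hrp h0
    -- the derivative also vanishes at `t`
    have h1 : eval₂ (frobenius κ p) t (derivative r) = 0 := by
      have h2 := D_eval₂ p ι D hadd hmul t r
      rw [h0, map_zero, D_zero D hadd] at h2
      have h3 := (mul_eq_zero.mp h2.symm).resolve_right ht
      exact (map_eq_zero ι).mp h3
    have hd : (derivative r).natDegree ≤ n := by
      have := natDegree_derivative_le r
      omega
    have hder : derivative r = 0 := ih _ hd (lt_of_le_of_lt (natDegree_derivative_le r)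
      (lt_of_le_of_lt (Nat.sub_le _ _) hrp)) h1
    -- hence `r` is constant
    have hconst : r.natDegree = 0 := by
      by_contra hne
      have hpos : 0 < r.natDegree := Nat.pos_of_ne_zero hne
      have hc : (derivative r).coeff (r.natDegree - 1) = 0 := by rw [hder, coeff_zero]
      rw [coeff_derivative, Nat.sub_add_cancel hpos] at hc
      have hlead : r.coeff r.natDegree ≠ 0 := by
        intro h
        have := leadingCoeff_eq_zero.mp h
        rw [this, natDegree_zero] at hpos
        exact lt_irrefl _ hpos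
      have hcast : ((r.natDegree - 1 : ℕ) : κ) + 1 ≠ 0 := by
        have h4 : ((r.natDegree - 1 : ℕ) : κ) + 1 = ((r.natDegree : ℕ) : κ) := by
          have : r.natDegree = (r.natDegree - 1) + 1 := by omega
          conv_rhs => rw [this]
          push_cast; ring
        rw [h4]
        intro h5
        have := (CharP.cast_eq_zero_iff κ p r.natDegree).mp h5
        exact absurd (Nat.le_of_dvd hpos this) (not_le.mpr hrp)
      rcases mul_eq_zero.mp hc with h | h
      · exact hlead h
      · exact hcast h
    exact ih r (by omega) hrp h0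

include k hadd hmul in
/-- **Kernel of a derivation.**  If `κ / k(t)` is separable algebraic over a perfect field `k`
of characteristic `p`, and `D` is a derivation (along `ι`) with `D (ι t) ≠ 0`, then `D (ι f) = 0`
implies that `f` is a `p`-th power in `κ`. -/
theorem exists_pow_eq_of_D_eq_zero (t : κ) [Algebra.IsSeparable k⟮t⟯ κ] (ht : D (ι t) ≠ 0)
    (f : κ) (hf : D (ι f) = 0) : ∃ g : κ, g ^ p = f := by
  have hmem : f ∈ frobSubring p t := by
    rw [← mem_frobSubfield_iff, frobSubfield_eq_top (k := k) p t]
    exact Subfield.mem_top f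
  obtain ⟨r, hrp, hr⟩ := exists_natDegree_lt_of_mem p t hmem
  have h1 : eval₂ (frobenius κ p) t (derivative r) = 0 := by
    have h2 := D_eval₂ p ι D hadd hmul t r
    rw [hr, hf] at h2
    have h3 := (mul_eq_zero.mp h2.symm).resolve_right ht
    exact (map_eq_zero ι).mp h3
  have hder : derivative r = 0 :=
    eq_zero_of_eval₂_eq_zero p ι D hadd hmul t ht _ _ le_rfl
      (lt_of_le_of_lt (natDegree_derivative_le r) (lt_of_le_of_lt (Nat.sub_le _ _) hrp)) h1
  -- `r` is constant
  have hconst : r.natDegree = 0 := by
    by_contra hne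
    have hpos : 0 < r.natDegree := Nat.pos_of_ne_zero hne
    have hc : (derivative r).coeff (r.natDegree - 1) = 0 := by rw [hder, coeff_zero]
    rw [coeff_derivative, Nat.sub_add_cancel hpos] at hc
    have hlead : r.coeff r.natDegree ≠ 0 := by
      intro h
      have := leadingCoeff_eq_zero.mp h
      rw [this, natDegree_zero] at hpos
      exact lt_irrefl _ hpos
    have hcast : ((r.natDegree - 1 : ℕ) : κ) + 1 ≠ 0 := by
      have h4 : ((r.natDegree - 1 : ℕ) : κ) + 1 = ((r.natDegree : ℕ) : κ) := by
        have : r.natDegree = (r.natDegree - 1) + 1 := by omega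
        conv_rhs => rw [this]
        push_cast; ring
      rw [h4]
      intro h5
      have := (CharP.cast_eq_zero_iff κ p r.natDegree).mp h5
      exact absurd (Nat.le_of_dvd hpos this) (not_le.mpr hrp)
    rcases mul_eq_zero.mp hc with h | h
    · exact hlead h
    · exact hcast h
  refine ⟨r.coeff 0, ?_⟩
  rw [← hr, eq_C_of_natDegree_eq_zero hconst, eval₂_C, frobenius_def, coeff_C_zero]

end Main


end Part1

/-! ## Part 2: valuations of the terms -/

section Part2



variable {κ : Type*} [Field κ] (p : ℕ) [Fact p.Prime] [CharP κ p]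

/-- natural numbers have valuation `≤ 1` -/
theorem val_natCast_le_one {Γ : Type*} [LinearOrderedCommGroupWithZero Γ] (v : Valuation κ Γ)
    (n : ℕ) : v (n : κ) ≤ 1 := by
  induction n with
  | zero => simp
  | succ n ih =>
    push_cast
    exact (v.map_add _ _).trans (max_le ih (by simp))

section Dominant

variable {Γ : Type*} [LinearOrderedCommGroupWithZero Γ] (v : Valuation κ Γ)

/-- In a finite sum whose nonzero terms have pairwise distinct valuations, one term dominates. -/
theorem exists_dominant {ι : Type*} [DecidableEq ι] (s : Finset ι) (f : ι → κ)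
    (hdist : ∀ i ∈ s, ∀ j ∈ s, f i ≠ 0 → f j ≠ 0 → v (f i) = v (f j) → i = j)
    (hne : ∃ i ∈ s, f i ≠ 0) :
    ∃ j ∈ s, f j ≠ 0 ∧ v (∑ i ∈ s, f i) = v (f j) ∧ ∀ i ∈ s, i ≠ j → v (f i) < v (f j) := by
  obtain ⟨i0, hi0, hfi0⟩ := hne
  obtain ⟨j, hj, hmax⟩ := Finset.exists_max_image s (fun i => v (f i)) ⟨i0, hi0⟩
  have hfj : f j ≠ 0 := by
    intro h
    have h1 := hmax i0 hi0
    simp only [h, map_zero] at h1
    exact hfi0 ((v.zero_iff).mp (le_antisymm h1 zero_le))
  have hlt : ∀ i ∈ s, i ≠ j → v (f i) < v (f j) := by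
    intro i hi hij
    refine lt_of_le_of_ne (hmax i hi) ?_
    intro heq
    have hfi : f i ≠ 0 := by
      intro h
      rw [h, map_zero] at heq
      exact hfj ((v.zero_iff).mp heq.symm)
    exact hij (hdist i hi j hj hfi hfj heq)
  refine ⟨j, hj, hfj, ?_, hlt⟩
  refine v.map_sum_eq_of_lt hj ?_
  intro i hi
  rw [Finset.mem_sdiff, Finset.mem_singleton] at hi
  exact hlt i hi.1 hi.2

end Dominant

variable (v : Valuation κ ℤᵐ⁰)

/-- valuation of a term `c ^ p * π ^ i` -/
theorem val_term {π c : κ} (hπ : v π = exp (-1 : ℤ)) (hc : c ≠ 0) (i : ℕ) :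
    v (c ^ p * π ^ i) = exp ((p : ℤ) * log (v c) - i) := by
  have hvc : v c ≠ 0 := (v.ne_zero_iff).mpr hc
  rw [map_mul, map_pow, map_pow, hπ]
  conv_lhs => rw [← exp_log hvc]
  rw [← exp_nsmul, ← exp_nsmul, ← exp_add]
  congr 1
  simp only [nsmul_eq_mul, mul_neg, mul_one]
  ring

theorem term_ne_zero {π c : κ} (hπ0 : π ≠ 0) (hc : c ≠ 0) (i : ℕ) : c ^ p * π ^ i ≠ 0 :=
  mul_ne_zero (pow_ne_zero _ hc) (pow_ne_zero _ hπ0)

theorem term_eq_zero_iff {π c : κ} (hπ0 : π ≠ 0) (i : ℕ) : c ^ p * π ^ i = 0 ↔ c = 0 := by
  constructor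
  · intro h
    by_contra hc
    exact term_ne_zero p hπ0 hc i h
  · rintro rfl
    rw [zero_pow (Fact.out : p.Prime).ne_zero, zero_mul]

/-- arithmetic: `p a - i = p b - j` with `i, j < p` forces `i = j` and `a = b` -/
theorem idx_eq_of_eq {a b : ℤ} {i j : ℕ} (hi : i < p) (hj : j < p)
    (h : (p : ℤ) * a - i = (p : ℤ) * b - j) : i = j := by
  have hp : (0 : ℤ) < p := by exact_mod_cast (Fact.out : p.Prime).pos
  have h1 : (p : ℤ) * (a - b) = (i : ℤ) - j := by linarith
  have hi' : (i : ℤ) < p := by exact_mod_cast hi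
  have hj' : (j : ℤ) < p := by exact_mod_cast hj
  have hab : a - b = 0 := by
    by_contra hne
    rcases lt_or_gt_of_ne hne with hlt | hgt
    · have : (p : ℤ) * (a - b) ≤ -(p : ℤ) := by nlinarith
      linarith [Int.natCast_nonneg i, Int.natCast_nonneg j]
    · have : (p : ℤ) ≤ (p : ℤ) * (a - b) := by nlinarith
      linarith [Int.natCast_nonneg i, Int.natCast_nonneg j]
  rw [hab, mul_zero] at h1
  have : (i : ℤ) = j := by linarith
  exact_mod_cast this

section Main

variable {L : Type*} [Field L] (ι : κ →+* L) (D : L → L)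
  (hadd : ∀ x y, D (x + y) = D x + D y) (hmul : ∀ x y, D (x * y) = D x * y + x * D y)

include hadd hmul in
/-- Existence of `du/dπ` inside `κ`. -/
theorem exists_deriv (π : κ) (htop : frobSubfield p π = ⊤) (u : κ) :
    ∃ w : κ, D (ι u) = ι w * D (ι π) := by
  have hmem : u ∈ frobSubring p π := by
    rw [← mem_frobSubfield_iff, htop]; exact Subfield.mem_top u
  obtain ⟨r, -, hr⟩ := exists_natDegree_lt_of_mem p π hmem
  exact ⟨eval₂ (frobenius κ p) π (derivative r), by rw [← hr, D_eval₂ p ι D hadd hmul]⟩

include hadd hmul in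
/-- `v u ≤ 1 → v (du/dπ) ≤ 1` and `p ∣ ord u → v (du/dπ) ≤ v u`. -/
theorem val_deriv (π : κ) (htop : frobSubfield p π = ⊤) (hπ : v π = exp (-1 : ℤ))
    (hD : D (ι π) ≠ 0) (u w : κ) (hw : D (ι u) = ι w * D (ι π)) :
    (v u ≤ 1 → v w ≤ 1) ∧ (u ≠ 0 → (p : ℤ) ∣ log (v u) → v w ≤ v u) := by
  have hp0 : p ≠ 0 := (Fact.out : p.Prime).ne_zero
  have hπ0 : π ≠ 0 := by
    intro h
    rw [h, map_zero] at hπ
    exact exp_ne_zero hπ.symm
  have hmem : u ∈ frobSubring p π := by
    rw [← mem_frobSubfield_iff, htop]; exact Subfield.mem_top u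
  obtain ⟨r, hrp, hr⟩ := exists_natDegree_lt_of_mem p π hmem
  -- `w` is the formal derivative evaluated at `π`
  have hw' : w = eval₂ (frobenius κ p) π (derivative r) := by
    have h1 := D_eval₂ p ι D hadd hmul π r
    rw [hr, hw] at h1
    have h2 := mul_right_cancel₀ hD h1
    exact ι.injective h2
  -- expansions as sums over `range p`
  have hu_sum : u = ∑ i ∈ Finset.range p, (r.coeff i) ^ p * π ^ i := by
    rw [← hr, eval₂_eq_sum_range' (frobenius κ p) hrp π]
    simp only [frobenius_def]
  have hdp : (derivative r).natDegree < p :=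
    lt_of_le_of_lt (natDegree_derivative_le r) (lt_of_le_of_lt (Nat.sub_le _ _) hrp)
  have hw_sum : w = ∑ i ∈ Finset.range p, ((derivative r).coeff i) ^ p * π ^ i := by
    rw [hw', eval₂_eq_sum_range' (frobenius κ p) hdp π]
    simp only [frobenius_def]
  -- the terms of `u` have pairwise distinct valuations
  have hdist : ∀ i ∈ Finset.range p, ∀ j ∈ Finset.range p,
      (r.coeff i) ^ p * π ^ i ≠ 0 → (r.coeff j) ^ p * π ^ j ≠ 0 →
      v ((r.coeff i) ^ p * π ^ i) = v ((r.coeff j) ^ p * π ^ j) → i = j := by
    intro i hi j hj hfi hfj heq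
    have hci : r.coeff i ≠ 0 := fun h => hfi ((term_eq_zero_iff p hπ0 i).mpr h)
    have hcj : r.coeff j ≠ 0 := fun h => hfj ((term_eq_zero_iff p hπ0 j).mpr h)
    rw [val_term p v hπ hci, val_term p v hπ hcj, exp_inj] at heq
    exact idx_eq_of_eq p (Finset.mem_range.mp hi) (Finset.mem_range.mp hj) heq
  -- every term of `u` is bounded by `v u`
  have hterm_le : ∀ i ∈ Finset.range p, v ((r.coeff i) ^ p * π ^ i) ≤ v u := by
    intro i hi
    by_cases hall : ∃ i ∈ Finset.range p, (r.coeff i) ^ p * π ^ i ≠ 0
    · obtain ⟨j, hj, -, hsum, hlt⟩ := exists_dominant v (Finset.range p) _ hdist hall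
      rw [← hu_sum] at hsum
      rw [hsum]
      by_cases hij : i = j
      · rw [hij]
      · exact (hlt i hi hij).le
    · push Not at hall
      rw [hall i hi, map_zero]; exact zero_le
  -- bound for a coefficient from a bound on its term
  have hcoeff_le_one : v u ≤ 1 → ∀ i ∈ Finset.range p, v (r.coeff i) ≤ 1 := by
    intro hu1 i hi
    by_cases hc : r.coeff i = 0
    · rw [hc, map_zero]; exact zero_le
    · have h1 := (hterm_le i hi).trans hu1
      rw [val_term p v hπ hc, ← exp_zero, exp_le_exp] at h1
      have hvc : v (r.coeff i) ≠ 0 := (v.ne_zero_iff).mpr hc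
      rw [← exp_log hvc, ← exp_zero, exp_le_exp]
      have hi' : (i : ℤ) < p := by exact_mod_cast Finset.mem_range.mp hi
      have hp : (0 : ℤ) < p := by exact_mod_cast (Fact.out : p.Prime).pos
      by_contra hlt
      push Not at hlt
      have : (p : ℤ) ≤ (p : ℤ) * log (v (r.coeff i)) := by nlinarith
      linarith
  constructor
  · -- integrality
    intro hu1
    rw [hw_sum]
    refine v.map_sum_le ?_
    intro i hi
    rw [map_mul, map_pow, map_pow, coeff_derivative]
    have h1 : v (r.coeff (i + 1) * ((i : κ) + 1)) ≤ 1 := by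
      rw [map_mul]
      have ha : v (r.coeff (i + 1)) ≤ 1 := by
        by_cases hi1 : i + 1 < p
        · exact hcoeff_le_one hu1 (i + 1) (Finset.mem_range.mpr hi1)
        · rw [coeff_eq_zero_of_natDegree_lt (by omega), map_zero]; exact zero_le
      have hb : v ((i : κ) + 1) ≤ 1 := by
        have := val_natCast_le_one v (i + 1)
        push_cast at this
        exact this
      exact mul_le_one' ha hb
    have h2 : v π ≤ 1 := by rw [hπ, ← exp_zero, exp_le_exp]; omega
    exact mul_le_one' (pow_le_one' h1 _) (pow_le_one' h2 _)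
  · -- logarithmic derivative
    intro hu0 hdvd
    have hall : ∃ i ∈ Finset.range p, (r.coeff i) ^ p * π ^ i ≠ 0 := by
      by_contra hno
      push Not at hno
      apply hu0
      rw [hu_sum]
      exact Finset.sum_eq_zero hno
    obtain ⟨j, hj, hfj, hsum, hlt⟩ := exists_dominant v (Finset.range p) _ hdist hall
    rw [← hu_sum] at hsum
    have hcj : r.coeff j ≠ 0 := fun h => hfj ((term_eq_zero_iff p hπ0 j).mpr h)
    -- the dominant index is `0`
    have hj0 : j = 0 := by
      rw [hsum, val_term p v hπ hcj, log_exp] at hdvd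
      have h1 : (p : ℤ) ∣ (j : ℤ) := by
        have h2 : (p : ℤ) ∣ (p : ℤ) * log (v (r.coeff j)) := dvd_mul_right _ _
        have := (Int.dvd_sub h2 hdvd)
        simpa using this
      have h3 : p ∣ j := by exact_mod_cast h1
      by_contra hne
      exact absurd (Nat.le_of_dvd (Nat.pos_of_ne_zero hne) h3)
        (not_le.mpr (Finset.mem_range.mp hj))
    subst hj0
    rw [hw_sum]
    refine v.map_sum_le ?_
    intro i hi
    rw [coeff_derivative]
    by_cases hc : r.coeff (i + 1) = 0
    · rw [hc, zero_mul, zero_pow hp0, zero_mul, map_zero]; exact zero_le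
    · have hi1 : i + 1 < p := by
        by_contra hge
        exact hc (coeff_eq_zero_of_natDegree_lt (by omega))
      have hstrict := hlt (i + 1) (Finset.mem_range.mpr hi1) (Nat.succ_ne_zero i)
      rw [← hsum] at hstrict
      -- `v(term_{i+1}) < v u`, hence `≤ exp(-1) * v u`
      have hvu : v u ≠ 0 := (v.ne_zero_iff).mpr hu0
      rw [val_term p v hπ hc, ← exp_log hvu, exp_lt_exp] at hstrict
      have hn : v ((i : κ) + 1) ≤ 1 := by
        have := val_natCast_le_one v (i + 1)
        push_cast at this
        exact this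
      calc v ((r.coeff (i + 1) * ((i : κ) + 1)) ^ p * π ^ i)
          = v (r.coeff (i + 1) ^ p * π ^ i) * v ((i : κ) + 1) ^ p := by
            rw [mul_pow, mul_right_comm, map_mul, map_pow v ((i : κ) + 1)]
        _ ≤ v (r.coeff (i + 1) ^ p * π ^ i) * 1 := by
            gcongr
            exact pow_le_one' hn _
        _ = exp ((p : ℤ) * log (v (r.coeff (i + 1))) - i) := by
            rw [mul_one, val_term p v hπ hc]
        _ ≤ exp (log (v u)) := by
            rw [exp_le_exp]
            push_cast at hstrict
            omega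
        _ = v u := exp_log hvu

end Main


end Part2

/-! ## Part 3: `Place.ord` form -/

section Part3



variable {κ : Type*} [Field κ] (p : ℕ) [Fact p.Prime] [CharP κ p]
variable {k : Type*} [Field k] [Algebra k κ] [PerfectField k]

include k in
/-- `κ = κ^p(t - c)` for `c` in the perfect field `k`. -/
theorem frobSubfield_sub_eq_top (t : κ) [Algebra.IsSeparable k⟮t⟯ κ] (c : k) :
    frobSubfield p (t - algebraMap k κ c) = ⊤ := by
  haveI : CharP k p := ((algebraMap k κ).charP_iff (algebraMap k κ).injective p).mpr inferInstance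
  have hc : algebraMap k κ c ∈ frobSubfield p (t - algebraMap k κ c) := by
    obtain ⟨b, hb⟩ := surjective_frobenius k p c
    rw [← hb, frobenius_def, map_pow]
    exact pow_mem_frobSubring p _ _
  have ht : t ∈ frobSubfield p (t - algebraMap k κ c) := by
    have h1 := Subfield.add_mem _
      (show t - algebraMap k κ c ∈ frobSubfield p (t - algebraMap k κ c) from
        self_mem_frobSubring p _) hc
    rwa [sub_add_cancel] at h1
  -- `frobSubfield p t ≤ frobSubfield p (t - c)`
  rw [eq_top_iff, ← frobSubfield_eq_top (k := k) p t]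
  rintro g ⟨r, rfl⟩
  -- `eval₂ frobenius t r` is a polynomial expression in `t` with `p`-th power coefficients
  rw [coe_eval₂RingHom, eval₂_eq_sum_range]
  refine Subfield.sum_mem _ fun i _ => Subfield.mul_mem _ ?_ (Subfield.pow_mem _ ht i)
  rw [frobenius_def]
  exact pow_mem_frobSubring p _ _

section Main

variable {L : Type*} [Field L] (ι : κ →+* L) (D : L → L)
  (hadd : ∀ x y, D (x + y) = D x + D y) (hmul : ∀ x y, D (x * y) = D x * y + x * D y)

include k hmul p in
/-- `D` kills the image of the perfect field `k`. -/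
theorem D_algebraMap_eq_zero (c : k) : D (ι (algebraMap k κ c)) = 0 := by
  haveI : CharP k p := ((algebraMap k κ).charP_iff (algebraMap k κ).injective p).mpr inferInstance
  haveI : CharP L p := (ι.charP_iff ι.injective p).mp inferInstance
  obtain ⟨b, hb⟩ := surjective_frobenius k p c
  rw [← hb, frobenius_def, map_pow, map_pow]
  exact D_pow_char D hmul p _

include k hadd hmul in
/-- **`d/dt` at a place where `t - c` is a uniformiser.**  `w = du/dt` in the sense
`D (ι u) = ι w * D (ι t)`.  Then `w` is integral at `v` if `u` is, and `w / u` is integral at `v`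
if the order of `u` at `v` is divisible by `p`. -/
theorem deriv_place (v : Place k κ) (t : κ) [Algebra.IsSeparable k⟮t⟯ κ] (c : k)
    (hunif : v.ord (t - algebraMap k κ c) = 1) (ht : D (ι t) ≠ 0)
    (u w : κ) (hw : D (ι u) = ι w * D (ι t)) :
    (u ∈ v.toValuationSubring → w ∈ v.toValuationSubring) ∧
      (u ≠ 0 → (p : ℤ) ∣ v.ord u → w / u ∈ v.toValuationSubring) := by
  set π : κ := t - algebraMap k κ c with hπdef
  have hπ0 : π ≠ 0 := by
    intro h
    rw [h, Place.ord_zero] at hunif
    exact zero_ne_one hunif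
  have hvπ : v.adicValuation π = exp (-1 : ℤ) := by
    rw [v.adicValuation_eq_exp_neg_ord hπ0, hunif]
  have hDπ : D (ι π) = D (ι t) := by
    have h1 : ι t = ι π + ι (algebraMap k κ c) := by rw [← map_add, hπdef]; congr 1; ring
    rw [h1, hadd, D_algebraMap_eq_zero (k := k) p ι D hmul c, add_zero]
  have htop := frobSubfield_sub_eq_top (k := k) p t c
  have hmain := val_deriv p v.adicValuation ι D hadd hmul π htop hvπ (hDπ ▸ ht) u w (hDπ ▸ hw)
  have mem_iff : ∀ x : κ, x ∈ v.toValuationSubring ↔ v.adicValuation x ≤ 1 := by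
    intro x
    constructor
    · exact v.adicValuation_le_one_of_mem
    · intro hx
      rcases (v.adicValuation_le_one_iff).mp hx with h0 | hord
      · rw [h0]; exact v.toValuationSubring.zero_mem
      · by_contra hnot
        have hx0 : x ≠ 0 := fun h => hnot (h ▸ v.toValuationSubring.zero_mem)
        have hinv : x⁻¹ ∈ v.toValuationSubring :=
          (v.toValuationSubring.mem_or_inv_mem x).resolve_left hnot
        have h1 := v.adicValuation_le_one_of_mem hinv
        rw [map_inv₀] at h1
        have hxne : v.adicValuation x ≠ 0 := v.adicValuation_ne_zero hx0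
        have h2 : 1 ≤ v.adicValuation x := by
          rwa [inv_le_one₀ (zero_lt_iff.mpr hxne)] at h1
        have h3 : v.adicValuation x = 1 := le_antisymm hx h2
        -- then `x` is a unit of the valuation ring
        have h4 : v.adicValuation x⁻¹ = 1 := by rw [map_inv₀, h3, inv_one]
        have h5 := (v.adicValuation_coe_eq_one_iff ⟨x⁻¹, hinv⟩).mp h4
        obtain ⟨y, hy⟩ := h5.exists_right_inv
        apply hnot
        have h6 : (y : κ) = x := by
          have := congrArg Subtype.val hy
          simp only [MulMemClass.coe_mul, OneMemClass.coe_one] at this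
          field_simp at this
          exact this
        rw [← h6]; exact y.2
  constructor
  · intro hu
    exact (mem_iff w).mpr (hmain.1 ((mem_iff u).mp hu))
  · intro hu0 hdvd
    rw [mem_iff, map_div₀]
    have hvu : v.adicValuation u ≠ 0 := v.adicValuation_ne_zero hu0
    have hlog : (p : ℤ) ∣ log (v.adicValuation u) := by
      rw [v.adicValuation_eq_exp_neg_ord hu0, log_exp]
      exact (dvd_neg).mpr hdvd
    rw [div_le_one₀ (zero_lt_iff.mpr hvu)]
    exact hmain.2 hu0 hlog

end Main

end Part3

/-! ## Part 4: the consumer literals (note `S44-IFACE-C2-Dt`), characteristic `p` form -/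

section Part4

variable {K F : Type*} [Field K] [Field F] [Algebra K F] (p : ℕ) [Fact p.Prime] [CharP K p]
  {x : F} [Algebra.IsSeparable K⟮x⟯ F]

include p in
/-- `D` preserves the valuation ring of a place where `x - c` is a uniformiser. -/
theorem derivation_mem_valuationSubring [PerfectField K] (D : Derivation K F F) (hD : D x = 1)
    (v : Place K F) {c : K} (hc : v.ord (x - algebraMap K F c) = 1) {u : F}
    (hu : u ∈ v.toValuationSubring) : D u ∈ v.toValuationSubring := by
  haveI : CharP F p := ((algebraMap K F).charP_iff (algebraMap K F).injective p).mp inferInstance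
  have h := deriv_place (k := K) p (RingHom.id F) (fun z => D z)
    (fun a b => map_add D a b) (fun a b => by
      show D (a * b) = D a * b + a * D b
      rw [D.leibniz, smul_eq_mul, smul_eq_mul]; ring)
    v x c hc (by simp [hD]) u (D u) (by simp [hD])
  exact h.1 hu

/-- The logarithmic derivative of `f` is integral at a place where `x - c` is a uniformiser and
the order of `f` is divisible by `p`. -/
theorem dlog_mem_valuationSubring [PerfectField K] (D : Derivation K F F) (hD : D x = 1)
    (v : Place K F) {c : K} (hc : v.ord (x - algebraMap K F c) = 1) {f : F} (hf : f ≠ 0)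
    (hdiv : (p : ℤ) ∣ v.ord f) : D f / f ∈ v.toValuationSubring := by
  haveI : CharP F p := ((algebraMap K F).charP_iff (algebraMap K F).injective p).mp inferInstance
  have h := deriv_place (k := K) p (RingHom.id F) (fun z => D z)
    (fun a b => map_add D a b) (fun a b => by
      show D (a * b) = D a * b + a * D b
      rw [D.leibniz, smul_eq_mul, smul_eq_mul]; ring)
    v x c hc (by simp [hD]) f (D f) (by simp [hD])
  exact h.2 hf hdiv

/-- Global form: `D f / f` is integral over `K[y]` when `x` is finite and unramified (over its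
own line) at the places finite for `y`, and all orders of `f` there are divisible by `p`. -/
theorem isIntegral_dlog [IsAlgClosed K] (hx : Transcendental K x) [FiniteDimensional K⟮x⟯ F]
    {y : F} (hy : Transcendental K y) [FiniteDimensional K⟮y⟯ F] [Algebra.IsSeparable K⟮y⟯ F]
    (D : Derivation K F F) (hD : D x = 1)
    (hpole : ∀ v : Place K F, v.ord x < 0 → v.ord y < 0)
    (hunr : ∀ (v : Place K F) (a : K), 0 ≤ v.ord y → 0 < v.ord (x - algebraMap K F a) →
      v.ord (x - algebraMap K F a) = 1)
    {f : F} (hf : f ≠ 0) (hdiv : ∀ v : Place K F, 0 ≤ v.ord y → (p : ℤ) ∣ v.ord f) :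
    IsIntegral (Algebra.adjoin K {y}) (D f / f) := by
  rw [Fermat.Agent.Gateway.GoodRed.PlacesIntegral.isIntegral_iff_forall_ord_nonneg y hy]
  intro v hvy
  have hx0 : x ≠ 0 := by
    rintro rfl
    exact hx isAlgebraic_zero
  have hvx : 0 ≤ v.ord x := by
    by_contra hneg
    exact absurd hvy (not_le.mpr (hpole v (not_le.mp hneg)))
  have hxmem : x ∈ v.toValuationSubring := (Fermat.Agent.S24.ZP.ord_nonneg_iff v hx0).mp hvx
  haveI : v.FiniteResidue := Fermat.Agent.Lib.RiemannRoch.FunctionFieldRR.finiteResidue x v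
  obtain ⟨a, ha⟩ := Fermat.Agent.S24.residueTrivial_of_finiteResidue v ⟨x, hxmem⟩
  have hxa0 : x - algebraMap K F a ≠ 0 := by
    intro h
    apply hx
    rw [sub_eq_zero.mp h]
    exact isAlgebraic_algebraMap a
  have hpos : 0 < v.ord (x - algebraMap K F a) := by
    rw [Fermat.Agent.S24.ZP.ord_pos_iff v hxa0]
    rw [IsLocalRing.mem_maximalIdeal] at ha
    have hmem : x - algebraMap K F a ∈ v.toValuationSubring :=
      v.toValuationSubring.sub_mem hxmem (v.algebraMap_mem' a)
    rw [ValuationSubring.mem_nonunits_iff_exists_mem_maximalIdeal]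
    refine ⟨hmem, ?_⟩
    rw [IsLocalRing.mem_maximalIdeal]
    exact ha
  have hunif := hunr v a hvy hpos
  have hmem := dlog_mem_valuationSubring p D hD v hunif hf (hdiv v hvy)
  rcases eq_or_ne (D f / f) 0 with h0 | h0
  · rw [h0, Place.ord_zero]
  · exact (Fermat.Agent.S24.ZP.ord_nonneg_iff v h0).mpr hmem

end Part4

end Fermat.Agent.S40x.C2.DerivPlaceB
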