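/-
helper40 (P-S44, block C2, leaf KH-b, the `0`-side): at level `M * p` (`p ∤ M` prime) the
Atkin-Lehner involution `w_p` (`S34x/KummerSS.wAL`, `coe (w_p x) = ι₀ x`) COMMUTES with the
multiplicative Hecke operator `heckeFun = Norm_α ∘ β` of a prime `l` (function level), hence the
`q`-expansion norm formula `NormQExpFormula` holds verbatim for the SECOND embedding `ι₀`:

  `(ι₀ (heckeFun u))(t^l) = (ι₀ u)(t^(l²)) * ∏_{b<l} (ι₀ u)(ζ^b t)`.

Proof: `w_p` at level `M l p` restricts to `w_p` at level `M p` along BOTH degeneracy maps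
`α_l, β_l : F_{Mp} → F_{Mpl}` (uniqueness of ring homomorphisms out of `F_{Mp}`,
`ringHom_ext_alpha_beta`), and norms commute with compatible pairs of ring automorphisms.
-/
import Fermat.Agent.S34x.KummerSS
import Fermat.Agent.Gateway.Kummer.HeckeRed

set_option autoImplicit false
set_option linter.style.haveILetI false
set_option linter.unusedSectionVars false

noncomputable section

namespace Fermat.Agent.S40x.C2.HeckeWAL

open ModularCurve AlgebraicCurve IntermediateField
open Fermat.Agent.Gateway.Kummer Fermat.Agent.Gateway.Hecke Fermat.Agent.Gateway.ESC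
open Fermat.Agent.S34x.TwoVal Fermat.Agent.S34x.KummerSS

/-! ### Identification of `F_a` and `F_b` for `a = b` -/

section Cast

variable {L : Type} [Field L] [Algebra ℚ L]

theorem FL_congr {a b : ℕ} [NeZero a] [NeZero b] (h : a = b) : FL L a = FL L b := by
  subst h
  rfl

/-- the identification `F_a = F_b` for `a = b` -/
def castFL {a b : ℕ} [NeZero a] [NeZero b] (h : a = b) : FL L a ≃+* FL L b :=
  (IntermediateField.equivOfEq (FL_congr (L := L) h)).toRingEquiv

theorem coe_castFL {a b : ℕ} [NeZero a] [NeZero b] (h : a = b) (x : FL L a) :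
    ((castFL (L := L) h x : FL L b) : LaurentSeries L) = (x : LaurentSeries L) := by
  subst h
  rfl

theorem coe_castFL_symm {a b : ℕ} [NeZero a] [NeZero b] (h : a = b) (x : FL L b) :
    (((castFL (L := L) h).symm x : FL L a) : LaurentSeries L) = (x : LaurentSeries L) := by
  subst h
  rfl

end Cast

/-! ### Norms commute with compatible pairs of automorphisms -/

section Norm

variable {K F F' : Type*} [Field K] [Field F] [Field F'] [Algebra K F] [Algebra K F']

/-- if `W ∘ ψ = ψ ∘ w` for ring automorphisms `w` of `F` and `W` of `F'`, then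
`Norm_ψ (W y) = w (Norm_ψ y)`. -/
theorem normAlong_equiv (ψ : F →ₐ[K] F') (w : F ≃+* F) (W : F' ≃+* F')
    (h : ∀ v : F, W (ψ v) = ψ (w v)) (y : F') :
    normAlong ψ (W y) = w (normAlong ψ y) := by
  letI := algebraAlong ψ
  have he : RingHom.comp (algebraMap F F') (w : F →+* F) =
      RingHom.comp (W : F' →+* F') (algebraMap F F') := by
    refine RingHom.ext fun v => ?_
    exact (h v).symm
  have key := Algebra.norm_eq_of_equiv_equiv w W he y
  show Algebra.norm F (W y) = w (Algebra.norm F y)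
  rw [key, RingEquiv.apply_symm_apply]

end Norm


/-! ### `w_p` commutes with the Hecke operator of `l` -/

section Main

variable {L : Type} [Field L] [Algebra ℚ L] [IsAlgClosed L]

section Equiv

variable {N ℓ : ℕ} [NeZero N] [NeZero ℓ]
variable (hdeg : finrankAlong L (heckeAlphaBar L N ℓ) = ℓ + 1) (hℓ : ℓ.Prime) (hℓN : ¬ ℓ ∣ N)

/-- the Atkin-Lehner involution as a ring automorphism -/
def wEquiv : FL L (N * ℓ) ≃+* FL L (N * ℓ) :=
  RingEquiv.ofRingHom (wAL hdeg hℓ hℓN) (wAL hdeg hℓ hℓN)
    (RingHom.ext fun x => wAL_wAL hdeg hℓ hℓN x) (RingHom.ext fun x => wAL_wAL hdeg hℓ hℓN x)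

theorem wEquiv_apply (x : FL L (N * ℓ)) : wEquiv hdeg hℓ hℓN x = wAL hdeg hℓ hℓN x := rfl

end Equiv

variable {M p l : ℕ} [NeZero M] [NeZero p] [NeZero l]
variable (hdeg : finrankAlong L (heckeAlphaBar L M p) = p + 1)
  (hdeg' : finrankAlong L (heckeAlphaBar L (M * l) p) = p + 1)
  (hp : p.Prime) (hpM : ¬ p ∣ M) (hpMl : ¬ p ∣ M * l)

/-- `w_p` at level `M l p`, transported to `F_{M p l}` -/
def wLift : FL L (M * p * l) ≃+* FL L (M * p * l) :=
  (castFL (L := L) (Nat.mul_right_comm M p l)).trans
    ((wEquiv hdeg' hp hpMl).trans (castFL (L := L) (Nat.mul_right_comm M p l)).symm)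

theorem coe_wLift (x : FL L (M * p * l)) :
    ((wLift hdeg' hp hpMl x : FL L (M * p * l)) : LaurentSeries L) =
      iota0 L (M * l) p hdeg' hp hpMl (castFL (L := L) (Nat.mul_right_comm M p l) x) := by
  rw [wLift, RingEquiv.trans_apply, RingEquiv.trans_apply, coe_castFL_symm, wEquiv_apply, coe_wAL]

/-- `w_p` (level `M l p`) restricted along `α_l` is `w_p` (level `M p`) -/
theorem wLift_alpha (v : FL L (M * p)) :
    wLift hdeg' hp hpMl (heckeAlphaBar L (M * p) l v) =
      heckeAlphaBar L (M * p) l (wAL hdeg hp hpM v) := by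
  apply Subtype.ext
  rw [coe_wLift, coe_heckeAlphaBar, coe_wAL]
  have h1 : castFL (L := L) (Nat.mul_right_comm M p l) (heckeAlphaBar L (M * p) l v) =
      IntermediateField.inclusion
        (FL_le_of_dvd (L := L) (mul_dvd_mul_right (dvd_mul_right M l) p)) v := by
    apply Subtype.ext
    rw [coe_castFL, coe_heckeAlphaBar, IntermediateField.coe_inclusion]
  rw [h1]
  exact iota0_inclusion (dvd_mul_right M l) hdeg hdeg' hp hpM hpMl v

omit [IsAlgClosed L] in
theorem qExpand_comm (a b : ℕ) [NeZero a] [NeZero b] (f : LaurentSeries L) :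
    qExpand L a (qExpand L b f) = qExpand L b (qExpand L a f) := by
  rw [qExpand_qExpand, qExpand_qExpand]
  exact qExpand_congr (mul_comm a b) f

/-- `ι₀` (level `M l p`) on `β_l F_{Mp}`: `ι₀ (β_l v) = (ι₀ v)(s^l)` -/
theorem iota0_castFL_beta (v : FL L (M * p)) :
    iota0 L (M * l) p hdeg' hp hpMl
        (castFL (L := L) (Nat.mul_right_comm M p l) (heckeBetaBar L (M * p) l v)) =
      qExpand L l (iota0 L M p hdeg hp hpM v) := by
  let φ : FL L (M * p) →+* LaurentSeries L :=
    (iota0 L (M * l) p hdeg' hp hpMl).comp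
      (((castFL (L := L) (Nat.mul_right_comm M p l) : FL L (M * p * l) ≃+* FL L (M * l * p)) :
          FL L (M * p * l) →+* FL L (M * l * p)).comp (heckeBetaBar L (M * p) l).toRingHom)
  let ψ : FL L (M * p) →+* LaurentSeries L := (qExpand L l).comp (iota0 L M p hdeg hp hpM)
  have hφ : ∀ y, φ y = iota0 L (M * l) p hdeg' hp hpMl
      (castFL (L := L) (Nat.mul_right_comm M p l) (heckeBetaBar L (M * p) l y)) := fun _ => rfl
  have hψ : ∀ y, ψ y = qExpand L l (iota0 L M p hdeg hp hpM y) := fun _ => rfl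
  have key : φ = ψ := by
    refine ringHom_ext_alpha_beta L M p hp φ ψ (fun h => ?_) (fun h => ?_)
    · have h1 : castFL (L := L) (Nat.mul_right_comm M p l)
          (heckeBetaBar L (M * p) l (heckeAlphaBar L M p h)) =
          heckeAlphaBar L (M * l) p (heckeBetaBar L M l h) := by
        apply Subtype.ext
        rw [coe_castFL, coe_heckeBetaBar, coe_heckeAlphaBar, coe_heckeAlphaBar, coe_heckeBetaBar]
      rw [hφ, hψ, h1, iota0_alpha, iota0_alpha, coe_heckeBetaBar, qExpand_comm]
    · have h1 : castFL (L := L) (Nat.mul_right_comm M p l)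
          (heckeBetaBar L (M * p) l (heckeBetaBar L M p h)) =
          heckeBetaBar L (M * l) p (heckeBetaBar L M l h) := by
        apply Subtype.ext
        rw [coe_castFL, coe_heckeBetaBar, coe_heckeBetaBar, coe_heckeBetaBar, coe_heckeBetaBar,
          qExpand_comm]
      rw [hφ, hψ, h1, iota0_beta, iota0_beta, coe_heckeBetaBar]
  have h2 := congrFun (congrArg DFunLike.coe key) v
  rw [hφ, hψ] at h2
  exact h2

/-- `w_p` (level `M l p`) restricted along `β_l` is `w_p` (level `M p`) -/
theorem wLift_beta (v : FL L (M * p)) :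
    wLift hdeg' hp hpMl (heckeBetaBar L (M * p) l v) =
      heckeBetaBar L (M * p) l (wAL hdeg hp hpM v) := by
  apply Subtype.ext
  rw [coe_wLift, coe_heckeBetaBar, coe_wAL]
  exact iota0_castFL_beta hdeg hdeg' hp hpM hpMl v

include hdeg' hpMl in
/-- **`T_l` commutes with `w_p`** (function level): `heckeFun (w_p u) = w_p (heckeFun u)`. -/
theorem heckeFun_wAL (u : FL L (M * p)) :
    heckeFun L (M * p) l (wAL hdeg hp hpM u) = wAL hdeg hp hpM (heckeFun L (M * p) l u) := by
  have h := normAlong_equiv (heckeAlphaBar L (M * p) l) (wEquiv hdeg hp hpM)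
    (wLift hdeg' hp hpMl) (fun v => by
      rw [wLift_alpha hdeg hdeg' hp hpM hpMl v, wEquiv_apply])
    (heckeBetaBar L (M * p) l u)
  rw [wLift_beta hdeg hdeg' hp hpM hpMl u, wEquiv_apply] at h
  exact h

include hdeg' hpMl in
/-- the second embedding of `heckeFun u` is the natural embedding of `heckeFun (w_p u)` -/
theorem iota0_heckeFun (u : FL L (M * p)) :
    iota0 L M p hdeg hp hpM (heckeFun L (M * p) l u) =
      ((heckeFun L (M * p) l (wAL hdeg hp hpM u) : FL L (M * p)) : LaurentSeries L) := by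
  rw [heckeFun_wAL hdeg hdeg' hp hpM hpMl u, coe_wAL]

include hdeg' hpMl in
/-- **The `q`-expansion norm formula for the second embedding `ι₀`** (the `0`-side):
`(ι₀ (heckeFun u))(t^l) = (ι₀ u)(t^(l²)) * ∏_{b<l} (ι₀ u)(ζ^b t)`. -/
theorem normQExpFormula_iota0 {ζ : Lˣ} (hC1 : NormQExpFormula L (M * p) l ζ)
    (u : FL L (M * p)) :
    qExpand L l (iota0 L M p hdeg hp hpM (heckeFun L (M * p) l u)) =
      qExpand L (l * l) (iota0 L M p hdeg hp hpM u) *
        ∏ b ∈ Finset.range l, twist (ζ ^ b) (iota0 L M p hdeg hp hpM u) := by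
  rw [iota0_heckeFun hdeg hdeg' hp hpM hpMl u, hC1 (wAL hdeg hp hpM u), coe_wAL]

end Main

end Fermat.Agent.S40x.C2.HeckeWAL
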