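/-
helper40 (P-S44, block C2, leaf KH-b): **Kummer–Hecke at the SECOND valuation `v_0`** of the level
`M q` (`q = p` the residue characteristic) = the hypothesis `hKH₂` of the landed abstract assembly
`AsmAbs.exists_eigen_of_mem_Xf_of_not_mem_K1`; mirror of helper42's landed
`KH.heckeT_dlog_resInfty` (`= hKH₁`).

If `x ∈ Pic⁰(F_{Mq})` satisfies `T_ℓ x = a • x` (`ℓ ∤ M q` prime) and `f` is a Kummer function of
`x` at exponent `q` which is a unit at `v_0` (the Gauss valuation of the second embedding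
`ι₀ : F_{Mq} → L((s))`, `S34x/TwoVal`), with reduction `f̄₀ = resZero f ∈ Fk k M`, then

  `T_ℓ (dlog f̄₀) = a * dlog f̄₀`     in `k((q))`.

Inputs: `HeckeWAL.normQExpFormula_iota0` (the `q`-expansion norm formula for `ι₀`, i.e. `T_ℓ`
commutes with the Atkin-Lehner involution `w_q`), the Kummer relation
`KH.exists_heckeFun_eq : heckeFun f = c f^a h^q` transported by the ring homomorphism `ι₀`, and the
abstract Laurent-series core `KH.heckeT_dlog_gred`.
-/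
import Fermat.Agent.S40x.C2.HeckeWAL
import Fermat.Agent.S40x.C2.KH.Main
import Fermat.Agent.S34x.Inst.HDeg
import Fermat.Agent.S40x.Slope.SlopeInv

set_option autoImplicit false
set_option linter.style.haveILetI false
set_option linter.unusedSectionVars false

noncomputable section

namespace Fermat.Agent.S40x.C2.HeckeDLogInst

open ModularCurve AlgebraicCurve Fermat.Agent.Gateway Fermat.Agent.Gateway.Kummer
open Fermat.Agent.Gateway.Hecke Fermat.Agent.Gateway.Red Fermat.Agent.Gateway.GoodRed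
open Fermat.Agent.S40x.C2.DlogHecke Fermat.Agent.S40x.C2.KH Fermat.Agent.S40x.C2.HeckeWAL
open Fermat.Agent.S34x.TwoVal Fermat.Agent.S34x.Inst.RedSetupInst IsLocalRing

local notation "Qb" => AlgebraicClosure ℚ

section LevelMq

variable {L : Type} [Field L] [Algebra ℚ L] [IsAlgClosed L] {A : ValuationSubring L}
  {k : Type} [Field k] {π : A →+* k} [IsAlgClosed k]
variable {M q : ℕ} [NeZero M] [Fact q.Prime] [CharP k q]
variable {hdeg : finrankAlong L (heckeAlphaBar L M q) = q + 1} {hq : q.Prime} {hqM : ¬ q ∣ M}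
variable {hrk : ∀ x ∈ maximalIdeal A, ∀ c : A, c ≠ 0 → ∃ j : ℕ, c ∣ x ^ j}
  {hπ : Function.Surjective π}

/-- units of `valZero` are the Gauss units of the second embedding -/
theorem isGaussUnit_of_valZero_eq_one {w : FL L (M * q)}
    (hw : (valZero A π M q hdeg hq hqM hrk hπ).valuation w = 1) :
    IsGaussUnit A π (iota0 L M q hdeg hq hqM w) := by
  obtain ⟨hx, hne⟩ := (valZero_eq_one_iff A π M q hdeg hq hqM hrk hπ w).mp hw
  exact ⟨hx, hne⟩

theorem gred_eq_resZero (H : ResidueFacts A π M q hdeg hq hqM hrk hπ)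
    (w : valZero A π M q hdeg hq hqM hrk hπ) :
    gred A π (iota0 L M q hdeg hq hqM (w : FL L (M * q))) =
      ((resZero H w : modularFunctionFieldFullC k M) : LaurentSeries k) := by
  rw [coe_resZero, red0_apply]
  exact gred_of_mem w.2

/-- a prime `ℓ` invertible in `k` is prime to `M q` as soon as ... (only `q ∤ M ℓ` is needed) -/
theorem not_dvd_mul_of_cast_ne_zero {ℓ : ℕ} (hqM : ¬ q ∣ M) (hℓk : (ℓ : k) ≠ 0) :
    ¬ q ∣ M * ℓ := by
  intro h
  rcases ((Fact.out : q.Prime).dvd_mul).mp h with h1 | h1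
  · exact hqM h1
  · exact hℓk ((CharP.cast_eq_zero_iff k q ℓ).mpr h1)

/-- **Kummer–Hecke at the second valuation of the level `M q`** (`q` the residue characteristic):
for a Kummer function `f` of `x` which is a unit at `v_0`, the logarithmic derivative of
`f̄₀ = resZero f ∈ Fk k M` is a `T_ℓ`-eigenvector with eigenvalue `a`. -/
theorem heckeT_dlog_resZero (H : ResidueFacts A π M q hdeg hq hqM hrk hπ)
    {ℓ : ℕ} [NeZero ℓ] (hℓ : ℓ.Prime) (hℓk : (ℓ : k) ≠ 0)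
    (hC1 : ∃ ζ : Lˣ, IsPrimitiveRoot ζ ℓ ∧ NormQExpFormula L (M * q) ℓ ζ)
    {x : Pic0 L (FL L (M * q))} {a : ℤ} (hx : heckeOperatorAlong L (M * q) ℓ x = a • x)
    {f : FL L (M * q)} (hf : IsKummerRep q x f)
    (hfU : (valZero A π M q hdeg hq hqM hrk hπ).valuation f = 1) :
    ∃ hfO : f ∈ valZero A π M q hdeg hq hqM hrk hπ,
      heckeT ℓ (dlog ((resZero H ⟨f, hfO⟩ : modularFunctionFieldFullC k M) : LaurentSeries k)) =
        (a : LaurentSeries k) *
          dlog ((resZero H ⟨f, hfO⟩ : modularFunctionFieldFullC k M) : LaurentSeries k) := by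
  have hfO : f ∈ valZero A π M q hdeg hq hqM hrk hπ :=
    ((valZero A π M q hdeg hq hqM hrk hπ).valuation_le_one_iff f).mp hfU.le
  refine ⟨hfO, ?_⟩
  obtain ⟨ζ, hζ, hform⟩ := hC1
  have hqMℓ : ¬ q ∣ M * ℓ := not_dvd_mul_of_cast_ne_zero hqM hℓk
  have hdeg' : finrankAlong L (heckeAlphaBar L (M * ℓ) q) = q + 1 :=
    Fermat.Agent.S34x.Inst.HDeg.finrankAlong_alpha L (M * ℓ) q hq hqMℓ
  -- the Kummer relation, transported by `ι₀`
  obtain ⟨c, h, hc, hh, hfun⟩ := exists_heckeFun_eq L (M * q) ℓ hx hf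
  obtain ⟨d, hd, hval⟩ := H.scal0 h hh
  have hdU : IsGaussUnit A π (HahnSeries.C d * iota0 L M q hdeg hq hqM h) := by
    have h1 := isGaussUnit_of_valZero_eq_one hval
    have h2 : iota0 L M q hdeg hq hqM (d • h) = HahnSeries.C d * iota0 L M q hdeg hq hqM h := by
      rw [Algebra.smul_def, map_mul, iota0_algebraMap]
    rwa [h2] at h1
  have hG : iota0 L M q hdeg hq hqM (heckeFun L (M * q) ℓ f) =
      HahnSeries.C (c * (d ^ q)⁻¹) * (iota0 L M q hdeg hq hqM f) ^ a *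
        (HahnSeries.C d * iota0 L M q hdeg hq hqM h) ^ q := by
    rw [hfun, map_mul, map_mul, iota0_algebraMap, map_zpow₀, map_pow, mul_pow, map_mul,
      map_inv₀, map_pow]
    have hdq : (HahnSeries.C d : LaurentSeries L) ^ q ≠ 0 := pow_ne_zero q fun h0 =>
      hd (HahnSeries.C_injective (by rw [h0, map_zero]))
    field_simp
  have hN := normQExpFormula_iota0 hdeg hdeg' hq hqM hqMℓ hform f
  have key := heckeT_dlog_gred hπ q hℓ hℓk hζ (isGaussUnit_of_valZero_eq_one hfU) hdU hG hN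
  rw [gred_eq_resZero H ⟨f, hfO⟩] at key
  exact key

end LevelMq

/-! ### The two hypotheses `hKH₁`, `hKH₂` of `AsmAbs` in the Slope vocabulary -/

section Slope

open Fermat.Agent.S40x.Slope.UnitTwo Fermat.Agent.S40x.Slope.SlopeInv

theorem intCast_mul_eq_smul {k : Type*} [Field k] (a : ℤ) (x : LaurentSeries k) :
    (a : LaurentSeries k) * x = ((a : ℤ) : k) • x := by
  rw [← map_intCast (HahnSeries.C : k →+* LaurentSeries k), HahnSeries.C_mul_eq_smul]

variable {L : Type} [Field L] [Algebra ℚ L] [IsAlgClosed L] {A : ValuationSubring L}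
  {k : Type} [Field k] {π : A →+* k} [IsAlgClosed k]
variable {M q : ℕ} [NeZero M] [Fact q.Prime] [CharP k q]
variable {hdeg : finrankAlong L (heckeAlphaBar L M q) = q + 1} {hq : q.Prime} {hqM : ¬ q ∣ M}
variable {hrk : ∀ x ∈ maximalIdeal A, ∀ c : A, c ≠ 0 → ∃ j : ℕ, c ∣ x ^ j}
  {hπ : Function.Surjective π}

/-- **`hKH₁` of `AsmAbs`** at the level `M q`: `O₁ = valInfty`, `ρ₁ = resInfty`
(helper42's `KH.heckeT_dlog_resInfty` in the Slope vocabulary). -/
theorem hKH_infty (H : ResidueFacts A π M q hdeg hq hqM hrk hπ)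
    {ℓ : ℕ} [NeZero ℓ] (hℓ : ℓ.Prime) (hℓk : (ℓ : k) ≠ 0)
    (hC1 : ∃ ζ : Lˣ, IsPrimitiveRoot ζ ℓ ∧ NormQExpFormula L (M * q) ℓ ζ) (a : ℤ)
    (ξ : Pic0 L (FL L (M * q))) (w : FL L (M * q)) (hw : IsKummerRep q ξ w)
    (hU : UnitTwo (valInfty A π M q hrk hπ hqM) (valZero A π M q hdeg hq hqM hrk hπ) w)
    (hξ : heckeOperatorAlong L (M * q) ℓ ξ = a • ξ) :
    heckeT ℓ (dlog ((red (valInfty A π M q hrk hπ hqM) (resInfty H) w :
        modularFunctionFieldFullC k M) : LaurentSeries k)) =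
      ((a : ℤ) : k) • dlog ((red (valInfty A π M q hrk hπ hqM) (resInfty H) w :
        modularFunctionFieldFullC k M) : LaurentSeries k) := by
  obtain ⟨hfO, h⟩ := heckeT_dlog_resInfty H hℓ hℓk hC1 hξ hw hU.1
  rw [red_of_mem hfO, h, intCast_mul_eq_smul]

/-- **`hKH₂` of `AsmAbs`** at the level `M q`: `O₂ = valZero`, `ρ₂ = resZero`. -/
theorem hKH_zero (H : ResidueFacts A π M q hdeg hq hqM hrk hπ)
    {ℓ : ℕ} [NeZero ℓ] (hℓ : ℓ.Prime) (hℓk : (ℓ : k) ≠ 0)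
    (hC1 : ∃ ζ : Lˣ, IsPrimitiveRoot ζ ℓ ∧ NormQExpFormula L (M * q) ℓ ζ) (a : ℤ)
    (ξ : Pic0 L (FL L (M * q))) (w : FL L (M * q)) (hw : IsKummerRep q ξ w)
    (hU : UnitTwo (valInfty A π M q hrk hπ hqM) (valZero A π M q hdeg hq hqM hrk hπ) w)
    (hξ : heckeOperatorAlong L (M * q) ℓ ξ = a • ξ) :
    heckeT ℓ (dlog ((red (valZero A π M q hdeg hq hqM hrk hπ) (resZero H) w :
        modularFunctionFieldFullC k M) : LaurentSeries k)) =
      ((a : ℤ) : k) • dlog ((red (valZero A π M q hdeg hq hqM hrk hπ) (resZero H) w :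
        modularFunctionFieldFullC k M) : LaurentSeries k) := by
  obtain ⟨hfO, h⟩ := heckeT_dlog_resZero H hℓ hℓk hC1 hξ hw hU.2
  rw [red_of_mem hfO, h, intCast_mul_eq_smul]

end Slope

/-! ### Over `ℚ̄`: every prime `ℓ ∤ M q` -/

section OverQb

open Fermat.Agent.S40x.Slope.UnitTwo Fermat.Agent.S40x.Slope.SlopeInv

variable {A : ValuationSubring Qb} {k : Type} [Field k] {π : A →+* k} [IsAlgClosed k]
variable {M q : ℕ} [NeZero M] [Fact q.Prime] [CharP k q]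
variable {hdeg : finrankAlong Qb (heckeAlphaBar Qb M q) = q + 1} {hq : q.Prime} {hqM : ¬ q ∣ M}
variable {hrk : ∀ x ∈ maximalIdeal A, ∀ c : A, c ≠ 0 → ∃ j : ℕ, c ∣ x ^ j}
  {hπ : Function.Surjective π}

theorem cast_ne_zero_of_not_dvd {ℓ : ℕ} (hℓ : ℓ.Prime) (hℓN : ¬ ℓ ∣ M * q) : (ℓ : k) ≠ 0 := by
  intro h0
  have h1 : q ∣ ℓ := (CharP.cast_eq_zero_iff k q ℓ).mp h0
  have h2 : q = ℓ := (Nat.prime_dvd_prime_iff_eq (Fact.out : q.Prime) hℓ).mp h1
  exact hℓN (h2 ▸ dvd_mul_left q M)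

/-- **Kummer–Hecke at the second valuation of the level `M q` over `ℚ̄`**: every prime
`ℓ ∤ M q`. -/
theorem heckeT_dlog_resZero_Qb (H : ResidueFacts A π M q hdeg hq hqM hrk hπ)
    {ℓ : ℕ} [NeZero ℓ] (hℓ : ℓ.Prime) (hℓN : ¬ ℓ ∣ M * q)
    {x : Pic0 Qb (FL Qb (M * q))} {a : ℤ} (hx : heckeOperatorAlong Qb (M * q) ℓ x = a • x)
    {f : FL Qb (M * q)} (hf : IsKummerRep q x f)
    (hfU : (valZero A π M q hdeg hq hqM hrk hπ).valuation f = 1) :
    ∃ hfO : f ∈ valZero A π M q hdeg hq hqM hrk hπ,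
      heckeT ℓ (dlog ((resZero H ⟨f, hfO⟩ : modularFunctionFieldFullC k M) : LaurentSeries k)) =
        (a : LaurentSeries k) *
          dlog ((resZero H ⟨f, hfO⟩ : modularFunctionFieldFullC k M) : LaurentSeries k) := by
  obtain ⟨ζ, hζ⟩ := Fermat.Agent.Gateway.ESC.exists_prim_unit Qb ℓ (NeZero.ne ℓ)
  exact heckeT_dlog_resZero H hℓ (cast_ne_zero_of_not_dvd hℓ hℓN)
    ⟨ζ, hζ, Fermat.Agent.Gateway.ESC.normQExpFormula_algebraicClosure (M * q) ℓ hℓ hℓN ζ hζ⟩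
    hx hf hfU

/-- `hKH₁` over `ℚ̄`, every prime `ℓ ∤ M q`. -/
theorem hKH_infty_Qb (H : ResidueFacts A π M q hdeg hq hqM hrk hπ)
    {ℓ : ℕ} [NeZero ℓ] (hℓ : ℓ.Prime) (hℓN : ¬ ℓ ∣ M * q) (a : ℤ)
    (ξ : Pic0 Qb (FL Qb (M * q))) (w : FL Qb (M * q)) (hw : IsKummerRep q ξ w)
    (hU : UnitTwo (valInfty A π M q hrk hπ hqM) (valZero A π M q hdeg hq hqM hrk hπ) w)
    (hξ : heckeOperatorAlong Qb (M * q) ℓ ξ = a • ξ) :
    heckeT ℓ (dlog ((red (valInfty A π M q hrk hπ hqM) (resInfty H) w :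
        modularFunctionFieldFullC k M) : LaurentSeries k)) =
      ((a : ℤ) : k) • dlog ((red (valInfty A π M q hrk hπ hqM) (resInfty H) w :
        modularFunctionFieldFullC k M) : LaurentSeries k) := by
  obtain ⟨ζ, hζ⟩ := Fermat.Agent.Gateway.ESC.exists_prim_unit Qb ℓ (NeZero.ne ℓ)
  exact hKH_infty H hℓ (cast_ne_zero_of_not_dvd hℓ hℓN)
    ⟨ζ, hζ, Fermat.Agent.Gateway.ESC.normQExpFormula_algebraicClosure (M * q) ℓ hℓ hℓN ζ hζ⟩
    a ξ w hw hU hξ

/-- `hKH₂` over `ℚ̄`, every prime `ℓ ∤ M q`. -/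
theorem hKH_zero_Qb (H : ResidueFacts A π M q hdeg hq hqM hrk hπ)
    {ℓ : ℕ} [NeZero ℓ] (hℓ : ℓ.Prime) (hℓN : ¬ ℓ ∣ M * q) (a : ℤ)
    (ξ : Pic0 Qb (FL Qb (M * q))) (w : FL Qb (M * q)) (hw : IsKummerRep q ξ w)
    (hU : UnitTwo (valInfty A π M q hrk hπ hqM) (valZero A π M q hdeg hq hqM hrk hπ) w)
    (hξ : heckeOperatorAlong Qb (M * q) ℓ ξ = a • ξ) :
    heckeT ℓ (dlog ((red (valZero A π M q hdeg hq hqM hrk hπ) (resZero H) w :
        modularFunctionFieldFullC k M) : LaurentSeries k)) =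
      ((a : ℤ) : k) • dlog ((red (valZero A π M q hdeg hq hqM hrk hπ) (resZero H) w :
        modularFunctionFieldFullC k M) : LaurentSeries k) := by
  obtain ⟨ζ, hζ⟩ := Fermat.Agent.Gateway.ESC.exists_prim_unit Qb ℓ (NeZero.ne ℓ)
  exact hKH_zero H hℓ (cast_ne_zero_of_not_dvd hℓ hℓN)
    ⟨ζ, hζ, Fermat.Agent.Gateway.ESC.normQExpFormula_algebraicClosure (M * q) ℓ hℓ hℓN ζ hζ⟩
    a ξ w hw hU hξ

end OverQb

end Fermat.Agent.S40x.C2.HeckeDLogInst
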