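/-
helper69 (P-S44, block C2, route OMEGA step (3), ABSTRACT part; INDEPENDENT SECOND of helper83 S40x/C2/DlogHecke.lean): the `dlog`-Hecke identity for
`q`-series.  Vocabulary = the landed `S35x/NormQ.normQExp_beta`:

  `qExpand L l F = qExpand L l f' * prod_{b<l} Kummer.twist (zeta^b) f`
     ==>  `dlog F = dlog f' + U_l (dlog f)`,      `dlog f := theta f / f`, `theta = q d/dq`,

and for `f' = qExpand L l h`:  `dlog F = l * V_l (dlog h) + U_l (dlog f)`, the weight-2 formal
Hecke operator `T_l` on `q`-series (`V_l = qExpand L l`).  Everything is over a field `L` in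
which `l` is invertible; `zeta` is a primitive `l`-th root of unity.
-/
import Mathlib
import Fermat.Prelude.Def_ModularCurve_X0
import Fermat.Agent.Lib.Residue.Basic
import Fermat.Agent.Gateway.Kummer.Twist

set_option autoImplicit false

noncomputable section

namespace Fermat.Agent.S40x.C2.DlogHeckeB

open ModularCurve HahnSeries
open Fermat.Agent.Lib.Residue Fermat.Agent.Gateway.Kummer

section Ring

variable {R : Type*} [CommRing R]

/-- `theta = q d/dq` on Laurent series (same body as `S16/Two/QSeries.thetaL`). -/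
def theta (f : LaurentSeries R) : LaurentSeries R :=
  HahnSeries.single (1 : ℤ) (1 : R) * D f

theorem theta_coeff (f : LaurentSeries R) (n : ℤ) :
    (theta f).coeff n = (n : R) * f.coeff n := by
  rw [theta, coeff_single_mul', D_coeff, one_mul, sub_add_cancel]

@[simp] theorem theta_add (f g : LaurentSeries R) : theta (f + g) = theta f + theta g := by
  simp [theta, mul_add]

@[simp] theorem theta_zero : theta (0 : LaurentSeries R) = 0 := by
  simp [theta]

theorem theta_mul (f g : LaurentSeries R) :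
    theta (f * g) = theta f * g + f * theta g := by
  simp only [theta, D_mul]
  ring

theorem theta_one : theta (1 : LaurentSeries R) = 0 := by
  simp [theta, D_one]

theorem theta_C (c : R) : theta (HahnSeries.C c : LaurentSeries R) = 0 := by
  rw [theta, D_C, mul_zero]

/-- `theta` commutes with the substitution `q -> zeta q`. -/
theorem theta_twist (ζ : Rˣ) (f : LaurentSeries R) :
    theta (twist ζ f) = twist ζ (theta f) := by
  ext n
  rw [theta_coeff, twist_coeff, twist_coeff, theta_coeff]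
  ring

/-- `theta (f(q^N)) = N (theta f)(q^N)`. -/
theorem theta_qExpand (N : ℕ) [NeZero N] (f : LaurentSeries R) :
    theta (qExpand R N f) = (N : LaurentSeries R) * qExpand R N (theta f) := by
  have hN : ((N : LaurentSeries R)) = HahnSeries.C (N : R) := by simp
  ext k
  rw [theta_coeff, hN, HahnSeries.C_mul_eq_smul, HahnSeries.coeff_smul, smul_eq_mul]
  by_cases hk : (N : ℤ) ∣ k
  · obtain ⟨m, rfl⟩ := hk
    rw [qExpand_coeff_mul, qExpand_coeff_mul, theta_coeff]
    push_cast
    ring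
  · rw [qExpand_coeff_of_not_dvd N _ hk, qExpand_coeff_of_not_dvd N _ hk, mul_zero, mul_zero]

/-- the operator `U_l : sum a_n q^n -> sum a_{l n} q^n`. -/
def Ul (l : ℕ) [NeZero l] (g : LaurentSeries R) : LaurentSeries R :=
  HahnSeries.ofSuppBddBelow (fun n : ℤ => g.coeff ((l : ℤ) * n)) (by
    refine ⟨min g.order 0, fun n hn => ?_⟩
    by_contra hlt
    rw [not_le] at hlt
    apply hn
    show g.coeff ((l : ℤ) * n) = 0
    have hl : (1 : ℤ) ≤ (l : ℤ) := by exact_mod_cast Nat.pos_of_ne_zero (NeZero.ne l)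
    have hn0 : n < 0 := lt_of_lt_of_le hlt (min_le_right _ _)
    have hno : n < g.order := lt_of_lt_of_le hlt (min_le_left _ _)
    apply HahnSeries.coeff_eq_zero_of_lt_order
    nlinarith)

@[simp] theorem Ul_coeff (l : ℕ) [NeZero l] (g : LaurentSeries R) (n : ℤ) :
    (Ul l g).coeff n = g.coeff ((l : ℤ) * n) := rfl

theorem Ul_add (l : ℕ) [NeZero l] (g h : LaurentSeries R) : Ul l (g + h) = Ul l g + Ul l h := by
  ext n
  simp

theorem Ul_qExpand (l : ℕ) [NeZero l] (g : LaurentSeries R) : Ul l (qExpand R l g) = g := by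
  ext n
  simp

/-- the weight-2 formal Hecke operator `T_l = l V_l + U_l` on `q`-series, coefficientwise:
`a_{l n} + l a_{n / l}`. -/
theorem heckeT_coeff (l : ℕ) [NeZero l] (g : LaurentSeries R) (n : ℤ) :
    ((l : LaurentSeries R) * qExpand R l g + Ul l g).coeff n =
      g.coeff ((l : ℤ) * n) + if (l : ℤ) ∣ n then (l : R) * g.coeff (n / l) else 0 := by
  have hN : ((l : LaurentSeries R)) = HahnSeries.C (l : R) := by simp
  rw [HahnSeries.coeff_add, hN, HahnSeries.C_mul_eq_smul, HahnSeries.coeff_smul, smul_eq_mul,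
    Ul_coeff, add_comm]
  congr 1
  split_ifs with h
  · obtain ⟨m, rfl⟩ := h
    have hl : (l : ℤ) ≠ 0 := by exact_mod_cast NeZero.ne l
    rw [qExpand_coeff_mul, Int.mul_ediv_cancel_left _ hl]
  · rw [qExpand_coeff_of_not_dvd l _ h, mul_zero]

/-- **Orthogonality of the `l`-th roots of unity**: `sum_{b<l} g(zeta^b q) = l (U_l g)(q^l)`. -/
theorem sum_twist_eq [IsDomain R] (l : ℕ) [NeZero l] (ζ : Rˣ) (hζ : IsPrimitiveRoot ζ l)
    (g : LaurentSeries R) :
    ∑ b ∈ Finset.range l, twist (ζ ^ b) g = (l : LaurentSeries R) * qExpand R l (Ul l g) := by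
  have hN : ((l : LaurentSeries R)) = HahnSeries.C (l : R) := by simp
  ext n
  rw [hN, HahnSeries.C_mul_eq_smul, HahnSeries.coeff_smul, smul_eq_mul]
  have hsum : (∑ b ∈ Finset.range l, twist (ζ ^ b) g).coeff n =
      ∑ b ∈ Finset.range l, (twist (ζ ^ b) g).coeff n := by
    rw [← HahnSeries.coeff.addMonoidHom_apply, map_sum]
    rfl
  rw [hsum]
  have hpow : ∀ b : ℕ, (((ζ ^ b) ^ n : Rˣ) : R) = (((ζ ^ n : Rˣ) : R)) ^ b := by
    intro b
    rw [← Units.val_pow_eq_pow_val, ← zpow_natCast ζ b, ← zpow_mul, mul_comm, zpow_mul,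
      zpow_natCast]
  simp only [twist_coeff, hpow]
  rw [← Finset.sum_mul]
  by_cases hk : (l : ℤ) ∣ n
  · obtain ⟨m, rfl⟩ := hk
    rw [qExpand_coeff_mul, Ul_coeff]
    have h1 : ζ ^ ((l : ℤ) * m) = 1 := (hζ.zpow_eq_one_iff_dvd _).2 ⟨m, rfl⟩
    rw [h1]
    simp
  · rw [qExpand_coeff_of_not_dvd l _ hk, mul_zero]
    have hne : ζ ^ n ≠ 1 := fun h => hk ((hζ.zpow_eq_one_iff_dvd _).1 h)
    have hne' : (((ζ ^ n : Rˣ) : R)) - 1 ≠ 0 := by
      intro h
      apply hne
      ext
      rw [Units.val_one]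
      exact sub_eq_zero.1 h
    have hl : (((ζ ^ n : Rˣ) : R)) ^ l = 1 := by
      rw [← Units.val_pow_eq_pow_val, ← zpow_natCast, ← zpow_mul, mul_comm, zpow_mul,
        zpow_natCast, hζ.pow_eq_one, one_zpow, Units.val_one]
    have hgs := geom_sum_mul (((ζ ^ n : Rˣ) : R)) l
    rw [hl, sub_self] at hgs
    rcases mul_eq_zero.1 hgs with h | h
    · rw [h, zero_mul]
    · exact absurd h hne'

end Ring

section Field

variable {L : Type*} [Field L]

/-- logarithmic derivative `theta f / f`. -/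
def dlog (f : LaurentSeries L) : LaurentSeries L := theta f / f

theorem dlog_mul {f g : LaurentSeries L} (hf : f ≠ 0) (hg : g ≠ 0) :
    dlog (f * g) = dlog f + dlog g := by
  rw [dlog, dlog, dlog, theta_mul]
  field_simp

theorem dlog_one : dlog (1 : LaurentSeries L) = 0 := by
  rw [dlog, theta_one, zero_div]

theorem dlog_prod {ι : Type*} (s : Finset ι) (f : ι → LaurentSeries L) (hf : ∀ i ∈ s, f i ≠ 0) :
    dlog (∏ i ∈ s, f i) = ∑ i ∈ s, dlog (f i) := by
  classical
  induction s using Finset.induction_on with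
  | empty => simp [dlog_one]
  | insert a s ha ih =>
    rw [Finset.prod_insert ha, Finset.sum_insert ha,
      dlog_mul (hf a (Finset.mem_insert_self a s))
        (Finset.prod_ne_zero_iff.2 fun i hi => hf i (Finset.mem_insert_of_mem hi)),
      ih fun i hi => hf i (Finset.mem_insert_of_mem hi)]

theorem dlog_twist (ζ : Lˣ) (f : LaurentSeries L) : dlog (twist ζ f) = twist ζ (dlog f) := by
  rw [dlog, dlog, theta_twist, map_div₀]

theorem dlog_qExpand (N : ℕ) [NeZero N] (f : LaurentSeries L) :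
    dlog (qExpand L N f) = (N : LaurentSeries L) * qExpand L N (dlog f) := by
  rw [dlog, dlog, theta_qExpand, map_div₀, mul_div_assoc]

theorem natCast_eq_C (n : ℕ) : ((n : LaurentSeries L)) = HahnSeries.C (n : L) := by simp

/-- `theta` kills constants times `p`-th powers in characteristic `p`. -/
theorem theta_C_mul_pow_char (p : ℕ) [CharP L p] (c : L) (h : LaurentSeries L) :
    theta (HahnSeries.C c * h ^ p) = 0 := by
  rw [theta_mul, theta_C, zero_mul, zero_add]
  rcases Nat.eq_zero_or_pos p with hp | hp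
  · subst hp
    rw [pow_zero, theta_one, mul_zero]
  · obtain ⟨n, rfl⟩ := Nat.exists_eq_succ_of_ne_zero hp.ne'
    rw [theta, D_pow, natCast_eq_C, CharP.cast_eq_zero L (n + 1), map_zero]
    simp

/-- in characteristic `p`, `dlog (c * f * h^p) = dlog f`. -/
theorem dlog_C_mul_mul_pow_char (p : ℕ) [CharP L p] {c : L} (hc : c ≠ 0)
    {f h : LaurentSeries L} (hf : f ≠ 0) (hh : h ≠ 0) :
    dlog (HahnSeries.C c * f * h ^ p) = dlog f := by
  have hC : (HahnSeries.C c : LaurentSeries L) ≠ 0 := by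
    intro h0
    exact hc (HahnSeries.C_injective (by rw [h0, map_zero]))
  have hhp : h ^ p ≠ 0 := pow_ne_zero _ hh
  rw [mul_right_comm, dlog_mul (mul_ne_zero hC hhp) hf]
  rw [dlog, theta_C_mul_pow_char, zero_div, zero_add]

theorem dlog_eq_zero_iff {f : LaurentSeries L} (hf : f ≠ 0) : dlog f = 0 ↔ theta f = 0 := by
  rw [dlog, div_eq_zero_iff]
  exact ⟨fun h => h.resolve_right hf, Or.inl⟩

/-- in characteristic `p`, `theta f = 0` iff `f` is a series in `q^p`. -/
theorem theta_eq_zero_iff_coeff (p : ℕ) [CharP L p] (f : LaurentSeries L) :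
    theta f = 0 ↔ ∀ n : ℤ, ¬ (p : ℤ) ∣ n → f.coeff n = 0 := by
  constructor
  · intro h n hn
    have h1 := congrArg (fun x : LaurentSeries L => x.coeff n) h
    simp only [theta_coeff, HahnSeries.coeff_zero] at h1
    rcases mul_eq_zero.1 h1 with h2 | h2
    · exact absurd ((CharP.intCast_eq_zero_iff L p n).1 h2) hn
    · exact h2
  · intro h
    ext n
    rw [theta_coeff, HahnSeries.coeff_zero]
    by_cases hn : (p : ℤ) ∣ n
    · rw [(CharP.intCast_eq_zero_iff L p n).2 hn, zero_mul]
    · rw [h n hn, mul_zero]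

/-- in characteristic `p`, `theta f = 0` iff `f = (U_p f)(q^p)`. -/
theorem theta_eq_zero_iff_qExpand (p : ℕ) [NeZero p] [CharP L p] (f : LaurentSeries L) :
    theta f = 0 ↔ f = qExpand L p (Ul p f) := by
  rw [theta_eq_zero_iff_coeff p]
  constructor
  · intro h
    ext n
    by_cases hn : (p : ℤ) ∣ n
    · obtain ⟨m, rfl⟩ := hn
      rw [qExpand_coeff_mul, Ul_coeff]
    · rw [h n hn, qExpand_coeff_of_not_dvd p _ hn]
  · intro h n hn
    rw [h, qExpand_coeff_of_not_dvd p _ hn]

/-- **The `dlog`-Hecke identity** in the vocabulary of `S35x/NormQ.normQExp_beta`. -/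
theorem dlog_hecke (l : ℕ) [NeZero l] (hl : (l : L) ≠ 0) (ζ : Lˣ) (hζ : IsPrimitiveRoot ζ l)
    {F f f' : LaurentSeries L} (hf : f ≠ 0) (hf' : f' ≠ 0)
    (h : qExpand L l F = qExpand L l f' * ∏ b ∈ Finset.range l, twist (ζ ^ b) f) :
    dlog F = dlog f' + Ul l (dlog f) := by
  have hprod : ∏ b ∈ Finset.range l, twist (ζ ^ b) f ≠ 0 :=
    Finset.prod_ne_zero_iff.2 fun b _ => (map_ne_zero (twist (ζ ^ b))).2 hf
  have hq' : qExpand L l f' ≠ 0 := (map_ne_zero (qExpand L l)).2 hf'
  have key := congrArg dlog h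
  rw [dlog_qExpand, dlog_mul hq' hprod, dlog_qExpand,
    dlog_prod _ _ fun b _ => (map_ne_zero (twist (ζ ^ b))).2 hf] at key
  simp only [dlog_twist] at key
  rw [sum_twist_eq l ζ hζ, ← mul_add, ← map_add] at key
  have hlne : (l : LaurentSeries L) ≠ 0 := by
    rw [natCast_eq_C]
    intro h0
    exact hl (HahnSeries.C_injective (by rw [h0, map_zero]))
  exact qExpand_injective l (mul_left_cancel₀ hlne key)

/-- **Weight-2 `T_l` form**: if moreover `f' = h(q^l)` (the case `u = alpha^* h` of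
`normQExp_beta`), then `dlog F = l V_l (dlog h) + U_l (dlog f)`. -/
theorem dlog_hecke_T (l : ℕ) [NeZero l] (hl : (l : L) ≠ 0) (ζ : Lˣ) (hζ : IsPrimitiveRoot ζ l)
    {F f h : LaurentSeries L} (hf : f ≠ 0) (hh : h ≠ 0)
    (H : qExpand L l F = qExpand L l (qExpand L l h) * ∏ b ∈ Finset.range l, twist (ζ ^ b) f) :
    dlog F = (l : LaurentSeries L) * qExpand L l (dlog h) + Ul l (dlog f) := by
  rw [dlog_hecke l hl ζ hζ hf ((map_ne_zero (qExpand L l)).2 hh) H, dlog_qExpand]

/-- coefficient form of `dlog_hecke_T` with `h = f`: the `n`-th coefficient of `dlog (T_l f)` is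
`a_{l n} + l a_{n / l}`, `a = ` coefficients of `dlog f`. -/
theorem dlog_hecke_T_coeff (l : ℕ) [NeZero l] (hl : (l : L) ≠ 0) (ζ : Lˣ)
    (hζ : IsPrimitiveRoot ζ l) {F f : LaurentSeries L} (hf : f ≠ 0)
    (H : qExpand L l F = qExpand L l (qExpand L l f) * ∏ b ∈ Finset.range l, twist (ζ ^ b) f)
    (n : ℤ) :
    (dlog F).coeff n =
      (dlog f).coeff ((l : ℤ) * n) + if (l : ℤ) ∣ n then (l : L) * (dlog f).coeff (n / l) else 0 := by
  rw [dlog_hecke_T l hl ζ hζ hf hf H, heckeT_coeff]

end Field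

end Fermat.Agent.S40x.C2.DlogHeckeB
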