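/-
helper69 (P-S44, block C2, route OMEGA step (3)): the `dlog`-Hecke identity AFTER coefficientwise
reduction.  `A` a valuation subring of `L`, `pi : A ->+* k`; if `F, f, f'` lie in the Gauss ring
(`Gateway/Red`), have nonzero reductions, and satisfy the norm identity of `S35x/NormQ.normQExp_beta`
over `L`, then the reductions satisfy the `dlog`-Hecke identity over `k`.
-/
import Fermat.Agent.S40x.C2.DlogHeckeB
import Fermat.Agent.Gateway.GoodRed.GaussRing

set_option autoImplicit false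

noncomputable section

namespace Fermat.Agent.S40x.C2.DlogHeckeRed

open ModularCurve HahnSeries
open Fermat.Agent.Gateway.Red Fermat.Agent.Gateway.GoodRed.GaussRing
open Fermat.Agent.S40x.C2.DlogHeckeB

/-- the two landed `twist`s agree. -/
theorem kummer_twist_eq_s28 {R : Type*} [CommRing R] (ζ : Rˣ) :
    Fermat.Agent.Gateway.Kummer.twist ζ = Fermat.Agent.S28.twist ζ := by
  refine RingHom.ext fun f => ?_
  ext n
  rw [Fermat.Agent.Gateway.Kummer.twist_coeff, Fermat.Agent.S28.twist_coeff]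

variable {L : Type*} [Field L] (A : ValuationSubring L) {k : Type*} [Field k] (π : A →+* k)

theorem kummer_twist_mem_gaussRing (ζ : Aˣ) {y : LaurentSeries L} (hy : y ∈ gaussRing A π) :
    Fermat.Agent.Gateway.Kummer.twist (Units.map (A.subtype : A →* L) ζ) y ∈ gaussRing A π := by
  rw [kummer_twist_eq_s28]
  exact twist_mem_gaussRing A π ζ hy

theorem gaussRed_kummer_twist (ζ : Aˣ) {y : LaurentSeries L} (hy : y ∈ gaussRing A π) :
    gaussRed A π ⟨Fermat.Agent.Gateway.Kummer.twist (Units.map (A.subtype : A →* L) ζ) y,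
        kummer_twist_mem_gaussRing A π ζ hy⟩ =
      Fermat.Agent.Gateway.Kummer.twist (Units.map (π : A →* k) ζ) (gaussRed A π ⟨y, hy⟩) := by
  rw [kummer_twist_eq_s28 (Units.map (π : A →* k) ζ), ← gaussRed_twist A π ζ hy]
  congr 1

/-- **Reduction of the norm identity** (`S35x/NormQ.normQExp_beta` shape) to `k((q))`. -/
theorem norm_identity_red (l : ℕ) [NeZero l] (ζ : Aˣ)
    {F f f' : LaurentSeries L} (hF : F ∈ gaussRing A π) (hf : f ∈ gaussRing A π)
    (hf' : f' ∈ gaussRing A π)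
    (h : qExpand L l F = qExpand L l f' *
      ∏ b ∈ Finset.range l,
        Fermat.Agent.Gateway.Kummer.twist ((Units.map (A.subtype : A →* L) ζ) ^ b) f) :
    qExpand k l (gaussRed A π ⟨F, hF⟩) = qExpand k l (gaussRed A π ⟨f', hf'⟩) *
      ∏ b ∈ Finset.range l,
        Fermat.Agent.Gateway.Kummer.twist ((Units.map (π : A →* k) ζ) ^ b)
          (gaussRed A π ⟨f, hf⟩) := by
  rw [← gaussRed_qExpand A π l hF, ← gaussRed_qExpand A π l hf']
  have htw : ∀ b : ℕ,
      Fermat.Agent.Gateway.Kummer.twist ((Units.map (π : A →* k) ζ) ^ b) (gaussRed A π ⟨f, hf⟩) =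
        gaussRed A π ⟨Fermat.Agent.Gateway.Kummer.twist
          (Units.map (A.subtype : A →* L) (ζ ^ b)) f, kummer_twist_mem_gaussRing A π (ζ ^ b) hf⟩ := by
    intro b
    rw [gaussRed_kummer_twist, map_pow]
  simp only [htw]
  rw [← map_prod, ← map_mul]
  congr 1
  apply Subtype.ext
  rw [Subring.coe_mul, SubmonoidClass.coe_finsetProd]
  show qExpand L l F = qExpand L l f' * _
  rw [h]
  simp only [map_pow]

/-- **The `dlog`-Hecke identity for the reductions.** -/
theorem dlog_hecke_red (l : ℕ) [NeZero l] (hl : (l : k) ≠ 0) (ζ : Aˣ)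
    (hζk : IsPrimitiveRoot (Units.map (π : A →* k) ζ) l)
    {F f f' : LaurentSeries L} (hF : F ∈ gaussRing A π) (hf : f ∈ gaussRing A π)
    (hf' : f' ∈ gaussRing A π)
    (hfne : gaussRed A π ⟨f, hf⟩ ≠ 0) (hf'ne : gaussRed A π ⟨f', hf'⟩ ≠ 0)
    (h : qExpand L l F = qExpand L l f' *
      ∏ b ∈ Finset.range l,
        Fermat.Agent.Gateway.Kummer.twist ((Units.map (A.subtype : A →* L) ζ) ^ b) f) :
    dlog (gaussRed A π ⟨F, hF⟩) =
      dlog (gaussRed A π ⟨f', hf'⟩) + Ul l (dlog (gaussRed A π ⟨f, hf⟩)) :=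
  dlog_hecke l hl _ hζk hfne hf'ne (norm_identity_red A π l ζ hF hf hf' h)

/-- weight-2 `T_l` form (`f' = h(q^l)`, the case `u = alpha^* h`). -/
theorem dlog_hecke_T_red (l : ℕ) [NeZero l] (hl : (l : k) ≠ 0) (ζ : Aˣ)
    (hζk : IsPrimitiveRoot (Units.map (π : A →* k) ζ) l)
    {F f : LaurentSeries L} (hF : F ∈ gaussRing A π) (hf : f ∈ gaussRing A π)
    (hfne : gaussRed A π ⟨f, hf⟩ ≠ 0)
    (h : qExpand L l F = qExpand L l (qExpand L l f) *
      ∏ b ∈ Finset.range l,
        Fermat.Agent.Gateway.Kummer.twist ((Units.map (A.subtype : A →* L) ζ) ^ b) f) :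
    dlog (gaussRed A π ⟨F, hF⟩) =
      (l : LaurentSeries k) * qExpand k l (dlog (gaussRed A π ⟨f, hf⟩)) +
        Ul l (dlog (gaussRed A π ⟨f, hf⟩)) := by
  have hq : qExpand L l f ∈ gaussRing A π := qExpand_mem_gaussRing A π l hf
  have hqne : gaussRed A π ⟨qExpand L l f, hq⟩ ≠ 0 := by
    rw [gaussRed_qExpand A π l hf]
    exact (map_ne_zero (qExpand k l)).2 hfne
  rw [dlog_hecke_red A π l hl ζ hζk hF hf hq hfne hqne h, gaussRed_qExpand A π l hf,
    dlog_qExpand]

end Fermat.Agent.S40x.C2.DlogHeckeRed
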