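/-
P-S44 / block C2, leaf DEL (the instance) -- helper83.

The analytic arguments `(M, Dq, t, hDt, dl, hdl)` of the landed abstract assembly
`AsmAbs.exists_eigen_of_mem_Xf_of_not_mem_K1` at `E = Fk k N` (`4 ∣ N`, `N` invertible in `k`),
`M = k((q))`:

* `thetaDer k N : Derivation k (Fk k N) (LaurentSeries k)`, `f ↦ θ (f : k((q)))`, `θ = q d/dq`
  (`S16/Two/QSeries.thetaL`).  The `k`-module structure of `k((q))` is the DEFAULT instance
  (`HahnSeries.instModule`), the `Fk k N`-module structure is the default one of an intermediate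
  field (`f • x = (f : k((q))) * x`, `smul_eq`);
* `thetaDer_ne_zero` : `θ x₄ ≠ 0`; `isSeparable_tFk` : `Fk k N / k(x₄)` is separable (landed
  `TLineHurwitz.isSeparable_t4`) for the Hauptmodul `tFk` of level four;
* `dl k N f = DlogHecke.dlog (f : k((q)))` and `smul_dl : f ≠ 0 → f • dl f = thetaDer f`;
* `dl_ne_zero_of_isKummerRep` : the logarithmic derivative of a Kummer function of a nonzero class
  of `Pic⁰(Fk k N)` does not vanish (`AsmAbs.deriv_ne_zero_of_isKummerRep` at the instance);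
* `heckeTLin ℓ` : the formal Hecke operator `DlogHecke.heckeT ℓ` as a `k`-linear map;
* `smul_eq_C_mul` : `c • x = C c * x` for the default instance (to convert the shape
  `∑ i, C (c i) * red (qf i)` of `DlogSpan.exists_basis_dlog_span` into a span membership),
  `dl_mem_span_of_eq` : that conversion;
* `exists_eigen_Fk` : **`AsmAbs.exists_eigen_of_mem_Xf_of_not_mem_K1` with the analytic arguments
  discharged** (`E = Fk k N`, `M = k((q))`, `Dq = thetaDer`, `t = tFk`, `dl`).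
-/
import Mathlib
import Fermat.Agent.S40x.C2.DlogHecke
import Fermat.Agent.S40x.C2.DlogSpan
import Fermat.Agent.S40x.C2.AsmAbs
import Fermat.Agent.Gateway.AuxLevel.MembershipFk
import Fermat.Agent.Gateway.FkBasics.Modular

set_option autoImplicit false
set_option linter.unusedSectionVars false
set_option linter.style.haveILetI false

noncomputable section

namespace Fermat.Agent.S40x.C2.DqInst

open ModularCurve HahnSeries AlgebraicCurve IntermediateField
open Fermat.Agent.S16.Two Fermat.Agent.Gateway.GoodRed Fermat.Agent.Gateway.GoodRed.ConjFamily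
open Fermat.Agent.S40x.C2.DlogHecke

variable (k : Type) [Field k] (N : ℕ) [NeZero N]

/-! ### The module structures -/

/-- the default `k`-module structure of `k((q))`: `c • x = C c * x`. -/
theorem smul_eq_C_mul (c : k) (x : LaurentSeries k) : c • x = HahnSeries.C c * x :=
  HahnSeries.C_mul_eq_smul.symm

variable {k N} in
/-- the `Fk k N`-module structure of `k((q))`: `f • x = (f : k((q))) * x`. -/
theorem smul_eq (f : Fk k N) (x : LaurentSeries k) : f • x = (f : LaurentSeries k) * x := rfl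

theorem algebraMap_LS_eq_C (c : k) : algebraMap k (LaurentSeries k) c = HahnSeries.C c := by
  have h1 : algebraMap k (PowerSeries k) c = PowerSeries.C c := by simp
  rw [HahnSeries.algebraMap_apply', h1, HahnSeries.ofPowerSeries_C]

variable {k N} in
theorem coe_algebraMap_Fk (c : k) :
    ((algebraMap k (Fk k N) c : Fk k N) : LaurentSeries k) = HahnSeries.C c :=
  algebraMap_LS_eq_C k c

variable {k N} in
theorem coe_smul_Fk (c : k) (f : Fk k N) :
    ((c • f : Fk k N) : LaurentSeries k) = c • (f : LaurentSeries k) := by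
  rw [Algebra.smul_def, smul_eq_C_mul, MulMemClass.coe_mul, coe_algebraMap_Fk]

theorem thetaL_smul (c : k) (x : LaurentSeries k) : thetaL (c • x) = c • thetaL x := by
  rw [smul_eq_C_mul, smul_eq_C_mul, thetaL_mul, thetaL_C, zero_mul, zero_add]

/-! ### The derivation -/

/-- **`θ_q ∘ coe` as a `k`-derivation of the special fibre `Fk k N` into `k((q))`.** -/
def thetaDer : Derivation k (Fk k N) (LaurentSeries k) where
  toFun f := thetaL (f : LaurentSeries k)
  map_add' f g := by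
    show thetaL (((f + g : Fk k N)) : LaurentSeries k) = _
    rw [AddMemClass.coe_add, thetaL_add]
  map_smul' c f := by
    show thetaL (((c • f : Fk k N)) : LaurentSeries k) = c • thetaL (f : LaurentSeries k)
    rw [coe_smul_Fk, thetaL_smul]
  map_one_eq_zero' := by
    show thetaL (((1 : Fk k N)) : LaurentSeries k) = 0
    rw [OneMemClass.coe_one, thetaL_one]
  leibniz' f g := by
    show thetaL (((f * g : Fk k N)) : LaurentSeries k) =
      f • thetaL (g : LaurentSeries k) + g • thetaL (f : LaurentSeries k)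
    rw [MulMemClass.coe_mul, thetaL_mul, smul_eq, smul_eq]
    ring

variable {k N} in
@[simp] theorem thetaDer_apply (f : Fk k N) :
    thetaDer k N f = thetaL (f : LaurentSeries k) := rfl

variable {k N} in
/-- `θ x₄ ≠ 0`. -/
theorem thetaDer_ne_zero {t : Fk k N} (ht : (t : LaurentSeries k) = TLine4.x4k k) :
    thetaDer k N t ≠ 0 := by
  rw [thetaDer_apply, ht, thetaL]
  exact mul_ne_zero (by simp) (DlogSpan.D_x4k_ne_zero k)

/-! ### The logarithmic derivative -/

/-- `dl f = θ f / f` as a `q`-series. -/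
def dl (f : Fk k N) : LaurentSeries k := dlog (f : LaurentSeries k)

variable {k N} in
theorem dl_def (f : Fk k N) : dl k N f = dlog (f : LaurentSeries k) := rfl

variable {k N} in
theorem coe_ne_zero {f : Fk k N} (hf : f ≠ 0) : (f : LaurentSeries k) ≠ 0 := fun h =>
  hf (Subtype.ext h)

variable {k N} in
/-- `f • dl f = θ f`. -/
theorem smul_dl (f : Fk k N) (hf : f ≠ 0) : f • dl k N f = thetaDer k N f := by
  rw [smul_eq, dl, dlog, thetaDer_apply, mul_div_cancel₀ _ (coe_ne_zero hf)]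

variable {k N} in
/-- the conclusion of `DlogSpan.exists_basis_dlog_span` is a span membership of `dl f`. -/
theorem dl_mem_span_of_eq {ι : Type*} [Fintype ι] (g : ι → LaurentSeries k) {f : Fk k N}
    (hf : f ≠ 0) (c : ι → k)
    (h : HahnSeries.single (1 : ℤ) (1 : k) * Fermat.Agent.Lib.Residue.D (f : LaurentSeries k) =
      (f : LaurentSeries k) * ∑ i, HahnSeries.C (c i) * g i) :
    dl k N f ∈ Submodule.span k (Set.range g) := by
  have h1 : dl k N f = ∑ i, c i • g i := by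
    rw [dl, dlog, thetaL, h, mul_div_assoc, mul_comm, div_mul_cancel₀ _ (coe_ne_zero hf)]
    exact Finset.sum_congr rfl fun i _ => (smul_eq_C_mul k (c i) (g i)).symm
  rw [h1]
  exact Submodule.sum_mem _ fun i _ => Submodule.smul_mem _ _ (Submodule.subset_span ⟨i, rfl⟩)

/-! ### The formal Hecke operator is linear -/

variable {k} in
theorem Uop_smul (ℓ : ℕ) [NeZero ℓ] (c : k) (φ : LaurentSeries k) :
    Uop ℓ (c • φ) = c • Uop ℓ φ := by
  ext n
  rw [Uop_coeff, HahnSeries.coeff_smul, HahnSeries.coeff_smul, Uop_coeff]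

variable {k} in
theorem heckeT_smul (ℓ : ℕ) [NeZero ℓ] (c : k) (φ : LaurentSeries k) :
    heckeT ℓ (c • φ) = c • heckeT ℓ φ := by
  ext n
  by_cases hn : (ℓ : ℤ) ∣ n
  · obtain ⟨m, rfl⟩ := hn
    rw [HahnSeries.coeff_smul, heckeT_coeff_mul, heckeT_coeff_mul, HahnSeries.coeff_smul,
      HahnSeries.coeff_smul, smul_eq_mul, smul_eq_mul, smul_eq_mul]
    ring
  · rw [HahnSeries.coeff_smul, heckeT_coeff_of_not_dvd _ _ hn, heckeT_coeff_of_not_dvd _ _ hn,
      HahnSeries.coeff_smul]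

/-- the formal weight two Hecke operator as a `k`-linear map. -/
def heckeTLin (ℓ : ℕ) [NeZero ℓ] : LaurentSeries k →ₗ[k] LaurentSeries k where
  toFun := heckeT ℓ
  map_add' := heckeT_add ℓ
  map_smul' c φ := heckeT_smul ℓ c φ

variable {k} in
@[simp] theorem heckeTLin_apply (ℓ : ℕ) [NeZero ℓ] (φ : LaurentSeries k) :
    heckeTLin k ℓ φ = heckeT ℓ φ := rfl

/-! ### The separating element and the instance of `AsmAbs` -/

section Inst

open Fermat.Agent.Gateway.Kummer Fermat.Agent.S40x.Slope.UnitTwo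
  Fermat.Agent.S40x.Slope.SlopeInv Fermat.Agent.S40x.Slope.Xf
open Fermat.Agent.Gateway.AuxLevel

variable {k N} [IsAlgClosed k]

/-- the Hauptmodul of level four in `Fk k N` (`4 ∣ N`, `N` invertible in `k`) is `x₄`. -/
theorem coe_tFk_eq (h4 : 4 ∣ N) (hNk : ((N : ℕ) : k) ≠ 0) :
    ((L4.tFk h4 hNk : Fk k N) : LaurentSeries k) = TLine4.x4k k := rfl

/-- `Fk k N / k(x₄)` is separable. -/
theorem isSeparable_tFk (h4 : 4 ∣ N) (hNk : ((N : ℕ) : k) ≠ 0) :
    Algebra.IsSeparable k⟮(L4.tFk h4 hNk : Fk k N)⟯ (Fk k N) :=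
  TLineHurwitz.isSeparable_t4 N hNk (L4.tFk h4 hNk) (coe_tFk_eq h4 hNk)

/-- `θ x₄ ≠ 0`, for the Hauptmodul `tFk`. -/
theorem thetaDer_tFk_ne_zero (h4 : 4 ∣ N) (hNk : ((N : ℕ) : k) ≠ 0) :
    thetaDer k N (L4.tFk h4 hNk) ≠ 0 :=
  thetaDer_ne_zero (coe_tFk_eq h4 hNk)

/-- **Non-vanishing of the logarithmic derivative** at the instance: a Kummer function `f` of a
nonzero class of `Pic⁰(Fk k N)` has `dl f ≠ 0`. -/
theorem dl_ne_zero_of_isKummerRep [HasPrincipalDivisors k (Fk k N)] {p : ℕ} [hp : Fact p.Prime]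
    [CharP k p] (h4 : 4 ∣ N) (hNk : ((N : ℕ) : k) ≠ 0) {η : Pic0 k (Fk k N)} (hη : η ≠ 0)
    {f : Fk k N} (hf : IsKummerRep p η f) : dl k N f ≠ 0 := by
  haveI := isSeparable_tFk h4 hNk
  intro h0
  have h1 := smul_dl f hf.ne_zero
  rw [h0, smul_zero] at h1
  exact AsmAbs.deriv_ne_zero_of_isKummerRep (L4.tFk h4 hNk) (thetaDer k N)
    (thetaDer_tFk_ne_zero h4 hNk) hη hf h1.symm

variable {L : Type*} [Field L] {F : Type*} [Field F] [Algebra L F] [HasPrincipalDivisors L F]
  {O₁ O₂ : ValuationSubring F} {ρ₁ : O₁ →+* Fk k N} {ρ₂ : O₂ →+* Fk k N} {p : ℕ}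

/-- **`G4+` at `E = Fk k N`, `M = k((q))`**: `AsmAbs.exists_eigen_of_mem_Xf_of_not_mem_K1` with the
analytic arguments `(Dq, t, dl)` discharged by `thetaDer`, `tFk`, `dl`, and `hconstE` by the landed
`FkBasics.hconstk`.  What is left = the two leaf hypotheses `hOmega` (INT + OMEGA) and `hKH`
(KH-a + KH-b), in terms of `DlogHecke.dlog` of the `q`-expansions. -/
theorem exists_eigen_Fk [IsAlgClosed L] [hp : Fact p.Prime] [CharP k p]
    (h4 : 4 ∣ N) (hNk : ((N : ℕ) : k) ≠ 0)
    (hD : FlatData (L := L) O₁ O₂ ρ₁ ρ₂ p)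
    (hSA : ∀ a b : Fk k N, ∃ (g : F) (h₁ : g ∈ O₁) (h₂ : g ∈ O₂),
      ρ₁ ⟨g, h₁⟩ = a ∧ ρ₂ ⟨g, h₂⟩ = b)
    (S : Submodule k (LaurentSeries k))
    (hOmega : ∀ f : Fk k N, f ≠ 0 → (∀ P : Place k (Fk k N), (p : ℤ) ∣ P.ord f) →
      dlog (f : LaurentSeries k) ∈ S)
    {ι : Type*} (T : ι → Pic0 L F → Pic0 L F) (H : ι → LaurentSeries k → LaurentSeries k)
    (a : ι → ℤ)
    (hKH₁ : ∀ (i : ι) (ξ : Pic0 L F) (w : F), IsKummerRep p ξ w → UnitTwo O₁ O₂ w →
      T i ξ = a i • ξ → H i (dlog ((red O₁ ρ₁ w : Fk k N) : LaurentSeries k)) =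
        ((a i : ℤ) : k) • dlog ((red O₁ ρ₁ w : Fk k N) : LaurentSeries k))
    (hKH₂ : ∀ (i : ι) (ξ : Pic0 L F) (w : F), IsKummerRep p ξ w → UnitTwo O₁ O₂ w →
      T i ξ = a i • ξ → H i (dlog ((red O₂ ρ₂ w : Fk k N) : LaurentSeries k)) =
        ((a i : ℤ) : k) • dlog ((red O₂ ρ₂ w : Fk k N) : LaurentSeries k))
    {ξ : Pic0 L F} (hξf : ξ ∈ Xf k hD) (hξ1 : ξ ∉ K1 O₁ O₂ ρ₁ ρ₂ p)
    (heig : ∀ i, T i ξ = a i • ξ) :
    ∃ g ∈ S, g ≠ 0 ∧ ∀ i, H i g = ((a i : ℤ) : k) • g := by
  letI : HasPrincipalDivisors k (Fk k N) :=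
    Fermat.Agent.Gateway.FkBasics.hasPrincipalDivisors_Fk k N hNk
  haveI := isSeparable_tFk h4 hNk
  exact AsmAbs.exists_eigen_of_mem_Xf_of_not_mem_K1 hD
    (Fermat.Agent.Gateway.FkBasics.hconstk k N hNk) hSA (L4.tFk h4 hNk) (thetaDer k N)
    (thetaDer_tFk_ne_zero h4 hNk) (dl k N) smul_dl S hOmega T H a hKH₁ hKH₂ hξf hξ1 heig

end Inst

end Fermat.Agent.S40x.C2.DqInst

end
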