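/-
P-S44 / block C2, DIAG (helper7): ABSTRACT counting core, Prelude `Place` vocabulary only.

`F'/F` function fields over `K` with the fundamental identity `sum_{w | v} e(w) deg(w) = [F':F] deg(v)`,
all places of degree one.  If `T` is a finite set of places of `F'` lying over a finite set `S` of
places of `F` and `[F':F] * #S <= #T`, then EVERY place over a place of `S` lies in `T` and is
unramified, and every fibre over `S` has exactly `[F':F]` elements.
(Use: `S` = node places at level `Nhat`, `T` = node places at level `Nhat * l`, `[F':F] = l + 1`: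
"the number of nodes multiplies by `l + 1`, so every place over a node is an unramified node".)
-/
import Fermat.Prelude.Def_AlgebraicCurve_DivisorPushPull

set_option autoImplicit false

noncomputable section

open AlgebraicCurve

namespace Fermat.Agent.S40x.C2.FiberCount

variable {K F F' : Type*} [Field K] [Field F] [Field F']
  [Algebra K F] [Algebra K F'] [Algebra F F'] [IsScalarTower K F F']
  [Algebra.IsIntegral F F'] [HasPrincipalDivisors K F']

/-- Degree-one form of the fundamental identity: `sum_{w | v} e(w) = [F':F]`. -/
theorem sum_ramificationIndex_eq [FundamentalIdentity K F F']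
    (hF : ∀ v : Place K F, v.deg = 1) (hF' : ∀ w : Place K F', w.deg = 1) (v : Place K F) :
    ∑ w ∈ v.fiber F', w.ramificationIndex F = Module.finrank F F' := by
  have h := FundamentalIdentity.sum_ramificationIndex_mul_deg (K := K) (F := F) (F' := F') v
  rw [hF v] at h
  have h2 : ∑ w ∈ v.fiber F', (w.ramificationIndex F : ℤ) * (w.deg : ℤ)
      = ∑ w ∈ v.fiber F', (w.ramificationIndex F : ℤ) :=
    Finset.sum_congr rfl (fun w _ => by rw [hF' w]; simp)
  rw [h2] at h
  have h3 : ((∑ w ∈ v.fiber F', w.ramificationIndex F : ℕ) : ℤ) = (Module.finrank F F' : ℤ) := by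
    push_cast
    simpa using h
  exact_mod_cast h3

/-- Each fibre has at most `[F':F]` elements. -/
theorem card_fiber_le [FundamentalIdentity K F F']
    (hF : ∀ v : Place K F, v.deg = 1) (hF' : ∀ w : Place K F', w.deg = 1) (v : Place K F) :
    (v.fiber F').card ≤ Module.finrank F F' := by
  rw [← sum_ramificationIndex_eq hF hF' v, Finset.card_eq_sum_ones]
  exact Finset.sum_le_sum (fun w _ => Place.ramificationIndex_pos (F := F) w)

/-- **Counting lemma.** -/
theorem fiber_subset_and_unramified [FundamentalIdentity K F F']
    (hF : ∀ v : Place K F, v.deg = 1) (hF' : ∀ w : Place K F', w.deg = 1)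
    (S : Finset (Place K F)) (T : Finset (Place K F'))
    (hTS : ∀ w ∈ T, w.restrict F ∈ S)
    (hcard : Module.finrank F F' * S.card ≤ T.card) :
    ∀ v ∈ S, (v.fiber F').card = Module.finrank F F' ∧
      ∀ w : Place K F', w.restrict F = v → w ∈ T ∧ w.ramificationIndex F = 1 := by
  classical
  set n := Module.finrank F F' with hn
  -- `T` is the disjoint union of its parts over the points of `S`
  have hT : T.card = ∑ v ∈ S, (T.filter (fun w => w.restrict F = v)).card :=
    Finset.card_eq_sum_card_fiberwise (f := fun w : Place K F' => w.restrict F) hTS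
  have hle1 : ∀ v ∈ S, (T.filter (fun w => w.restrict F = v)).card ≤ (v.fiber F').card := by
    intro v _
    refine Finset.card_le_card (fun w hw => ?_)
    rw [Finset.mem_filter] at hw
    exact Place.mem_fiber.mpr hw.2
  have hle2 : ∀ v ∈ S, (v.fiber F').card ≤ n := fun v _ => card_fiber_le hF hF' v
  have hsum : ∑ v ∈ S, n = n * S.card := by
    rw [Finset.sum_const, smul_eq_mul, mul_comm]
  -- all inequalities are equalities
  have heq : ∀ v ∈ S, (T.filter (fun w => w.restrict F = v)).card = n := by
    have hle : ∀ v ∈ S, (T.filter (fun w => w.restrict F = v)).card ≤ n :=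
      fun v hv => (hle1 v hv).trans (hle2 v hv)
    by_contra hne
    have hne' : ∃ v ∈ S, (T.filter (fun w => w.restrict F = v)).card < n := by
      by_contra hall
      apply hne
      intro v hv
      refine le_antisymm (hle v hv) ?_
      by_contra hlt
      exact hall ⟨v, hv, not_le.mp hlt⟩
    have hlt : ∑ v ∈ S, (T.filter (fun w => w.restrict F = v)).card < ∑ v ∈ S, n :=
      Finset.sum_lt_sum hle hne'
    rw [hsum, ← hT] at hlt
    omega
  intro v hv
  have h1 : (T.filter (fun w => w.restrict F = v)).card = (v.fiber F').card :=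
    le_antisymm (hle1 v hv) ((hle2 v hv).trans (heq v hv).ge)
  have hcardfib : (v.fiber F').card = n := by rw [← h1, heq v hv]
  have hsub : T.filter (fun w => w.restrict F = v) = v.fiber F' := by
    refine Finset.eq_of_subset_of_card_le (fun w hw => ?_) h1.ge
    rw [Finset.mem_filter] at hw
    exact Place.mem_fiber.mpr hw.2
  refine ⟨hcardfib, fun w hw => ?_⟩
  have hwfib : w ∈ v.fiber F' := Place.mem_fiber.mpr hw
  refine ⟨?_, ?_⟩
  · rw [← hsub, Finset.mem_filter] at hwfib
    exact hwfib.1
  · -- sum of e = n = card, each e >= 1, so each e = 1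
    have hs := sum_ramificationIndex_eq hF hF' v
    rw [← hn, ← hcardfib, Finset.card_eq_sum_ones] at hs
    by_contra hne
    have hpos : ∀ w' ∈ v.fiber F', 1 ≤ w'.ramificationIndex F :=
      fun w' _ => Place.ramificationIndex_pos (F := F) w'
    have hlt : ∑ w' ∈ v.fiber F', 1 < ∑ w' ∈ v.fiber F', w'.ramificationIndex F := by
      refine Finset.sum_lt_sum hpos ⟨w, hwfib, ?_⟩
      have := hpos w hwfib
      omega
    omega

/-- Consequence for sums over fibres: if `c : Place K F' -> A` is constant `= a` on `T`, then the
sum of `c` over the fibre of any `v in S` is `[F':F] • a`. -/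
theorem sum_fiber_eq_nsmul [FundamentalIdentity K F F'] {A : Type*} [AddCommMonoid A]
    (hF : ∀ v : Place K F, v.deg = 1) (hF' : ∀ w : Place K F', w.deg = 1)
    (S : Finset (Place K F)) (T : Finset (Place K F'))
    (hTS : ∀ w ∈ T, w.restrict F ∈ S)
    (hcard : Module.finrank F F' * S.card ≤ T.card)
    (c : Place K F' → A) (a : A) (hc : ∀ w ∈ T, c w = a) {v : Place K F} (hv : v ∈ S) :
    ∑ w ∈ v.fiber F', c w = Module.finrank F F' • a := by
  obtain ⟨hcardfib, hall⟩ := fiber_subset_and_unramified hF hF' S T hTS hcard v hv
  rw [← hcardfib, ← Finset.sum_const]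
  refine Finset.sum_congr rfl (fun w hw => ?_)
  exact hc w (hall w (Place.mem_fiber.mp hw)).1

end Fermat.Agent.S40x.C2.FiberCount
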