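import Fermat.Agent.Gateway.Kummer.Basic
import Fermat.Agent.Gateway.Descent.PicIncl
import Fermat.Agent.S33x.Consumer.LevelTransport

/-!
# P-S44, block C2, seam (s1) of the DESC red-team note (helper29)

Kummer representatives are compatible with the pull-back of divisor classes:

* `isKummerRep_pullbackAlong` (abstract, prelude vocabulary): if `u` is a Kummer representative of
  the class of `D` then `φ u` is a Kummer representative of the class of `φ^* D`;
* `isKummerRep_pullbackPic` : `IsKummerRep m x u → IsKummerRep m (pullbackPic h x) (incl h u)` for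
  the inclusion `F_N ⊆ F_M` of modular function fields (`N ∣ M`);
* `isKummerRep_pullbackTors` : the same on the `n`-torsion subgroups (`pullbackTors`).

So the Kummer function of `π^* x` at the good level `lcm(4, M') p` may be taken INSIDE the function
field of level `M' p`, which is what the trace descent (leaf DESC) needs.
-/

set_option autoImplicit false
set_option linter.style.haveILetI false
set_option linter.unusedSectionVars false

noncomputable section

namespace Fermat.Agent.S40x.C2.KummerPull

open AlgebraicCurve ModularCurve Fermat.Agent.Gateway.Kummer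

section Abstract

variable {K F F' : Type*} [Field K] [Field F] [Field F'] [Algebra K F] [Algebra K F']
  [HasPrincipalDivisors K F']

/-- **Divisor level.** `m • D = div u` implies `m • φ^* D = div (φ u)`. -/
theorem pullbackAlong_eq_ord (φ : F →ₐ[K] F') (hφ : φ.toRingHom.IsIntegral) {m : ℕ}
    {D : Divisor K F} {u : F} (hD : ∀ P : Place K F, (m : ℤ) * D P = P.ord u)
    (w : Place K F') :
    (m : ℤ) * Divisor.pullbackAlong φ hφ D w = w.ord (φ u) := by
  rw [Divisor.pullbackAlong_apply, Place.ord_restrictAlong φ hφ, ← hD (w.restrictAlong φ hφ)]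
  ring

/-- **Abstract form**: a Kummer representative of `[D]` is sent by `φ` to a Kummer representative
of `[φ^* D]`. -/
theorem isKummerRep_pullbackAlong (φ : F →ₐ[K] F') (hφ : φ.toRingHom.IsIntegral)
    (hFI : FundamentalIdentityAlong K φ hφ) {m : ℕ}
    (D : Divisor.degZero (K := K) (F := F)) {u : F} (hu : u ≠ 0)
    (hD : ∀ P : Place K F, (m : ℤ) * (D : Divisor K F) P = P.ord u) :
    IsKummerRep m
      (Pic0.mk ⟨Divisor.pullbackAlong φ hφ (D : Divisor K F),
        Divisor.pullbackAlong_mem_degZero φ hφ hFI D.2⟩) (φ u) :=
  ⟨(map_ne_zero φ).mpr hu, _, rfl, fun w => pullbackAlong_eq_ord φ hφ hD w⟩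

end Abstract

section Modular

open Fermat.Agent.Gateway.Descent Fermat.Agent.S24 Fermat.Agent.S24.Setup
  Fermat.Agent.Gateway.S31Red

variable {N M : ℕ} [NeZero N] [NeZero M]

/-- **(s1)** Kummer representatives pull back along `F_N ⊆ F_M`. -/
theorem isKummerRep_pullbackPic (h : N ∣ M) {m : ℕ} {x : JZero N} {u : FF N}
    (hx : IsKummerRep m x u) : IsKummerRep m (pullbackPic h x) (Incl.incl h u) := by
  haveI := hasPrincipalDivisors_FF M
  obtain ⟨hu, D, rfl, hD⟩ := hx
  rw [pullbackPic_mk]
  exact isKummerRep_pullbackAlong (Incl.incl h) (isIntegral_incl h)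
    (fundamentalIdentityAlong_incl h) D hu hD

/-- **(s1)** on the torsion subgroups. -/
theorem isKummerRep_pullbackTors (h : N ∣ M) (n : ℕ) {m : ℕ} {x : JTors N n} {u : FF N}
    (hx : IsKummerRep m (x : JZero N) u) :
    IsKummerRep m
      ((Fermat.Agent.S33x.Consumer.LevelTransport.pullbackTors h n x : JTors M n) : JZero M)
      (Incl.incl h u) := by
  rw [Fermat.Agent.S33x.Consumer.LevelTransport.coe_pullbackTors]
  exact isKummerRep_pullbackPic h hx

/-- every `m`-torsion class of level `N` has a Kummer function inside `F_N` which is still a Kummer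
function of its pull-back to level `M`. -/
theorem exists_isKummerRep_pullbackPic (h : N ∣ M) {m : ℕ} {x : JZero N}
    (hx : (m : ℤ) • x = 0) :
    ∃ u : FF N, IsKummerRep m x u ∧ IsKummerRep m (pullbackPic h x) (Incl.incl h u) := by
  obtain ⟨u, hu⟩ := exists_isKummerRep hx
  exact ⟨u, hu, isKummerRep_pullbackPic h hu⟩

end Modular

end Fermat.Agent.S40x.C2.KummerPull
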