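/-
P-S44 / block C2, route (R'), leaf (b1) ABSTRACT (helper7).  Mathlib only.

Lang-type lemma for Frobenius-semilinear maps: `k` algebraically closed, `sigma : k ->+* k`
with `sigma c = c ^ q` (`2 <= q`), `W` a finite-dimensional `k`-space, `psi : W -> W` an
injective `sigma`-semilinear map.  Then
 * `exists_ne_zero_fixed` : `W` nontrivial  ==>  some `w != 0` has `psi w = w`;
 * `span_fixed_eq_top`    : the fixed vectors span `W` (the "F_q-form");
 * `exists_sub_eq`        : `psi - 1` is surjective;
 * `exists_twisted_fixed` : consumer form inside a field `F` over `k`: `phi : F ->+* F`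
   restricting to `c |-> c ^ q` on `k`, `h != 0`, `V <= F` a nonzero finite-dimensional
   `k`-subspace with `h * phi V <= V`  ==>  some `x in V`, `x != 0`, `h * phi x = x`.
No characteristic hypothesis is needed: additivity of `c |-> c ^ q` is carried by `sigma`.
-/
import Mathlib

set_option autoImplicit false

open Polynomial

namespace Fermat.Agent.S40x.C2.LangSemilinear

section Span

variable {k : Type*} [Field k] {W : Type*} [AddCommGroup W] [Module k W]

/-- Elements of the span of `g 0, ..., g (n-1)` are explicit combinations. -/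
theorem exists_coeff_of_mem_span (g : ℕ → W) (n : ℕ) {x : W}
    (hx : x ∈ Submodule.span k (g '' Set.Iio n)) :
    ∃ c : ℕ → k, x = ∑ i ∈ Finset.range n, c i • g i := by
  have himg : g '' Set.Iio n = Set.range (fun i : Fin n => g i) := by
    ext y
    constructor
    · rintro ⟨i, hi, rfl⟩
      exact ⟨⟨i, hi⟩, rfl⟩
    · rintro ⟨i, rfl⟩
      exact ⟨i, i.2, rfl⟩
  rw [himg] at hx
  obtain ⟨c, hc⟩ := (Submodule.mem_span_range_iff_exists_fun k).mp hx
  refine ⟨fun i => if h : i < n then c ⟨i, h⟩ else 0, ?_⟩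
  rw [← hc, ← Fin.sum_univ_eq_sum_range (fun i => (if h : i < n then c ⟨i, h⟩ else 0) • g i) n]
  refine Finset.sum_congr rfl (fun i _ => ?_)
  simp [i.2]

theorem sum_mem_span (g : ℕ → W) (n : ℕ) (c : ℕ → k) :
    ∑ i ∈ Finset.range n, c i • g i ∈ Submodule.span k (g '' Set.Iio n) := by
  refine Submodule.sum_mem _ (fun i hi => ?_)
  exact Submodule.smul_mem _ _ (Submodule.subset_span ⟨i, Finset.mem_range.mp hi, rfl⟩)

end Span

section Poly

variable {k : Type*} [Field k]

/-- The coefficients of the candidate fixed vector, as functions of the parameter `t`. -/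
def coeffSeq (sigma : k →+* k) (c : ℕ → k) (t : k) : ℕ → k
  | 0 => c 0 * sigma t
  | (i + 1) => sigma (coeffSeq sigma c t i) + c (i + 1) * sigma t

/-- The same coefficients as polynomials in `t`. -/
noncomputable def polySeq (q : ℕ) (c : ℕ → k) : ℕ → k[X]
  | 0 => C (c 0) * X ^ q
  | (i + 1) => (polySeq q c i) ^ q + C (c (i + 1)) * X ^ q

theorem eval_polySeq {q : ℕ} {sigma : k →+* k} (hs : ∀ x, sigma x = x ^ q) (c : ℕ → k) (t : k)
    (i : ℕ) : (polySeq q c i).eval t = coeffSeq sigma c t i := by
  induction i with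
  | zero => simp [polySeq, coeffSeq, hs]
  | succ i ih => simp [polySeq, coeffSeq, hs, ih]

theorem X_pow_dvd_polySeq {q : ℕ} (hq : 1 ≤ q) (c : ℕ → k) (i : ℕ) :
    (X : k[X]) ^ q ∣ polySeq q c i := by
  induction i with
  | zero => exact Dvd.intro_left _ rfl
  | succ i ih =>
    have h1 : (X : k[X]) ^ q ∣ (polySeq q c i) ^ q :=
      dvd_trans ih (dvd_pow_self _ (by omega))
    exact dvd_add h1 (Dvd.intro_left _ rfl)

theorem polySeq_ne_zero {q : ℕ} (hq : 2 ≤ q) (c : ℕ → k) (i : ℕ)
    (h : ∃ j, j ≤ i ∧ c j ≠ 0) : polySeq q c i ≠ 0 := by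
  induction i with
  | zero =>
    obtain ⟨j, hj, hc⟩ := h
    have : j = 0 := by omega
    subst this
    exact mul_ne_zero (C_ne_zero.mpr hc) (pow_ne_zero _ X_ne_zero)
  | succ i ih =>
    by_cases h0 : polySeq q c i = 0
    · have hall : ∀ j, j ≤ i → c j = 0 := by
        intro j hj
        by_contra hc
        exact ih ⟨j, hj, hc⟩ h0
      obtain ⟨j, hj, hc⟩ := h
      have hji : j = i + 1 := by
        by_contra hne
        exact hc (hall j (by omega))
      subst hji
      have hq0 : q ≠ 0 := by omega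
      have : polySeq q c (i + 1) = C (c (i + 1)) * X ^ q := by
        simp [polySeq, h0, hq0]
      rw [this]
      exact mul_ne_zero (C_ne_zero.mpr hc) (pow_ne_zero _ X_ne_zero)
    · have hdeg : q ≤ (polySeq q c i).natDegree := by
        have := natDegree_le_of_dvd (X_pow_dvd_polySeq (by omega) c i) h0
        simpa using this
      intro hzero
      have hEq : (polySeq q c i) ^ q = -(C (c (i + 1)) * X ^ q) := by
        have : (polySeq q c i) ^ q + C (c (i + 1)) * X ^ q = 0 := hzero
        exact eq_neg_of_add_eq_zero_left this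
      have h1 : ((polySeq q c i) ^ q).natDegree = q * (polySeq q c i).natDegree :=
        natDegree_pow _ _
      have h2 : (-(C (c (i + 1)) * X ^ q)).natDegree ≤ q := by
        rw [natDegree_neg]
        exact natDegree_C_mul_X_pow_le _ _
      rw [← hEq, h1] at h2
      nlinarith

/-- The polynomial equation `a_m(t) = t` has a nonzero solution. -/
theorem exists_ne_zero_coeffSeq_eq [IsAlgClosed k] {q : ℕ} (hq : 2 ≤ q) {sigma : k →+* k}
    (hs : ∀ x, sigma x = x ^ q) (c : ℕ → k) (m : ℕ) (h : ∃ j, j ≤ m ∧ c j ≠ 0) :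
    ∃ t : k, t ≠ 0 ∧ coeffSeq sigma c t m = t := by
  have hne := polySeq_ne_zero hq c m h
  have hdvd : (X : k[X]) ^ 2 ∣ polySeq q c m :=
    dvd_trans (pow_dvd_pow _ hq) (X_pow_dvd_polySeq (by omega) c m)
  obtain ⟨R, hR⟩ := hdvd
  have hR0 : R ≠ 0 := by
    rintro rfl
    exact hne (by simpa using hR)
  have hdeg : (X * R - 1 : k[X]).degree ≠ 0 := by
    intro hd
    have hC := eq_C_of_degree_eq_zero hd
    have hXR : X * R = C ((X * R - 1 : k[X]).coeff 0 + 1) := by
      rw [C_add, ← hC]
      simp
    have h1 : (X * R : k[X]).natDegree = 1 + R.natDegree := by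
      rw [natDegree_mul X_ne_zero hR0, natDegree_X]
    rw [hXR, natDegree_C] at h1
    omega
  obtain ⟨t, ht⟩ := IsAlgClosed.exists_root _ hdeg
  have ht' : t * R.eval t = 1 := by
    have : (X * R - 1 : k[X]).eval t = 0 := ht
    simpa [sub_eq_zero] using this
  refine ⟨t, ?_, ?_⟩
  · rintro rfl
    simp at ht'
  · rw [← eval_polySeq hs c t m, hR]
    simp only [eval_mul, eval_pow, eval_X]
    calc t ^ 2 * R.eval t = t * (t * R.eval t) := by ring
      _ = t := by rw [ht', mul_one]

end Poly

section Main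

variable {k : Type*} [Field k] {W : Type*} [AddCommGroup W] [Module k W]

/-- The fixed-vector identity: with `g i = psi^i v`, a relation
`g (m+1) = sum_{i <= m} c i • g i` and `a = coeffSeq sigma c t`, the vector
`w = sum_{i < m} a i • g i + t • g m` satisfies `psi w = sum_{i <= m} a i • g i`. -/
theorem psi_candidate {sigma : k →+* k} (psi : W →ₛₗ[sigma] W) (g : ℕ → W)
    (hg : ∀ i, psi (g i) = g (i + 1)) (c : ℕ → k) (m : ℕ)
    (hrel : g (m + 1) = ∑ i ∈ Finset.range (m + 1), c i • g i) (t : k) :
    psi (∑ i ∈ Finset.range m, coeffSeq sigma c t i • g i + t • g m) =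
      ∑ i ∈ Finset.range (m + 1), coeffSeq sigma c t i • g i := by
  rw [map_add, map_sum, LinearMap.map_smulₛₗ, hg m, hrel]
  simp only [LinearMap.map_smulₛₗ, hg]
  rw [Finset.sum_range_succ' (fun i => coeffSeq sigma c t i • g i) m,
    Finset.sum_range_succ' (fun i => c i • g i) m]
  simp only [coeffSeq, add_smul, Finset.sum_add_distrib, smul_add, Finset.smul_sum, mul_smul]
  have : ∀ i, (c (i + 1) • sigma t • g (i + 1) : W) = sigma t • c (i + 1) • g (i + 1) :=
    fun i => smul_comm _ _ _
  simp only [this, smul_comm (c 0) (sigma t) (g 0)]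
  abel

variable [IsAlgClosed k]

/-- **Lang's lemma, existence form.** -/
theorem exists_ne_zero_fixed {q : ℕ} (hq : 2 ≤ q) {sigma : k →+* k} (hs : ∀ x, sigma x = x ^ q)
    [Module.Finite k W] [Nontrivial W] (psi : W →ₛₗ[sigma] W) (hinj : Function.Injective psi) :
    ∃ w : W, w ≠ 0 ∧ psi w = w := by
  obtain ⟨v, hv⟩ := exists_ne (0 : W)
  set g : ℕ → W := fun i => psi^[i] v with hgdef
  have hg : ∀ i, psi (g i) = g (i + 1) := fun i => by
    simp only [hgdef, Function.iterate_succ_apply']
  let U : ℕ →o Submodule k W :=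
    ⟨fun n => Submodule.span k (g '' Set.Iio n), fun a b hab =>
      Submodule.span_mono (Set.image_mono (Set.Iio_subset_Iio hab))⟩
  have hex : ∃ n, g n ∈ U n := by
    obtain ⟨n, hn⟩ := monotone_stabilizes_iff_noetherian.mpr
      (inferInstance : IsNoetherian k W) U
    refine ⟨n, ?_⟩
    rw [hn (n + 1) (Nat.le_succ n)]
    exact Submodule.subset_span ⟨n, Nat.lt_succ_self n, rfl⟩
  classical
  have hmin : ∀ {n : ℕ}, n < Nat.find hex → ¬ g n ∈ U n := fun h => Nat.find_min hex h
  have hspec := Nat.find_spec hex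
  have hne0 : Nat.find hex ≠ 0 := by
    intro h0
    rw [h0] at hspec
    have h1 : g 0 ∈ Submodule.span k (g '' Set.Iio 0) := hspec
    have h2 : g '' Set.Iio 0 = ∅ := by
      ext y
      simp
    rw [h2, Submodule.span_empty, Submodule.mem_bot] at h1
    exact hv h1
  obtain ⟨m, hm⟩ : ∃ m, Nat.find hex = m + 1 := Nat.exists_eq_succ_of_ne_zero hne0
  rw [hm] at hspec
  have hnot : g m ∉ U m := hmin (by omega)
  obtain ⟨c, hrel⟩ := exists_coeff_of_mem_span g (m + 1) hspec
  have hc : ∃ j, j ≤ m ∧ c j ≠ 0 := by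
    by_contra hall
    have hall : ∀ j, j ≤ m → c j = 0 := by
      intro j hj
      by_contra hcj
      exact hall ⟨j, hj, hcj⟩
    have hz : g (m + 1) = 0 := by
      rw [hrel]
      refine Finset.sum_eq_zero (fun i hi => ?_)
      rw [hall i (by have := Finset.mem_range.mp hi; omega), zero_smul]
    have h0 : psi^[m + 1] v = psi^[m + 1] 0 := by
      rw [iterate_map_zero psi (m + 1)]
      exact hz
    exact hv ((hinj.iterate (m + 1)) h0)
  obtain ⟨t, ht0, ht⟩ := exists_ne_zero_coeffSeq_eq hq hs c m hc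
  refine ⟨∑ i ∈ Finset.range m, coeffSeq sigma c t i • g i + t • g m, ?_, ?_⟩
  · intro hw
    apply hnot
    have h1 : t • g m = -∑ i ∈ Finset.range m, coeffSeq sigma c t i • g i :=
      eq_neg_of_add_eq_zero_right hw
    have h2 : t • g m ∈ U m := by
      rw [h1]
      exact Submodule.neg_mem _ (sum_mem_span g m _)
    have h3 := Submodule.smul_mem (U m) t⁻¹ h2
    rwa [smul_smul, inv_mul_cancel₀ ht0, one_smul] at h3
  · rw [psi_candidate psi g hg c m hrel t, Finset.sum_range_succ, ht]


/-- The span of the fixed vectors of `psi`. -/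
def fixedSpan {sigma : k →+* k} (psi : W →ₛₗ[sigma] W) : Submodule k W :=
  Submodule.span k {w : W | psi w = w}

omit [IsAlgClosed k] in
theorem psi_mem_fixedSpan {sigma : k →+* k} (psi : W →ₛₗ[sigma] W) {x : W}
    (hx : x ∈ fixedSpan psi) : psi x ∈ fixedSpan psi := by
  induction hx using Submodule.span_induction with
  | mem w hw =>
    have hw' : psi w = w := hw
    rw [hw']
    exact Submodule.subset_span hw
  | zero => rw [map_zero]; exact Submodule.zero_mem _
  | add x y _ _ hx hy => rw [map_add]; exact Submodule.add_mem _ hx hy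
  | smul c x _ hx => rw [LinearMap.map_smulₛₗ]; exact Submodule.smul_mem _ _ hx

/-- `psi` is onto on the span of its fixed vectors (`q`-th roots exist in `k`). -/
theorem exists_psi_eq_of_mem_fixedSpan {q : ℕ} (hq : 2 ≤ q) {sigma : k →+* k}
    (hs : ∀ x, sigma x = x ^ q) (psi : W →ₛₗ[sigma] W) {y : W} (hy : y ∈ fixedSpan psi) :
    ∃ u, u ∈ fixedSpan psi ∧ psi u = y := by
  induction hy using Submodule.closure_induction with
  | zero => exact ⟨0, Submodule.zero_mem _, map_zero _⟩
  | add x y _ _ hx hy =>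
    obtain ⟨u1, hu1, h1⟩ := hx
    obtain ⟨u2, hu2, h2⟩ := hy
    exact ⟨u1 + u2, Submodule.add_mem _ hu1 hu2, by rw [map_add, h1, h2]⟩
  | smul_mem r x hx =>
    obtain ⟨d, hd⟩ := IsAlgClosed.exists_pow_nat_eq r (by omega : 0 < q)
    have hx' : psi x = x := hx
    refine ⟨d • x, Submodule.smul_mem _ _ (Submodule.subset_span hx), ?_⟩
    rw [LinearMap.map_smulₛₗ, hs, hd, hx']

/-- Artin--Schreier: `psi - 1` is onto on the span of the fixed vectors. -/
theorem exists_psi_sub_eq_of_mem_fixedSpan {q : ℕ} (hq : 2 ≤ q) {sigma : k →+* k}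
    (hs : ∀ x, sigma x = x ^ q) (psi : W →ₛₗ[sigma] W) {y : W} (hy : y ∈ fixedSpan psi) :
    ∃ u, u ∈ fixedSpan psi ∧ psi u - u = y := by
  induction hy using Submodule.closure_induction with
  | zero => exact ⟨0, Submodule.zero_mem _, by simp⟩
  | add x y _ _ hx hy =>
    obtain ⟨u1, hu1, h1⟩ := hx
    obtain ⟨u2, hu2, h2⟩ := hy
    refine ⟨u1 + u2, Submodule.add_mem _ hu1 hu2, ?_⟩
    rw [map_add, ← h1, ← h2]
    abel
  | smul_mem r x hx =>
    have hdeg : ((X : k[X]) ^ q - (X + C r)).degree ≠ 0 := by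
      have h1 : (X + C r : k[X]).degree < ((X : k[X]) ^ q).degree := by
        rw [degree_X_add_C, degree_X_pow]
        exact_mod_cast hq
      rw [degree_sub_eq_left_of_degree_lt h1, degree_X_pow]
      exact_mod_cast (by omega : q ≠ 0)
    obtain ⟨d, hd⟩ := IsAlgClosed.exists_root _ hdeg
    have hd' : d ^ q - d = r := by
      have : ((X : k[X]) ^ q - (X + C r)).eval d = 0 := hd
      simp only [eval_sub, eval_pow, eval_X, eval_add, eval_C] at this
      linear_combination this
    have hx' : psi x = x := hx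
    refine ⟨d • x, Submodule.smul_mem _ _ (Submodule.subset_span hx), ?_⟩
    rw [LinearMap.map_smulₛₗ, hs, hx', ← sub_smul, hd']

/-- **Lang's lemma, span form**: the fixed vectors of an injective Frobenius-semilinear
map of a finite-dimensional space over an algebraically closed field span the space. -/
theorem span_fixed_eq_top {q : ℕ} (hq : 2 ≤ q) {sigma : k →+* k} (hs : ∀ x, sigma x = x ^ q)
    [Module.Finite k W] (psi : W →ₛₗ[sigma] W) (hinj : Function.Injective psi) :
    Submodule.span k {w : W | psi w = w} = ⊤ := by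
  by_contra hne
  have hne' : fixedSpan psi ≠ ⊤ := hne
  have : Nontrivial (W ⧸ fixedSpan psi) := Submodule.Quotient.nontrivial_iff.mpr hne'
  let psiQ : (W ⧸ fixedSpan psi) →ₛₗ[sigma] (W ⧸ fixedSpan psi) :=
    Submodule.mapQ (fixedSpan psi) (fixedSpan psi) psi (fun x hx => psi_mem_fixedSpan psi hx)
  have hQinj : Function.Injective psiQ := by
    rw [injective_iff_map_eq_zero]
    intro a ha
    obtain ⟨w, rfl⟩ := Submodule.Quotient.mk_surjective _ a
    have h1 : psiQ (Submodule.Quotient.mk w) = Submodule.Quotient.mk (psi w) :=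
      Submodule.mapQ_apply _ _ _ _
    rw [h1, Submodule.Quotient.mk_eq_zero] at ha
    obtain ⟨u, hu, hpu⟩ := exists_psi_eq_of_mem_fixedSpan hq hs psi ha
    have : u = w := hinj hpu
    rw [Submodule.Quotient.mk_eq_zero, ← this]
    exact hu
  obtain ⟨a, ha0, hafix⟩ := exists_ne_zero_fixed hq hs psiQ hQinj
  obtain ⟨w, rfl⟩ := Submodule.Quotient.mk_surjective _ a
  have h1 : psiQ (Submodule.Quotient.mk w) = Submodule.Quotient.mk (psi w) :=
    Submodule.mapQ_apply _ _ _ _
  rw [h1, Submodule.Quotient.eq] at hafix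
  obtain ⟨u, hu, hpu⟩ :=
    exists_psi_sub_eq_of_mem_fixedSpan hq hs psi (Submodule.neg_mem _ hafix)
  have hfix : psi (w + u) = w + u := by
    rw [map_add]
    have : psi u - u = -(psi w - w) := hpu
    have h2 : psi w + psi u - (w + u) = 0 := by
      calc psi w + psi u - (w + u) = (psi w - w) + (psi u - u) := by abel
        _ = 0 := by rw [this]; abel
    exact sub_eq_zero.mp h2
  have hwu : w + u ∈ fixedSpan psi := Submodule.subset_span hfix
  have hw : w ∈ fixedSpan psi := by
    have := Submodule.sub_mem _ hwu hu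
    simpa using this
  exact ha0 ((Submodule.Quotient.mk_eq_zero _).mpr hw)

/-- `psi - 1` is surjective. -/
theorem exists_sub_eq {q : ℕ} (hq : 2 ≤ q) {sigma : k →+* k} (hs : ∀ x, sigma x = x ^ q)
    [Module.Finite k W] (psi : W →ₛₗ[sigma] W) (hinj : Function.Injective psi) (y : W) :
    ∃ u, psi u - u = y := by
  have hy : y ∈ fixedSpan psi := by
    unfold fixedSpan
    rw [span_fixed_eq_top hq hs psi hinj]
    exact Submodule.mem_top
  obtain ⟨u, _, hu⟩ := exists_psi_sub_eq_of_mem_fixedSpan hq hs psi hy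
  exact ⟨u, hu⟩

end Main

section Twisted

variable {k : Type*} [Field k] [IsAlgClosed k] {F : Type*} [Field F] [Algebra k F]

/-- The ring endomorphism `c |-> c ^ q` of `k`, when it is the restriction of a ring
endomorphism `phi` of an extension field. -/
def powHom {q : ℕ} (hq : 2 ≤ q) (phi : F →+* F)
    (hphi : ∀ c : k, phi (algebraMap k F c) = algebraMap k F (c ^ q)) : k →+* k where
  toFun c := c ^ q
  map_one' := one_pow q
  map_mul' a b := mul_pow a b q
  map_zero' := zero_pow (by omega)
  map_add' a b := by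
    apply (algebraMap k F).injective
    rw [← hphi, map_add, map_add, hphi, hphi, map_add]

/-- The twisted semilinear map `x |-> h * phi x` on a stable subspace. -/
def twistedMap {q : ℕ} (hq : 2 ≤ q) (phi : F →+* F)
    (hphi : ∀ c : k, phi (algebraMap k F c) = algebraMap k F (c ^ q)) (h : F)
    (V : Submodule k F) (hV : ∀ x ∈ V, h * phi x ∈ V) : V →ₛₗ[powHom hq phi hphi] V where
  toFun x := ⟨h * phi x, hV x x.2⟩
  map_add' x y := by
    apply Subtype.ext
    simp [mul_add]
  map_smul' c x := by
    apply Subtype.ext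
    simp only [Submodule.coe_smul, Algebra.smul_def, map_mul, hphi, powHom, RingHom.coe_mk,
      MonoidHom.coe_mk, OneHom.coe_mk]
    ring

/-- **Consumer form.** `phi` a ring endomorphism of a field `F` over `k` restricting to
`c |-> c ^ q` on `k`, `h != 0`, `V` a nonzero finite-dimensional `k`-subspace of `F` with
`h * phi V <= V`: then some nonzero `x in V` satisfies `h * phi x = x`. -/
theorem exists_twisted_fixed {q : ℕ} (hq : 2 ≤ q) (phi : F →+* F)
    (hphi : ∀ c : k, phi (algebraMap k F c) = algebraMap k F (c ^ q)) {h : F} (h0 : h ≠ 0)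
    (V : Submodule k F) [Module.Finite k V] (hV : ∀ x ∈ V, h * phi x ∈ V) (hVne : V ≠ ⊥) :
    ∃ x, x ∈ V ∧ x ≠ 0 ∧ h * phi x = x := by
  have : Nontrivial V := Submodule.nontrivial_iff_ne_bot.mpr hVne
  have hinj : Function.Injective (twistedMap hq phi hphi h V hV) := by
    intro x y hxy
    have h1 : h * phi x = h * phi y := congrArg Subtype.val hxy
    exact Subtype.ext (phi.injective (mul_left_cancel₀ h0 h1))
  obtain ⟨w, hw0, hw⟩ := exists_ne_zero_fixed (sigma := powHom hq phi hphi) hq (fun _ => rfl)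
    (twistedMap hq phi hphi h V hV) hinj
  refine ⟨w, w.2, fun hz => hw0 (Subtype.ext hz), ?_⟩
  exact congrArg Subtype.val hw

/-- Consumer form, span version: `V` is spanned over `k` by the solutions of
`h * phi x = x` in `V`. -/
theorem span_twisted_fixed {q : ℕ} (hq : 2 ≤ q) (phi : F →+* F)
    (hphi : ∀ c : k, phi (algebraMap k F c) = algebraMap k F (c ^ q)) {h : F} (h0 : h ≠ 0)
    (V : Submodule k F) [Module.Finite k V] (hV : ∀ x ∈ V, h * phi x ∈ V) :
    Submodule.span k {x : F | x ∈ V ∧ h * phi x = x} = V := by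
  apply le_antisymm
  · exact Submodule.span_le.mpr (fun x hx => hx.1)
  · have hinj : Function.Injective (twistedMap hq phi hphi h V hV) := by
      intro x y hxy
      have h1 : h * phi x = h * phi y := congrArg Subtype.val hxy
      exact Subtype.ext (phi.injective (mul_left_cancel₀ h0 h1))
    have htop := span_fixed_eq_top (sigma := powHom hq phi hphi) hq (fun _ => rfl)
      (twistedMap hq phi hphi h V hV) hinj
    intro x hx
    have hmem : (⟨x, hx⟩ : V) ∈ Submodule.span k
        {w : V | twistedMap hq phi hphi h V hV w = w} := by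
      rw [htop]
      exact Submodule.mem_top
    have hmap := Submodule.apply_mem_span_image_of_mem_span V.subtype hmem
    refine Submodule.span_mono ?_ hmap
    rintro _ ⟨w, hw, rfl⟩
    exact ⟨w.2, congrArg Subtype.val hw⟩

end Twisted

end Fermat.Agent.S40x.C2.LangSemilinear
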