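/-
P-S44 / block C2, route (R') (helper7): ABSTRACT finiteness of Frobenius-fixed divisor classes.

`K` algebraically closed, `F / K` a separably generated function field of one variable,
`g : SemilinearAut K F` acting on constants by `a |-> a ^ q` (`2 <= q`), fixing a non-constant
function `y` and a place `v0`.  Then the set of `g`-fixed classes in `Pic0 K F` is FINITE
(`finite_fixed_pic0`), hence of finite exponent (`exists_exponent_fixed_pic0`).

Proof (classical): a fixed class `[D0]`; put `D = D0 + genus * v0`; `g D - D = div h`; the twisted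
Frobenius `f |-> h * g f` preserves the nonzero finite-dimensional space `L(D)` (Riemann's
inequality), so by Lang's lemma (`LangSemilinear.exists_twisted_fixed`) it fixes some `f != 0`;
`E = D + div f` is effective, of degree `genus`, and `g`-stable.  A `g`-stable effective divisor
of degree `n` is supported on places fixed by `g ^ n!`; at such a place the residue of `y` is a
root of `T ^ (q ^ n!) - T`, so there are finitely many of them.
-/
import Fermat.Agent.Lib.RiemannRoch.FunctionFieldRR
import Fermat.Prelude.Def_AlgebraicCurve_BaseChangeGalois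
import Fermat.Agent.S24.ZP.PlaceBasics
import Fermat.Agent.S24.PlacesDedekind
import Fermat.Agent.S40x.C2.LangSemilinear

set_option autoImplicit false

noncomputable section

open AlgebraicCurve AlgebraicCurve.SemilinearAut IntermediateField Polynomial

namespace Fermat.Agent.S40x.C2.FrobFixedFinite

open Fermat.Agent.S24

variable {K F : Type*} [Field K] [Field F] [Algebra K F]

/-! ### Generalities on semilinear automorphisms -/

theorem baseAut_pow (g : SemilinearAut K F) {q : ℕ} (hg : ∀ a : K, baseAut g a = a ^ q)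
    (m : ℕ) (a : K) : baseAut (g ^ m) a = a ^ (q ^ m) := by
  induction m generalizing a with
  | zero => simp
  | succ m ih =>
    rw [pow_succ, baseAut_mul, RingAut.mul_apply, hg, ih, ← pow_mul, pow_succ, mul_comm]

theorem pow_smul_eq_of_smul_eq {G X : Type*} [Monoid G] [MulAction G X] {g : G} {x : X}
    (h : g • x = x) (m : ℕ) : g ^ m • x = x := by
  induction m with
  | zero => simp
  | succ m ih => rw [pow_succ, mul_smul, h, ih]

/-- `g • (y - c) = y - c ^ q` for a fixed function `y`. -/
theorem smul_sub_const (g : SemilinearAut K F) {Q : ℕ} (hg : ∀ a : K, baseAut g a = a ^ Q)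
    {y : F} (hy : g • y = y) (c : K) :
    g • (y - algebraMap K F c) = y - algebraMap K F (c ^ Q) := by
  rw [smul_sub, hy, SemilinearAut.smul_algebraMap, hg]

/-! ### Residues -/

theorem exists_const_sub_of_mem (v : Place K F)
    (hres : Function.Surjective (algebraMap K v.ResidueField)) {u : F}
    (hu : u ∈ v.toValuationSubring) :
    ∃ a : K, u = algebraMap K F a ∨ 0 < v.ord (u - algebraMap K F a) := by
  obtain ⟨a, ha⟩ := hres (IsLocalRing.residue v.toValuationSubring ⟨u, hu⟩)
  refine ⟨a, ?_⟩
  by_cases h0 : u - algebraMap K F a = 0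
  · exact Or.inl (sub_eq_zero.mp h0)
  right
  have h1 : IsLocalRing.residue v.toValuationSubring
      (⟨u, hu⟩ - algebraMap K v.toValuationSubring a) = 0 := by
    rw [map_sub, sub_eq_zero]
    exact ha.symm
  rw [IsLocalRing.residue_eq_zero_iff] at h1
  have h2 := (PD.place_mem_maximalIdeal_iff v _ (by simpa using h0)).mp h1
  simpa using h2

/-! ### Places fixed by a Frobenius-semilinear automorphism -/

/-- The places fixed by `h` (acting on constants by `a |-> a ^ Q`, fixing a non-constant `y`)
are finite in number. -/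
theorem finite_fixed_places (h : SemilinearAut K F) {Q : ℕ} (hQ : 2 ≤ Q)
    (hh : ∀ a : K, baseAut h a = a ^ Q) {y : F} (hy : ∀ c : K, y ≠ algebraMap K F c)
    (hhy : h • y = y)
    (hres : ∀ v : Place K F, Function.Surjective (algebraMap K v.ResidueField))
    (hfin : ∀ f : F, f ≠ 0 → {v : Place K F | v.ord f ≠ 0}.Finite) :
    {v : Place K F | h • v = v}.Finite := by
  have hy0 : y ≠ 0 := by
    have := hy 0
    simpa using this
  have hroots : {c : K | c ^ Q = c}.Finite := by
    classical
    have hne : (X ^ Q - X : K[X]) ≠ 0 := FiniteField.X_pow_card_sub_X_ne_zero K (by omega)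
    refine Set.Finite.subset (X ^ Q - X : K[X]).roots.toFinset.finite_toSet ?_
    intro c hc
    have hc' : c ^ Q = c := hc
    simp only [Finset.mem_coe, Multiset.mem_toFinset, mem_roots hne, IsRoot.def, eval_sub,
      eval_pow, eval_X, hc', sub_self]
  have hsub : ∀ c : K, y - algebraMap K F c ≠ 0 := fun c hc => hy c (sub_eq_zero.mp hc)
  have hbig : ({v : Place K F | v.ord y ≠ 0} ∪
      ⋃ c ∈ {c : K | c ^ Q = c}, {v : Place K F | v.ord (y - algebraMap K F c) ≠ 0}).Finite :=
    (hfin y hy0).union (hroots.biUnion (fun c _ => hfin _ (hsub c)))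
  refine hbig.subset ?_
  intro v hv
  have hv' : h • v = v := hv
  by_cases hneg : v.ord y < 0
  · exact Or.inl (ne_of_lt hneg)
  right
  have hmem : y ∈ v.toValuationSubring := (ZP.ord_nonneg_iff v hy0).mp (not_lt.mp hneg)
  obtain ⟨c, hc⟩ := exists_const_sub_of_mem v (hres v) hmem
  rcases hc with hc | hc
  · exact absurd hc (hy c)
  have hc2 : 0 < v.ord (y - algebraMap K F (c ^ Q)) := by
    have h1 := ord_smul h v (y - algebraMap K F c)
    rw [hv', smul_sub_const h hh hhy c] at h1
    rw [h1]
    exact hc
  have hcQ : c ^ Q = c := by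
    by_contra hne
    have hd : (y - algebraMap K F c) - (y - algebraMap K F (c ^ Q))
        = algebraMap K F (c ^ Q - c) := by
      rw [map_sub]
      ring
    have hd0 : (y - algebraMap K F c) - (y - algebraMap K F (c ^ Q)) ≠ 0 := by
      rw [hd]
      intro h0
      exact hne (sub_eq_zero.mp ((algebraMap K F).injective (by rw [h0, map_zero])))
    have h3 := ZP.ord_sub_ge v (hsub c) (hsub (c ^ Q)) hd0
    rw [hd, ZP.ord_algebraMap] at h3
    have : 0 < min (v.ord (y - algebraMap K F c)) (v.ord (y - algebraMap K F (c ^ Q))) :=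
      lt_min hc hc2
    omega
  simp only [Set.mem_iUnion, Set.mem_ofPred_eq, exists_prop]
  exact ⟨c, hcQ, ne_of_gt hc⟩

/-! ### Stable effective divisors -/

section Stable

variable (hdeg : ∀ v : Place K F, v.deg = 1)

include hdeg in
theorem degree_eq_sum_of_deg_one (E : Divisor K F) :
    Divisor.degree E = ∑ v ∈ E.support, E v := by
  rw [Fermat.Agent.Lib.RiemannRoch.degree_eq_sum, Finsupp.sum]
  refine Finset.sum_congr rfl (fun v _ => ?_)
  rw [hdeg v]
  simp

include hdeg in
theorem card_support_le {E : Divisor K F} (hE : 0 ≤ E) {n : ℕ}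
    (hn : Divisor.degree E = n) : E.support.card ≤ n := by
  have h1 : (E.support.card : ℤ) ≤ ∑ v ∈ E.support, E v := by
    rw [Finset.card_eq_sum_ones, Nat.cast_sum]
    refine Finset.sum_le_sum (fun v hv => ?_)
    have h0 : 0 ≤ E v := hE v
    have h2 : E v ≠ 0 := Finsupp.mem_support_iff.mp hv
    push_cast
    omega
  rw [← degree_eq_sum_of_deg_one hdeg E, hn] at h1
  exact_mod_cast h1

include hdeg in
theorem apply_le_degree {E : Divisor K F} (hE : 0 ≤ E) {n : ℕ}
    (hn : Divisor.degree E = n) (v : Place K F) : E v ≤ n := by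
  by_cases hv : v ∈ E.support
  · have h1 : E v ≤ ∑ w ∈ E.support, E w :=
      Finset.single_le_sum (f := fun w => E w) (fun w _ => hE w) hv
    rw [← degree_eq_sum_of_deg_one hdeg E, hn] at h1
    exact h1
  · rw [Finsupp.notMem_support_iff.mp hv]
    exact Int.natCast_nonneg n

include hdeg in
/-- A `g`-stable effective divisor of degree `n` is supported on places fixed by `g ^ n!`. -/
theorem pow_factorial_smul_eq (g : SemilinearAut K F) {E : Divisor K F} (hE : 0 ≤ E) {n : ℕ}
    (hn : Divisor.degree E = n) (hgE : g • E = E) {v : Place K F} (hv : v ∈ E.support) :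
    g ^ n.factorial • v = v := by
  classical
  have hstep : ∀ w : Place K F, w ∈ E.support → g • w ∈ E.support := by
    intro w hw
    rw [Finsupp.mem_support_iff] at hw ⊢
    have := divisor_smul_apply_smul g E w
    rw [hgE] at this
    rwa [this]
  have hall : ∀ i : ℕ, g ^ i • v ∈ E.support := by
    intro i
    induction i with
    | zero => simpa using hv
    | succ i ih =>
      rw [pow_succ', mul_smul]
      exact hstep _ ih
  have hcard : E.support.card < (Finset.range (n + 1)).card := by
    rw [Finset.card_range]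
    exact Nat.lt_succ_of_le (card_support_le hdeg hE hn)
  obtain ⟨a, ha, b, hb, hab, heq⟩ := Finset.exists_ne_map_eq_of_card_lt_of_maps_to hcard
    (f := fun i => g ^ i • v) (fun i _ => hall i)
  have key : ∀ a b : ℕ, a < b → b ≤ n → g ^ a • v = g ^ b • v → g ^ n.factorial • v = v := by
    intro a b hlt hbn heq
    have hd : g ^ (b - a) • v = v := by
      have h1 : g ^ b = g ^ a * g ^ (b - a) := by
        rw [← pow_add]
        congr 1
        omega
      rw [h1, mul_smul] at heq
      exact (MulAction.injective (g ^ a) heq).symm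
    have hdvd : (b - a) ∣ n.factorial := Nat.dvd_factorial (by omega) (by omega)
    obtain ⟨e, he⟩ := hdvd
    rw [he, pow_mul]
    exact pow_smul_eq_of_smul_eq hd e
  have ha' : a ≤ n := Nat.lt_succ_iff.mp (Finset.mem_range.mp ha)
  have hb' : b ≤ n := Nat.lt_succ_iff.mp (Finset.mem_range.mp hb)
  rcases lt_or_gt_of_ne hab with hlt | hlt
  · exact key a b hlt hb' heq
  · exact key b a hlt ha' heq.symm

include hdeg in
/-- Effective divisors of degree `n` supported in a finite set are finite in number. -/
theorem finite_effective_of_support {S : Set (Place K F)} (hS : S.Finite) (n : ℕ) :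
    {E : Divisor K F | 0 ≤ E ∧ Divisor.degree E = n ∧ ∀ v ∈ E.support, v ∈ S}.Finite := by
  classical
  refine Set.Finite.subset
    (Finset.finsupp hS.toFinset (fun _ => Finset.Icc (0 : ℤ) n)).finite_toSet ?_
  rintro E ⟨hE, hn, hsupp⟩
  rw [Finset.mem_coe, Finset.mem_finsupp_iff]
  refine ⟨fun v hv => hS.mem_toFinset.mpr (hsupp v hv), fun v _ => ?_⟩
  rw [Finset.mem_Icc]
  exact ⟨hE v, apply_le_degree hdeg hE hn v⟩

end Stable

/-! ### A fixed class contains a stable effective divisor -/

section Main

open Fermat.Agent.Lib.RiemannRoch Fermat.Agent.Lib.RiemannRoch.FunctionFieldRR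

variable [IsAlgClosed K] {x : F} (hx : Transcendental K x)
  [FiniteDimensional K⟮x⟯ F] [Algebra.IsSeparable K⟮x⟯ F]

include hx in
/-- A `g`-fixed class `[D0]` is represented by `E - genus * v0` with `E` effective of degree
`genus` and `g`-stable. -/
theorem exists_stable_effective (g : SemilinearAut K F) {q : ℕ} (hq : 2 ≤ q)
    (hg : ∀ a : K, baseAut g a = a ^ q) (v0 : Place K F) (hv0 : g • v0 = v0)
    (D0 : Divisor.degZero (K := K) (F := F)) (hfix : g • Pic0.mk D0 = Pic0.mk D0) :
    ∃ E : Divisor K F, 0 ≤ E ∧ Divisor.degree E = genusFF K F ∧ g • E = E ∧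
      (D0 : Divisor K F) + Finsupp.single v0 (genusFF K F : ℤ) - E ∈
        Divisor.principal (K := K) (F := F) := by
  have := nonempty_place hx
  have : ∀ v : Place K F, v.FiniteResidue := FunctionField.finiteResidue K x
  have := hasPrincipalDivisors hx
  have hdeg : ∀ v : Place K F, v.deg = 1 := fun v => deg_eq_one x v
  -- the function `h` with `div h = g D0 - D0`
  rw [pic0_smul_mk] at hfix
  have hmem : -(degZeroSMulHom g D0) + D0 ∈
      (Divisor.principal (K := K) (F := F)).addSubgroupOf (Divisor.degZero (K := K) (F := F)) :=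
    QuotientAddGroup.eq.mp hfix
  rw [AddSubgroup.mem_addSubgroupOf] at hmem
  obtain ⟨h0, hh0, hh0ord⟩ := hmem
  have hord0 : ∀ v : Place K F, v.ord h0 = -(g • (D0 : Divisor K F)) v + (D0 : Divisor K F) v := by
    intro v
    rw [← hh0ord v]
    simp
  set n : ℕ := genusFF K F with hn
  set D : Divisor K F := (D0 : Divisor K F) + Finsupp.single v0 (n : ℤ) with hD
  have hgD : g • D = g • (D0 : Divisor K F) + Finsupp.single v0 (n : ℤ) := by
    rw [hD, smul_add, smul_single, hv0]
  have hdiff : ∀ v : Place K F, (g • D) v - D v = -v.ord h0 := by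
    intro v
    rw [hgD, hD, hord0 v]
    simp only [Finsupp.add_apply]
    ring
  have hdegD : Divisor.degree D = n := by
    rw [hD, map_add, Divisor.degree_single, hdeg v0]
    have : Divisor.degree (D0 : Divisor K F) = 0 := D0.2
    rw [this]
    simp
  clear_value D
  -- the Riemann-Roch space
  obtain ⟨W, -, -, hW⟩ := riemannRoch_sep_algClosed hx
  have hVfin : Module.Finite K (riemannRochSpace D) := (hW D).1
  have hVne : riemannRochSpace D ≠ ⊥ := by
    intro hbot
    have h1 := (riemann_ineq_algClosed hx D).1
    rw [hbot, finrank_bot, hdegD] at h1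
    simp only [← hn] at h1
    omega
  -- the twisted Frobenius
  set phi : F →+* F := (toRingAut g : F ≃+* F).toRingHom with hphidef
  have hphi : ∀ c : K, phi (algebraMap K F c) = algebraMap K F (c ^ q) := by
    intro c
    have := commutes g c
    rw [hg] at this
    exact this
  have hphiord : ∀ (f : F) (v : Place K F), v.ord (phi f) = (g⁻¹ • v).ord f := by
    intro f v
    have h1 := ord_smul g (g⁻¹ • v) f
    rw [smul_inv_smul] at h1
    exact h1
  have hhinv : (h0⁻¹ : F) ≠ 0 := inv_ne_zero hh0
  have hV : ∀ f ∈ riemannRochSpace D, h0⁻¹ * phi f ∈ riemannRochSpace D := by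
    intro f hf
    rw [mem_riemannRochSpace_iff] at hf ⊢
    intro v
    by_cases hf0 : f = 0
    · left
      rw [hf0, map_zero, mul_zero]
    right
    have hpf0 : phi f ≠ 0 := (map_ne_zero_iff phi phi.injective).mpr hf0
    rw [v.ord_mul hhinv hpf0, v.ord_inv, hphiord]
    have h1 := (hf (g⁻¹ • v)).resolve_left hf0
    have h2 : (g • D) v = D (g⁻¹ • v) := divisor_smul_apply g D v
    have h3 := hdiff v
    omega
  obtain ⟨f, hfV, hf0, hffix⟩ :=
    LangSemilinear.exists_twisted_fixed hq phi hphi hhinv (riemannRochSpace D) hV hVne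
  have hfV' := (mem_riemannRochSpace_iff.mp hfV)
  have hpf0 : phi f ≠ 0 := (map_ne_zero_iff phi phi.injective).mpr hf0
  have hordphi : ∀ v : Place K F, v.ord (phi f) = v.ord f + v.ord h0 := by
    intro v
    have h1 : v.ord (h0⁻¹ * phi f) = v.ord f := by rw [hffix]
    rw [v.ord_mul hhinv hpf0, v.ord_inv] at h1
    omega
  refine ⟨D + divOf (K := K) f, ?_, ?_, ?_, ?_⟩
  · intro v
    have h1 := (hfV' v).resolve_left hf0
    show (0 : ℤ) ≤ (D + divOf (K := K) f) v
    rw [Finsupp.add_apply, divOf_apply hf0]
    omega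
  · rw [map_add, hdegD, degree_divOf, add_zero]
  · ext v
    have h2 : (g • D) v = D (g⁻¹ • v) := divisor_smul_apply g D v
    have h3 := hdiff v
    have h4 : (g • (D + divOf (K := K) f)) v = D (g⁻¹ • v) + (g⁻¹ • v).ord f := by
      rw [divisor_smul_apply, Finsupp.add_apply, divOf_apply hf0]
    have h5 : (D + divOf (K := K) f) v = D v + v.ord f := by
      rw [Finsupp.add_apply, divOf_apply hf0]
    rw [h4, h5, ← hphiord f v, hordphi v]
    omega
  · have : D - (D + divOf (K := K) f) = -divOf (K := K) f := by
      abel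
    rw [this]
    exact (Divisor.principal (K := K) (F := F)).neg_mem
      ⟨f, hf0, fun v => divOf_apply hf0 v⟩

include hx in
/-- **(R') abstract**: the classes fixed by a Frobenius-semilinear automorphism are finite
in number. -/
theorem finite_fixed_pic0 (g : SemilinearAut K F) {q : ℕ} (hq : 2 ≤ q)
    (hg : ∀ a : K, baseAut g a = a ^ q) {y : F} (hy : ∀ c : K, y ≠ algebraMap K F c)
    (hgy : g • y = y) (v0 : Place K F) (hv0 : g • v0 = v0) :
    {ξ : Pic0 K F | g • ξ = ξ}.Finite := by
  classical
  have := nonempty_place hx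
  have : ∀ v : Place K F, v.FiniteResidue := FunctionField.finiteResidue K x
  have := hasPrincipalDivisors hx
  have hdeg : ∀ v : Place K F, v.deg = 1 := fun v => deg_eq_one x v
  have hres : ∀ v : Place K F, Function.Surjective (algebraMap K v.ResidueField) := by
    intro v
    have : Module.Finite K v.ResidueField := FunctionField.finite_residueField K x v
    exact (IsAlgClosed.algebraMap_bijective_of_isIntegral).2
  have hfinsupp : ∀ f : F, f ≠ 0 → {v : Place K F | v.ord f ≠ 0}.Finite :=
    fun f hf => FunctionField.finite_support_ord K x hf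
  set n : ℕ := genusFF K F with hn
  have hQ : 2 ≤ q ^ n.factorial := by
    calc 2 ≤ q := hq
      _ = q ^ 1 := (pow_one q).symm
      _ ≤ q ^ n.factorial := Nat.pow_le_pow_right (by omega) (Nat.factorial_pos n)
  have hS : {v : Place K F | g ^ n.factorial • v = v}.Finite :=
    finite_fixed_places (g ^ n.factorial) hQ (baseAut_pow g hg _) hy
      (pow_smul_eq_of_smul_eq hgy _) hres hfinsupp
  have hEfin := finite_effective_of_support hdeg hS n
  let Phi : Divisor K F → Pic0 K F := fun E =>
    if hE : E - Finsupp.single v0 (n : ℤ) ∈ Divisor.degZero (K := K) (F := F) then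
      Pic0.mk ⟨_, hE⟩ else 0
  refine (hEfin.image Phi).subset ?_
  intro ξ hξ
  obtain ⟨D0, rfl⟩ := Pic0.mk_surjective ξ
  obtain ⟨E, hE0, hEn, hgE, hcl⟩ := exists_stable_effective hx g hq hg v0 hv0 D0 hξ
  refine ⟨E, ⟨hE0, hEn, fun v hv => pow_factorial_smul_eq hdeg g hE0 hEn hgE hv⟩, ?_⟩
  have hmem : E - Finsupp.single v0 (n : ℤ) ∈ Divisor.degZero (K := K) (F := F) := by
    rw [Divisor.mem_degZero, map_sub, hEn, Divisor.degree_single, hdeg v0]
    simp [hn]
  simp only [Phi, dif_pos hmem]
  refine QuotientAddGroup.eq.mpr ?_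
  rw [AddSubgroup.mem_addSubgroupOf]
  have : ((-(⟨E - Finsupp.single v0 (n : ℤ), hmem⟩ : Divisor.degZero (K := K) (F := F)) + D0 :
      Divisor.degZero (K := K) (F := F)) : Divisor K F)
      = (D0 : Divisor K F) + Finsupp.single v0 (n : ℤ) - E := by
    push_cast
    abel
  rw [this]
  exact hcl

include hx in
/-- **(R') abstract, exponent form** (the input `hexpH` of the rigidity-by-divisibility
argument): the fixed classes are killed by one positive integer. -/
theorem exists_exponent_fixed_pic0 (g : SemilinearAut K F) {q : ℕ} (hq : 2 ≤ q)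
    (hg : ∀ a : K, baseAut g a = a ^ q) {y : F} (hy : ∀ c : K, y ≠ algebraMap K F c)
    (hgy : g • y = y) (v0 : Place K F) (hv0 : g • v0 = v0) :
    ∃ m : ℕ, 0 < m ∧ ∀ ξ : Pic0 K F, g • ξ = ξ → m • ξ = 0 := by
  let H : AddSubgroup (Pic0 K F) :=
    { carrier := {ξ | g • ξ = ξ}
      zero_mem' := smul_zero g
      add_mem' := by
        intro a b ha hb
        have ha' : g • a = a := ha
        have hb' : g • b = b := hb
        show g • (a + b) = a + b
        rw [smul_add, ha', hb']
      neg_mem' := by
        intro a ha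
        have ha' : g • a = a := ha
        show g • (-a) = -a
        rw [smul_neg, ha'] }
  have : Finite H := (finite_fixed_pic0 hx g hq hg hy hgy v0 hv0).to_subtype
  refine ⟨Nat.card H, Nat.card_pos, fun ξ hξ => ?_⟩
  have h1 : Nat.card H • (⟨ξ, hξ⟩ : H) = 0 := card_nsmul_eq_zero'
  have h2 : ((Nat.card H • (⟨ξ, hξ⟩ : H) : H) : Pic0 K F) = ((0 : H) : Pic0 K F) :=
    congrArg (fun z : H => (z : Pic0 K F)) h1
  rw [AddSubgroup.coe_nsmul, AddSubgroup.coe_zero] at h2
  exact h2

end Main

end Fermat.Agent.S40x.C2.FrobFixedFinite
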