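/-
P-S44 / S40, block C2 (route OMEGA), helper39: EQUALITY CASE of the characteristic-free Hurwitz
inequality `Gateway.GoodRed.HurwitzIneq.two_genusFF_sub_two_ge`.

Setting: `K` algebraically closed, `F / K(x)` finite separable of degree `n`, `S` a finite set of
values, `T` a finite set of places containing the poles of `x` and the places where `x` takes a value
in `S`.  The landed inequality is `(|S| - 1) n - |T| ≤ 2 g - 2`; its proof is a POINTWISE inequality of
divisors.  If EQUALITY holds then the pointwise inequality is an equality, hence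

* `canonicalDiv_eq_zero_of_not_mem` : the canonical divisor `W_x` (= different exponent) vanishes at
  every place outside `T`;
* `ord_sub_eq_one_of_not_mem` : at such a place `v`, `x - x(v)` is a uniformiser:
  `v.ord (x - a) = 1` for the value `a = x(v)`.
-/
import Fermat.Agent.Gateway.GoodRed.HurwitzGenus

set_option autoImplicit false
set_option linter.unusedSectionVars false
set_option linter.style.haveILetI false

noncomputable section

namespace Fermat.Agent.S40x.C2.HurwitzEq

open AlgebraicCurve Polynomial IntermediateField Module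
open Fermat.Agent.Lib.RiemannRoch Fermat.Agent.Lib.RiemannRoch.XSetting
open Fermat.Agent.S20.RR.SerreDuality Fermat.Agent.S20.RR.Dictionary
  Fermat.Agent.S24.ZD.PlaceLemmas
open Fermat.Agent.Gateway.GoodRed.HurwitzIneq

section Divisors

variable {K F : Type*} [Field K] [Field F] [Algebra K F]

/-- A nonnegative divisor of degree zero all of whose places have positive degree is zero. -/
theorem eq_zero_of_nonneg_of_degree_eq_zero {E : Divisor K F} (hE : 0 ≤ E)
    (hdeg : ∀ v : Place K F, 0 < v.deg) (h0 : Divisor.degree E = 0) : E = 0 := by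
  classical
  ext v
  by_contra hv
  have hvpos : 0 < E v := lt_of_le_of_ne (hE v) (Ne.symm hv)
  have h1 : Finsupp.single v (E v) ≤ E := by
    intro w
    by_cases hw : w = v
    · subst hw; simp
    · rw [Finsupp.single_apply, if_neg (Ne.symm hw)]; exact hE w
  have h2 := degree_mono h1
  rw [Divisor.degree_single, h0] at h2
  have h3 : 0 < E v * (v.deg : ℤ) := mul_pos hvpos (by exact_mod_cast hdeg v)
  omega

/-- `D ≤ D'` with equal degrees forces `D = D'` (all places of positive degree). -/
theorem eq_of_le_of_degree_eq {D D' : Divisor K F} (h : D ≤ D')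
    (hdeg : ∀ v : Place K F, 0 < v.deg) (h0 : Divisor.degree D = Divisor.degree D') : D = D' := by
  have h1 : D' - D = 0 :=
    eq_zero_of_nonneg_of_degree_eq_zero (sub_nonneg.mpr h) hdeg (by rw [map_sub, h0, sub_self])
  exact (sub_eq_zero.mp h1).symm

end Divisors

section XSetting

variable {K F : Type*} [Field K] [Field F] [Algebra K F] [IsAlgClosed K] {x : F}
  (hx : Transcendental K x) [FiniteDimensional K⟮x⟯ F] [Algebra.IsSeparable K⟮x⟯ F]

attribute [local instance] polyAlgebra

section Internal

variable [IsFractionRing K[X] ↥K⟮x⟯]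

include hx in
/-- The pointwise form of the Hurwitz inequality: at a place `v` which is not a pole of `x` and where
`x` takes no value in `S`, the canonical divisor is nonnegative; at the other places it is at least
`(|S| - 1) (-ord_v x)⁺ - 1`.  Stated as one inequality of integers. -/
theorem pointwise (S : Finset K) (v : Place K F) :
    ((S.card : ℤ) - 1) * max 0 (-(v.ord x)) -
        (if (v.ord x < 0 ∨ ∃ a ∈ S, 0 < v.ord (x - algebraMap K F a)) then 1 else 0) ≤
      canonicalDiv K K⟮x⟯ F v - ∑ a ∈ S, v.ord (x - algebraMap K F a) := by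
  classical
  have hx0 : x ≠ 0 := by
    have := sub_algebraMap_ne_zero hx 0
    simpa using this
  have hxF : xF K K⟮x⟯ F = x := xF_eq
  by_cases hpole : v.ord x < 0
  · have hnm : xF K K⟮x⟯ F ∉ v.toValuationSubring := by
      rw [hxF, mem_iff_ord]
      rintro (h | h)
      · exact hx0 h
      · omega
    have hWv := canonicalDiv_ge_of_pole K K⟮x⟯ F hnm
    rw [hxF] at hWv
    have hsum : ∑ a ∈ S, v.ord (x - algebraMap K F a) = (S.card : ℤ) * v.ord x := by
      rw [Finset.sum_congr rfl (g := fun _ => v.ord x), Finset.sum_const, nsmul_eq_mul]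
      intro a _
      rw [sub_eq_add_neg]
      refine Fermat.Agent.Lib.RiemannRoch.WeakApprox.ord_add_eq_of_lt v hx0 ?_
      by_cases ha : a = 0
      · left; simp [ha]
      · right
        rw [← map_neg, Fermat.Agent.S24.ord_algebraMap]
        exact hpole
    rw [if_pos (Or.inl hpole), hsum, max_eq_right (by omega)]
    nlinarith
  · rw [not_lt] at hpole
    have hmem : xF K K⟮x⟯ F ∈ v.toValuationSubring := by
      rw [hxF, mem_iff_ord]
      exact Or.inr hpole
    have hnn : ∀ a : K, 0 ≤ v.ord (x - algebraMap K F a) := by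
      intro a
      have h1 : x - algebraMap K F a ∈ v.toValuationSubring := by
        rw [← hxF]
        exact sub_mem hmem (v.algebraMap_mem' a)
      rcases (mem_iff_ord v _).mp h1 with h | h
      · exact absurd h (sub_algebraMap_ne_zero hx a)
      · exact h
    rw [max_eq_left (by omega), mul_zero, zero_sub]
    by_cases hz : ∃ a ∈ S, 0 < v.ord (x - algebraMap K F a)
    · obtain ⟨a, haS, ha⟩ := hz
      have hWv := canonicalDiv_ge_of_zero K K⟮x⟯ F a (v := v) (by rw [hxF]; exact ha)
      rw [hxF] at hWv
      have hsum : ∑ b ∈ S, v.ord (x - algebraMap K F b) = v.ord (x - algebraMap K F a) := by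
        refine Finset.sum_eq_single a (fun b _ hba => ?_) (fun h => absurd haS h)
        have e : x - algebraMap K F b =
            algebraMap K F (a - b) + (x - algebraMap K F a) := by
          rw [map_sub]; ring
        have hab : algebraMap K F (a - b) ≠ 0 := by
          rw [Ne, map_eq_zero, sub_eq_zero]
          exact fun h => hba h.symm
        rw [e, Fermat.Agent.Lib.RiemannRoch.WeakApprox.ord_add_eq_of_lt v hab
          (Or.inr (by rw [Fermat.Agent.S24.ord_algebraMap]; exact ha)),
          Fermat.Agent.S24.ord_algebraMap]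
      rw [if_pos (Or.inr ⟨a, haS, ha⟩), hsum]
      linarith
    · have hz' : ¬ (v.ord x < 0 ∨ ∃ a ∈ S, 0 < v.ord (x - algebraMap K F a)) := by
        rintro (h | h)
        · omega
        · exact hz h
      push Not at hz
      have hsum : ∑ a ∈ S, v.ord (x - algebraMap K F a) = 0 :=
        Finset.sum_eq_zero fun a ha => le_antisymm (hz a ha) (hnn a)
      have hWv := canonicalDiv_nonneg_of_mem K K⟮x⟯ F hmem
      rw [hsum, if_neg hz']
      linarith

include hx in
/-- **Equality case of the Hurwitz inequality.**  If `(|S| - 1) n - |T| = 2 g - 2` then the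
canonical divisor `W_x` vanishes at every place outside `T`. -/
theorem canonicalDiv_eq_zero_of_not_mem (S : Finset K) (T : Finset (Place K F))
    (hT : ∀ v : Place K F,
      (v.ord x < 0 ∨ ∃ a ∈ S, 0 < v.ord (x - algebraMap K F a)) → v ∈ T)
    (hEq : ((S.card : ℤ) - 1) * (finrank K⟮x⟯ F : ℤ) - (T.card : ℤ) =
      2 * (genusFF K F : ℤ) - 2)
    {v : Place K F} (hv : v ∉ T) : canonicalDiv K K⟮x⟯ F v = 0 := by
  classical
  haveI := FunctionFieldRR.nonempty_place hx
  haveI : ∀ v : Place K F, v.FiniteResidue := FunctionField.finiteResidue K x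
  haveI := FunctionFieldRR.hasPrincipalDivisors hx
  have hdeg1 : ∀ v : Place K F, v.deg = 1 := FunctionFieldRR.deg_eq_one x
  have hx0 : x ≠ 0 := by
    have := sub_algebraMap_ne_zero hx 0
    simpa using this
  set W := canonicalDiv K K⟮x⟯ F with hW
  have hWdeg : Divisor.degree W = 2 * (genusFF K F : ℤ) - 2 := by
    rw [hW, RiemannRochSep.degree_canonicalDiv K K⟮x⟯ F,
      RiemannRochSep.finrank_zero_eq_one K F]
    simp
  obtain ⟨Dx, hDx⟩ := RiemannRochSep.exists_divisor_ord K K⟮x⟯ F x hx0
  set B : Divisor K F := 0 ⊔ -Dx with hBdef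
  have hB : ∀ v : Place K F, B v = max 0 (-(v.ord x)) := fun v => by
    rw [hBdef, Finsupp.sup_apply, Finsupp.neg_apply, hDx v]
    rfl
  have hBdeg : Divisor.degree B = finrank K⟮x⟯ F :=
    FunctionFieldDeg.degree_poles_eq_finrank x hx
      (Fermat.Agent.S20.RR.SerreDuality.finite_riemannRochSpace K K⟮x⟯ F 0)
      (RiemannRochSep.exists_divisor_ord K K⟮x⟯ F) hB
  set Z : Divisor K F := W - ∑ a ∈ S, divOf (K := K) (x - algebraMap K F a) with hZ
  have hZdeg : Divisor.degree Z = Divisor.degree W := by
    rw [hZ, map_sub, map_sum]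
    simp [degree_divOf]
  set T1 : Divisor K F := ∑ v ∈ T, Finsupp.single v 1 with hT1
  have hT1deg : Divisor.degree T1 = T.card := by
    rw [hT1, map_sum]
    simp [Divisor.degree_single, hdeg1]
  have hZv : ∀ v : Place K F, Z v = W v - ∑ a ∈ S, v.ord (x - algebraMap K F a) := fun v => by
    rw [hZ, Finsupp.sub_apply, Finsupp.finsetSum_apply]
    congr 1
    exact Finset.sum_congr rfl fun a _ => divOf_apply (sub_algebraMap_ne_zero hx a) v
  have hT1v : ∀ v : Place K F, T1 v = if v ∈ T then 1 else 0 := fun v => by
    rw [hT1, Finsupp.finsetSum_apply]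
    simp [Finsupp.single_apply]
  have key : ((S.card : ℤ) - 1) • B - T1 ≤ Z := by
    intro w
    rw [Finsupp.sub_apply, Finsupp.smul_apply, smul_eq_mul, hZv, hT1v, hB]
    have hp := pointwise hx S w
    by_cases hc : (w.ord x < 0 ∨ ∃ a ∈ S, 0 < w.ord (x - algebraMap K F a))
    · rw [if_pos hc] at hp
      rw [if_pos (hT w hc)]
      exact hp
    · rw [if_neg hc] at hp
      split_ifs <;> linarith
  have hdegeq : Divisor.degree (((S.card : ℤ) - 1) • B - T1) = Divisor.degree Z := by
    rw [map_sub, map_zsmul, hBdeg, hT1deg, hZdeg, hWdeg, smul_eq_mul]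
    exact hEq
  have heq := eq_of_le_of_degree_eq key (fun w => by rw [hdeg1 w]; exact Nat.one_pos) hdegeq
  have hvv := DFunLike.congr_fun heq v
  rw [Finsupp.sub_apply, Finsupp.smul_apply, smul_eq_mul, hZv, hT1v, hB, if_neg hv] at hvv
  have hc : ¬ (v.ord x < 0 ∨ ∃ a ∈ S, 0 < v.ord (x - algebraMap K F a)) := fun h => hv (hT v h)
  push Not at hc
  obtain ⟨hc1, hc2⟩ := hc
  have hp := pointwise hx S v
  rw [if_neg (by push Not; exact ⟨hc1, hc2⟩)] at hp
  rw [max_eq_left (by omega), mul_zero] at hvv hp
  -- each `ord (x - a)` is `0`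
  have hnn : ∀ a ∈ S, v.ord (x - algebraMap K F a) = 0 := by
    intro a ha
    refine le_antisymm (hc2 a ha) ?_
    have h1 : x - algebraMap K F a ∈ v.toValuationSubring := by
      refine sub_mem ?_ (v.algebraMap_mem' a)
      rw [mem_iff_ord]; exact Or.inr hc1
    rcases (mem_iff_ord v _).mp h1 with h | h
    · exact absurd h (sub_algebraMap_ne_zero hx a)
    · exact h
  rw [Finset.sum_eq_zero hnn] at hvv
  linarith

end Internal

section Value

omit [Algebra.IsSeparable K⟮x⟯ F] in
/-- An element of the valuation ring of a place which is not a unit has positive order. -/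
theorem ord_pos_of_mem_maximalIdeal (v : Place K F) {a : v.toValuationSubring}
    (ha : a ∈ IsLocalRing.maximalIdeal v.toValuationSubring) (ha0 : (a : F) ≠ 0) :
    0 < v.ord (a : F) := by
  rw [Fermat.Agent.S24.ZD.ord_pos_iff_adicValuation_lt_one v ha0, v.adicValuation_coe]
  rw [IsDedekindDomain.HeightOneSpectrum.intValuation_lt_one_iff_mem]
  exact ha

omit [Algebra.IsSeparable K⟮x⟯ F] in
/-- Over an algebraically closed constant field every function regular at a place `v` has a value
`a ∈ K` there (any characteristic). -/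
theorem exists_value (x : F) [FiniteDimensional K⟮x⟯ F] (v : Place K F) {y : F}
    (hy : y ∈ v.toValuationSubring) :
    ∃ a : K, y = algebraMap K F a ∨ 0 < v.ord (y - algebraMap K F a) := by
  have hfin : Module.Finite K v.ResidueField := FunctionField.finite_residueField K x v
  have hbij : Function.Bijective (algebraMap K v.ResidueField) :=
    IsAlgClosed.algebraMap_bijective_of_isIntegral
  obtain ⟨a, ha⟩ := hbij.2 (IsLocalRing.residue _ ⟨y, hy⟩)
  refine ⟨a, ?_⟩
  by_cases h0 : y - algebraMap K F a = 0
  · exact Or.inl (sub_eq_zero.mp h0)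
  · right
    have hmem : (⟨y, hy⟩ - algebraMap K v.toValuationSubring a : v.toValuationSubring) ∈
        IsLocalRing.maximalIdeal v.toValuationSubring := by
      rw [← IsLocalRing.residue_eq_zero_iff, map_sub, sub_eq_zero, ← ha]
      rfl
    have := ord_pos_of_mem_maximalIdeal v hmem (by simpa using h0)
    simpa using this

end Value

include hx in
/-- **Equality case of the Hurwitz inequality, consumer form.**  If
`(|S| - 1) [F : K(x)] - |T| = 2 g - 2` (with `T` containing the poles of `x` and the places where `x`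
takes a value in `S`), then at every place `v ∉ T` the function `x - a` vanishing at `v` is a
UNIFORMISER: `F / K(x)` is unramified at `v`. -/
theorem ord_sub_eq_one_of_not_mem (S : Finset K) (T : Finset (Place K F))
    (hT : ∀ v : Place K F,
      (v.ord x < 0 ∨ ∃ a ∈ S, 0 < v.ord (x - algebraMap K F a)) → v ∈ T)
    (hEq : ((S.card : ℤ) - 1) * (finrank K⟮x⟯ F : ℤ) - (T.card : ℤ) =
      2 * (genusFF K F : ℤ) - 2)
    {v : Place K F} (hv : v ∉ T) {a : K} (ha : 0 < v.ord (x - algebraMap K F a)) :
    v.ord (x - algebraMap K F a) = 1 := by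
  haveI := isFractionRing_polyAlgebra hx
  have h0 := canonicalDiv_eq_zero_of_not_mem hx S T hT hEq hv
  have hxF : xF K K⟮x⟯ F = x := xF_eq
  have h1 := canonicalDiv_ge_of_zero K K⟮x⟯ F a (v := v) (by rw [hxF]; exact ha)
  rw [hxF, h0] at h1
  omega

include hx in
/-- Same, with the existence of the value: at every place `v ∉ T` there is `a ∈ K` with
`ord_v (x - a) = 1`. -/
theorem exists_ord_sub_eq_one_of_not_mem (S : Finset K) (T : Finset (Place K F))
    (hT : ∀ v : Place K F,
      (v.ord x < 0 ∨ ∃ a ∈ S, 0 < v.ord (x - algebraMap K F a)) → v ∈ T)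
    (hEq : ((S.card : ℤ) - 1) * (finrank K⟮x⟯ F : ℤ) - (T.card : ℤ) =
      2 * (genusFF K F : ℤ) - 2)
    {v : Place K F} (hv : v ∉ T) : ∃ a : K, v.ord (x - algebraMap K F a) = 1 := by
  have hnp : ¬ v.ord x < 0 := fun h => hv (hT v (Or.inl h))
  have hx0 : x ≠ 0 := by
    have := sub_algebraMap_ne_zero hx 0
    simpa using this
  have hmem : x ∈ v.toValuationSubring := by
    rw [mem_iff_ord]; right; omega
  obtain ⟨a, ha | ha⟩ := exists_value x v hmem
  · exact absurd (sub_eq_zero.mpr ha) (sub_algebraMap_ne_zero hx a)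
  · exact ⟨a, ord_sub_eq_one_of_not_mem hx S T hT hEq hv ha⟩

end XSetting

end Fermat.Agent.S40x.C2.HurwitzEq
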