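/-
P-S44 / S40, block C2 (route OMEGA), leaf UNR (helper39): the special fibre of `X₀(N)` at a good
level `4 ∣ N`, `ℓ ∤ N`, is UNRAMIFIED over the `x₄`-line off the cusps.

* `unramified_level4` (abstract function field `E ∋ j, t`, `j Q(t) = P(t)`): if the Hurwitz
  inequality `S48x.Red1.GenusLE1.hurwitz_level4` is an EQUALITY then at every place `v` which is not a
  pole of `j`, the function `t - t(v)` is a uniformiser.
* `card_poles_Fk_eq`, `hurwitz_eq_four` : at `E = Fk k N` the equality holds (genus equality of the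
  good reduction + genus formula + `#cusps` bound), and the number of poles of `j̄` is `cuspCount N`.
* `unramified_off_cusps_four` : the consumer literal `hunr` of `S40x/C2/DerivPlace` (helper77's
  `S44-IFACE-C2-Dt`), with `x = t` (`t = x₄` as a `q`-series) and `y = jFk k N`.
* `pole_of_pole_four` : the companion literal `hpole` (poles of `t` are poles of `j̄`).
-/
import Fermat.Agent.S40x.C2.HurwitzEq
import Fermat.Agent.S48x.Red1.GenusLE1
import Fermat.Agent.Gateway.GoodRed.Instantiate.GenusFinal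
import Fermat.Agent.Gateway.GoodRed.Instantiate.CuspPlacesRed
import Fermat.Agent.Gateway.GoodRed.GoodLevelNumerics
import Fermat.Agent.Gateway.C0.ExportsModular

set_option autoImplicit false
set_option linter.unusedSectionVars false
set_option linter.style.haveILetI false

noncomputable section

namespace Fermat.Agent.S40x.C2.HurwitzEqFour

open Polynomial AlgebraicCurve IntermediateField Module ModularCurve
open Fermat.Agent.Gateway.GoodRed Fermat.Agent.Gateway.GoodRed.HurwitzIneq
open Fermat.Agent.Gateway.GoodRed.TLineHurwitz Fermat.Agent.Gateway.GoodRed.UpperBoundT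
open Fermat.Agent.S48x.Red1.GenusLE1

section Abstract

variable {k : Type} [Field k] [IsAlgClosed k] (h2 : (2 : k) ≠ 0)
  {E : Type*} [Field E] [Algebra k E] (jE t : E) (htr : Transcendental k t)
  (hrel : jE * aeval t (TLine4.JQ k) = aeval t (TLine4.JP k))

include h2 htr hrel in
/-- **Equality case of Hurwitz at level four**: if
`[E : k(j)] - 6 #{poles of j} = 6 (2 g(E) - 2)` then `E / k(t)` is unramified outside the poles of
`j`: at a place `v` with `j` regular, a function `t - a` vanishing at `v` is a uniformiser. -/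
theorem unramified_level4 [FiniteDimensional k⟮jE⟯ E] [Algebra.IsSeparable k⟮jE⟯ E]
    (hEq : (finrank k⟮jE⟯ E : ℤ) - 6 * (Nat.card {v : Place k E // v.ord jE < 0} : ℤ) =
      6 * (2 * (genusFF k E : ℤ) - 2))
    (v : Place k E) (a : k) (hv : 0 ≤ v.ord jE) (ha : 0 < v.ord (t - algebraMap k E a)) :
    v.ord (t - algebraMap k E a) = 1 := by
  classical
  haveI := finiteDimensional_adjoin_t t htr hrel TLine4.JQ_ne_zero
  haveI := isSeparable_adjoin_t t htr hrel TLine4.JQ_ne_zero
  have h16 : (16 : k) ≠ 0 := TLine4.ne_zero_16 h2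
  have hfin := finite_poles htr jE
  have hT : ∀ w : Place k E,
      (w.ord t < 0 ∨ ∃ b ∈ ({0, 16} : Finset k), 0 < w.ord (t - algebraMap k E b)) →
        w ∈ hfin.toFinset := by
    intro w hw
    refine hfin.mem_toFinset.mpr (poles_level4 h2 jE t hrel w ?_)
    rcases hw with hw | ⟨b, hb, hw⟩
    · exact Or.inl hw
    · rw [Finset.mem_insert, Finset.mem_singleton] at hb
      rcases hb with rfl | rfl
      · exact Or.inr (Or.inl hw)
      · exact Or.inr (Or.inr hw)
  have hcard : hfin.toFinset.card = Nat.card {v : Place k E // v.ord jE < 0} := by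
    rw [← Set.ncard_eq_toFinset_card _ hfin]
    exact (Nat.card_coe_set_eq {v : Place k E | v.ord jE < 0}).symm
  have hdeg := finrank_level4 h2 jE t htr hrel
  have hEq' : (((({0, 16} : Finset k).card : ℤ)) - 1) * (finrank k⟮t⟯ E : ℤ) -
      (hfin.toFinset.card : ℤ) = 2 * (genusFF k E : ℤ) - 2 := by
    rw [Finset.card_pair h16.symm, hcard]
    rw [hdeg] at hEq
    push_cast at hEq ⊢
    linarith
  have hvT : v ∉ hfin.toFinset := by
    rw [hfin.mem_toFinset]
    simp only [Set.mem_ofPred_eq, not_lt]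
    exact hv
  exact Fermat.Agent.S40x.C2.HurwitzEq.ord_sub_eq_one_of_not_mem htr _ _ hT hEq' hvT ha

end Abstract

section Instance

open Fermat.Agent.Gateway.GoodRed.ConjFamily Fermat.Agent.Gateway.Red Fermat.Agent.S24.Setup

/-- `2 ≠ 0` in characteristic `ℓ ∤ N` when `4 ∣ N`. -/
theorem two_ne_zero_of_four_dvd' {k : Type} [Field k] (N ℓ : ℕ) [CharP k ℓ] (hℓN : ¬ ℓ ∣ N)
    (h4 : 4 ∣ N) : (2 : k) ≠ 0 := by
  intro h
  have h' : ((2 : ℕ) : k) = 0 := by exact_mod_cast h
  rw [CharP.cast_eq_zero_iff k ℓ] at h'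
  exact hℓN (h'.trans ((by norm_num : 2 ∣ 4).trans h4))

variable {N : ℕ} [NeZero N] (ℓ : ℕ) [Fact ℓ.Prime] (A : ValuationSubring Kbar)
  {k : Type} [Field k] [IsAlgClosed k] [CharP k ℓ] (π : A →+* k)
  (hπ : Function.Surjective π) (hℓN : ¬ ℓ ∣ N)

include hπ hℓN in
/-- At a good level `4 ∣ N` the Hurwitz inequality for `Fk k N / k(x₄)` is an equality and the
number of poles of `j̄` is exactly `cuspCount N`. -/
theorem hurwitz_eq_four (h4 : 4 ∣ N) (hA : A.LiesOverPrime ℓ)
    (t : Fk k N) (htc : (t : LaurentSeries k) = TLine4.x4k k) :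
    Nat.card {P : Place k (Fk k N) // P.ord (jFk k N) < 0} = cuspCount N ∧
    (finrank k⟮jFk k N⟯ (Fk k N) : ℤ) -
        6 * (Nat.card {v : Place k (Fk k N) // v.ord (jFk k N) < 0} : ℤ) =
      6 * (2 * (genusFF k (Fk k N) : ℤ) - 2) := by
  classical
  have hNk : ((N : ℕ) : k) ≠ 0 := natCast_ne_zero_final ℓ hℓN
  have h2 : (2 : k) ≠ 0 := two_ne_zero_of_four_dvd' N ℓ hℓN h4
  haveI := finiteDimensional_Fk hNk
  haveI := isSeparable_Fk hNk
  have htr : Transcendental k t := transcendental_t4 N t htc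
  have hrel := rel_t4 N t htc
  -- Hurwitz inequality
  have hH := hurwitz_level4 h2 (jFk k N) t htr hrel
  -- the genus of the special fibre
  have H : Fermat.Agent.Gateway.C0.GoodLevelFacts A π N ℓ hπ hℓN :=
    ⟨genusFF_le_of_four_dvd ℓ A π hπ hℓN h4,
      IntegralRed.isIntegral_resFk_of_isIntegral_j A π N ℓ hπ hℓN,
      IntegralRed.isIntegral_resFk_of_isIntegral_jinv A π N ℓ hπ hℓN⟩
  have hg := Fermat.Agent.Gateway.C0.genusFF_Fk_eq A π N ℓ hπ hℓN hA H
  have hgood := GoodLevelNumerics.genusFF_good N (Or.inl h4)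
  have hψ := finrank_Fk_eq_dedekindPsi (k := k) (N := N) hNk
  have hc := CuspPlaces.card_poles_Fk_le A π N ℓ hπ hℓN
  have hg' : (genusFF k (Fk k N) : ℤ) =
      (genusFF (AlgebraicClosure ℚ) ↥(modularFunctionFieldBar N) : ℤ) := by
    exact_mod_cast hg
  have hc' : (Nat.card {P : Place k (Fk k N) // P.ord (jFk k N) < 0} : ℤ) ≤ (cuspCount N : ℤ) := by
    exact_mod_cast hc
  rw [hψ] at hH ⊢
  constructor
  · have : (cuspCount N : ℤ) ≤ (Nat.card {P : Place k (Fk k N) // P.ord (jFk k N) < 0} : ℤ) := by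
      linarith
    exact_mod_cast le_antisymm hc' this
  · linarith

include hπ hℓN in
/-- **(U) = `hunr`**: at a good level `4 ∣ N`, `ℓ ∤ N`, the special fibre `Fk k N` is unramified over
the `x₄`-line off the cusps: if `j̄` is regular at `v` and `t - a` vanishes at `v` (`t = x₄`), then
`t - a` is a uniformiser at `v`. -/
theorem unramified_off_cusps_four (h4 : 4 ∣ N) (hA : A.LiesOverPrime ℓ)
    (t : Fk k N) (ht : (t : LaurentSeries k) = TLine4.x4k k)
    (v : Place k (Fk k N)) (a : k) (hv : 0 ≤ v.ord (jFk k N))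
    (ha : 0 < v.ord (t - algebraMap k (Fk k N) a)) :
    v.ord (t - algebraMap k (Fk k N) a) = 1 := by
  have hNk : ((N : ℕ) : k) ≠ 0 := natCast_ne_zero_final ℓ hℓN
  have h2 : (2 : k) ≠ 0 := two_ne_zero_of_four_dvd' N ℓ hℓN h4
  haveI := finiteDimensional_Fk hNk
  haveI := isSeparable_Fk hNk
  exact unramified_level4 h2 (jFk k N) t (transcendental_t4 N t ht) (rel_t4 N t ht)
    (hurwitz_eq_four ℓ A π hπ hℓN h4 hA t ht).2 v a hv ha

include hℓN in
/-- **`hpole`**: the poles of `t = x₄` are poles of `j̄`. -/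
theorem pole_of_pole_four (h4 : 4 ∣ N) (t : Fk k N) (ht : (t : LaurentSeries k) = TLine4.x4k k)
    (v : Place k (Fk k N)) (hv : v.ord t < 0) : v.ord (jFk k N) < 0 := by
  have h2 : (2 : k) ≠ 0 := two_ne_zero_of_four_dvd' N ℓ hℓN h4
  exact poles_level4 h2 (jFk k N) t (rel_t4 N t ht) v (Or.inl hv)

end Instance

end Fermat.Agent.S40x.C2.HurwitzEqFour
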