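/-
P-S44, block C2 (route OMEGA): seam UNR -> INT/OMEGA -> ASM at a good level `N`, `4 ∣ N` (helper91).

* `hunr_four` : the unramifiedness hypothesis `hunr` of `DlogSpan.exists_basis_dlog_span` /
  `DelInst.exists_omega_data` in its EXISTENTIAL shape (`∃ c, ord_P (x₄ - c) = 1` at every place `P` finite for
  `j`), from the landed `HurwitzEqFour.unramified_off_cusps_four` + `pole_of_pole_four` (leaf UNR) and
  `DerivPlace.exists_ord_sub_pos` (residue field `k`).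
* `omega_data_four`, `exists_eigen_four` : `DelInst.exists_omega_data` and
  `DelInst.exists_eigen_of_mem_Xf_of_not_mem_K1` with `hunr` discharged: `G4+` at the level `N` modulo ONLY the
  Slope instance (`hD`, `hconstE`, `hSA`) and the Kummer-Hecke hypotheses `hKH₁`, `hKH₂`.
-/
import Mathlib
import Fermat.Agent.S40x.C2.DelInst
import Fermat.Agent.S40x.C2.HurwitzEqFour
import Fermat.Agent.S40x.C2.DerivPlace

set_option autoImplicit false
set_option linter.style.haveILetI false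
set_option linter.unusedSectionVars false

noncomputable section

namespace Fermat.Agent.S40x.C2.G4Inst

open HahnSeries ModularCurve IntermediateField AlgebraicCurve CongruenceSubgroup UpperHalfPlane
open Fermat.Agent.Gateway.GoodRed Fermat.Agent.Gateway.GoodRed.ConjFamily
open Fermat.Agent.Gateway.GoodRed.TLineHurwitz Fermat.Agent.Gateway.Red Fermat.Agent.S24.Setup
open Fermat.Agent.S40x.C2.DelInst

variable {N : ℕ} [NeZero N] (ℓ : ℕ) [Fact ℓ.Prime] (A : ValuationSubring Kbar)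
  {k : Type} [Field k] [IsAlgClosed k] [CharP k ℓ] (π : A →+* k)
  (hπ : Function.Surjective π) (hℓN : ¬ ℓ ∣ N)

include hπ hℓN in
/-- **UNR in existential shape**: at every place finite for `j`, `x₄ - c` is a uniformiser for a suitable
`c`. -/
theorem hunr_four (h4 : 4 ∣ N) (hA : A.LiesOverPrime ℓ)
    (t : Fk k N) (ht : (t : LaurentSeries k) = TLine4.x4k k)
    (P : Place k (Fk k N)) (hP : 0 ≤ P.ord (jFk k N)) :
    ∃ c : k, P.ord (t - algebraMap k (Fk k N) c) = 1 := by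
  have hNk : ((N : ℕ) : k) ≠ 0 := natCast_ne_zero_final ℓ hℓN
  haveI := finiteDimensional_t4 N hNk t ht
  haveI := isSeparable_t4 N hNk t ht
  have htr : Transcendental k t := transcendental_t4 N t ht
  have ht0 : 0 ≤ P.ord t := by
    by_contra hneg
    rw [not_le] at hneg
    have := HurwitzEqFour.pole_of_pole_four ℓ hℓN h4 t ht P hneg
    omega
  obtain ⟨c, hc⟩ := DerivPlace.exists_ord_sub_pos htr P ht0
  exact ⟨c, HurwitzEqFour.unramified_off_cusps_four ℓ A π hπ hℓN h4 hA t ht P c hP hc⟩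

include hπ hℓN in
/-- `DelInst.exists_omega_data` with `hunr` discharged. -/
theorem omega_data_four (h4 : 4 ∣ N) (hA : A.LiesOverPrime ℓ)
    (t : Fk k N) (ht : (t : LaurentSeries k) = TLine4.x4k k) :
    Algebra.IsSeparable k⟮t⟯ (Fk k N) ∧ thetaDer k N t ≠ 0 ∧
    (∀ f : Fk k N, f ≠ 0 → f • dl k N f = thetaDer k N f) ∧
    ∃ (f : Fin (Module.finrank ℂ (CuspForm (Gamma0 N) 2)) → CuspForm (Gamma0 N) 2)
      (qf : Fin (Module.finrank ℂ (CuspForm (Gamma0 N) 2)) → PowerSeries ℤ),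
      (∀ i, qExpansion 1 (f i) = (qf i).map (Int.castRingHom ℂ)) ∧
      (∀ i, PowerSeries.constantCoeff (qf i) = 0) ∧
      LinearIndependent ℂ f ∧ Submodule.span ℂ (Set.range f) = ⊤ ∧
      LinearIndependent k (fun i => (qf i).map (Int.castRingHom k)) ∧
      ∀ fb : Fk k N, fb ≠ 0 → (∀ P : Place k (Fk k N), (ℓ : ℤ) ∣ P.ord fb) →
        dl k N fb ∈ spanS k qf :=
  exists_omega_data ℓ A π hπ hℓN h4 hA t ht (hunr_four ℓ A π hπ hℓN h4 hA t ht)

include hπ hℓN in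
/-- **`G4+` at a good level `N`, `4 ∣ N`, modulo the Slope instance and the Kummer-Hecke hypotheses only.** -/
theorem exists_eigen_four (h4 : 4 ∣ N) (hA : A.LiesOverPrime ℓ)
    {L : Type*} [Field L] [IsAlgClosed L] {F : Type*} [Field F] [Algebra L F]
    [HasPrincipalDivisors L F] [HasPrincipalDivisors k (Fk k N)]
    {O₁ O₂ : ValuationSubring F} {ρ₁ : O₁ →+* Fk k N} {ρ₂ : O₂ →+* Fk k N}
    (hD : Fermat.Agent.S40x.Slope.Xf.FlatData (L := L) O₁ O₂ ρ₁ ρ₂ ℓ)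
    (hconstE : ∀ g : Fk k N, g ≠ 0 → (∀ v : Place k (Fk k N), v.ord g = 0) →
      ∃ c : k, g = algebraMap k (Fk k N) c)
    (hSA : ∀ a b : Fk k N, ∃ (g : F) (h₁ : g ∈ O₁) (h₂ : g ∈ O₂), ρ₁ ⟨g, h₁⟩ = a ∧ ρ₂ ⟨g, h₂⟩ = b)
    (t : Fk k N) (ht : (t : LaurentSeries k) = TLine4.x4k k)
    {ι : Type*} (T : ι → Pic0 L F → Pic0 L F) (H : ι → LaurentSeries k → LaurentSeries k)
    (a : ι → ℤ)
    (hKH₁ : ∀ (i : ι) (ξ : Pic0 L F) (w : F), Fermat.Agent.Gateway.Kummer.IsKummerRep ℓ ξ w →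
      Fermat.Agent.S40x.Slope.UnitTwo.UnitTwo O₁ O₂ w → T i ξ = a i • ξ →
      H i (dl k N (Fermat.Agent.S40x.Slope.SlopeInv.red O₁ ρ₁ w)) =
        ((a i : ℤ) : k) • dl k N (Fermat.Agent.S40x.Slope.SlopeInv.red O₁ ρ₁ w))
    (hKH₂ : ∀ (i : ι) (ξ : Pic0 L F) (w : F), Fermat.Agent.Gateway.Kummer.IsKummerRep ℓ ξ w →
      Fermat.Agent.S40x.Slope.UnitTwo.UnitTwo O₁ O₂ w → T i ξ = a i • ξ →
      H i (dl k N (Fermat.Agent.S40x.Slope.SlopeInv.red O₂ ρ₂ w)) =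
        ((a i : ℤ) : k) • dl k N (Fermat.Agent.S40x.Slope.SlopeInv.red O₂ ρ₂ w))
    {ξ : Pic0 L F} (hξf : ξ ∈ Fermat.Agent.S40x.Slope.Xf.Xf k hD)
    (hξ1 : ξ ∉ Fermat.Agent.S40x.Slope.Xf.K1 O₁ O₂ ρ₁ ρ₂ ℓ) (heig : ∀ i, T i ξ = a i • ξ) :
    ∃ (f : Fin (Module.finrank ℂ (CuspForm (Gamma0 N) 2)) → CuspForm (Gamma0 N) 2)
      (qf : Fin (Module.finrank ℂ (CuspForm (Gamma0 N) 2)) → PowerSeries ℤ),
      (∀ i, qExpansion 1 (f i) = (qf i).map (Int.castRingHom ℂ)) ∧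
      (∀ i, PowerSeries.constantCoeff (qf i) = 0) ∧
      LinearIndependent ℂ f ∧ Submodule.span ℂ (Set.range f) = ⊤ ∧
      LinearIndependent k (fun i => (qf i).map (Int.castRingHom k)) ∧
      ∃ g ∈ spanS k qf, g ≠ 0 ∧ ∀ i, H i g = ((a i : ℤ) : k) • g :=
  DelInst.exists_eigen_of_mem_Xf_of_not_mem_K1 ℓ A π hπ hℓN h4 hA hD hconstE hSA t ht
    (hunr_four ℓ A π hπ hℓN h4 hA t ht) T H a hKH₁ hKH₂ hξf hξ1 heig

end Fermat.Agent.S40x.C2.G4Inst
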