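/-
P-S44, block C2 (route OMEGA): `G4+` at level `M q` in the vocabulary of `Slope/InstMq` (helper91).

`M` a good level with `4 ∣ M`, `q ∤ M` the residue characteristic, `H : ResidueFacts A π M q …` (setting of
`S33x/KummerPn` and `S40x/Slope/InstMq`, `L = ℚ̄`).  For a class `x ∈ X^f` (`InstMq.XfMq`), `x ∉ K_q`
(`KummerPn.Km`), which is an eigenvector of operators `T i` with eigenvalues `a i`, the landed chain
UNR + INT + OMEGA + ASM (`G4Inst.exists_eigen_four`) produces a NONZERO simultaneous eigenvector of the formal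
operators `Hq i` in the `k`-span of the reduced `q`-expansions of a saturated integral basis of `S₂(Γ₀(M))`.
Remaining hypotheses: ONLY the Kummer-Hecke relations `hKH₁`, `hKH₂` (leaf KH).
-/
import Mathlib
import Fermat.Agent.S40x.C2.G4Inst
import Fermat.Agent.S40x.Slope.InstMq

set_option autoImplicit false
set_option linter.style.haveILetI false
set_option linter.unusedSectionVars false

noncomputable section

namespace Fermat.Agent.S40x.C2.G4Mq

open ModularCurve AlgebraicCurve IntermediateField IsLocalRing CongruenceSubgroup UpperHalfPlane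
open Fermat.Agent.Gateway.Hecke Fermat.Agent.Gateway.ESC Fermat.Agent.Gateway.Kummer
open Fermat.Agent.Gateway.Red Fermat.Agent.Gateway.GoodRed
open Fermat.Agent.Gateway.GoodRed.ConjFamily
open Fermat.Agent.S34x.TwoVal Fermat.Agent.S34x.C0two
open Fermat.Agent.S34x.Inst.RedSetupInst Fermat.Agent.S34x.Inst
open Fermat.Agent.S33x.KummerPn Fermat.Agent.S24.Setup
open Fermat.Agent.S40x.Slope.UnitTwo Fermat.Agent.S40x.Slope.SlopeInv Fermat.Agent.S40x.Slope.Xf
  Fermat.Agent.S40x.Slope.InstMq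
open Fermat.Agent.S40x.C2.DelInst

variable [Algebra.IsAlgebraic ℚ Kbar] {A : ValuationSubring Kbar}
  {k : Type} [Field k] {π : A →+* k} [IsAlgClosed k]
variable {M q : ℕ} [NeZero M] [NeZero q] [Fact q.Prime] [CharP k q]
variable {hdeg : finrankAlong Kbar (heckeAlphaBar Kbar M q) = q + 1} {hq : q.Prime} {hqM : ¬ q ∣ M}
variable {hrk : ∀ x ∈ maximalIdeal A, ∀ c : A, c ≠ 0 → ∃ j : ℕ, c ∣ x ^ j}
  {hπ : Function.Surjective π}

/-- **`G4+` at level `M q`, `4 ∣ M`, modulo the Kummer-Hecke relations.** -/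
theorem exists_eigen_Mq (H : ResidueFacts A π M q hdeg hq hqM hrk hπ) (hA : A.LiesOverPrime q)
    (h4 : 4 ∣ M) (t : Fk k M) (ht : (t : LaurentSeries k) = TLine4.x4k k)
    {ι : Type*} (T : ι → Pic0 Kbar (FL Kbar (M * q)) → Pic0 Kbar (FL Kbar (M * q)))
    (Hq : ι → LaurentSeries k → LaurentSeries k) (a : ι → ℤ)
    (hKH₁ : ∀ (i : ι) (ξ : Pic0 Kbar (FL Kbar (M * q))) (w : FL Kbar (M * q)),
      IsKummerRep q ξ w →
      UnitTwo (valInfty A π M q hrk hπ hqM) (valZero A π M q hdeg hq hqM hrk hπ) w →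
      T i ξ = a i • ξ →
      Hq i (dl k M (red (valInfty A π M q hrk hπ hqM) (redSetupInfty H hA).res w)) =
        ((a i : ℤ) : k) • dl k M (red (valInfty A π M q hrk hπ hqM) (redSetupInfty H hA).res w))
    (hKH₂ : ∀ (i : ι) (ξ : Pic0 Kbar (FL Kbar (M * q))) (w : FL Kbar (M * q)),
      IsKummerRep q ξ w →
      UnitTwo (valInfty A π M q hrk hπ hqM) (valZero A π M q hdeg hq hqM hrk hπ) w →
      T i ξ = a i • ξ →
      Hq i (dl k M (red (valZero A π M q hdeg hq hqM hrk hπ) (redSetupZero H hA).res w)) =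
        ((a i : ℤ) : k) •
          dl k M (red (valZero A π M q hdeg hq hqM hrk hπ) (redSetupZero H hA).res w))
    {x : Pic0 Kbar (FL Kbar (M * q))} (hxf : x ∈ XfMq H hA hq.pos) (hx1 : x ∉ Km H hA q)
    (heig : ∀ i, T i x = a i • x) :
    ∃ (f : Fin (Module.finrank ℂ (CuspForm (Gamma0 M) 2)) → CuspForm (Gamma0 M) 2)
      (qf : Fin (Module.finrank ℂ (CuspForm (Gamma0 M) 2)) → PowerSeries ℤ),
      (∀ i, qExpansion 1 (f i) = (qf i).map (Int.castRingHom ℂ)) ∧
      (∀ i, PowerSeries.constantCoeff (qf i) = 0) ∧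
      LinearIndependent ℂ f ∧ Submodule.span ℂ (Set.range f) = ⊤ ∧
      LinearIndependent k (fun i => (qf i).map (Int.castRingHom k)) ∧
      ∃ g ∈ spanS k qf, g ≠ 0 ∧ ∀ i, Hq i g = ((a i : ℤ) : k) • g := by
  haveI : HasPrincipalDivisors k (Fk k M) :=
    Fermat.Agent.Gateway.FkBasics.hasPrincipalDivisors_Fk k M (natCast_M_ne_zero hqM)
  have hx1' : x ∉ K1 (valInfty A π M q hrk hπ hqM) (valZero A π M q hdeg hq hqM hrk hπ)
      (redSetupInfty H hA).res (redSetupZero H hA).res q := by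
    rw [K1_eq_Km]
    exact hx1
  exact G4Inst.exists_eigen_four q A π hπ hqM h4 hA (flatDataMq H hA hq.pos)
    (Fermat.Agent.Gateway.FkBasics.hconstk k M (natCast_M_ne_zero hqM)) jointLift t ht T Hq a
    hKH₁ hKH₂ hxf hx1' heig

end Fermat.Agent.S40x.C2.G4Mq
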