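import Mathlib
import Fermat.Agent.S40x.C2.HurwitzEqB

/-!
# P-S44 (C2 / DIAG input): full fibres of the `x₄`-line off the cusps

Corollaries of `HurwitzEqB` (the special fibre `Fk k N`, `4 ∣ N`, `ℓ ∤ N`, is unramified over the
`x₄`-line off the cusps):

* `card_zeros_eq_finrank` (generic, any characteristic): if every zero of `x - a` is simple, the
  fibre of `x` over `a` has exactly `[F : K(x)]` places;
* `ord_jFk_nonneg_of_ord_sub_pos` : a place of `Fk k N` over a value `a ≠ 0, 16` of `x₄` is not a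
  cusp (`j` is regular there);
* `card_fiber_four` : for `a ≠ 0, 16` the fibre of `x₄` over `a` has exactly `[Fk k N : k(x₄)]`
  places (`* 6 = ψ(N)` by `TLineHurwitz.finrank_t4`), each of them with `x₄ - a` a uniformiser.

Use (DIAG node count): the node places of the special fibre at a good level `M` are the places
over the `(p - 1)/2` supersingular values of `x₄`, none of them a cusp; hence
`#nodes(M) = (p - 1)/2 * ψ(M)/6`, and `#nodes(M l) = (l + 1) #nodes(M)` for a prime `l ∤ M`.
-/

set_option autoImplicit false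
set_option linter.unusedSectionVars false
set_option linter.style.haveILetI false

noncomputable section

namespace Fermat.Agent.S40x.C2.HurwitzFibre

open AlgebraicCurve Polynomial IntermediateField Module
open Fermat.Agent.Lib.RiemannRoch Fermat.Agent.Lib.RiemannRoch.FunctionFieldRR
open Fermat.Agent.S16.Two

section Generic

variable {K F : Type*} [Field K] [IsAlgClosed K] [Field F] [Algebra K F] {x : F}
  (hx : Transcendental K x) [FiniteDimensional K⟮x⟯ F] [Algebra.IsSeparable K⟮x⟯ F]

include hx in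
/-- **Fundamental identity over a value of `x`**: `∑_{x(v) = a} ord_v (x - a) = [F : K(x)]`, in
the form: there is a finite set `Z` of places, the zeros of `x - a`, with this sum. -/
theorem exists_zeros_sum_eq_finrank (a : K) :
    ∃ Z : Finset (Place K F), (∀ v : Place K F, v ∈ Z ↔ 0 < v.ord (x - algebraMap K F a)) ∧
      ∑ v ∈ Z, v.ord (x - algebraMap K F a) = (finrank K⟮x⟯ F : ℤ) := by
  classical
  have hdeg1 : ∀ v : Place K F, v.deg = 1 := deg_eq_one x
  obtain ⟨E, hEv, hEdeg⟩ := exists_cuspDivisor hx ({a} : Finset K)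
  obtain ⟨E0, hE0v, hE0deg⟩ := exists_cuspDivisor hx (∅ : Finset K)
  set D : Divisor K F := E - E0 with hD
  have hDv : ∀ v : Place K F, D v = max 0 (v.ord (x - algebraMap K F a)) := fun v => by
    rw [hD, Finsupp.sub_apply, hEv, hE0v]
    simp
  have hDdeg : Divisor.degree D = (finrank K⟮x⟯ F : ℤ) := by
    rw [hD, map_sub, hEdeg, hE0deg, Finset.card_singleton, Finset.card_empty]
    push_cast
    ring
  have hsupp : ∀ v : Place K F, v ∈ D.support ↔ 0 < v.ord (x - algebraMap K F a) := fun v => by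
    rw [Finsupp.mem_support_iff, hDv]
    constructor
    · intro h
      by_contra hcon
      exact h (max_eq_left (not_lt.mp hcon))
    · intro h
      rw [max_eq_right h.le]
      exact h.ne'
  refine ⟨D.support, hsupp, ?_⟩
  rw [← hDdeg, degree_eq_sum, Finsupp.sum]
  refine Finset.sum_congr rfl fun v hv => ?_
  rw [hdeg1 v, hDv, max_eq_right ((hsupp v).mp hv).le]
  simp

include hx in
/-- If every zero of `x - a` is simple, the fibre of `x` over `a` has exactly `[F : K(x)]`
places. -/
theorem card_zeros_eq_finrank (a : K)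
    (hunr : ∀ v : Place K F, 0 < v.ord (x - algebraMap K F a) →
      v.ord (x - algebraMap K F a) = 1) :
    Nat.card {v : Place K F // 0 < v.ord (x - algebraMap K F a)} = finrank K⟮x⟯ F := by
  classical
  obtain ⟨Z, hZ, hsum⟩ := exists_zeros_sum_eq_finrank hx a
  have h1 : ∑ v ∈ Z, v.ord (x - algebraMap K F a) = (Z.card : ℤ) := by
    rw [Finset.sum_congr rfl fun v hv => hunr v ((hZ v).mp hv)]
    simp
  have h2 : Nat.card {v : Place K F // 0 < v.ord (x - algebraMap K F a)} = Z.card := by
    rw [← Nat.card_eq_finsetCard Z]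
    exact Nat.card_congr (Equiv.subtypeEquivRight fun v => (hZ v).symm)
  rw [h2]
  have : (Z.card : ℤ) = (finrank K⟮x⟯ F : ℤ) := by rw [← h1, hsum]
  exact_mod_cast this

end Generic

section Rel

variable {K F : Type*} [Field K] [Field F] [Algebra K F] (v : Place K F)
  {t j : F} {P Q : K[X]}

/-- `j = P(t)/Q(t)` is regular at a zero of `t - a` when `Q(a) ≠ 0`. -/
theorem ord_nonneg_of_eval_ne_zero (hj : j * aeval t Q = aeval t P) {a : K}
    (hQa : Q.eval a ≠ 0) (h : 0 < v.ord (t - algebraMap K F a)) : 0 ≤ v.ord j := by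
  set s := t - algebraMap K F a with hs
  have hcomp : ∀ R : K[X], aeval t R = aeval s (R.comp (X + C a)) := by
    intro R
    rw [Polynomial.aeval_comp, map_add, aeval_X, aeval_C, hs, sub_add_cancel]
  have hc0 : ∀ R : K[X], (R.comp (X + C a)).coeff 0 = R.eval a := by
    intro R
    rw [Polynomial.coeff_zero_eq_eval_zero, Polynomial.eval_comp, Polynomial.eval_add,
      Polynomial.eval_X, Polynomial.eval_C, zero_add]
  obtain ⟨hQ1, hQ2⟩ := Fermat.Agent.Gateway.GoodRed.TLineHurwitz.ord_aeval_eq_zero v (Or.inr h)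
    (R := Q.comp (X + C a)) (by rw [hc0]; exact hQa)
  rw [← hcomp] at hQ1 hQ2
  -- `t` is integral at `v`, hence so is `P(t)`
  have htO : t ∈ v.toValuationSubring := by
    have h1 : s ∈ v.toValuationSubring :=
      (Fermat.Agent.S24.ZD.PlaceLemmas.mem_iff_ord v s).mpr (Or.inr h.le)
    have := add_mem h1 (v.algebraMap_mem' a)
    rwa [hs, sub_add_cancel] at this
  have hPO : aeval t P ∈ v.toValuationSubring := by
    have := Polynomial.aeval_algebraMap_apply (A := v.toValuationSubring) F
      (⟨t, htO⟩ : v.toValuationSubring) P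
    have h2 : aeval t P = ((aeval (⟨t, htO⟩ : v.toValuationSubring) P :
        v.toValuationSubring) : F) := this
    rw [h2]
    exact Subtype.property _
  by_cases hj0 : j = 0
  · rw [hj0, Place.ord_zero]
  have hP0 : aeval t P ≠ 0 := by
    rw [← hj]
    exact mul_ne_zero hj0 hQ1
  have h3 := v.ord_mul hj0 hQ1
  rw [hj, hQ2, add_zero] at h3
  rw [← h3]
  rcases (Fermat.Agent.S24.ZD.PlaceLemmas.mem_iff_ord v _).mp hPO with h' | h'
  · exact absurd h' hP0
  · exact h'

end Rel

section Level4

open ModularCurve Fermat.Agent.S24.Setup Fermat.Agent.Gateway.GoodRed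
open Fermat.Agent.Gateway.GoodRed.ConjFamily Fermat.Agent.Gateway.GoodRed.TLineHurwitz

/-- A place of `Fk k N` over a value `a ≠ 0, 16` of `x₄` is not a cusp: `j` is regular there. -/
theorem ord_jFk_nonneg_of_ord_sub_pos {k : Type} [Field k] [IsAlgClosed k] {N : ℕ} [NeZero N]
    (t : Fk k N) (ht : (t : LaurentSeries k) = TLine4.x4k k) {a : k} (ha0 : a ≠ 0)
    (ha16 : a ≠ 16) (v : Place k (Fk k N)) (hv : 0 < v.ord (t - algebraMap k (Fk k N) a)) :
    0 ≤ v.ord (jFk k N) := by
  have hQa : (TLine4.JQ k).eval a ≠ 0 := by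
    simp only [TLine4.JQ, eval_mul, eval_pow, eval_sub, eval_X, eval_ofNat]
    exact mul_ne_zero ha0 (pow_ne_zero _ (sub_ne_zero.mpr ha16))
  exact ord_nonneg_of_eval_ne_zero v (rel_t4 N t ht) hQa hv

variable {N : ℕ} [NeZero N] (ℓ : ℕ) [Fact ℓ.Prime] (A : ValuationSubring Kbar)
  {k : Type} [Field k] [IsAlgClosed k] [CharP k ℓ] (π : A →+* k)
  (hπ : Function.Surjective π) (hℓN : ¬ ℓ ∣ N)

include hπ hℓN in
/-- **Full fibres off the cusps.**  `ℓ ∤ N`, `4 ∣ N`, `a ≠ 0, 16`: the fibre of `x₄` over `a` on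
the special fibre `Fk k N` consists of exactly `[Fk k N : k(x₄)]` places. -/
theorem card_fiber_four (h4 : 4 ∣ N) (hA : A.LiesOverPrime ℓ) (t : Fk k N)
    (ht : (t : LaurentSeries k) = TLine4.x4k k) {a : k} (ha0 : a ≠ 0) (ha16 : a ≠ 16) :
    Nat.card {v : Place k (Fk k N) // 0 < v.ord (t - algebraMap k (Fk k N) a)} =
      finrank k⟮t⟯ (Fk k N) := by
  have hNk : ((N : ℕ) : k) ≠ 0 := natCast_ne_zero_final ℓ hℓN
  have hx := transcendental_t4 N t ht
  haveI := finiteDimensional_t4 N hNk t ht
  haveI := isSeparable_t4 N hNk t ht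
  refine card_zeros_eq_finrank hx a fun v hv => ?_
  exact HurwitzEqB.ord_sub_eq_one_four ℓ A π hπ hℓN h4 hA t ht v a
    (ord_jFk_nonneg_of_ord_sub_pos t ht ha0 ha16 v hv) hv

include hπ hℓN in
/-- The same count cleared of the degree: `6 * #(fibre over a) = ψ(N)`. -/
theorem card_fiber_four_mul_six (h4 : 4 ∣ N) (hA : A.LiesOverPrime ℓ) (t : Fk k N)
    (ht : (t : LaurentSeries k) = TLine4.x4k k) {a : k} (ha0 : a ≠ 0) (ha16 : a ≠ 16) :
    Nat.card {v : Place k (Fk k N) // 0 < v.ord (t - algebraMap k (Fk k N) a)} * 6 =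
      dedekindPsi N := by
  have hNk : ((N : ℕ) : k) ≠ 0 := natCast_ne_zero_final ℓ hℓN
  obtain ⟨N', hN⟩ := h4
  haveI : NeZero N' := ⟨by rintro rfl; exact NeZero.ne N (by simpa using hN)⟩
  have h2 : (2 : k) ≠ 0 := by
    intro h2
    apply hNk
    rw [hN]
    push_cast
    have : (4 : k) = 2 * 2 := by norm_num
    rw [this, h2]
    simp
  rw [card_fiber_four ℓ A π hπ hℓN ⟨N', hN⟩ hA t ht ha0 ha16]
  exact finrank_t4 h2 N N' hN hNk t ht

end Level4

end Fermat.Agent.S40x.C2.HurwitzFibre

end
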