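/-
P-S44, block C2 (route OMEGA), leaf INT (integrality step (i)), PRIMARY helper98.

`k` algebraically closed of characteristic `p`, `(N : k) ≠ 0`, `Fk k N` the special fibre of the
level `N` modular function field (a subfield of `k((q))`), `t : Fk k N` a separating element
whose poles are cusps (poles of `j`) and which is unramified off the cusps (`t - c` is a
uniformiser for a suitable `c` at every place finite for `j`: leaf UNR).  For `fb : Fk k N`,
`fb ≠ 0`, with `p ∣ ord_P fb` at EVERY place `P` of `Fk k N` (leaf DEL: the reductions `redV f`,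
`red0 f` of a unit-normalised Kummer function of a class of `X^f`), the function

  `hb := D_t fb / fb`   (`D_t` the `k`-derivation of `Fk k N` with `D_t t = 1`)

* is integral over `k[j]` (landed `DerivPlaceB.isIntegral_dlog`),
* satisfies `(τ hb * D (τ t)).coeff a = 0` for `a < 0` at every cusp embedding `τ : Emb k N`
  (landed `ChainRule.coeff_map_dlog_mul_D` + `exists_polePlaces_Fk`),
* and `hb * fb * D t = D fb` in `k((q))` (chain rule for the standard embedding).

These are exactly the two hypotheses of `Omega4.exists_basis_span_four`; the composite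
`exists_basis_dlog_span` says: `q d/dq (fb) / fb` is a `k`-linear combination of the reductions
of a saturated integral basis of `S₂(Γ₀(N))`, `4 ∣ N`.
-/
import Mathlib
import Fermat.Agent.S27x.G2b.DerivExt
import Fermat.Agent.Gateway.GoodRed.TLineHurwitz
import Fermat.Agent.Gateway.GoodRed.ConjFamily.Places
import Fermat.Agent.S40x.C2.ChainRule
import Fermat.Agent.S40x.C2.DerivPlaceB
import Fermat.Agent.S40x.C2.Omega4
import Fermat.Agent.S40x.C2.HurwitzEqB
import Fermat.Agent.Gateway.GoodRed.Instantiate.HauptRed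

set_option autoImplicit false
set_option linter.unusedSectionVars false
set_option linter.style.haveILetI false

noncomputable section

namespace Fermat.Agent.S40x.C2.IntReg

open Polynomial ModularCurve Fermat.Agent.S28 Fermat.Agent.Gateway.Red Fermat.Agent.Lib.Residue
open IntermediateField HahnSeries AlgebraicCurve CongruenceSubgroup Fermat.Agent.S24.Setup
open Fermat.Agent.Gateway.AuxLevel Fermat.Agent.Gateway.GoodRed
open Fermat.Agent.Gateway.GoodRed.ConjFamily UpperHalfPlane

section Abstract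

variable {k : Type} [Field k] [IsAlgClosed k] {N : ℕ} [NeZero N]

/-- the UNR literal in the `∀ a` shape consumed by `DerivPlaceB.isIntegral_dlog` -/
theorem unr_forall_of_exists {K F : Type*} [Field K] [Field F] [Algebra K F] (t j : F)
    (hunr : ∀ P : Place K F, 0 ≤ P.ord j → ∃ c : K, P.ord (t - algebraMap K F c) = 1)
    (v : Place K F) (a : K) (hv : 0 ≤ v.ord j) (hpos : 0 < v.ord (t - algebraMap K F a)) :
    v.ord (t - algebraMap K F a) = 1 := by
  obtain ⟨c, hc⟩ := hunr v hv
  rcases eq_or_ne a c with rfl | hac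
  · exact hc
  exfalso
  have h1 : t - algebraMap K F a ≠ 0 := by
    intro h; rw [h, v.ord_zero] at hpos; exact lt_irrefl _ hpos
  have h2 : t - algebraMap K F c ≠ 0 := by
    intro h; rw [h, v.ord_zero] at hc; exact zero_ne_one hc
  have h3 : (t - algebraMap K F a) - (t - algebraMap K F c) = algebraMap K F (c - a) := by
    rw [map_sub]; ring
  have h4 : (t - algebraMap K F a) - (t - algebraMap K F c) ≠ 0 := by
    rw [h3]
    exact (map_ne_zero (algebraMap K F)).mpr (sub_ne_zero.mpr (Ne.symm hac))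
  have h5 := Fermat.Agent.S24.ZP.ord_sub_ge v h1 h2 h4
  rw [h3, Fermat.Agent.S24.ZP.ord_algebraMap, hc] at h5
  have : 0 < min (v.ord (t - algebraMap K F a)) 1 := lt_min hpos one_pos
  omega

/-- the standard embedding `Fk k N ⊆ k((q))` is the identity on constants -/
theorem algebraMap_Fk_const (c : k) :
    algebraMap (Fk k N) (LaurentSeries k) (algebraMap k (Fk k N) c) = HahnSeries.C c := by
  rw [← IsScalarTower.algebraMap_apply k (Fk k N) (LaurentSeries k),
    algebraMap_laurentSeries_eq_single]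
  rfl

/-- **INT, abstract in the separating element `t`, split form.**  The divisibility hypothesis is
split into its finite half (places finite for `j`, used for the integrality) and its cusp half
(poles of `j`, used for the cusp regularity). -/
theorem exists_dlog_regular_split (p : ℕ) [Fact p.Prime] [CharP k p] (hNk : ((N : ℕ) : k) ≠ 0)
    (t : Fk k N) (htr : Transcendental k t) [FiniteDimensional k⟮t⟯ (Fk k N)]
    [Algebra.IsSeparable k⟮t⟯ (Fk k N)]
    (hpole : ∀ v : Place k (Fk k N), v.ord t < 0 → v.ord (jFk k N) < 0)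
    (hunr : ∀ P : Place k (Fk k N), 0 ≤ P.ord (jFk k N) →
      ∃ c : k, P.ord (t - algebraMap k (Fk k N) c) = 1)
    (fb : Fk k N) (hfb : fb ≠ 0)
    (hfin : ∀ P : Place k (Fk k N), 0 ≤ P.ord (jFk k N) → (p : ℤ) ∣ P.ord fb)
    (hcusp : ∀ P : Place k (Fk k N), P.ord (jFk k N) < 0 → (p : ℤ) ∣ P.ord fb) :
    ∃ hb : Fk k N, IsIntegral (Algebra.adjoin k {jFk k N}) hb ∧
      (∀ (τ : Emb k N) (a : ℤ), a < 0 → (τ.1 hb * D (τ.1 t)).coeff a = 0) ∧
      (hb : LaurentSeries k) * (fb : LaurentSeries k) * D (t : LaurentSeries k) =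
        D (fb : LaurentSeries k) := by
  classical
  obtain ⟨Dt, hDt'⟩ := Fermat.Agent.S27x.G2b.DerivExt.exists_derivation_of_transcendental htr
  have hDt : Dt t = 1 := Fermat.Agent.S27x.G2b.DerivExt.derivation_apply_self Dt hDt'
  haveI := finiteDimensional_Fk hNk
  haveI := isSeparable_Fk hNk
  refine ⟨Dt fb / fb, ?_, ?_, ?_⟩
  · -- integrality over `k[j]`
    exact DerivPlaceB.isIntegral_dlog p htr (transcendental_jFk (k := k) (N := N)) Dt hDt hpole
      (unr_forall_of_exists t (jFk k N) hunr) hfb hfin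
  · -- cusp regularity
    intro τ a ha
    obtain ⟨ζ, hζ⟩ := Fermat.Agent.S28.Tower.exists_primitiveRoot_unit (k := k) N hNk
    letI := fintypeEmb hNk
    obtain ⟨pl, hpl⟩ := exists_polePlaces_Fk hNk ζ hζ
    have hord := hpl.2.2.2.2 τ fb
    have hneg : (pl τ).ord (jFk k N) < 0 := (hpl.1 (pl τ)).mpr ⟨τ, rfl⟩
    refine ChainRule.coeff_map_dlog_mul_D t p Dt hDt τ.1 (emb_algebraMap τ) hfb ?_ ha
    rw [hord]
    exact Dvd.dvd.mul_left (hcusp (pl τ) hneg) _
  · -- the chain rule at the standard embedding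
    have h := ChainRule.chain_rule t Dt hDt (algebraMap (Fk k N) (LaurentSeries k))
      algebraMap_Fk_const fb
    have hfb' : (fb : LaurentSeries k) ≠ 0 := fun h0 => hfb (Subtype.ext h0)
    have e : ((Dt fb / fb : Fk k N) : LaurentSeries k) =
        ((Dt fb : Fk k N) : LaurentSeries k) / (fb : LaurentSeries k) :=
      map_div₀ (algebraMap (Fk k N) (LaurentSeries k)) (Dt fb) fb
    rw [e, div_mul_cancel₀ _ hfb']
    exact h

/-- **INT, abstract in the separating element `t`.** -/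
theorem exists_dlog_regular (p : ℕ) [Fact p.Prime] [CharP k p] (hNk : ((N : ℕ) : k) ≠ 0)
    (t : Fk k N) (htr : Transcendental k t) [FiniteDimensional k⟮t⟯ (Fk k N)]
    [Algebra.IsSeparable k⟮t⟯ (Fk k N)]
    (hpole : ∀ v : Place k (Fk k N), v.ord t < 0 → v.ord (jFk k N) < 0)
    (hunr : ∀ P : Place k (Fk k N), 0 ≤ P.ord (jFk k N) →
      ∃ c : k, P.ord (t - algebraMap k (Fk k N) c) = 1)
    (fb : Fk k N) (hfb : fb ≠ 0) (hf : ∀ P : Place k (Fk k N), (p : ℤ) ∣ P.ord fb) :
    ∃ hb : Fk k N, IsIntegral (Algebra.adjoin k {jFk k N}) hb ∧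
      (∀ (τ : Emb k N) (a : ℤ), a < 0 → (τ.1 hb * D (τ.1 t)).coeff a = 0) ∧
      (hb : LaurentSeries k) * (fb : LaurentSeries k) * D (t : LaurentSeries k) =
        D (fb : LaurentSeries k) :=
  exists_dlog_regular_split p hNk t htr hpole hunr fb hfb (fun P _ => hf P) (fun P _ => hf P)

end Abstract

/-! ### Level divisible by four: `t = x₄` -/

section Four

variable {k : Type} [Field k] [IsAlgClosed k] {N : ℕ} [NeZero N]

/-- **INT at a level divisible by four, `t = x₄`, split form.** -/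
theorem exists_dlog_regular_four_split (p : ℕ) [Fact p.Prime] [CharP k p] (h2 : (2 : k) ≠ 0)
    (hNk : ((N : ℕ) : k) ≠ 0) (t : Fk k N) (ht : (t : LaurentSeries k) = TLine4.x4k k)
    (hunr : ∀ P : Place k (Fk k N), 0 ≤ P.ord (jFk k N) →
      ∃ c : k, P.ord (t - algebraMap k (Fk k N) c) = 1)
    (fb : Fk k N) (hfb : fb ≠ 0)
    (hfin : ∀ P : Place k (Fk k N), 0 ≤ P.ord (jFk k N) → (p : ℤ) ∣ P.ord fb)
    (hcusp : ∀ P : Place k (Fk k N), P.ord (jFk k N) < 0 → (p : ℤ) ∣ P.ord fb) :
    ∃ hb : Fk k N, IsIntegral (Algebra.adjoin k {jFk k N}) hb ∧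
      (∀ (τ : Emb k N) (a : ℤ), a < 0 → (τ.1 hb * D (τ.1 t)).coeff a = 0) ∧
      (hb : LaurentSeries k) * (fb : LaurentSeries k) * D (TLine4.x4k k) =
        D (fb : LaurentSeries k) := by
  haveI := TLineHurwitz.finiteDimensional_t4 N hNk t ht
  haveI := TLineHurwitz.isSeparable_t4 N hNk t ht
  obtain ⟨S, -, hS⟩ := TLineHurwitz.poles_t4 h2 N t ht
  have := exists_dlog_regular_split p hNk t (TLineHurwitz.transcendental_t4 N t ht)
    (fun v hv => hS v (Or.inl hv)) hunr fb hfb hfin hcusp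
  rwa [ht] at this

/-- **INT at a level divisible by four, `t = x₄`.**  The only remaining hypothesis is UNR. -/
theorem exists_dlog_regular_four (p : ℕ) [Fact p.Prime] [CharP k p] (h2 : (2 : k) ≠ 0)
    (hNk : ((N : ℕ) : k) ≠ 0) (t : Fk k N) (ht : (t : LaurentSeries k) = TLine4.x4k k)
    (hunr : ∀ P : Place k (Fk k N), 0 ≤ P.ord (jFk k N) →
      ∃ c : k, P.ord (t - algebraMap k (Fk k N) c) = 1)
    (fb : Fk k N) (hfb : fb ≠ 0) (hf : ∀ P : Place k (Fk k N), (p : ℤ) ∣ P.ord fb) :
    ∃ hb : Fk k N, IsIntegral (Algebra.adjoin k {jFk k N}) hb ∧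
      (∀ (τ : Emb k N) (a : ℤ), a < 0 → (τ.1 hb * D (τ.1 t)).coeff a = 0) ∧
      (hb : LaurentSeries k) * (fb : LaurentSeries k) * D (TLine4.x4k k) =
        D (fb : LaurentSeries k) :=
  exists_dlog_regular_four_split p h2 hNk t ht hunr fb hfb (fun P _ => hf P) (fun P _ => hf P)

end Four

/-! ### Composite with LEMMA OMEGA -/

section Omega

variable {N : ℕ} [NeZero N] (ℓ : ℕ) [Fact ℓ.Prime] (A : ValuationSubring Kbar)
  {k : Type} [Field k] [IsAlgClosed k] [CharP k ℓ] (π : A →+* k)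
  (hπ : Function.Surjective π) (hℓN : ¬ ℓ ∣ N)

include hπ hℓN in
/-- **INT + OMEGA, split form.**  At a level `N`, `4 ∣ N`, `ℓ ∤ N`, with `x₄` unramified off the
cusps on the special fibre (UNR): for every `fb ≠ 0` of the special fibre with `ℓ ∣ ord_P fb` at
every place finite for `j` (`hfin`) and at every cusp place (`hcusp`), `q d/dq (fb) = fb * g`
with `g` a `k`-linear combination of the reductions of a saturated integral basis of
`S₂(Γ₀(N))`. -/
theorem exists_basis_dlog_span_split (h4 : 4 ∣ N) (hA : A.LiesOverPrime ℓ)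
    (t : Fk k N) (ht : (t : LaurentSeries k) = TLine4.x4k k)
    (hunr : ∀ P : Place k (Fk k N), 0 ≤ P.ord (jFk k N) →
      ∃ c : k, P.ord (t - algebraMap k (Fk k N) c) = 1) :
    ∃ (f : Fin (Module.finrank ℂ (CuspForm (Gamma0 N) 2)) → CuspForm (Gamma0 N) 2)
      (qf : Fin (Module.finrank ℂ (CuspForm (Gamma0 N) 2)) → PowerSeries ℤ),
      (∀ i, qExpansion 1 (f i) = (qf i).map (Int.castRingHom ℂ)) ∧
      (∀ i, PowerSeries.constantCoeff (qf i) = 0) ∧
      LinearIndependent ℂ f ∧ Submodule.span ℂ (Set.range f) = ⊤ ∧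
      LinearIndependent k (fun i => (qf i).map (Int.castRingHom k)) ∧
      ∀ fb : Fk k N, fb ≠ 0 →
        (∀ P : Place k (Fk k N), 0 ≤ P.ord (jFk k N) → (ℓ : ℤ) ∣ P.ord fb) →
        (∀ P : Place k (Fk k N), P.ord (jFk k N) < 0 → (ℓ : ℤ) ∣ P.ord fb) →
        ∃ c : Fin (Module.finrank ℂ (CuspForm (Gamma0 N) 2)) → k,
          HahnSeries.single (1 : ℤ) (1 : k) * D (fb : LaurentSeries k) =
            (fb : LaurentSeries k) * ∑ i, HahnSeries.C (c i) *
              HahnSeries.ofPowerSeries ℤ k ((qf i).map (Int.castRingHom k)) := by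
  classical
  have hNk : ((N : ℕ) : k) ≠ 0 := natCast_ne_zero_final ℓ hℓN
  have h2 : (2 : k) ≠ 0 := by
    intro h
    apply hNk
    obtain ⟨m, rfl⟩ := h4
    have : ((4 * m : ℕ) : k) = 2 * (2 * (m : k)) := by push_cast; ring
    rw [this, h, zero_mul]
  obtain ⟨f, qf, h1, h2', h3, h4', h5, hspan⟩ :=
    Omega4.exists_basis_span_four ℓ A π hπ hℓN h4 hA
  refine ⟨f, qf, h1, h2', h3, h4', h5, ?_⟩
  intro fb hfb hfin hcusp
  obtain ⟨hb, hbint, hbreg, hchain⟩ :=
    exists_dlog_regular_four_split ℓ h2 hNk t ht hunr fb hfb hfin hcusp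
  obtain ⟨c, hc⟩ := hspan t ht hb hbint hbreg
  refine ⟨c, ?_⟩
  rw [← hc, ← hchain]
  ring

include hπ hℓN in
/-- **INT + OMEGA.**  Same as `exists_basis_dlog_span_split` with the divisibility at every
place as a single hypothesis. -/
theorem exists_basis_dlog_span (h4 : 4 ∣ N) (hA : A.LiesOverPrime ℓ)
    (t : Fk k N) (ht : (t : LaurentSeries k) = TLine4.x4k k)
    (hunr : ∀ P : Place k (Fk k N), 0 ≤ P.ord (jFk k N) →
      ∃ c : k, P.ord (t - algebraMap k (Fk k N) c) = 1) :
    ∃ (f : Fin (Module.finrank ℂ (CuspForm (Gamma0 N) 2)) → CuspForm (Gamma0 N) 2)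
      (qf : Fin (Module.finrank ℂ (CuspForm (Gamma0 N) 2)) → PowerSeries ℤ),
      (∀ i, qExpansion 1 (f i) = (qf i).map (Int.castRingHom ℂ)) ∧
      (∀ i, PowerSeries.constantCoeff (qf i) = 0) ∧
      LinearIndependent ℂ f ∧ Submodule.span ℂ (Set.range f) = ⊤ ∧
      LinearIndependent k (fun i => (qf i).map (Int.castRingHom k)) ∧
      ∀ fb : Fk k N, fb ≠ 0 → (∀ P : Place k (Fk k N), (ℓ : ℤ) ∣ P.ord fb) →
        ∃ c : Fin (Module.finrank ℂ (CuspForm (Gamma0 N) 2)) → k,
          HahnSeries.single (1 : ℤ) (1 : k) * D (fb : LaurentSeries k) =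
            (fb : LaurentSeries k) * ∑ i, HahnSeries.C (c i) *
              HahnSeries.ofPowerSeries ℤ k ((qf i).map (Int.castRingHom k)) := by
  obtain ⟨f, qf, h1, h2, h3, h4', h5, h6⟩ :=
    exists_basis_dlog_span_split ℓ A π hπ hℓN h4 hA t ht hunr
  exact ⟨f, qf, h1, h2, h3, h4', h5, fun fb hfb hf => h6 fb hfb (fun P _ => hf P) (fun P _ => hf P)⟩

include hπ hℓN in
/-- **`hOmega`, unconditional, split form**: UNR discharged by the landed
`HurwitzEqB.exists_ord_sub_eq_one_four`, and `t` taken to be the reduced Hauptmodul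
`HauptRed.t4`. -/
theorem exists_basis_hOmega_split (h4 : 4 ∣ N) (hA : A.LiesOverPrime ℓ) :
    ∃ (f : Fin (Module.finrank ℂ (CuspForm (Gamma0 N) 2)) → CuspForm (Gamma0 N) 2)
      (qf : Fin (Module.finrank ℂ (CuspForm (Gamma0 N) 2)) → PowerSeries ℤ),
      (∀ i, qExpansion 1 (f i) = (qf i).map (Int.castRingHom ℂ)) ∧
      (∀ i, PowerSeries.constantCoeff (qf i) = 0) ∧
      LinearIndependent ℂ f ∧ Submodule.span ℂ (Set.range f) = ⊤ ∧
      LinearIndependent k (fun i => (qf i).map (Int.castRingHom k)) ∧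
      ∀ fb : Fk k N, fb ≠ 0 →
        (∀ P : Place k (Fk k N), 0 ≤ P.ord (jFk k N) → (ℓ : ℤ) ∣ P.ord fb) →
        (∀ P : Place k (Fk k N), P.ord (jFk k N) < 0 → (ℓ : ℤ) ∣ P.ord fb) →
        ∃ c : Fin (Module.finrank ℂ (CuspForm (Gamma0 N) 2)) → k,
          HahnSeries.single (1 : ℤ) (1 : k) * D (fb : LaurentSeries k) =
            (fb : LaurentSeries k) * ∑ i, HahnSeries.C (c i) *
              HahnSeries.ofPowerSeries ℤ k ((qf i).map (Int.castRingHom k)) :=
  exists_basis_dlog_span_split ℓ A π hπ hℓN h4 hA (HauptRed.t4 A π N ℓ hπ hℓN h4)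
    (HauptRed.coe_t4 A π N ℓ hπ hℓN h4)
    (fun P hP => HurwitzEqB.exists_ord_sub_eq_one_four ℓ A π hπ hℓN h4 hA
      (HauptRed.t4 A π N ℓ hπ hℓN h4) (HauptRed.coe_t4 A π N ℓ hπ hℓN h4) P hP)

end Omega

end Fermat.Agent.S40x.C2.IntReg

end
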