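/-
helper69 (P-S44, block C2, leaf KH-b, INDEPENDENT SECOND; the primary is helper42's KH/Core):
the function-level core of the Kummer-Hecke step, in the Gauss-ring vocabulary of `Gateway/Red`.

`A` a valuation subring of `L`, `pi : A ->+* k` surjective, `k` of characteristic `p`, `l != p`.
If `F`, `H` are Gauss units (in the Gauss ring with nonzero reduction), `G = c * F^a * H^p` with a
constant `c != 0`, and `G` satisfies the norm identity of `ESC.normQExpFormula_algebraicClosure`
  `G(q^l) = F(q^(l^2)) * prod_{b<l} F(zeta^b q)`,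
then the reduction `Fb` of `F` satisfies  `heckeT l (dlog Fb) = a * dlog Fb`  in `k((q))`
(`heckeT`, `dlog` of `S40x/C2/DlogHecke`).
-/
import Fermat.Agent.S40x.C2.DlogHecke
import Fermat.Agent.S40x.C2.DlogHeckeRed
import Fermat.Agent.Gateway.Kummer.HeckeRed

set_option autoImplicit false

noncomputable section

namespace Fermat.Agent.S40x.C2.KHCoreB

open ModularCurve HahnSeries
open Fermat.Agent.Gateway.Red Fermat.Agent.Gateway.GoodRed.GaussRing
open Fermat.Agent.S40x.C2.DlogHecke

variable {L : Type*} [Field L] (A : ValuationSubring L) {k : Type*} [Field k] (π : A →+* k)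

/-- a Gauss unit: in the Gauss ring, with nonzero reduction. -/
def IsGU (y : LaurentSeries L) : Prop :=
  ∃ hy : y ∈ gaussRing A π, gaussRed A π ⟨y, hy⟩ ≠ 0

open Classical in
/-- total reduction map (junk value `0` outside the Gauss ring). -/
def gr (y : LaurentSeries L) : LaurentSeries k :=
  if hy : y ∈ gaussRing A π then gaussRed A π ⟨y, hy⟩ else 0

variable {A π}

theorem gr_eq {y : LaurentSeries L} (hy : y ∈ gaussRing A π) :
    gr A π y = gaussRed A π ⟨y, hy⟩ := dif_pos hy

theorem IsGU.mem {y : LaurentSeries L} (h : IsGU A π y) : y ∈ gaussRing A π := h.1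

theorem IsGU.gr_ne_zero {y : LaurentSeries L} (h : IsGU A π y) : gr A π y ≠ 0 := by
  rw [gr_eq h.1]
  exact h.2

theorem IsGU.ne_zero {y : LaurentSeries L} (h : IsGU A π y) : y ≠ 0 := by
  rintro rfl
  apply h.2
  have : (⟨0, h.1⟩ : gaussRing A π) = 0 := rfl
  rw [this, map_zero]

theorem isGU_one : IsGU A π (1 : LaurentSeries L) := by
  refine ⟨(gaussRing A π).one_mem, ?_⟩
  have : (⟨1, (gaussRing A π).one_mem⟩ : gaussRing A π) = 1 := rfl
  rw [this, map_one]
  exact one_ne_zero

theorem gr_mul {x y : LaurentSeries L} (hx : x ∈ gaussRing A π) (hy : y ∈ gaussRing A π) :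
    gr A π (x * y) = gr A π x * gr A π y := by
  rw [gr_eq hx, gr_eq hy, gr_eq ((gaussRing A π).mul_mem hx hy), ← map_mul]
  rfl

theorem IsGU.mul {x y : LaurentSeries L} (hx : IsGU A π x) (hy : IsGU A π y) :
    IsGU A π (x * y) := by
  refine ⟨(gaussRing A π).mul_mem hx.1 hy.1, ?_⟩
  rw [← gr_eq, gr_mul hx.1 hy.1]
  exact mul_ne_zero hx.gr_ne_zero hy.gr_ne_zero

theorem IsGU.inv {x : LaurentSeries L} (hx : IsGU A π x) : IsGU A π x⁻¹ := by
  have hmem := inv_mem_gaussRing A π hx.1 hx.2
  refine ⟨hmem, ?_⟩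
  rw [gaussRed_inv A π hx.1 hmem hx.ne_zero]
  exact inv_ne_zero hx.2

theorem gr_inv {x : LaurentSeries L} (hx : IsGU A π x) : gr A π x⁻¹ = (gr A π x)⁻¹ := by
  rw [gr_eq hx.inv.1, gr_eq hx.1, gaussRed_inv A π hx.1 hx.inv.1 hx.ne_zero]

theorem IsGU.pow {x : LaurentSeries L} (hx : IsGU A π x) (n : ℕ) : IsGU A π (x ^ n) := by
  induction n with
  | zero => rw [pow_zero]; exact isGU_one
  | succ n ih => rw [pow_succ]; exact ih.mul hx

theorem gr_pow {x : LaurentSeries L} (hx : IsGU A π x) (n : ℕ) :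
    gr A π (x ^ n) = gr A π x ^ n := by
  induction n with
  | zero =>
    rw [pow_zero, pow_zero, gr_eq (gaussRing A π).one_mem]
    have : (⟨1, (gaussRing A π).one_mem⟩ : gaussRing A π) = 1 := rfl
    rw [this, map_one]
  | succ n ih => rw [pow_succ, pow_succ, gr_mul (hx.pow n).1 hx.1, ih]

theorem IsGU.zpow {x : LaurentSeries L} (hx : IsGU A π x) (n : ℤ) : IsGU A π (x ^ n) := by
  cases n with
  | ofNat n => rw [Int.ofNat_eq_natCast, zpow_natCast]; exact hx.pow n
  | negSucc n => rw [zpow_negSucc]; exact (hx.pow (n + 1)).inv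

theorem gr_zpow {x : LaurentSeries L} (hx : IsGU A π x) (n : ℤ) :
    gr A π (x ^ n) = gr A π x ^ n := by
  cases n with
  | ofNat n => rw [Int.ofNat_eq_natCast, zpow_natCast, zpow_natCast, gr_pow hx]
  | negSucc n => rw [zpow_negSucc, zpow_negSucc, gr_inv (hx.pow (n + 1)), gr_pow hx]

theorem IsGU.qExp {x : LaurentSeries L} (hx : IsGU A π x) (d : ℕ) [NeZero d] :
    IsGU A π (qExpand L d x) := by
  refine ⟨qExpand_mem_gaussRing A π d hx.1, ?_⟩
  rw [gaussRed_qExpand A π d hx.1]
  exact (map_ne_zero (qExpand k d)).2 hx.2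

theorem gr_qExpand {x : LaurentSeries L} (hx : x ∈ gaussRing A π) (d : ℕ) [NeZero d] :
    gr A π (qExpand L d x) = qExpand k d (gr A π x) := by
  rw [gr_eq (qExpand_mem_gaussRing A π d hx), gr_eq hx, gaussRed_qExpand A π d hx]

theorem IsGU.tw {x : LaurentSeries L} (hx : IsGU A π x) (ζ : Aˣ) :
    IsGU A π (Fermat.Agent.Gateway.Kummer.twist (Units.map (A.subtype : A →* L) ζ) x) := by
  refine ⟨DlogHeckeRed.kummer_twist_mem_gaussRing A π ζ hx.1, ?_⟩
  rw [DlogHeckeRed.gaussRed_kummer_twist A π ζ hx.1]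
  exact (map_ne_zero _).2 hx.2

theorem IsGU.prod {ι : Type*} (s : Finset ι) (f : ι → LaurentSeries L)
    (hf : ∀ i ∈ s, IsGU A π (f i)) : IsGU A π (∏ i ∈ s, f i) := by
  classical
  induction s using Finset.induction_on with
  | empty => rw [Finset.prod_empty]; exact isGU_one
  | insert a s ha ih =>
    rw [Finset.prod_insert ha]
    exact (hf a (Finset.mem_insert_self a s)).mul
      (ih fun i hi => hf i (Finset.mem_insert_of_mem hi))

/-- a nonzero constant which is a Gauss unit reduces to a nonzero constant. -/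
theorem gr_C_of_isGU (hπ : Function.Surjective π) {c : L} (hc : IsGU A π (HahnSeries.C c)) :
    ∃ cb : k, cb ≠ 0 ∧ gr A π (HahnSeries.C c) = HahnSeries.C cb := by
  have hcA : c ∈ A := (C_mem_gaussRing_iff A π hπ c).1 hc.1
  have h1 : gr A π (HahnSeries.C c) = HahnSeries.C (π ⟨c, hcA⟩) := by
    rw [gr_eq hc.1]
    exact gaussRed_C A π ⟨c, hcA⟩
  refine ⟨π ⟨c, hcA⟩, ?_, h1⟩
  intro h0
  apply hc.gr_ne_zero
  rw [h1, h0, map_zero]

/-! ### `dlog` of integer powers -/

section Dlog

variable {K : Type*} [Field K]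

theorem dlog_inv {f : LaurentSeries K} (hf : f ≠ 0) : dlog f⁻¹ = -dlog f := by
  have h := dlog_mul hf (inv_ne_zero hf)
  rw [mul_inv_cancel₀ hf, dlog_one] at h
  exact eq_neg_of_add_eq_zero_right h.symm

theorem dlog_pow_nat {f : LaurentSeries K} (hf : f ≠ 0) (n : ℕ) :
    dlog (f ^ n) = (n : LaurentSeries K) * dlog f := by
  induction n with
  | zero => rw [pow_zero, dlog_one, Nat.cast_zero, zero_mul]
  | succ n ih =>
    rw [pow_succ, dlog_mul (pow_ne_zero n hf) hf, ih, Nat.cast_succ]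
    ring

theorem dlog_zpow {f : LaurentSeries K} (hf : f ≠ 0) (n : ℤ) :
    dlog (f ^ n) = (n : LaurentSeries K) * dlog f := by
  cases n with
  | ofNat n =>
    rw [Int.ofNat_eq_natCast, zpow_natCast, dlog_pow_nat hf, Int.cast_natCast]
  | negSucc n =>
    rw [zpow_negSucc, dlog_inv (pow_ne_zero _ hf), dlog_pow_nat hf, Int.cast_negSucc]
    ring

end Dlog

/-! ### The core -/

/-- **Kummer-Hecke core (function level, one valuation).**  `F`, `H` Gauss units,
`G = c * F^a * H^p`, `c != 0`, and the norm identity for `(G, F)` over `L` imply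
`heckeT l (dlog Fb) = a * dlog Fb` for the reduction `Fb = gr F`. -/
theorem heckeT_dlog_gr (hπ : Function.Surjective π) (p : ℕ) [CharP k p] {l : ℕ} [NeZero l]
    (hlk : (l : k) ≠ 0) (ζ : Aˣ) (hζk : IsPrimitiveRoot (Units.map (π : A →* k) ζ) l)
    {F G H : LaurentSeries L} {c : L} {a : ℤ} (hF : IsGU A π F) (hH : IsGU A π H) (hc : c ≠ 0)
    (hG : G = HahnSeries.C c * F ^ a * H ^ p)
    (hN : qExpand L l G = qExpand L l (qExpand L l F) *
      ∏ b ∈ Finset.range l,
        Fermat.Agent.Gateway.Kummer.twist ((Units.map (A.subtype : A →* L) ζ) ^ b) F) :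
    heckeT l (dlog (gr A π F)) = (a : LaurentSeries k) * dlog (gr A π F) := by
  -- the right-hand side of the norm identity is a Gauss unit
  have hP : IsGU A π (qExpand L l (qExpand L l F) *
      ∏ b ∈ Finset.range l,
        Fermat.Agent.Gateway.Kummer.twist ((Units.map (A.subtype : A →* L) ζ) ^ b) F) := by
    refine ((hF.qExp l).qExp l).mul (IsGU.prod _ _ fun b _ => ?_)
    rw [← map_pow]
    exact hF.tw (ζ ^ b)
  -- hence so is the constant `c`
  have hCc : IsGU A π (HahnSeries.C c) := by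
    have hCne : (HahnSeries.C c : LaurentSeries L) ≠ 0 := fun h0 =>
      hc (HahnSeries.C_injective (by rw [h0, map_zero]))
    have h1 : qExpand L l G = HahnSeries.C c * qExpand L l F ^ a * qExpand L l H ^ p := by
      rw [hG, map_mul, map_mul, qExpand_C, map_zpow₀, map_pow]
    have h2 : HahnSeries.C c = qExpand L l G * (qExpand L l F ^ a)⁻¹ * (qExpand L l H ^ p)⁻¹ := by
      have hFa : qExpand L l F ^ a ≠ 0 := zpow_ne_zero _ (hF.qExp l).ne_zero
      have hHp : qExpand L l H ^ p ≠ 0 := pow_ne_zero _ (hH.qExp l).ne_zero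
      rw [h1]
      field_simp
    rw [h2, hN]
    exact (hP.mul ((hF.qExp l).zpow a).inv).mul ((hH.qExp l).pow p).inv
  have hGU : IsGU A π G := by
    rw [hG]
    exact (hCc.mul (hF.zpow a)).mul (hH.pow p)
  -- the reduced norm identity and the `dlog`-Hecke relation
  have hred := DlogHeckeRed.norm_identity_red A π l ζ hGU.1 hF.1 (hF.qExp l).1 hN
  rw [gaussRed_qExpand A π l hF.1] at hred
  have h3 : dlog (gr A π G) = heckeT l (dlog (gr A π F)) := by
    rw [gr_eq hGU.1, gr_eq hF.1]
    exact dlog_of_norm_formula hlk hζk hF.2 hred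
  -- the reduction of `G = c F^a H^p`
  obtain ⟨cb, hcb, hgrC⟩ := gr_C_of_isGU hπ hCc
  have h4 : gr A π G = HahnSeries.C cb * gr A π F ^ a * gr A π H ^ p := by
    rw [hG, gr_mul (hCc.mul (hF.zpow a)).1 (hH.pow p).1, gr_mul hCc.1 (hF.zpow a).1, hgrC,
      gr_zpow hF, gr_pow hH]
  rw [← h3, h4, dlog_mul_pow_char p
      (mul_ne_zero (fun h0 => hcb (HahnSeries.C_injective (by rw [h0, map_zero])))
        (zpow_ne_zero _ hF.gr_ne_zero)) hH.gr_ne_zero,
    dlog_C_mul cb hcb (zpow_ne_zero _ hF.gr_ne_zero), dlog_zpow hF.gr_ne_zero]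

/-! ### Function-field form -/

section FunctionField

variable {L : Type*} [Field L] [Algebra ℚ L] (A : ValuationSubring L) {k : Type*} [Field k]
  (π : A →+* k) (N l : ℕ) [NeZero N] [NeZero l]

open Fermat.Agent.Gateway.Kummer in
/-- **Kummer-Hecke core, function-field form.**  If `heckeFun f = c * f^a * h^p` in `F_N`
(the Kummer step: both sides are Kummer functions of `a • x`), `f` and `h` are Gauss units and
the `q`-expansion norm formula (C1) holds, then `heckeT l (dlog fb) = a * dlog fb` for the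
reduction `fb` of `f`. -/
theorem heckeT_dlog_of_heckeFun_eq (hπ : Function.Surjective π) (p : ℕ) [CharP k p]
    (hlk : (l : k) ≠ 0) (ζ : Aˣ) (hζk : IsPrimitiveRoot (Units.map (π : A →* k) ζ) l)
    (hC1 : NormQExpFormula L N l (Units.map (A.subtype : A →* L) ζ))
    {f h : FF L N} {c : L} {a : ℤ}
    (hf : IsGU A π (f : LaurentSeries L)) (hh : IsGU A π (h : LaurentSeries L)) (hc : c ≠ 0)
    (hfun : heckeFun L N l f = algebraMap L (FF L N) c * f ^ a * h ^ p) :
    heckeT l (dlog (gr A π (f : LaurentSeries L))) =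
      (a : LaurentSeries k) * dlog (gr A π (f : LaurentSeries L)) := by
  have hG : ((heckeFun L N l f : FF L N) : LaurentSeries L) =
      HahnSeries.C c * (f : LaurentSeries L) ^ a * (h : LaurentSeries L) ^ p := by
    rw [hfun]
    have h1 : ((algebraMap L (FF L N) c * f ^ a * h ^ p : FF L N) : LaurentSeries L) =
        algebraMap (FF L N) (LaurentSeries L) (algebraMap L (FF L N) c * f ^ a * h ^ p) := rfl
    rw [h1, map_mul, map_mul, map_zpow₀, map_pow, ← IsScalarTower.algebraMap_apply,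
      algebraMap_eq_C]
    rfl
  have hN := hC1 f
  rw [← qExpand_qExpand] at hN
  exact heckeT_dlog_gr hπ p hlk ζ hζk hf hh hc hG hN

end FunctionField

end Fermat.Agent.S40x.C2.KHCoreB
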