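import Fermat.Agent.S40x.Slope.InstMq
import Fermat.Agent.S34x.TwoVal.Iota0Level
import Fermat.Agent.S40x.C2.KummerPull

/-!
# P-S44, block C2 (route OMEGA), seam (G-b): compatibility of the two Gauss reductions with the
inclusion of levels `F_{M' q} ⊆ F_{Mh q}` (`M' ∣ Mh`, `q ∤ Mh` the residue characteristic)

Setting of `Slope/InstMq` at the two levels `M' q` and `Mh q` (same `A`, `π`, `k`).  With
`inc : F_{M' q} → F_{Mh q}` the inclusion:

* `inc_mem_valInfty_iff`, `inc_mem_valZero_iff` : the Gauss rings of level `Mh q` restrict to the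
  Gauss rings of level `M' q` (for `v_0` this is helper44's `Iota0Level.inclusion_mem_Ov0_iff`);
* `unitTwo_inc` : `UnitTwo` at level `M' q` gives `UnitTwo` of the image at level `Mh q`;
* `coe_red_infty_inc`, `coe_red_zero_inc` : the reductions of `inc w'` at level `Mh q`, as Laurent
  series over `k`, are the reductions of `w'` at level `M' q`; hence they lie in `Fk k M'`
  (`coe_red_infty_inc_mem`, `coe_red_zero_inc_mem`);
* `exists_rep_inc` : every `m`-torsion class `x'` of level `M' q` has a Kummer function `w'` in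
  `F_{M' q}`, a unit at both valuations of level `M' q`, whose image `inc w'` is a unit at both
  valuations of level `Mh q` with both reductions in `Fk k M'`;
* `exists_rep_reductions_mem` : the `ℚ̄`-instance in the vocabulary `pullbackPic` of
  `Gateway/Descent/PicIncl` = the hypotheses `hw`, `hU`, `hw₁`, `hw₂` of `C2/AsmMain.c2_main` for
  `ξ = pullbackPic _ x'`.
-/

set_option autoImplicit false
set_option linter.style.haveILetI false
set_option linter.unusedSectionVars false

noncomputable section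

namespace Fermat.Agent.S40x.C2.LevelCompatB

open ModularCurve AlgebraicCurve IntermediateField IsLocalRing
open Fermat.Agent.Gateway.Hecke Fermat.Agent.Gateway.ESC Fermat.Agent.Gateway.Kummer
open Fermat.Agent.Gateway.Red Fermat.Agent.Gateway.GoodRed
open Fermat.Agent.S34x.TwoVal Fermat.Agent.S34x.C0two
open Fermat.Agent.S34x.Inst.RedSetupInst Fermat.Agent.S34x.Inst
open Fermat.Agent.S33x.KummerPn
open Fermat.Agent.S40x.Slope.UnitTwo Fermat.Agent.S40x.Slope.SlopeInv Fermat.Agent.S40x.Slope.Xf
  Fermat.Agent.S40x.Slope.OfRedSetup Fermat.Agent.S40x.Slope.InstMq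

/-! ### A valuation is `1` on the units of the valuation ring -/

theorem val_eq_one_of_mem {F : Type*} [Field F] (O : ValuationSubring F) {x : F} (hx : x ∈ O)
    (hx' : x⁻¹ ∈ O) (h0 : x ≠ 0) : O.valuation x = 1 := by
  have h1 : O.valuation x ≤ 1 := (O.valuation_le_one_iff x).mpr hx
  have h2 : O.valuation x⁻¹ ≤ 1 := (O.valuation_le_one_iff _).mpr hx'
  rw [map_inv₀] at h2
  have hv0 : O.valuation x ≠ 0 := (Valuation.ne_zero_iff _).mpr h0
  have h3 : 1 ≤ O.valuation x := (inv_le_one₀ (zero_lt_iff.mpr hv0)).mp h2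
  exact le_antisymm h1 h3

/-! ### The two levels -/

section Levels

variable {L : Type} [Field L] [Algebra ℚ L] [IsAlgClosed L] [Algebra.IsAlgebraic ℚ L]
  {A : ValuationSubring L}
  {k : Type} [Field k] {π : A →+* k} [IsAlgClosed k]
variable {M' Mh q : ℕ} [NeZero M'] [NeZero Mh] [NeZero q] [Fact q.Prime] [CharP k q]
variable {hdeg' : finrankAlong L (heckeAlphaBar L M' q) = q + 1}
  {hdeg : finrankAlong L (heckeAlphaBar L Mh q) = q + 1}
  {hq : q.Prime} {hqM' : ¬ q ∣ M'} {hqM : ¬ q ∣ Mh}
variable {hrk : ∀ x ∈ maximalIdeal A, ∀ c : A, c ≠ 0 → ∃ j : ℕ, c ∣ x ^ j}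
  {hπ : Function.Surjective π}

/-- the inclusion `F_{M' q} → F_{Mh q}` -/
abbrev inc (hM : M' ∣ Mh) : FL L (M' * q) →ₐ[L] FL L (Mh * q) :=
  IntermediateField.inclusion (FL_le_of_dvd (L := L) (mul_dvd_mul_right hM q))

theorem coe_inc (hM : M' ∣ Mh) (x : FL L (M' * q)) :
    ((inc (L := L) (q := q) hM x : FL L (Mh * q)) : LaurentSeries L) = (x : LaurentSeries L) :=
  IntermediateField.coe_inclusion _ x

variable (hM : M' ∣ Mh)

theorem inc_mem_valInfty_iff (x : FL L (M' * q)) :
    inc (L := L) (q := q) hM x ∈ valInfty A π Mh q hrk hπ hqM ↔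
      x ∈ valInfty A π M' q hrk hπ hqM' := by
  rw [mem_valInfty_iff, mem_valInfty_iff, mem_Ov_iff, mem_Ov_iff, coe_inc]

theorem inc_mem_valZero_iff (x : FL L (M' * q)) :
    inc (L := L) (q := q) hM x ∈ valZero A π Mh q hdeg hq hqM hrk hπ ↔
      x ∈ valZero A π M' q hdeg' hq hqM' hrk hπ :=
  inclusion_mem_Ov0_iff hM hdeg' hdeg hq hqM' hqM A π x

/-- **`UnitTwo` goes up along the inclusion of levels** -/
theorem unitTwo_inc {w' : FL L (M' * q)}
    (hU : UnitTwo (valInfty A π M' q hrk hπ hqM') (valZero A π M' q hdeg' hq hqM' hrk hπ) w') :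
    UnitTwo (valInfty A π Mh q hrk hπ hqM) (valZero A π Mh q hdeg hq hqM hrk hπ)
      (inc (L := L) (q := q) hM w') := by
  have h0 : inc (L := L) (q := q) hM w' ≠ 0 := (map_ne_zero _).mpr hU.ne_zero
  refine ⟨val_eq_one_of_mem _ ?_ ?_ h0, val_eq_one_of_mem _ ?_ ?_ h0⟩
  · exact (inc_mem_valInfty_iff hM w').mpr hU.mem₁
  · rw [← map_inv₀]
    exact (inc_mem_valInfty_iff hM w'⁻¹).mpr hU.inv.mem₁
  · exact (inc_mem_valZero_iff hM w').mpr hU.mem₂
  · rw [← map_inv₀]
    exact (inc_mem_valZero_iff hM w'⁻¹).mpr hU.inv.mem₂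

variable (H' : ResidueFacts A π M' q hdeg' hq hqM' hrk hπ)
  (H : ResidueFacts A π Mh q hdeg hq hqM hrk hπ) (hA : A.LiesOverPrime q)

/-- **the reduction at `v_∞` is compatible with the inclusion of levels** -/
theorem coe_red_infty_inc {w' : FL L (M' * q)} (hw' : w' ∈ valInfty A π M' q hrk hπ hqM') :
    ((red (valInfty A π Mh q hrk hπ hqM) (redSetupInfty H hA).res
        (inc (L := L) (q := q) hM w') : modularFunctionFieldFullC k Mh) : LaurentSeries k) =
      ((red (valInfty A π M' q hrk hπ hqM') (redSetupInfty H' hA).res w' :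
        modularFunctionFieldFullC k M') : LaurentSeries k) := by
  rw [red_of_mem ((inc_mem_valInfty_iff hM w').mpr hw'), red_of_mem hw']
  show ((resInfty H _ : modularFunctionFieldFullC k Mh) : LaurentSeries k) =
    ((resInfty H' _ : modularFunctionFieldFullC k M') : LaurentSeries k)
  rw [coe_resInfty, coe_resInfty, redV_apply, redV_apply]
  exact gaussRed_congr A π (coe_inc hM w') _ _

/-- **the reduction at `v_0` is compatible with the inclusion of levels** -/
theorem coe_red_zero_inc {w' : FL L (M' * q)}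
    (hw' : w' ∈ valZero A π M' q hdeg' hq hqM' hrk hπ) :
    ((red (valZero A π Mh q hdeg hq hqM hrk hπ) (redSetupZero H hA).res
        (inc (L := L) (q := q) hM w') : modularFunctionFieldFullC k Mh) : LaurentSeries k) =
      ((red (valZero A π M' q hdeg' hq hqM' hrk hπ) (redSetupZero H' hA).res w' :
        modularFunctionFieldFullC k M') : LaurentSeries k) := by
  rw [red_of_mem ((inc_mem_valZero_iff hM w').mpr hw'), red_of_mem hw']
  show ((resZero H _ : modularFunctionFieldFullC k Mh) : LaurentSeries k) =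
    ((resZero H' _ : modularFunctionFieldFullC k M') : LaurentSeries k)
  rw [coe_resZero, coe_resZero]
  exact red0_inclusion hM hdeg' hdeg hq hqM' hqM A π w' hw'

include H' in
theorem coe_red_infty_inc_mem {w' : FL L (M' * q)}
    (hw' : w' ∈ valInfty A π M' q hrk hπ hqM') :
    ((red (valInfty A π Mh q hrk hπ hqM) (redSetupInfty H hA).res
        (inc (L := L) (q := q) hM w') : modularFunctionFieldFullC k Mh) : LaurentSeries k) ∈
      modularFunctionFieldFullC k M' := by
  rw [coe_red_infty_inc hM H' H hA hw']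
  exact SetLike.coe_mem _

include H' in
theorem coe_red_zero_inc_mem {w' : FL L (M' * q)}
    (hw' : w' ∈ valZero A π M' q hdeg' hq hqM' hrk hπ) :
    ((red (valZero A π Mh q hdeg hq hqM hrk hπ) (redSetupZero H hA).res
        (inc (L := L) (q := q) hM w') : modularFunctionFieldFullC k Mh) : LaurentSeries k) ∈
      modularFunctionFieldFullC k M' := by
  rw [coe_red_zero_inc hM H' H hA hw']
  exact SetLike.coe_mem _

include H' in
/-- **level compatibility, general coefficient field**: every `m`-torsion class of level `M' q`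
has a Kummer function `w'` in `F_{M' q}`, a unit at both valuations of level `M' q`, whose image in
`F_{Mh q}` is a unit at both valuations of level `Mh q` with both reductions in `Fk k M'`. -/
theorem exists_rep_inc {m : ℕ} (hm : 0 < m) {x' : Pic0 L (FL L (M' * q))}
    (hx' : (m : ℤ) • x' = 0) :
    ∃ w' : FL L (M' * q), IsKummerRep m x' w' ∧
      UnitTwo (valInfty A π M' q hrk hπ hqM') (valZero A π M' q hdeg' hq hqM' hrk hπ) w' ∧
      UnitTwo (valInfty A π Mh q hrk hπ hqM) (valZero A π Mh q hdeg hq hqM hrk hπ)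
        (inc (L := L) (q := q) hM w') ∧
      ((red (valInfty A π Mh q hrk hπ hqM) (redSetupInfty H hA).res
        (inc (L := L) (q := q) hM w') : modularFunctionFieldFullC k Mh) : LaurentSeries k) ∈
        modularFunctionFieldFullC k M' ∧
      ((red (valZero A π Mh q hdeg hq hqM hrk hπ) (redSetupZero H hA).res
        (inc (L := L) (q := q) hM w') : modularFunctionFieldFullC k Mh) : LaurentSeries k) ∈
        modularFunctionFieldFullC k M' := by
  obtain ⟨w', hw', hU'⟩ := exists_unitTwo_rep (H := H') (hA := hA) hm hx'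
  exact ⟨w', hw', hU', unitTwo_inc hM hU', coe_red_infty_inc_mem hM H' H hA hU'.mem₁,
    coe_red_zero_inc_mem hM H' H hA hU'.mem₂⟩

end Levels

/-! ### The `ℚ̄`-instance, in the vocabulary `pullbackPic` / `pullbackTors` -/

section OverKbar

open Fermat.Agent.Gateway.Descent Fermat.Agent.S24 Fermat.Agent.S24.Setup
  Fermat.Agent.Gateway.S31Red

/-- `ℚ̄ / ℚ` is algebraic (local instance, needed by `Slope/InstMq`) -/
theorem isAlgebraic_Kbar' : Algebra.IsAlgebraic ℚ Kbar := AlgebraicClosure.isAlgebraic ℚ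

attribute [local instance] isAlgebraic_Kbar'

variable {A : ValuationSubring Kbar}
  {k : Type} [Field k] {π : A →+* k} [IsAlgClosed k]
variable {M' Mh q : ℕ} [NeZero M'] [NeZero Mh] [NeZero q] [Fact q.Prime] [CharP k q]
variable {hdeg' : finrankAlong Kbar (heckeAlphaBar Kbar M' q) = q + 1}
  {hdeg : finrankAlong Kbar (heckeAlphaBar Kbar Mh q) = q + 1}
  {hq : q.Prime} {hqM' : ¬ q ∣ M'} {hqM : ¬ q ∣ Mh}
variable {hrk : ∀ x ∈ maximalIdeal A, ∀ c : A, c ≠ 0 → ∃ j : ℕ, c ∣ x ^ j}
  {hπ : Function.Surjective π}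
variable (H' : ResidueFacts A π M' q hdeg' hq hqM' hrk hπ)
  (H : ResidueFacts A π Mh q hdeg hq hqM hrk hπ) (hA : A.LiesOverPrime q)

include H' in
/-- **level compatibility (G-b) of block C2**: for an `m`-torsion class `x'` of level `M' q`, its
pull-back to the level `Mh q` (`M' ∣ Mh`) has a Kummer function `w` which is a unit at both Gauss
valuations of level `Mh q` and whose two reductions, as Laurent series over `k`, lie in `Fk k M'`
= the hypotheses `hw`, `hU`, `hw₁`, `hw₂` of `C2/AsmMain.c2_main` at `ξ = pullbackPic h x'`. -/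
theorem exists_rep_pullbackPic (hM : M' ∣ Mh) (h : M' * q ∣ Mh * q) {m : ℕ} (hm : 0 < m)
    {x' : JZero (M' * q)} (hx' : (m : ℤ) • x' = 0) :
    ∃ w : FL Kbar (Mh * q), IsKummerRep m (pullbackPic h x') w ∧
      UnitTwo (valInfty A π Mh q hrk hπ hqM) (valZero A π Mh q hdeg hq hqM hrk hπ) w ∧
      ((red (valInfty A π Mh q hrk hπ hqM) (redSetupInfty H hA).res w :
        modularFunctionFieldFullC k Mh) : LaurentSeries k) ∈ modularFunctionFieldFullC k M' ∧
      ((red (valZero A π Mh q hdeg hq hqM hrk hπ) (redSetupZero H hA).res w :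
        modularFunctionFieldFullC k Mh) : LaurentSeries k) ∈ modularFunctionFieldFullC k M' := by
  obtain ⟨w', hw', -, hU, h1, h2⟩ := exists_rep_inc hM H' H hA hm hx'
  exact ⟨inc (L := Kbar) (q := q) hM w',
    Fermat.Agent.S40x.C2.KummerPull.isKummerRep_pullbackPic h hw', hU, h1, h2⟩

include H' in
/-- the same on the torsion subgroups (`pullbackTors` of `S33x/Consumer/LevelTransport`) -/
theorem exists_rep_pullbackTors (hM : M' ∣ Mh) (h : M' * q ∣ Mh * q) {m : ℕ} (hm : 0 < m)
    (n : ℕ) (x' : JTors (M' * q) n) (hx' : (m : ℤ) • (x' : JZero (M' * q)) = 0) :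
    ∃ w : FL Kbar (Mh * q),
      IsKummerRep m ((Fermat.Agent.S33x.Consumer.LevelTransport.pullbackTors h n x' :
        JTors (Mh * q) n) : JZero (Mh * q)) w ∧
      UnitTwo (valInfty A π Mh q hrk hπ hqM) (valZero A π Mh q hdeg hq hqM hrk hπ) w ∧
      ((red (valInfty A π Mh q hrk hπ hqM) (redSetupInfty H hA).res w :
        modularFunctionFieldFullC k Mh) : LaurentSeries k) ∈ modularFunctionFieldFullC k M' ∧
      ((red (valZero A π Mh q hdeg hq hqM hrk hπ) (redSetupZero H hA).res w :
        modularFunctionFieldFullC k Mh) : LaurentSeries k) ∈ modularFunctionFieldFullC k M' := by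
  rw [Fermat.Agent.S33x.Consumer.LevelTransport.coe_pullbackTors]
  exact exists_rep_pullbackPic H' H hA hM h hm hx'

/-- **(G-b) with the residue facts at the level `Mh q` only** (those of the level `M' q` are
supplied by `ResidueInst.residueFacts` and `hdegQb`). -/
theorem exists_rep_pullbackTors_of_top (hM : M' ∣ Mh) (h : M' * q ∣ Mh * q) {m : ℕ}
    (hm : 0 < m) (n : ℕ) (x' : JTors (M' * q) n) (hx' : (m : ℤ) • (x' : JZero (M' * q)) = 0) :
    ∃ w : FL Kbar (Mh * q),
      IsKummerRep m ((Fermat.Agent.S33x.Consumer.LevelTransport.pullbackTors h n x' :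
        JTors (Mh * q) n) : JZero (Mh * q)) w ∧
      UnitTwo (valInfty A π Mh q hrk hπ hqM) (valZero A π Mh q hdeg hq hqM hrk hπ) w ∧
      ((red (valInfty A π Mh q hrk hπ hqM) (redSetupInfty H hA).res w :
        modularFunctionFieldFullC k Mh) : LaurentSeries k) ∈ modularFunctionFieldFullC k M' ∧
      ((red (valZero A π Mh q hdeg hq hqM hrk hπ) (redSetupZero H hA).res w :
        modularFunctionFieldFullC k Mh) : LaurentSeries k) ∈ modularFunctionFieldFullC k M' := by
  have hqM' : ¬ q ∣ M' := fun hd => hqM (hd.trans hM)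
  exact exists_rep_pullbackTors
    (ResidueInst.residueFacts A π M' q (hdegQb M' q hq hqM') hq hqM' hrk hπ) H hA hM h hm n x' hx'

end OverKbar

end Fermat.Agent.S40x.C2.LevelCompatB
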