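import Mathlib

/-!
# Relative norms and valuations of norms at primes of residue degree one, in any characteristic

Tool for DIAG (P-S44, block C2) and for the cusp gap: the landed `S24/OrdNorm` and
`Gateway/HK1/Ext` norm formulas assume `[PerfectField (FractionRing A)]` (through Mathlib's
`Ideal.relNorm_eq_pow_of_isMaximal`), so they do not apply to function fields of characteristic
`p`. Here the same statements are proved for Dedekind domains `B / A` (finite, torsion free) with
NO perfectness and NO separability hypothesis, under the assumption that all primes over the given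
maximal ideal `p` have inertia degree one (automatic over an algebraically closed constant field).

* `relNorm_eq_of_inertiaDeg_eq_one`: `relNorm A Q = p` for every prime `Q` over `p`.
* `multiplicity_relNorm`: `mult_p (relNorm A I) = ∑_{Q | p} mult_Q I`.
* `log_valuation_norm`: `v_p (N_{F/L} f) = ∑_{Q | p} v_Q f`.

Proof of the first: `relNorm A Q = p ^ s_Q` with `s_Q ≥ 1`; taking `relNorm` of
`pB = ∏ Q ^ e_Q` gives `p ^ n = p ^ (∑ s_Q e_Q)`, and `n = ∑ e_Q f_Q = ∑ e_Q`, so all `s_Q = 1`.
-/

set_option autoImplicit false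

noncomputable section

open Ideal IsDedekindDomain IsDedekindDomain.HeightOneSpectrum WithZero

namespace Fermat.Agent.S40x.C2.NormSep

section Core

variable {A B : Type*} [CommRing A] [IsDedekindDomain A] [CommRing B] [IsDedekindDomain B]
  [Algebra A B] [Module.Finite A B] [Module.IsTorsionFree A B]

/-- **Relative norm of a prime of residue degree one** (no perfectness/separability hypothesis):
if every prime of `B` over the maximal ideal `p ≠ ⊥` of `A` has inertia degree one, then
`relNorm A Q = p` for every such prime `Q`. -/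
theorem relNorm_eq_of_inertiaDeg_eq_one (p : Ideal A) [hp : p.IsMaximal] (hp0 : p ≠ ⊥)
    (hf : ∀ Q ∈ p.primesOver B, Q.inertiaDeg A = 1) {Q : Ideal B} (hQ : Q ∈ p.primesOver B) :
    relNorm A Q = p := by
  classical
  have hint : Algebra.IsIntegral A B := Algebra.IsIntegral.of_finite A B
  -- the exponents `s Q` with `relNorm A Q = p ^ s Q`, `1 ≤ s Q`
  have hs : ∀ Q : Ideal B, ∃ s : ℕ, Q ∈ p.primesOver B → relNorm A Q = p ^ s ∧ 1 ≤ s := by
    intro Q
    by_cases hQ : Q ∈ p.primesOver B
    · have hQp : Q.IsPrime := hQ.1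
      have hQl : Q.LiesOver p := hQ.2
      obtain ⟨s, hs⟩ := exists_relNorm_eq_pow_of_isPrime Q p
      refine ⟨s, fun _ => ⟨hs, ?_⟩⟩
      by_contra h
      have h0 : s = 0 := by omega
      rw [h0, pow_zero, Ideal.one_eq_top] at hs
      have hle := relNorm_le_comap A Q
      rw [hs, top_le_iff] at hle
      have hu : Q.under A = p := (hQl.over).symm
      exact hp.ne_top (hu ▸ hle)
    · exact ⟨0, fun h => absurd h hQ⟩
  choose s hs using hs
  -- `p ^ finrank = p ^ ∑ s e`
  have hprod := congr_arg (relNorm A) (map_algebraMap_eq_finsetProd_pow (R := B) (p := p) hp0)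
  rw [relNorm_algebraMap B p, map_prod] at hprod
  have hprod2 : ∏ Q ∈ (p.primesOver B).toFinset, relNorm A (Q ^ Q.ramificationIdx A) =
      p ^ ∑ Q ∈ (p.primesOver B).toFinset, s Q * Q.ramificationIdx A := by
    rw [← Finset.prod_pow_eq_pow_sum]
    refine Finset.prod_congr rfl (fun Q hQ => ?_)
    rw [Set.mem_toFinset] at hQ
    rw [map_pow, (hs Q hQ).1, pow_mul]
  rw [hprod2] at hprod
  have hpne : p ≠ 0 := hp0
  have hinj := (IsLeftCancelMulZero.mul_left_cancel_of_ne_zero hpne).pow_injective
    (fun hu => hp.ne_top (by rwa [Ideal.one_eq_top] at hu))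
  have hsum1 : Module.finrank A B = ∑ Q ∈ (p.primesOver B).toFinset, s Q * Q.ramificationIdx A :=
    hinj hprod
  have hsum2 : ∑ Q ∈ (p.primesOver B).toFinset, Q.ramificationIdx A = Module.finrank A B := by
    rw [← sum_ramification_inertia_eq_finrank p B, Finset.sum_set_coe (p.primesOver B)
      (f := fun Q => Q.ramificationIdx A * Q.inertiaDeg A)]
    refine Finset.sum_congr rfl (fun Q hQ => ?_)
    rw [Set.mem_toFinset] at hQ
    rw [hf Q hQ, mul_one]
  -- conclude
  have hs1 : s Q = 1 := by
    by_contra hne
    have h2 : 2 ≤ s Q := by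
      have := (hs Q hQ).2
      omega
    have hlt : ∑ Q ∈ (p.primesOver B).toFinset, Q.ramificationIdx A <
        ∑ Q ∈ (p.primesOver B).toFinset, s Q * Q.ramificationIdx A := by
      refine Finset.sum_lt_sum (fun Q' hQ' => ?_) ⟨Q, Set.mem_toFinset.mpr hQ, ?_⟩
      · rw [Set.mem_toFinset] at hQ'
        exact Nat.le_mul_of_pos_left _ (hs Q' hQ').2
      · have hQp : Q.IsPrime := hQ.1
        have hpos : 0 < Q.ramificationIdx A := ramificationIdx_pos Q A
        nlinarith
    omega
  rw [(hs Q hQ).1, hs1, pow_one]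

theorem multiplicity_prime_prime {P Q : Ideal B} (hP : P.IsMaximal) (hQ : Q.IsMaximal) :
    multiplicity P Q = if P = Q then 1 else 0 := by
  split_ifs with h
  · subst h
    exact multiplicity_self
  · rw [multiplicity_eq_zero, Ideal.dvd_iff_le]
    intro hle
    exact h (hQ.eq_of_le hP.ne_top hle).symm

theorem multiplicity_top {P : Ideal B} (hP : P.IsMaximal) : multiplicity P (⊤ : Ideal B) = 0 := by
  rw [multiplicity_eq_zero, Ideal.dvd_iff_le, top_le_iff]
  exact hP.ne_top

theorem multiplicity_relNorm_prime (p : Ideal A) [hp : p.IsMaximal] (hp0 : p ≠ ⊥)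
    (hf : ∀ Q ∈ p.primesOver B, Q.inertiaDeg A = 1) (Q : Ideal B) [hQ : Q.IsMaximal] :
    multiplicity p (relNorm A Q) = if Q.under A = p then 1 else 0 := by
  have hint : Algebra.IsIntegral A B := Algebra.IsIntegral.of_finite A B
  have hq : (Q.under A).IsMaximal := Ideal.IsMaximal.under A Q
  have hlies : Q.LiesOver (Q.under A) := ⟨rfl⟩
  split_ifs with h
  · have hQmem : Q ∈ p.primesOver B := ⟨hQ.isPrime, ⟨h.symm⟩⟩
    rw [relNorm_eq_of_inertiaDeg_eq_one p hp0 hf hQmem]
    exact multiplicity_self
  · obtain ⟨s, hs⟩ := exists_relNorm_eq_pow_of_isPrime Q (Q.under A)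
    rw [hs, multiplicity_eq_zero]
    intro hdvd
    have hprime : Prime p := (Ideal.prime_iff_isPrime hp0).mpr hp.isPrime
    have h1 : p ∣ Q.under A := hprime.dvd_of_dvd_pow hdvd
    rw [Ideal.dvd_iff_le] at h1
    exact h (hq.eq_of_le hp.ne_top h1)

/-- The multiplicity of a maximal ideal `p` of `A` in the relative norm of an ideal `I` of `B`
is the sum over the primes `Q` over `p` of the multiplicity of `Q` in `I`, provided all primes
over `p` have inertia degree one. No perfectness or separability hypothesis. -/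
theorem multiplicity_relNorm (p : Ideal A) [hp : p.IsMaximal] (hp0 : p ≠ ⊥)
    (hf : ∀ Q ∈ p.primesOver B, Q.inertiaDeg A = 1) (I : Ideal B) (hI : I ≠ ⊥) :
    multiplicity p (relNorm A I) = ∑ Q : p.primesOver B, multiplicity Q.1 I := by
  have hint : Algebra.IsIntegral A B := Algebra.IsIntegral.of_finite A B
  have hprime : Prime p := (Ideal.prime_iff_isPrime hp0).mpr hp.isPrime
  have hQne : ∀ Q : p.primesOver B, Q.1 ≠ ⊥ := fun Q =>
    Ideal.ne_bot_of_mem_primesOver hp0 Q.2
  have hQprime : ∀ Q : p.primesOver B, Prime Q.1 := fun Q =>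
    (Ideal.prime_iff_isPrime (hQne Q)).mpr Q.2.1
  have hQmax : ∀ Q : p.primesOver B, Q.1.IsMaximal := fun Q =>
    Q.2.1.isMaximal (hQne Q)
  revert hI
  refine UniqueFactorizationMonoid.induction_on_prime
    (P := fun I : Ideal B => I ≠ ⊥ → multiplicity p (relNorm A I) =
      ∑ Q : p.primesOver B, multiplicity Q.1 I) I ?_ ?_ ?_
  · intro h
    exact absurd Ideal.zero_eq_bot h
  · intro x hx _
    rw [Ideal.isUnit_iff] at hx
    subst hx
    rw [relNorm_top, multiplicity_top hp]
    symm
    apply Finset.sum_eq_zero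
    intro Q _
    rw [multiplicity_top (hQmax Q)]
  · intro a q ha hq IH _
    have ha' : a ≠ ⊥ := ha
    have hq0 : q ≠ ⊥ := hq.ne_zero
    have hqP : q.IsPrime := (Ideal.prime_iff_isPrime hq0).mp hq
    have hqmax : q.IsMaximal := hqP.isMaximal hq0
    have hne : relNorm A q * relNorm A a ≠ 0 := by
      apply mul_ne_zero
      · rw [Ne, Ideal.zero_eq_bot, relNorm_eq_bot_iff]; exact hq0
      · rw [Ne, Ideal.zero_eq_bot, relNorm_eq_bot_iff]; exact ha'
    rw [map_mul, multiplicity_mul hprime (FiniteMultiplicity.of_prime_left hprime hne), IH ha']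
    have hsum : ∀ Q : p.primesOver B, multiplicity Q.1 (q * a) =
        multiplicity Q.1 q + multiplicity Q.1 a := by
      intro Q
      rw [multiplicity_mul (hQprime Q)
        (FiniteMultiplicity.of_prime_left (hQprime Q) (mul_ne_zero hq0 ha'))]
    rw [Finset.sum_congr rfl (fun Q _ => hsum Q), Finset.sum_add_distrib]
    congr 1
    rw [multiplicity_relNorm_prime p hp0 hf q]
    split_ifs with h
    · -- `q` lies over `p`
      let Q₀ : p.primesOver B := ⟨q, hqP, ⟨h.symm⟩⟩
      rw [Finset.sum_eq_single Q₀]
      · show 1 = multiplicity q q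
        rw [multiplicity_self]
      · intro Q _ hQ
        rw [multiplicity_prime_prime (hQmax Q) hqmax, if_neg]
        intro h'
        exact hQ (Subtype.ext h')
      · intro h'
        exact absurd (Finset.mem_univ _) h'
    · symm
      apply Finset.sum_eq_zero
      intro Q _
      rw [multiplicity_prime_prime (hQmax Q) hqmax, if_neg]
      intro h'
      apply h
      rw [← h']
      exact ((Ideal.liesOver_iff _ _).mp Q.2.2).symm

variable {L F : Type*} [Field L] [Field F] [Algebra A L] [IsFractionRing A L] [Algebra L F]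
  [Algebra A F] [IsScalarTower A L F] [Algebra B F] [IsScalarTower A B F]
  [IsIntegralClosure B A F] [IsFractionRing B F] [FiniteDimensional L F]

/-- a prime over `p`, as a height one prime -/
def primeOver (p : HeightOneSpectrum A) (Q : p.asIdeal.primesOver B) : HeightOneSpectrum B :=
  ⟨Q.1, Q.2.1, Ideal.ne_bot_of_mem_primesOver p.ne_bot Q.2⟩

omit [Module.Finite A B] in
theorem log_valuation_algebraMap (P : HeightOneSpectrum B) {b : B} (hb : b ≠ 0) :
    log (P.valuation F (algebraMap B F b)) = -(multiplicity P.asIdeal (Ideal.span {b}) : ℤ) := by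
  rw [valuation_of_algebraMap, intValuation_eq_exp_neg_multiplicity P hb, log_exp]

theorem log_valuation_norm_algebraMap (p : HeightOneSpectrum A)
    (hf : ∀ Q ∈ p.asIdeal.primesOver B, Q.inertiaDeg A = 1) {b : B} (hb : b ≠ 0) :
    log (p.valuation L (Algebra.norm L (algebraMap B F b))) =
      ∑ Q : p.asIdeal.primesOver B, log ((primeOver p Q).valuation F (algebraMap B F b)) := by
  have hint' : Algebra.IsIntegral A B := Algebra.IsIntegral.of_finite A B
  have hpmax : p.asIdeal.IsMaximal := p.isMaximal
  have hbF : algebraMap B F b ≠ 0 := (IsFractionRing.injective B F).ne hb |>.trans_eq (map_zero _)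
  have hN : Algebra.norm L (algebraMap B F b) ≠ 0 := by
    rw [Ne, Algebra.norm_eq_zero_iff]
    exact hbF
  have hint : algebraMap A L (Algebra.intNorm A B b) = Algebra.norm L (algebraMap B F b) :=
    Algebra.algebraMap_intNorm (A := A) (K := L) (L := F) (B := B) b
  have hc0 : Algebra.intNorm A B b ≠ 0 := by
    intro h0
    rw [h0, map_zero] at hint
    exact hN hint.symm
  rw [← hint, valuation_of_algebraMap, intValuation_eq_exp_neg_multiplicity p hc0, log_exp,
    ← relNorm_singleton, multiplicity_relNorm p.asIdeal p.ne_bot hf _ (by simpa using hb)]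
  rw [Finset.sum_congr rfl (fun Q _ => log_valuation_algebraMap (F := F) (primeOver p Q) hb),
    Finset.sum_neg_distrib, Nat.cast_sum]
  rfl

/-- **Valuation of a norm** (any characteristic, no perfectness/separability hypothesis): if all
residue degrees over `p` are one, the `p`-adic order of `N_{F/L} f` is the sum of the orders of
`f` at the primes above `p`. -/
theorem log_valuation_norm (p : HeightOneSpectrum A)
    (hf : ∀ Q ∈ p.asIdeal.primesOver B, Q.inertiaDeg A = 1) {f : F} (hf0 : f ≠ 0) :
    log (p.valuation L (Algebra.norm L f)) =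
      ∑ Q : p.asIdeal.primesOver B, log ((primeOver p Q).valuation F f) := by
  obtain ⟨b, c, hc, rfl⟩ := IsFractionRing.div_surjective (A := B) f
  have hc0 : c ≠ 0 := nonZeroDivisors.ne_zero hc
  have hb0 : b ≠ 0 := by
    rintro rfl
    simp at hf0
  have hbF : algebraMap B F b ≠ 0 := (IsFractionRing.injective B F).ne hb0 |>.trans_eq (map_zero _)
  have hcF : algebraMap B F c ≠ 0 := (IsFractionRing.injective B F).ne hc0 |>.trans_eq (map_zero _)
  have hNb : Algebra.norm L (algebraMap B F b) ≠ 0 := by
    rw [Ne, Algebra.norm_eq_zero_iff]; exact hbF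
  have hNc : Algebra.norm L (algebraMap B F c) ≠ 0 := by
    rw [Ne, Algebra.norm_eq_zero_iff]; exact hcF
  set f := algebraMap B F b / algebraMap B F c with hfdef
  have hmul : f * algebraMap B F c = algebraMap B F b := div_mul_cancel₀ _ hcF
  have hNf : Algebra.norm L f ≠ 0 := by
    rw [Ne, Algebra.norm_eq_zero_iff]; exact hf0
  have h1 : log (p.valuation L (Algebra.norm L f)) =
      log (p.valuation L (Algebra.norm L (algebraMap B F b))) -
        log (p.valuation L (Algebra.norm L (algebraMap B F c))) := by
    rw [eq_sub_iff_add_eq, ← log_mul ((Valuation.ne_zero_iff _).mpr hNf)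
      ((Valuation.ne_zero_iff _).mpr hNc), ← map_mul, ← map_mul, hmul]
  rw [h1, log_valuation_norm_algebraMap p hf hb0, log_valuation_norm_algebraMap p hf hc0,
    ← Finset.sum_sub_distrib]
  refine Finset.sum_congr rfl (fun Q _ => ?_)
  rw [sub_eq_iff_eq_add, ← log_mul ((Valuation.ne_zero_iff _).mpr hf0)
    ((Valuation.ne_zero_iff _).mpr hcF), ← map_mul, hmul]

end Core

end Fermat.Agent.S40x.C2.NormSep
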