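import Fermat.Agent.Gateway.HK1.Ext
import Fermat.Agent.S40x.C2.NormSep

/-!
# Fundamental identity and norm formula at places for SEPARABLE extensions, any characteristic

`F' / F` a finite separable extension of fields over `K` (no `PerfectField`, no `CharZero`: the
landed `Gateway/HK1/Ext.{fundamentalIdentity, pushforwardNormFormula}` and
`Gateway/Hecke/NormFormula` need those, so they do not apply to function fields in
characteristic `p`).

* `sum_ramificationIndex_mul_inertiaDeg_place`, `sumRamificationInertia_of_isSeparable`,
  `fundamentalIdentity_of_isSeparable`: `∑_{w | v} e(w|v) f(w|v) = [F' : F]`.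
* `sum_ord_fiber`: if all places over `v` have inertia degree one,
  `∑_{w | v} ord_w g = ord_v (N g)`; `sum_ord_mul_inertiaDeg_place` is the same statement in the
  shape of `HK1.sum_ord_mul_inertiaDeg_place`.
* `pushforwardNormFormula_of_inertiaDeg_eq_one`, and the `Along` forms.
* `inertiaDeg_eq_one_of_deg_eq_one`: if all places of `F'` have degree one (algebraically closed
  constants) then all inertia degrees are one.
* `card_fiber_of_unramified`, `ord_norm_eq_nsmul_of_const`: consumer corollaries for DIAG.
-/

set_option autoImplicit false
set_option linter.unusedSectionVars false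

noncomputable section

open AlgebraicCurve IsDedekindDomain IsDedekindDomain.HeightOneSpectrum WithZero Ideal

namespace Fermat.Agent.S40x.C2.NormSepPlace

open Fermat.Agent.S24 Fermat.Agent.Gateway

section Abstract

variable {K F F' : Type*} [Field K] [Field F] [Field F'] [Algebra K F] [Algebra K F']
  [Algebra F F'] [IsScalarTower K F F'] [Algebra.IsIntegral F F']
variable {A B : Type*} [CommRing A] [IsDedekindDomain A] [CommRing B] [IsDedekindDomain B]
  [Algebra A B] [Module.IsTorsionFree A B]
  [Algebra A F] [IsFractionRing A F] [Algebra A F'] [IsScalarTower A F F']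
  [Algebra B F'] [IsFractionRing B F'] [IsScalarTower A B F']
  [Algebra K A] [IsScalarTower K A F] [Algebra K B] [IsScalarTower K B F']
  [IsIntegralClosure B A F'] [Module.Finite A B] [HasPrincipalDivisors K F']
  [FiniteDimensional F F']

variable (B) in
include B in
/-- **Norm formula** at the place of `p`, all inertia degrees over `p` being one. -/
theorem sum_ord_placeOfPrime (p : HeightOneSpectrum A)
    (hf : ∀ Q ∈ p.asIdeal.primesOver B, Q.inertiaDeg A = 1) {f : F'} (hf0 : f ≠ 0) :
    ∑ w ∈ (PD.placeOfPrime (K := K) (F := F) p).fiber F', w.ord f =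
      (PD.placeOfPrime (K := K) (F := F) p).ord (Algebra.norm F f) := by
  rw [HK1.sum_fiber_eq (B := B) p, PD.placeOfPrime_ord,
    NormSep.log_valuation_norm (B := B) p hf hf0, ← Finset.sum_neg_distrib]
  refine Finset.sum_congr rfl fun Q _ => ?_
  rw [PD.placeOfPrime_ord]
  rfl

end Abstract

section Basic

variable {K F F' : Type*} [Field K] [Field F] [Field F'] [Algebra K F] [Algebra K F']
  [Algebra F F'] [IsScalarTower K F F']

theorem placeOfPrime_heightOneSpectrum (v : Place K F) :
    PD.placeOfPrime (K := K) (F := F) v.heightOneSpectrum = v := by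
  have h := PD.placeOfPrime_primeOfPlace (B := v.toValuationSubring) v (fun b => b.2)
  have h2 : PD.primeOfPlace (B := v.toValuationSubring) v (fun b => b.2) = v.heightOneSpectrum := by
    apply HeightOneSpectrum.ext
    ext b
    rw [PD.mem_primeOfPlace_iff]
    rfl
  rwa [h2] at h

/-- If all places of `F'` have degree one (e.g. `K` algebraically closed) then all inertia degrees
are one. -/
theorem inertiaDeg_eq_one_of_deg_eq_one [Algebra.IsIntegral F F'] (hdeg : ∀ w : Place K F', w.deg = 1) (w : Place K F') :
    w.inertiaDeg F = 1 := by
  have h := w.deg_restrict_mul_inertiaDeg (F := F)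
  rw [hdeg w] at h
  exact Nat.eq_one_of_mul_eq_one_left h

end Basic

section Concrete

variable {K F F' : Type*} [Field K] [Field F] [Field F'] [Algebra K F] [Algebra K F']
  [Algebra F F'] [IsScalarTower K F F'] [FiniteDimensional F F'] [Algebra.IsSeparable F F']
  [HasPrincipalDivisors K F']

set_option maxHeartbeats 1000000 in
/-- **Fundamental identity** `∑_{w | v} e(w|v) f(w|v) = [F' : F]`, separable case. -/
theorem sum_ramificationIndex_mul_inertiaDeg_place (v : Place K F) :
    ∑ w ∈ v.fiber F', (w.ramificationIndex F : ℤ) * (w.inertiaDeg F : ℤ) =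
      (Module.finrank F F' : ℤ) := by
  let A := ↥v.toValuationSubring
  let _ : Algebra A F' := ((algebraMap F F').comp (algebraMap A F)).toAlgebra
  have : IsScalarTower A F F' := IsScalarTower.of_algebraMap_eq fun _ => rfl
  have : IsScalarTower K A F' := IsScalarTower.of_algebraMap_eq fun k => by
    show algebraMap K F' k = algebraMap F F' (algebraMap A F (algebraMap K A k))
    rw [← IsScalarTower.algebraMap_apply K A F, ← IsScalarTower.algebraMap_apply K F F']
  have : Module.IsTorsionFree A F' := Module.isTorsionFree_iff_algebraMap_injective.mpr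
    ((algebraMap F F').injective.comp (IsFractionRing.injective A F))
  let B := integralClosure A F'
  have : IsDedekindDomain B := integralClosure.isDedekindDomain A F F'
  have : IsFractionRing B F' := integralClosure.isFractionRing_of_finite_extension F F'
  have : Module.Finite A B := IsIntegralClosure.finite A F F' B
  have h := HK1.sum_ramificationIndex_mul_inertiaDeg (K := K) (F := F) (F' := F') B
    v.heightOneSpectrum
  rwa [placeOfPrime_heightOneSpectrum] at h

set_option maxHeartbeats 1000000 in
/-- **Norm formula** `∑_{w | v} ord_w g = ord_v (N g)` when all places over `v` have inertia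
degree one; separable case, any characteristic. -/
theorem sum_ord_fiber (v : Place K F) (h1 : ∀ w ∈ v.fiber F', w.inertiaDeg F = 1) {g : F'}
    (hg : g ≠ 0) :
    ∑ w ∈ v.fiber F', w.ord g = v.ord (Algebra.norm F g) := by
  let A := ↥v.toValuationSubring
  let _ : Algebra A F' := ((algebraMap F F').comp (algebraMap A F)).toAlgebra
  have : IsScalarTower A F F' := IsScalarTower.of_algebraMap_eq fun _ => rfl
  have : IsScalarTower K A F' := IsScalarTower.of_algebraMap_eq fun k => by
    show algebraMap K F' k = algebraMap F F' (algebraMap A F (algebraMap K A k))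
    rw [← IsScalarTower.algebraMap_apply K A F, ← IsScalarTower.algebraMap_apply K F F']
  have : Module.IsTorsionFree A F' := Module.isTorsionFree_iff_algebraMap_injective.mpr
    ((algebraMap F F').injective.comp (IsFractionRing.injective A F))
  let B := integralClosure A F'
  have : IsDedekindDomain B := integralClosure.isDedekindDomain A F F'
  have : IsFractionRing B F' := integralClosure.isFractionRing_of_finite_extension F F'
  have : Module.Finite A B := IsIntegralClosure.finite A F F' B
  have hv : PD.placeOfPrime (K := K) (F := F) v.heightOneSpectrum = v :=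
    placeOfPrime_heightOneSpectrum v
  have hf : ∀ Q ∈ v.heightOneSpectrum.asIdeal.primesOver B, Q.inertiaDeg A = 1 := by
    intro Q hQ
    let Q' : v.heightOneSpectrum.asIdeal.primesOver B := ⟨Q, hQ⟩
    have hin := HK1.inertiaDeg_placeOfPrime (K := K) (F := F) (F' := F') v.heightOneSpectrum
      (HK1.primeAbove v.heightOneSpectrum Q')
    have hmem : PD.placeOfPrime (K := K) (F := F') (HK1.primeAbove v.heightOneSpectrum Q') ∈
        v.fiber F' := by
      rw [Place.mem_fiber, HK1.restrict_placeOfPrime (K := K) (F := F) (F' := F')
        v.heightOneSpectrum (HK1.primeAbove v.heightOneSpectrum Q'), hv]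
    rw [h1 _ hmem] at hin
    exact hin.symm
  have h := sum_ord_placeOfPrime (K := K) (F := F) (F' := F') B v.heightOneSpectrum hf hg
  rwa [hv] at h

/-- The norm formula in the shape of `HK1.sum_ord_mul_inertiaDeg_place`. -/
theorem sum_ord_mul_inertiaDeg_place (v : Place K F) (h1 : ∀ w ∈ v.fiber F', w.inertiaDeg F = 1)
    {g : F'} (hg : g ≠ 0) :
    ∑ w ∈ v.fiber F', w.ord g * (w.inertiaDeg F : ℤ) = v.ord (Algebra.norm F g) := by
  rw [← sum_ord_fiber v h1 hg]
  refine Finset.sum_congr rfl fun w hw => ?_
  rw [h1 w hw, Nat.cast_one, mul_one]

/-- The prelude's `SumRamificationInertia` for a finite separable extension. -/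
theorem sumRamificationInertia_of_isSeparable : SumRamificationInertia K F F' :=
  ⟨sum_ramificationIndex_mul_inertiaDeg_place⟩

/-- The prelude's `FundamentalIdentity` for a finite separable extension. -/
theorem fundamentalIdentity_of_isSeparable : FundamentalIdentity K F F' :=
  haveI := sumRamificationInertia_of_isSeparable (K := K) (F := F) (F' := F')
  inferInstance

/-- The prelude's `PushforwardNormFormula` for a finite separable extension all of whose inertia
degrees are one. -/
theorem pushforwardNormFormula_of_inertiaDeg_eq_one (h1 : ∀ w : Place K F', w.inertiaDeg F = 1) :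
    Divisor.PushforwardNormFormula K F F' := by
  classical
  intro f hf D hD v
  rw [Divisor.pushforward_apply, ← Finset.sum_filter]
  have hsub : D.support.filter (fun w => w.restrict F = v) ⊆ v.fiber F' := by
    intro w hw
    exact Place.mem_fiber.mpr (Finset.mem_filter.mp hw).2
  rw [Finset.sum_subset hsub, ← sum_ord_mul_inertiaDeg_place v (fun w _ => h1 w) hf]
  · exact Finset.sum_congr rfl (fun w _ => by rw [hD])
  · intro w hw hnot
    have h0 : D w = 0 := by
      by_contra h
      exact hnot (Finset.mem_filter.mpr ⟨Finsupp.mem_support_iff.mpr h, Place.mem_fiber.mp hw⟩)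
    rw [h0, zero_mul]

/-- DIAG consumer: over a place `v` all of whose fibre points are unramified of inertia degree
one, the fibre has exactly `[F' : F]` points. -/
theorem card_fiber_of_unramified (v : Place K F) (h1 : ∀ w ∈ v.fiber F', w.inertiaDeg F = 1)
    (he : ∀ w ∈ v.fiber F', w.ramificationIndex F = 1) :
    (v.fiber F').card = Module.finrank F F' := by
  have h := sum_ramificationIndex_mul_inertiaDeg_place (F' := F') v
  rw [Finset.sum_congr rfl (fun w hw => by rw [h1 w hw, he w hw]; norm_num :
    ∀ w ∈ v.fiber F', (w.ramificationIndex F : ℤ) * (w.inertiaDeg F : ℤ) = 1)] at h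
  rw [Finset.sum_const, nsmul_eq_mul, mul_one] at h
  exact_mod_cast h

/-- DIAG consumer: if `ord_w g = c` at all (unramified, inertia degree one) places `w` over `v`,
then `ord_v (N g) = [F' : F] * c`. -/
theorem ord_norm_eq_mul_of_const (v : Place K F) (h1 : ∀ w ∈ v.fiber F', w.inertiaDeg F = 1)
    (he : ∀ w ∈ v.fiber F', w.ramificationIndex F = 1) {g : F'} (hg : g ≠ 0) {c : ℤ}
    (hc : ∀ w ∈ v.fiber F', w.ord g = c) :
    v.ord (Algebra.norm F g) = (Module.finrank F F' : ℤ) * c := by
  rw [← sum_ord_fiber v h1 hg, Finset.sum_congr rfl hc, Finset.sum_const, nsmul_eq_mul,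
    card_fiber_of_unramified v h1 he]

end Concrete

section Along

variable {K F F' : Type*} [Field K] [Field F] [Field F'] [Algebra K F] [Algebra K F']
  [HasPrincipalDivisors K F']

/-- `FundamentalIdentityAlong` for a finite separable morphism of function fields. -/
theorem fundamentalIdentityAlong_of_isSeparable (φ : F →ₐ[K] F') (hφ : φ.toRingHom.IsIntegral)
    (hfin : FiniteAlong K φ)
    (hsep : letI := algebraAlong φ; Algebra.IsSeparable F F') :
    FundamentalIdentityAlong K φ hφ := by
  let _ := algebraAlong φ
  have := isScalarTower_along φ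
  have : Module.Finite F F' := hfin
  have : Algebra.IsSeparable F F' := hsep
  exact fundamentalIdentity_of_isSeparable (K := K) (F := F) (F' := F')

/-- `NormFormulaAlong` for a finite separable morphism of function fields, all places of the
source curve having degree one. -/
theorem normFormulaAlong_of_deg_eq_one (φ : F →ₐ[K] F') (hfin : FiniteAlong K φ)
    (hsep : letI := algebraAlong φ; Algebra.IsSeparable F F')
    (hdeg : ∀ w : Place K F', w.deg = 1) :
    NormFormulaAlong K φ hfin := by
  let _ := algebraAlong φ
  have := isScalarTower_along φ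
  have : Module.Finite F F' := hfin
  have : Algebra.IsSeparable F F' := hsep
  exact pushforwardNormFormula_of_inertiaDeg_eq_one (K := K) (F := F) (F' := F')
    (inertiaDeg_eq_one_of_deg_eq_one hdeg)

end Along

end Fermat.Agent.S40x.C2.NormSepPlace
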