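import Mathlib

/-!
# P-S44/S40, block C2: descent of `p`-th roots (helper89)

`k` a perfect field of characteristic `p`, `L / k` a field extension, `E` an intermediate field,
`t ∈ E` such that `E / k(t)` is separable (algebraic) and `t` is not a `p`-th power in `L`.
Then an element of `E` which is a `p`-th power in `L` is a `p`-th power in `E`
(`exists_pow_eq`): `E ∩ L ^ p = E ^ p`.

Application (`L = k((q))`, `E` = the function field of the special fibre of a modular curve,
embedded by `q`-expansion, `t = x₄`): a function whose `q`-expansion is a series in `q ^ p` is a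
`p`-th power of a function (`exists_pow_eq_of_coeff`).  This is the step
`δ(x) = 0 ⟹ f̄ ∈ k · κ ^ p` of the (C2) block (routes OMEGA and (D)).

Proof.  (1) `E = E ^ p [t]`: the subring `E ^ p [t]` is a field (everything is algebraic over
`E ^ p`) containing `k = k ^ p` and `t`, hence `k(t)`; for `f ∈ E` separable over `k(t)` one has
`f ∈ k(t)(f ^ p)`.  So `f = ∑_{j < p} c_j ^ p t ^ j` with `c_j ∈ E`.  (2) `X ^ p - t ^ p` is
irreducible over `L ^ p` (`t ∉ L ^ p`), so `1, t, …, t ^ (p - 1)` are linearly independent over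
`L ^ p`; comparing with `f = g ^ p` gives `f = c_0 ^ p`.
-/

set_option autoImplicit false
set_option linter.style.haveILetI false

open Polynomial IntermediateField

namespace Fermat.Agent.S40x.C2.PthRootDescent

/-! ### (2) independence of `1, t, …, t ^ (p - 1)` over the `p`-th powers -/

section Indep

variable {p : ℕ} [hp : Fact p.Prime] {L : Type*} [Field L] [CharP L p]

/-- the subfield of `p`-th powers -/
def powField (p : ℕ) [Fact p.Prime] (L : Type*) [Field L] [CharP L p] : Subfield L :=
  (frobenius L p).fieldRange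

theorem pow_mem_powField (x : L) : x ^ p ∈ powField p L := ⟨x, rfl⟩

theorem exists_of_mem_powField {y : L} (hy : y ∈ powField p L) : ∃ x : L, x ^ p = y := by
  obtain ⟨x, hx⟩ := hy
  exact ⟨x, hx⟩

/-- if `t` is not a `p`-th power, a polynomial of degree `< p` with coefficients in the `p`-th
powers which vanishes at `t` is zero. -/
theorem eq_zero_of_aeval_eq_zero {t : L} (ht : ∀ g : L, g ^ p ≠ t)
    (P : (powField p L)[X]) (hdeg : P.degree < p) (hP : aeval t P = 0) : P = 0 := by
  by_contra hne
  set a : powField p L := ⟨t ^ p, pow_mem_powField t⟩ with ha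
  have hirr : Irreducible (X ^ p - C a : (powField p L)[X]) := by
    apply X_pow_sub_C_irreducible_of_prime hp.out
    intro b hb
    obtain ⟨x, hx⟩ := exists_of_mem_powField b.2
    have h1 : (b : L) ^ p = t ^ p := by
      have := congrArg (fun z : powField p L => (z : L)) hb
      simpa [ha] using this
    have h2 : (b : L) = t := frobenius_inj L p h1
    exact ht x (hx.trans h2)
  have hroot : aeval t (X ^ p - C a : (powField p L)[X]) = 0 := by
    rw [map_sub, map_pow, aeval_X, aeval_C]
    show t ^ p - ((a : powField p L) : L) = 0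
    rw [ha, sub_self]
  have hmonic : (X ^ p - C a : (powField p L)[X]).Monic :=
    monic_X_pow_sub_C a hp.out.ne_zero
  have hmin : (X ^ p - C a : (powField p L)[X]) = minpoly (powField p L) t :=
    minpoly.eq_of_irreducible_of_monic hirr hroot hmonic
  have hle := minpoly.degree_le_of_ne_zero (powField p L) t hne hP
  rw [← hmin, degree_X_pow_sub_C hp.out.pos] at hle
  exact absurd hdeg (not_lt.mpr hle)

/-- **independence**: if `g ^ p = ∑_{j < p} c_j ^ p t ^ j` and `t` is not a `p`-th power, then
`g ^ p = c_0 ^ p`. -/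
theorem pow_eq_of_sum {t : L} (ht : ∀ g : L, g ^ p ≠ t) (g : L) (c : ℕ → L)
    (h : g ^ p = ∑ j ∈ Finset.range p, c j ^ p * t ^ j) : g ^ p = c 0 ^ p := by
  classical
  set P : (powField p L)[X] :=
    (∑ j ∈ Finset.range p, C (⟨c j ^ p, pow_mem_powField (c j)⟩ : powField p L) * X ^ j)
      - C (⟨g ^ p, pow_mem_powField g⟩ : powField p L) with hPdef
  have hdeg : P.degree < p := by
    refine lt_of_le_of_lt (degree_sub_le _ _) (max_lt ?_ ?_)
    · refine lt_of_le_of_lt (degree_sum_le _ _) ?_
      refine (Finset.sup_lt_iff (WithBot.bot_lt_coe p)).mpr (fun j hj => ?_)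
      refine lt_of_le_of_lt (degree_C_mul_X_pow_le j _) ?_
      exact WithBot.coe_lt_coe.mpr (Finset.mem_range.mp hj)
    · refine lt_of_le_of_lt degree_C_le ?_
      exact_mod_cast hp.out.pos
  have hP : aeval t P = 0 := by
    rw [hPdef, map_sub, map_sum, aeval_C]
    simp only [map_mul, aeval_C, map_pow, aeval_X]
    show (∑ j ∈ Finset.range p, c j ^ p * t ^ j) - g ^ p = 0
    rw [← h, sub_self]
  have h0 := eq_zero_of_aeval_eq_zero ht P hdeg hP
  have hc : P.coeff 0 = 0 := by rw [h0, coeff_zero]
  rw [hPdef, coeff_sub, finsetSum_coeff, coeff_C_zero] at hc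
  simp only [coeff_C_mul, coeff_X_pow] at hc
  rw [Finset.sum_eq_single 0] at hc
  · have := congrArg (fun z : powField p L => (z : L)) hc
    simp only [if_true, mul_one] at this
    have h' : c 0 ^ p - g ^ p = 0 := this
    exact (sub_eq_zero.mp h').symm
  · intro j _ hj
    rw [if_neg (Ne.symm hj), mul_zero]
  · intro h0'
    exact absurd (Finset.mem_range.mpr hp.out.pos) h0'

end Indep

/-! ### (1) `E = E ^ p [t]` -/

section Span

variable {p : ℕ} [hp : Fact p.Prime] {k : Type*} [Field k] [CharP k p] [PerfectRing k p]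
  {E : Type*} [Field E] [Algebra k E] [CharP E p]

/-- every element is algebraic over the subfield of `p`-th powers -/
theorem isAlgebraic_powField (x : E) : IsAlgebraic (powField p E) x := by
  refine ⟨X ^ p - C (⟨x ^ p, pow_mem_powField x⟩ : powField p E),
    (monic_X_pow_sub_C _ hp.out.ne_zero).ne_zero, ?_⟩
  rw [map_sub, map_pow, aeval_X, aeval_C]
  show x ^ p - x ^ p = 0
  rw [sub_self]

/-- the subring `E ^ p [t]` -/
def powAdjoin (p : ℕ) [Fact p.Prime] {E : Type*} [Field E] [CharP E p] (t : E) :
    Subalgebra (powField p E) E :=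
  Algebra.adjoin (powField p E) {t}

theorem self_mem_powAdjoin (t : E) : t ∈ powAdjoin p t :=
  Algebra.subset_adjoin (Set.mem_singleton t)

theorem pow_mem_powAdjoin (t x : E) : x ^ p ∈ powAdjoin p t :=
  (powAdjoin p t).algebraMap_mem (⟨x ^ p, pow_mem_powField x⟩ : powField p E)

theorem inv_mem_powAdjoin (t : E) {x : E} (hx : x ∈ powAdjoin p t) : x⁻¹ ∈ powAdjoin p t :=
  Subalgebra.inv_mem_of_algebraic (A := powAdjoin p t) (x := ⟨x, hx⟩) (isAlgebraic_powField x)

/-- the elements of `E ^ p [t]` are the sums `∑_{j < p} c_j ^ p t ^ j` -/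
theorem exists_sum_of_mem_powAdjoin (t : E) {f : E} (hf : f ∈ powAdjoin p t) :
    ∃ c : ℕ → E, f = ∑ j ∈ Finset.range p, c j ^ p * t ^ j := by
  classical
  rw [powAdjoin, Algebra.adjoin_singleton_eq_range_aeval] at hf
  obtain ⟨q, rfl⟩ := hf
  set m : (powField p E)[X] := X ^ p - C (⟨t ^ p, pow_mem_powField t⟩ : powField p E) with hm
  have hmonic : m.Monic := monic_X_pow_sub_C _ hp.out.ne_zero
  have hroot : aeval t m = 0 := by
    rw [hm, map_sub, map_pow, aeval_X, aeval_C]
    show t ^ p - t ^ p = 0
    rw [sub_self]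
  have hmod : aeval t q = aeval t (q %ₘ m) := by
    conv_lhs => rw [← modByMonic_add_div q m]
    rw [map_add, map_mul, hroot, zero_mul, add_zero]
  have hdeg : (q %ₘ m).natDegree < p := by
    have h1 : m.natDegree = p := natDegree_X_pow_sub_C
    have hm1 : m ≠ 1 := by
      intro h
      have := congrArg natDegree h
      rw [h1, natDegree_one] at this
      exact hp.out.ne_zero this
    have := natDegree_modByMonic_lt q hmonic hm1
    rwa [h1] at this
  -- choose `p`-th roots of the coefficients
  have hroots : ∀ j : ℕ, ∃ x : E, x ^ p = (((q %ₘ m).coeff j : powField p E) : E) := fun j =>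
    exists_of_mem_powField ((q %ₘ m).coeff j).2
  choose c hc using hroots
  refine ⟨c, ?_⟩
  show aeval t q = _
  rw [hmod, aeval_eq_sum_range' hdeg]
  refine Finset.sum_congr rfl (fun j _ => ?_)
  rw [hc j]
  rfl

variable (k) in
/-- `E ^ p [t]` as an intermediate field of `E / k` (`k` perfect) -/
def powAdjoinField (t : E) : IntermediateField k E :=
  Subalgebra.toIntermediateField
    { carrier := powAdjoin p t
      mul_mem' := (powAdjoin p t).mul_mem
      one_mem' := (powAdjoin p t).one_mem
      add_mem' := (powAdjoin p t).add_mem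
      zero_mem' := (powAdjoin p t).zero_mem
      algebraMap_mem' := fun a => by
        have h : algebraMap k E a = (algebraMap k E ((frobeniusEquiv k p).symm a)) ^ p := by
          rw [← map_pow, frobeniusEquiv_symm_pow_p]
        show algebraMap k E a ∈ powAdjoin p t
        rw [h]
        exact pow_mem_powAdjoin t _ }
    (fun _ hx => inv_mem_powAdjoin t hx)

theorem mem_powAdjoinField {t x : E} : x ∈ powAdjoinField k t ↔ x ∈ powAdjoin p t := Iff.rfl

/-- **(1)** if `E / k(t)` is separable, then `E = E ^ p [t]`. -/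
theorem exists_sum (t : E) [Algebra.IsSeparable k⟮t⟯ E] (f : E) :
    ∃ c : ℕ → E, f = ∑ j ∈ Finset.range p, c j ^ p * t ^ j := by
  apply exists_sum_of_mem_powAdjoin t
  rw [← mem_powAdjoinField (k := k)]
  have hle : k⟮t⟯ ≤ powAdjoinField k t :=
    adjoin_simple_le_iff.mpr (mem_powAdjoinField.mpr (self_mem_powAdjoin t))
  haveI : CharP k⟮t⟯ p := charP_of_injective_algebraMap (algebraMap k k⟮t⟯).injective p
  haveI : ExpChar k⟮t⟯ p := ExpChar.prime hp.out
  have h1 : (k⟮t⟯)⟮f⟯ = (k⟮t⟯)⟮f ^ p⟯ :=
    adjoin_simple_eq_adjoin_pow_expChar_of_isSeparable' k⟮t⟯ E f p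
  have h2 : f ∈ (k⟮t⟯)⟮f ^ p⟯ := h1 ▸ mem_adjoin_simple_self k⟮t⟯ f
  have h3 : (k⟮t⟯)⟮f ^ p⟯ ≤ extendScalars hle :=
    adjoin_simple_le_iff.mpr
      ((mem_extendScalars hle).mpr (mem_powAdjoinField.mpr (pow_mem_powAdjoin t f)))
  exact (mem_extendScalars hle).mp (h3 h2)

end Span

/-! ### The descent of `p`-th roots -/

section Main

variable {p : ℕ} [hp : Fact p.Prime] {k L : Type*} [Field k] [Field L] [Algebra k L] [CharP k p]
  [PerfectRing k p]

/-- **descent of `p`-th roots**: `E ∩ L ^ p = E ^ p`. -/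
theorem exists_pow_eq (E : IntermediateField k L) (t : E) [Algebra.IsSeparable k⟮t⟯ E]
    (ht : ∀ g : L, g ^ p ≠ (t : L)) (f : E) (hf : ∃ g : L, g ^ p = (f : L)) :
    ∃ g : E, g ^ p = f := by
  haveI : CharP L p := charP_of_injective_algebraMap (algebraMap k L).injective p
  haveI : CharP E p := charP_of_injective_algebraMap (algebraMap k E).injective p
  obtain ⟨g, hg⟩ := hf
  obtain ⟨c, hc⟩ := exists_sum (k := k) t f
  have hc' : g ^ p = ∑ j ∈ Finset.range p, ((c j : E) : L) ^ p * (t : L) ^ j := by
    rw [hg, hc]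
    push_cast
    rfl
  have h0 := pow_eq_of_sum ht g (fun j => ((c j : E) : L)) hc'
  refine ⟨c 0, ?_⟩
  apply Subtype.ext
  rw [← hg, h0]
  rfl

end Main

end Fermat.Agent.S40x.C2.PthRootDescent
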