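import Mathlib
import Fermat.Agent.S40x.C2.PthRootDescent
import Fermat.Agent.Gateway.ES.FrobLaurent
import Fermat.Agent.S16.Two.QSeries

/-!
# P-S44/S40, block C2, leaf PTH: `p`-th roots of functions from their `q`-expansions (helper89)

`k` a perfect field of characteristic `p`.

* `exists_pow_eq_iff_coeff` : a Laurent series over `k` is a `p`-th power iff it is a series in
  `q ^ p` (all coefficients of index prime to `p` vanish);
* `exists_pow_eq_of_thetaL_eq_zero` : the same with the hypotheses `θ t ≠ 0`, `θ f = 0`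
  (`θ = q d/dq = Fermat.Agent.S16.Two.thetaL`, the derivation used by `S40x/C2/DlogHecke`);
* `exists_pow_eq_of_coeff` : `E` an intermediate field of `k((q)) / k`, `t ∈ E` with `E / k(t)`
  separable and some coefficient of `t` of index prime to `p` nonzero; if all coefficients of
  `f ∈ E` of index prime to `p` vanish, then `f = g ^ p` with `g ∈ E`.

Instance in the (C2) block: `E = modularFunctionFieldFullC k N` (`= Fk k N`), `t` the reduction of the
Hauptmodul `x₄` (`TLineHurwitz.isSeparable_t4`); `θ f̄ = 0 ⟹ n a_n = 0 ⟹ f̄ ∈ k((q ^ p))`.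
-/

set_option autoImplicit false
set_option linter.style.haveILetI false

noncomputable section

namespace Fermat.Agent.S40x.C2.PthRootDescent

open ModularCurve HahnSeries

variable {p : ℕ} [hp : Fact p.Prime] {k : Type*} [Field k] [CharP k p] [PerfectRing k p]

/-- the series `∑ a_{p n}^{1/p} q^n` -/
def rootSeries (p : ℕ) [hp : Fact p.Prime] {k : Type*} [Field k] [CharP k p] [PerfectRing k p]
    (f : LaurentSeries k) : LaurentSeries k :=
  HahnSeries.ofSuppBddBelow (fun n : ℤ => (frobeniusEquiv k p).symm (f.coeff ((p : ℤ) * n))) (by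
    refine ⟨min f.order 0, fun n hn => ?_⟩
    by_contra hlt
    rw [not_le] at hlt
    have hn0 : n < 0 := lt_of_lt_of_le hlt (min_le_right _ _)
    have hnm : n < f.order := lt_of_lt_of_le hlt (min_le_left _ _)
    have hp1 : (1 : ℤ) ≤ (p : ℤ) := by exact_mod_cast hp.out.pos
    have h1 : (p : ℤ) * n ≤ n := by nlinarith
    apply hn
    show (frobeniusEquiv k p).symm (f.coeff ((p : ℤ) * n)) = 0
    rw [HahnSeries.coeff_eq_zero_of_lt_order (lt_of_le_of_lt h1 hnm), map_zero])

theorem rootSeries_coeff (f : LaurentSeries k) (n : ℤ) :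
    (rootSeries p f).coeff n = (frobeniusEquiv k p).symm (f.coeff ((p : ℤ) * n)) := by
  rw [rootSeries, HahnSeries.coeff_ofSuppBddBelow]

/-- a series in `q ^ p` over a perfect field is a `p`-th power -/
theorem rootSeries_pow (f : LaurentSeries k)
    (hf : ∀ n : ℤ, ¬ (p : ℤ) ∣ n → f.coeff n = 0) : rootSeries p f ^ p = f := by
  haveI : NeZero p := ⟨hp.out.ne_zero⟩
  rw [Fermat.Agent.Gateway.ES.pow_char_eq_qExpand_coeffMap_frobenius p]
  ext n
  by_cases hn : (p : ℤ) ∣ n
  · obtain ⟨m, rfl⟩ := hn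
    rw [qExpand_coeff_mul, coeffMap_coeff, rootSeries_coeff, frobenius_apply_frobeniusEquiv_symm]
  · rw [qExpand_coeff_of_not_dvd _ _ hn, hf n hn]

omit [PerfectRing k p] in
/-- the coefficients of index prime to `p` of a `p`-th power vanish -/
theorem coeff_pow_eq_zero (g : LaurentSeries k) {n : ℤ} (hn : ¬ (p : ℤ) ∣ n) :
    (g ^ p).coeff n = 0 := by
  haveI : NeZero p := ⟨hp.out.ne_zero⟩
  rw [Fermat.Agent.Gateway.ES.pow_char_eq_qExpand_coeffMap_frobenius p,
    qExpand_coeff_of_not_dvd _ _ hn]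

/-- **`p`-th powers in `k((q))`** are the series in `q ^ p`. -/
theorem exists_pow_eq_iff_coeff (f : LaurentSeries k) :
    (∃ g : LaurentSeries k, g ^ p = f) ↔ ∀ n : ℤ, ¬ (p : ℤ) ∣ n → f.coeff n = 0 := by
  constructor
  · rintro ⟨g, rfl⟩ n hn
    exact coeff_pow_eq_zero g hn
  · intro hf
    exact ⟨rootSeries p f, rootSeries_pow f hf⟩

/-- **leaf PTH, `q`-expansion form.** -/
theorem exists_pow_eq_of_coeff (E : IntermediateField k (LaurentSeries k)) (t : E)
    [Algebra.IsSeparable (IntermediateField.adjoin k {t}) E]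
    (ht : ∃ n : ℤ, ¬ (p : ℤ) ∣ n ∧ (t : LaurentSeries k).coeff n ≠ 0) (f : E)
    (hf : ∀ n : ℤ, ¬ (p : ℤ) ∣ n → (f : LaurentSeries k).coeff n = 0) :
    ∃ g : E, g ^ p = f := by
  refine exists_pow_eq E t ?_ f ((exists_pow_eq_iff_coeff _).mpr hf)
  intro g hg
  obtain ⟨n, hn, hne⟩ := ht
  apply hne
  rw [← hg]
  exact coeff_pow_eq_zero g hn

omit hp [PerfectRing k p] in
/-- `θ f = 0` means that `f` is a series in `q ^ p`. -/
theorem coeff_eq_zero_of_thetaL_eq_zero {f : LaurentSeries k}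
    (hf : Fermat.Agent.S16.Two.thetaL f = 0) {n : ℤ} (hn : ¬ (p : ℤ) ∣ n) : f.coeff n = 0 := by
  have h := congrArg (fun g : LaurentSeries k => g.coeff n) hf
  simp only [Fermat.Agent.S16.Two.thetaL_coeff, HahnSeries.coeff_zero] at h
  rcases mul_eq_zero.mp h with h0 | h0
  · exact absurd ((CharP.intCast_eq_zero_iff k p n).mp h0) hn
  · exact h0

omit hp [PerfectRing k p] in
/-- `θ t ≠ 0` gives a nonzero coefficient of index prime to `p`. -/
theorem exists_coeff_ne_zero_of_thetaL_ne_zero {t : LaurentSeries k}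
    (ht : Fermat.Agent.S16.Two.thetaL t ≠ 0) : ∃ n : ℤ, ¬ (p : ℤ) ∣ n ∧ t.coeff n ≠ 0 := by
  by_contra hcon
  push Not at hcon
  apply ht
  ext n
  rw [Fermat.Agent.S16.Two.thetaL_coeff, HahnSeries.coeff_zero]
  by_cases hn : (p : ℤ) ∣ n
  · rw [(CharP.intCast_eq_zero_iff k p n).mpr hn, zero_mul]
  · rw [hcon n hn, mul_zero]

/-- **leaf PTH, `θ` form**: `θ f = 0 ⟹ f` is a `p`-th power in `E`. -/
theorem exists_pow_eq_of_thetaL_eq_zero (E : IntermediateField k (LaurentSeries k)) (t : E)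
    [Algebra.IsSeparable (IntermediateField.adjoin k {t}) E]
    (ht : Fermat.Agent.S16.Two.thetaL (t : LaurentSeries k) ≠ 0) (f : E)
    (hf : Fermat.Agent.S16.Two.thetaL (f : LaurentSeries k) = 0) :
    ∃ g : E, g ^ p = f :=
  exists_pow_eq_of_coeff E t (exists_coeff_ne_zero_of_thetaL_ne_zero ht) f
    (fun _ hn => coeff_eq_zero_of_thetaL_eq_zero hf hn)

end Fermat.Agent.S40x.C2.PthRootDescent
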