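/-
P-S44/S40, block C2, leaf C2-RAT (helper66): rationality descent of a Hecke eigenvector.

* `exists_functional_ne_zero`, `exists_rational_kernel_vector` : a common kernel vector of a family
  of matrices with entries in a subfield `F ≤ K`, with coordinates in `K`, can be replaced by one
  with coordinates in `F` (apply an `F`-linear functional of `K`).
* `exists_lattice_eigenvector` : the consumer form.  `L` a free `ℤ`-module with a finite basis `s`
  (the integral cusp forms), `T i` endomorphisms of `L` (Hecke operators), `red : L →+ Q` the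
  reduced q-expansion with values in a `k`-vector space (`k` of characteristic `p`), the reduced
  basis being `k`-linearly independent (saturation), `HQ i` the formal Hecke operators on `Q`.
  A nonzero `g_x` in the `k`-span of `red '' s` with `HQ i g_x = a_i g_x` (`a_i ∈ ℤ`) gives
  `g ∈ L`, `g ∉ pL`, `T_i g - a_i g ∈ pL` for all `i`: literally the hypotheses `(g, hg, ha)` of
  the landed `S41/Final/DSLiftSpan.exists_eigenvector_lift_in_span`.

Mathlib only.  NEW file, imported by nothing.
-/
import Mathlib

set_option autoImplicit false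

namespace Fermat.Agent.S40x.C2.RatDescent

open Matrix

/-- a nonzero element of an extension field is detected by an `F`-linear functional. -/
theorem exists_functional_ne_zero {F K : Type*} [Field F] [Field K] [Algebra F K] {x : K}
    (hx : x ≠ 0) : ∃ lam : K →ₗ[F] F, lam x ≠ 0 := by
  by_contra h
  simp only [not_exists, ne_eq, not_not] at h
  exact hx ((Module.forall_dual_apply_eq_zero_iff F x).1 h)

/-- **(R1)** a common kernel vector with coordinates in `K` of matrices over `F ≤ K` can be
replaced by a nonzero one with coordinates in `F`. -/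
theorem exists_rational_kernel_vector {F K : Type*} [Field F] [Field K] [Algebra F K]
    {m n : Type*} [Fintype n] {I : Type*} (A : I → Matrix m n F) (v : n → K) (hv : v ≠ 0)
    (h : ∀ i, ((A i).map (algebraMap F K)) *ᵥ v = 0) :
    ∃ w : n → F, w ≠ 0 ∧ ∀ i, A i *ᵥ w = 0 := by
  obtain ⟨j0, hj0⟩ : ∃ j, v j ≠ 0 := by
    by_contra hne
    simp only [not_exists, ne_eq, not_not] at hne
    exact hv (funext hne)
  obtain ⟨lam, hlam⟩ := exists_functional_ne_zero (F := F) hj0
  refine ⟨fun j => lam (v j), fun hw => hlam (congrFun hw j0), fun i => ?_⟩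
  funext r
  have h1 := congrFun (h i) r
  simp only [Matrix.mulVec, dotProduct, Matrix.map_apply, Pi.zero_apply] at h1 ⊢
  have h2 : ∑ j, A i r j * lam (v j) = lam (∑ j, algebraMap F K (A i r j) * v j) := by
    rw [map_sum]
    refine Finset.sum_congr rfl fun j _ => ?_
    rw [← Algebra.smul_def, map_smul, smul_eq_mul]
  rw [h2, h1, map_zero]

section Lattice

variable {p : ℕ} [Fact p.Prime]
variable {L : Type*} [AddCommGroup L] {ι : Type*} [Fintype ι] [DecidableEq ι]
variable {I : Type*}
variable {k : Type*} [Field k] [CharP k p] {Q : Type*} [AddCommGroup Q] [Module k Q]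

/-- **(R2)** the lattice form of the rationality descent (consumer of C2). -/
theorem exists_lattice_eigenvector (s : Module.Basis ι ℤ L) (T : I → L →ₗ[ℤ] L) (a : I → ℤ)
    (red : L →+ Q) (hred : LinearIndependent k fun j => red (s j))
    (HQ : I → Q →ₗ[k] Q) (hHQ : ∀ i x, HQ i (red x) = red (T i x))
    (gx : Q) (hgx0 : gx ≠ 0) (hgx : gx ∈ Submodule.span k (Set.range fun j => red (s j)))
    (heig : ∀ i, HQ i gx = (a i : k) • gx) :
    ∃ g : L, (¬ ∃ h : L, g = (p : ℤ) • h) ∧ ∀ i, ∃ h : L, T i g - a i • g = (p : ℤ) • h := by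
  classical
  let _ : Algebra (ZMod p) k := ZMod.algebra k p
  -- coordinates of `gx`
  obtain ⟨c, hc⟩ := (Submodule.mem_span_range_iff_exists_fun k).1 hgx
  have hc0 : c ≠ 0 := by
    rintro rfl
    apply hgx0
    rw [← hc]
    simp
  -- the integral matrices of the `T i`
  set M : I → Matrix ι ι ℤ := fun i => Matrix.of fun r j => s.repr (T i (s j)) r with hM
  have hTs : ∀ i j, T i (s j) = ∑ r, M i r j • s r := by
    intro i j
    conv_lhs => rw [← s.sum_repr (T i (s j))]
    rfl
  have hredT : ∀ i j, red (T i (s j)) = ∑ r, ((M i r j : ℤ) : k) • red (s r) := by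
    intro i j
    rw [hTs, map_sum]
    refine Finset.sum_congr rfl fun r _ => ?_
    rw [map_zsmul, Int.cast_smul_eq_zsmul]
  -- the eigen-equation in coordinates
  have hcoord : ∀ i r, ∑ j, ((M i r j : ℤ) : k) * c j = (a i : k) * c r := by
    intro i
    have h1 : HQ i gx = ∑ r, (∑ j, ((M i r j : ℤ) : k) * c j) • red (s r) := by
      rw [← hc, map_sum]
      simp only [map_smul, hHQ, hredT, Finset.smul_sum, smul_smul]
      rw [Finset.sum_comm]
      refine Finset.sum_congr rfl fun r _ => ?_
      rw [Finset.sum_smul]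
      refine Finset.sum_congr rfl fun j _ => ?_
      rw [mul_comm]
    have h2 : (a i : k) • gx = ∑ r, ((a i : k) * c r) • red (s r) := by
      rw [← hc, Finset.smul_sum]
      refine Finset.sum_congr rfl fun r _ => ?_
      rw [smul_smul]
    have h3 : ∑ r, ((∑ j, ((M i r j : ℤ) : k) * c j) - (a i : k) * c r) • red (s r) = 0 := by
      simp only [sub_smul, Finset.sum_sub_distrib]
      rw [← h1, ← h2, heig i, sub_self]
    intro r
    have := (Fintype.linearIndependent_iff.1 hred) _ h3 r
    exact sub_eq_zero.1 this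
  -- the matrices over `ZMod p`
  set A : I → Matrix ι ι (ZMod p) := fun i =>
    Matrix.of fun r j => ((M i r j : ℤ) : ZMod p) - if r = j then ((a i : ℤ) : ZMod p) else 0
    with hA
  have hAk : ∀ i, ((A i).map (algebraMap (ZMod p) k)) *ᵥ c = 0 := by
    intro i
    funext r
    simp only [Matrix.mulVec, dotProduct, Matrix.map_apply, Pi.zero_apply, hA, Matrix.of_apply]
    have : ∀ j, algebraMap (ZMod p) k (((M i r j : ℤ) : ZMod p)
          - if r = j then ((a i : ℤ) : ZMod p) else 0) * c j
        = ((M i r j : ℤ) : k) * c j - if r = j then (a i : k) * c j else 0 := by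
      intro j
      split_ifs with hrj
      · rw [map_sub, map_intCast, map_intCast, sub_mul]
      · rw [sub_zero, sub_zero, map_intCast]
    simp only [this, Finset.sum_sub_distrib, Finset.sum_ite_eq, Finset.mem_univ, if_true]
    rw [hcoord i r, sub_self]
  obtain ⟨w, hw0, hw⟩ := exists_rational_kernel_vector A c hc0 hAk
  -- integral lift
  set nn : ι → ℤ := fun j => ((w j).val : ℤ) with hnn
  have hnn_cast : ∀ j, ((nn j : ℤ) : ZMod p) = w j := by
    intro j
    simp only [hnn]
    rw [Int.cast_natCast, ZMod.natCast_zmod_val]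
  refine ⟨∑ j, nn j • s j, ?_, fun i => ?_⟩
  · rintro ⟨h, hh⟩
    apply hw0
    funext j
    have h1 := congrArg (fun x => s.repr x j) hh
    simp only [map_sum, map_zsmul, Finsupp.coe_finsetSum, Finsupp.coe_smul, Finset.sum_apply,
      Pi.smul_apply, s.repr_self, Finsupp.single_apply, smul_eq_mul, mul_ite, mul_one, mul_zero,
      Finset.sum_ite_eq', Finset.mem_univ, if_true] at h1
    have h2 : ((nn j : ℤ) : ZMod p) = 0 := by
      rw [h1]
      push_cast
      rw [ZMod.natCast_self, zero_mul]
    rw [← hnn_cast j, h2]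
    rfl
  · -- coordinates of `T i g - a i g`
    have hcoef : ∀ r, ∃ d : ℤ, (∑ j, M i r j * nn j) - a i * nn r = (p : ℤ) * d := by
      intro r
      have h1 := congrFun (hw i) r
      simp only [Matrix.mulVec, dotProduct, Pi.zero_apply, hA, Matrix.of_apply] at h1
      have h2 : (((∑ j, M i r j * nn j) - a i * nn r : ℤ) : ZMod p) = 0 := by
        rw [← h1]
        push_cast
        simp only [hnn_cast, sub_mul, Finset.sum_sub_distrib, ite_mul, zero_mul,
          Finset.sum_ite_eq, Finset.mem_univ, if_true]
      exact (ZMod.intCast_zmod_eq_zero_iff_dvd _ p).1 h2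
    choose d hd using hcoef
    refine ⟨∑ r, d r • s r, ?_⟩
    have h3 : T i (∑ j, nn j • s j) = ∑ r, (∑ j, M i r j * nn j) • s r := by
      rw [map_sum]
      simp only [map_zsmul, hTs, Finset.smul_sum, smul_smul]
      rw [Finset.sum_comm]
      refine Finset.sum_congr rfl fun r _ => ?_
      rw [Finset.sum_smul]
      refine Finset.sum_congr rfl fun j _ => ?_
      rw [mul_comm]
    rw [h3, Finset.smul_sum, Finset.smul_sum, ← Finset.sum_sub_distrib]
    refine Finset.sum_congr rfl fun r _ => ?_
    rw [smul_smul, smul_smul, ← sub_smul, hd r]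

/-- **(R2')** the same for a lattice given as a `ℤ`-submodule `L'` of an ambient group `V`
(e.g. `V = CuspForm (Gamma0 M') 2`, `L'` = forms with integral q-expansion), operators defined on
all of `V` and preserving `L'`: the conclusion is literally the triple `(hgL, hg, ha)` consumed by
the landed `S41/Final/DSLiftSpan.exists_eigenvector_lift_in_span`. -/
theorem exists_lattice_eigenvector_submodule {V : Type*} [AddCommGroup V] (L' : Submodule ℤ V)
    (s : Module.Basis ι ℤ L') (T : I → V →ₗ[ℤ] V) (hTL : ∀ i, ∀ x ∈ L', T i x ∈ L') (a : I → ℤ)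
    (red : V →+ Q) (hred : LinearIndependent k fun j => red (s j : V))
    (HQ : I → Q →ₗ[k] Q) (hHQ : ∀ i, ∀ x ∈ L', HQ i (red x) = red (T i x))
    (gx : Q) (hgx0 : gx ≠ 0)
    (hgx : gx ∈ Submodule.span k (Set.range fun j => red (s j : V)))
    (heig : ∀ i, HQ i gx = (a i : k) • gx) :
    ∃ g : V, g ∈ L' ∧ (¬ ∃ h ∈ L', g = (p : ℤ) • h) ∧
      ∀ i, ∃ h ∈ L', T i g - a i • g = (p : ℤ) • h := by
  obtain ⟨g, hg, ha⟩ := exists_lattice_eigenvector (p := p) s
    (fun i => (T i).restrict (hTL i)) a (red.comp L'.subtype.toAddMonoidHom) hred HQ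
    (fun i x => hHQ i x x.2) gx hgx0 hgx heig
  refine ⟨g, g.2, ?_, fun i => ?_⟩
  · rintro ⟨h, hh, e⟩
    exact hg ⟨⟨h, hh⟩, Subtype.ext e⟩
  · obtain ⟨h, e⟩ := ha i
    exact ⟨h, h.2, congrArg Subtype.val e⟩

end Lattice

end Fermat.Agent.S40x.C2.RatDescent
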