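/-
P-S44/S40, block C2, leaf C2-RAT (abstract core), helper91.
`F ≤ k` fields.  A nonzero `k`-linear combination of `F`-rational vectors which is a simultaneous
eigenvector (eigenvalues in `F`) of `F`-rational operators yields a nonzero `F`-rational simultaneous
eigenvector inside the `F`-span of the same vectors.  No tensor products: the comparison map `φ` only has to
"separate `F`-independent scalars" (`Separates`), which holds coefficientwise for power series and Laurent series.
-/
import Mathlib
import Fermat.Prelude.Def_ModularCurve_LaurentCoeff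

set_option autoImplicit false
set_option linter.style.haveILetI false
set_option linter.unusedSectionVars false

noncomputable section

namespace Fermat.Agent.S40x.C2.RatEigen

open scoped BigOperators

variable {F k : Type*} [Field F] [Field k] [Algebra F k]

/-- `φ` separates `F`-independent scalars: `∑ e_j • φ (x_j) = 0` with `(e_j)` independent over `F` forces
all `x_j = 0`. -/
def Separates {A B : Type*} [AddCommGroup A] [Module F A] [AddCommGroup B] [Module k B]
    (φ : A →ₛₗ[algebraMap F k] B) : Prop :=
  ∀ (r : ℕ) (e : Fin r → k), LinearIndependent F e → ∀ x : Fin r → A,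
    ∑ j, e j • φ (x j) = 0 → ∀ j, x j = 0

section Abstract

variable {A B : Type*} [AddCommGroup A] [Module F A] [AddCommGroup B] [Module k B]

/-- decomposition of a `k`-combination of rational vectors along an `F`-basis of the span of the
coefficients -/
theorem exists_decomposition (φ : A →ₛₗ[algebraMap F k] B) {m : ℕ} (s : Fin m → A) (c : Fin m → k) :
    ∃ (r : ℕ) (e : Fin r → k) (lam : Fin r → Fin m → F), LinearIndependent F e ∧
      (∀ i, c i = ∑ j, lam j i • e j) ∧
      ∑ i, c i • φ (s i) = ∑ j, e j • φ (∑ i, lam j i • s i) := by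
  classical
  set W : Submodule F k := Submodule.span F (Set.range c) with hW
  haveI : Module.Finite F W := Module.Finite.span_of_finite F (Set.finite_range c)
  set b := Module.finBasis F W with hb
  have hcW : ∀ i, c i ∈ W := fun i => Submodule.subset_span ⟨i, rfl⟩
  refine ⟨Module.finrank F W, fun j => (b j : k), fun j i => b.repr ⟨c i, hcW i⟩ j, ?_, ?_, ?_⟩
  · have := b.linearIndependent.map' W.subtype (Submodule.ker_subtype W)
    exact this
  · intro i
    have h1 := b.sum_repr ⟨c i, hcW i⟩
    have h2 := congrArg (W.subtype) h1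
    rw [map_sum] at h2
    simp only [map_smul, Submodule.subtype_apply] at h2
    exact h2.symm
  · have hc : ∀ i, c i = ∑ j, b.repr ⟨c i, hcW i⟩ j • (b j : k) := by
      intro i
      have h1 := b.sum_repr ⟨c i, hcW i⟩
      have h2 := congrArg (W.subtype) h1
      rw [map_sum] at h2
      simp only [map_smul, Submodule.subtype_apply] at h2
      exact h2.symm
    calc ∑ i, c i • φ (s i)
        = ∑ i, ∑ j, ((b j : k) * algebraMap F k (b.repr ⟨c i, hcW i⟩ j)) • φ (s i) := by
          refine Finset.sum_congr rfl fun i _ => ?_
          conv_lhs => rw [hc i]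
          rw [Finset.sum_smul]
          refine Finset.sum_congr rfl fun j _ => ?_
          rw [Algebra.smul_def, mul_comm]
      _ = ∑ j, ∑ i, ((b j : k) * algebraMap F k (b.repr ⟨c i, hcW i⟩ j)) • φ (s i) :=
          Finset.sum_comm
      _ = ∑ j, (b j : k) • φ (∑ i, b.repr ⟨c i, hcW i⟩ j • s i) := by
          refine Finset.sum_congr rfl fun j _ => ?_
          rw [map_sum, Finset.smul_sum]
          refine Finset.sum_congr rfl fun i _ => ?_
          rw [map_smulₛₗ, mul_smul]

/-- **C2-RAT, abstract core.** -/
theorem exists_rational_eigenvector (φ : A →ₛₗ[algebraMap F k] B) (hφ : Separates φ)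
    {ι : Type*} (HA : ι → A →ₗ[F] A) (HB : ι → B →ₗ[k] B)
    (hH : ∀ l x, HB l (φ x) = φ (HA l x)) (a : ι → F)
    {m : ℕ} (s : Fin m → A) (c : Fin m → k)
    (hg : ∑ i, c i • φ (s i) ≠ 0)
    (heig : ∀ l, HB l (∑ i, c i • φ (s i)) = algebraMap F k (a l) • ∑ i, c i • φ (s i)) :
    ∃ lam : Fin m → F, ∑ i, lam i • s i ≠ 0 ∧
      ∀ l, HA l (∑ i, lam i • s i) = a l • ∑ i, lam i • s i := by
  classical
  obtain ⟨r, e, lam, he, -, hdec⟩ := exists_decomposition φ s c
  -- each component is an eigenvector
  have hcomp : ∀ l j, HA l (∑ i, lam j i • s i) = a l • ∑ i, lam j i • s i := by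
    intro l
    have h1 := heig l
    rw [hdec, map_sum, Finset.smul_sum] at h1
    have h2 : ∑ j, e j • φ (HA l (∑ i, lam j i • s i) - a l • ∑ i, lam j i • s i) = 0 := by
      have : ∀ j, e j • φ (HA l (∑ i, lam j i • s i) - a l • ∑ i, lam j i • s i) =
          HB l (e j • φ (∑ i, lam j i • s i)) -
            algebraMap F k (a l) • (e j • φ (∑ i, lam j i • s i)) := by
        intro j
        rw [map_sub, map_smulₛₗ, smul_sub, map_smul, hH, smul_comm (e j)]
      rw [Finset.sum_congr rfl fun j _ => this j, Finset.sum_sub_distrib, h1, sub_self]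
    intro j
    have := hφ r e he _ h2 j
    exact sub_eq_zero.mp this
  -- some component is nonzero
  have hne : ∃ j, ∑ i, lam j i • s i ≠ 0 := by
    by_contra hcon
    push Not at hcon
    apply hg
    rw [hdec]
    refine Finset.sum_eq_zero fun j _ => ?_
    rw [hcon j, map_zero, smul_zero]
  obtain ⟨j, hj⟩ := hne
  exact ⟨lam j, hj, fun l => hcomp l j⟩

end Abstract

/-! ### Instances of `Separates`: coefficientwise maps on series -/

section Series

/-- a coefficientwise criterion -/
theorem separates_of_coeff {A B J : Type*} [AddCommGroup A] [Module F A] [AddCommGroup B] [Module k B]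
    (φ : A →ₛₗ[algebraMap F k] B) (cA : J → A →ₗ[F] F) (cB : J → B →ₗ[k] k)
    (hc : ∀ n x, cB n (φ x) = algebraMap F k (cA n x))
    (hA : ∀ x : A, (∀ n, cA n x = 0) → x = 0) : Separates φ := by
  intro r e he x h j
  apply hA
  intro n
  have h1 := congrArg (cB n) h
  rw [map_sum, map_zero] at h1
  have h2 : ∑ i, cA n (x i) • e i = 0 := by
    rw [← h1]
    refine Finset.sum_congr rfl fun i _ => ?_
    rw [map_smul, hc, Algebra.smul_def, smul_eq_mul, mul_comm]
  exact Fintype.linearIndependent_iff.mp he _ h2 j

variable (F k)

/-- coefficientwise base change of power series, as a semilinear map -/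
def psMap : PowerSeries F →ₛₗ[algebraMap F k] PowerSeries k where
  toFun := PowerSeries.map (algebraMap F k)
  map_add' := map_add _
  map_smul' := by
    intro a x
    ext n
    simp [PowerSeries.coeff_map, Algebra.smul_def]

@[simp] theorem psMap_apply (x : PowerSeries F) : psMap F k x = PowerSeries.map (algebraMap F k) x := rfl

theorem separates_psMap : Separates (psMap F k) := by
  refine separates_of_coeff (J := ℕ) (psMap F k) (fun n => PowerSeries.coeff n)
    (fun n => PowerSeries.coeff n) ?_ ?_
  · intro n x
    simp
  · intro x hx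
    ext n
    simpa using hx n

/-- coefficientwise base change of Laurent series, as a semilinear map -/
def lsMap : LaurentSeries F →ₛₗ[algebraMap F k] LaurentSeries k where
  toFun := ModularCurve.coeffMap (algebraMap F k)
  map_add' := map_add _
  map_smul' := by
    intro a x
    ext n
    simp [Algebra.smul_def]

@[simp] theorem lsMap_apply (x : LaurentSeries F) :
    lsMap F k x = ModularCurve.coeffMap (algebraMap F k) x := rfl

/-- the `n`-th coefficient of a Laurent series as a linear map -/
def lsCoeff (R : Type*) [Field R] (n : ℤ) : LaurentSeries R →ₗ[R] R where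
  toFun x := x.coeff n
  map_add' := by intro x y; simp
  map_smul' := by intro a x; simp

theorem separates_lsMap : Separates (lsMap F k) := by
  refine separates_of_coeff (J := ℤ) (lsMap F k) (fun n => lsCoeff F n) (fun n => lsCoeff k n) ?_ ?_
  · intro n x
    simp [lsCoeff]
  · intro x hx
    ext n
    simpa [lsCoeff] using hx n

end Series

/-- **C2-RAT for Laurent series** (consumer form).  `s_i ∈ F((q))`, `g = ∑ c_i • (s_i)_k ≠ 0` a simultaneous
eigenvector over `k` of operators `H_l` which are defined compatibly over `F` and over `k`, with eigenvalues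
`a_l ∈ F`: then some `F`-combination `G = ∑ lam_i • s_i ≠ 0` is a simultaneous eigenvector over `F`. -/
theorem exists_rational_eigenvector_laurent
    {ι : Type*} (HF : ι → LaurentSeries F →ₗ[F] LaurentSeries F)
    (Hk : ι → LaurentSeries k →ₗ[k] LaurentSeries k)
    (hH : ∀ l x, Hk l (ModularCurve.coeffMap (algebraMap F k) x) =
      ModularCurve.coeffMap (algebraMap F k) (HF l x)) (a : ι → F)
    {m : ℕ} (s : Fin m → LaurentSeries F) (c : Fin m → k)
    (hg : ∑ i, c i • ModularCurve.coeffMap (algebraMap F k) (s i) ≠ 0)
    (heig : ∀ l, Hk l (∑ i, c i • ModularCurve.coeffMap (algebraMap F k) (s i)) =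
      algebraMap F k (a l) • ∑ i, c i • ModularCurve.coeffMap (algebraMap F k) (s i)) :
    ∃ lam : Fin m → F, ∑ i, lam i • s i ≠ 0 ∧
      ∀ l, HF l (∑ i, lam i • s i) = a l • ∑ i, lam i • s i :=
  exists_rational_eigenvector (lsMap F k) (separates_lsMap F k) HF Hk hH a s c hg heig

/-- **C2-RAT for power series** (consumer form). -/
theorem exists_rational_eigenvector_power
    {ι : Type*} (HF : ι → PowerSeries F →ₗ[F] PowerSeries F)
    (Hk : ι → PowerSeries k →ₗ[k] PowerSeries k)
    (hH : ∀ l x, Hk l (PowerSeries.map (algebraMap F k) x) =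
      PowerSeries.map (algebraMap F k) (HF l x)) (a : ι → F)
    {m : ℕ} (s : Fin m → PowerSeries F) (c : Fin m → k)
    (hg : ∑ i, c i • PowerSeries.map (algebraMap F k) (s i) ≠ 0)
    (heig : ∀ l, Hk l (∑ i, c i • PowerSeries.map (algebraMap F k) (s i)) =
      algebraMap F k (a l) • ∑ i, c i • PowerSeries.map (algebraMap F k) (s i)) :
    ∃ lam : Fin m → F, ∑ i, lam i • s i ≠ 0 ∧
      ∀ l, HF l (∑ i, lam i • s i) = a l • ∑ i, lam i • s i :=
  exists_rational_eigenvector (psMap F k) (separates_psMap F k) HF Hk hH a s c hg heig

end Fermat.Agent.S40x.C2.RatEigen
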