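import Mathlib

/-!
# P-S44 (C2, route OMEGA, descent leaf): the trace commutes with reduction

`F'/F` a finite extension of fields, `O' ⊆ F'` a valuation subring lying over the valuation subring
`O ⊆ F`, with residue maps `r : O → κ`, `r' : O' → κ'` (surjective, kernel = the non-units,
compatible).  If `[F' : F] ≤ [κ' : κ]` (so that the valuation is "defectless and inert":
`e = 1`, `f = [F' : F]`) then

* `exists_basis` : `F'` has an `F`-basis `b` of elements of `O'` whose residues are a `κ`-basis of
  `κ'`, and the coordinates of every element of `O'` lie in `O`;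
* `trace_mem` : `Tr_{F'/F}(x) ∈ O` for `x ∈ O'`;
* `red_trace` : `r (Tr_{F'/F} x) = Tr_{κ'/κ} (r' x)`;
* `red_trace_of_mem` : if moreover `r' x = algebraMap κ κ' c` then `r (Tr x) = [F' : F] • c`.

Mathlib only.
-/

set_option autoImplicit false

namespace Fermat.Agent.S40x.C2.TraceRed

open Module

/-- In a valuation ring, among finitely many elements not all zero one divides all the others. -/
theorem exists_max {F : Type*} [Field F] (O : ValuationSubring F) {ι : Type*} (s : Finset ι) (c : ι → F) (h : ∃ i ∈ s, c i ≠ 0) :
    ∃ i ∈ s, c i ≠ 0 ∧ ∀ j ∈ s, c j / c i ∈ O := by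
  classical
  induction s using Finset.induction_on with
  | empty => obtain ⟨i, hi, -⟩ := h; simp at hi
  | insert a s ha ih =>
    by_cases hs : ∃ i ∈ s, c i ≠ 0
    · obtain ⟨i, his, hi0, hi⟩ := ih hs
      by_cases hai : c a / c i ∈ O
      · refine ⟨i, Finset.mem_insert_of_mem his, hi0, fun j hj => ?_⟩
        rcases Finset.mem_insert.1 hj with rfl | hj
        · exact hai
        · exact hi j hj
      · have ha0 : c a ≠ 0 := by
          rintro h0
          rw [h0, zero_div] at hai
          exact hai O.zero_mem
        have hia : c i / c a ∈ O := by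
          rcases O.mem_or_inv_mem (c a / c i) with h | h
          · exact absurd h hai
          · rwa [inv_div] at h
        refine ⟨a, Finset.mem_insert_self _ _, ha0, fun j hj => ?_⟩
        rcases Finset.mem_insert.1 hj with rfl | hj
        · rw [div_self ha0]; exact O.one_mem
        · have : c j / c a = (c j / c i) * (c i / c a) := by
            field_simp
          rw [this]
          exact O.mul_mem _ _ (hi j hj) hia
    · have hs : ∀ i ∈ s, c i = 0 := fun i hi => by
        by_contra h'
        exact hs ⟨i, hi, h'⟩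
      obtain ⟨i, hi, hi0⟩ := h
      rcases Finset.mem_insert.1 hi with rfl | hi'
      · refine ⟨i, Finset.mem_insert_self _ _, hi0, fun j hj => ?_⟩
        rcases Finset.mem_insert.1 hj with rfl | hj
        · rw [div_self hi0]; exact O.one_mem
        · rw [hs j hj, zero_div]; exact O.zero_mem
      · exact absurd (hs i hi') hi0

variable {F F' : Type*} [Field F] [Field F'] [Algebra F F']
  (O : ValuationSubring F) (O' : ValuationSubring F')
  {κ κ' : Type*} [Field κ] [Field κ'] [Algebra κ κ']
  (r : O →+* κ) (r' : O' →+* κ')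

/-- The hypotheses: `O'` lies over `O`, the residue maps are surjective with kernel the non-units,
and they are compatible. -/
structure Setup : Prop where
  mem_iff : ∀ x : F, algebraMap F F' x ∈ O' ↔ x ∈ O
  surj : Function.Surjective r
  surj' : Function.Surjective r'
  ker : ∀ x : O, r x = 0 ↔ ¬ IsUnit x
  ker' : ∀ x : O', r' x = 0 ↔ ¬ IsUnit x
  compat : ∀ (x : O) (hx : algebraMap F F' (x : F) ∈ O'),
    r' ⟨algebraMap F F' (x : F), hx⟩ = algebraMap κ κ' (r x)

variable {O O' r r'}

namespace Setup

variable (S : Setup O O' r r')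
include S

/-- the inclusion `O → O'`. -/
def incl (x : O) : O' := ⟨algebraMap F F' (x : F), (S.mem_iff _).2 x.2⟩

theorem r'_incl (x : O) : r' (S.incl x) = algebraMap κ κ' (r x) := S.compat x _

/-- **Key lemma.**  If the residues of `x i ∈ O'` are `κ`-linearly independent and
`∑ c i • x i ∈ O'` then all `c i ∈ O`; and the sum is nonzero unless all `c i` vanish. -/
theorem coeff_mem {ι : Type*} [Fintype ι] (x : ι → O')
    (hx : LinearIndependent κ (fun i => r' (x i))) (c : ι → F) :
    (∑ i, c i • (x i : F') = 0 → ∀ i, c i = 0) ∧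
      (∑ i, c i • (x i : F') ∈ O' → ∀ i, c i ∈ O) := by
  classical
  by_cases h0 : ∀ i, c i = 0
  · exact ⟨fun _ => h0, fun _ i => by rw [h0 i]; exact O.zero_mem⟩
  obtain ⟨i₀, -, hi₀, hdiv⟩ := exists_max O Finset.univ c
    (by obtain ⟨i, hi⟩ := not_forall.1 h0; exact ⟨i, Finset.mem_univ _, hi⟩)
  -- the normalised combination
  let d : ι → O := fun j => ⟨c j / c i₀, hdiv j (Finset.mem_univ _)⟩
  let y : O' := ∑ j, S.incl (d j) * x j
  have hy : (y : F') = ∑ j, (c j / c i₀) • (x j : F') := by
    show ((∑ j, S.incl (d j) * x j : O') : F') = _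
    rw [show ((∑ j, S.incl (d j) * x j : O') : F') = ∑ j, ((S.incl (d j) * x j : O') : F') from
      map_sum O'.subtype _ _]
    refine Finset.sum_congr rfl fun j _ => ?_
    rw [Algebra.smul_def]
    rfl
  have hsum : ∑ j, c j • (x j : F') = c i₀ • (y : F') := by
    rw [hy, Finset.smul_sum]
    refine Finset.sum_congr rfl fun j _ => ?_
    rw [smul_smul, mul_div_cancel₀ _ hi₀]
  -- the residue of `y` is nonzero
  have hry : r' y ≠ 0 := by
    intro h
    rw [map_sum] at h
    simp only [map_mul, S.r'_incl] at h
    have h' : ∑ j, r (d j) • r' (x j) = 0 := by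
      rw [← h]
      refine Finset.sum_congr rfl fun j _ => ?_
      rw [Algebra.smul_def]
    have := Fintype.linearIndependent_iff.1 hx (fun j => r (d j)) h' i₀
    have hd1 : d i₀ = 1 := by
      apply Subtype.ext
      show c i₀ / c i₀ = 1
      exact div_self hi₀
    rw [hd1, map_one] at this
    exact one_ne_zero this
  have hyu : IsUnit y := by
    by_contra h
    exact hry ((S.ker' y).2 h)
  have hy0 : (y : F') ≠ 0 := by
    intro h
    have : y = 0 := Subtype.ext h
    rw [this] at hyu
    exact not_isUnit_zero hyu
  refine ⟨fun h => ?_, fun h i => ?_⟩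
  · rw [hsum, smul_eq_zero] at h
    rcases h with h | h
    · exact absurd h hi₀
    · exact absurd h hy0
  · -- `c i₀ = (c i₀ • y) * y⁻¹ ∈ O'`
    rw [hsum] at h
    obtain ⟨u, hu⟩ := hyu
    have hinv : ((↑u⁻¹ : O') : F') * (y : F') = 1 := by
      have : (↑u⁻¹ : O') * y = 1 := by rw [← hu]; exact u.inv_mul
      have := congrArg (fun z : O' => (z : F')) this
      simpa using this
    have hc : algebraMap F F' (c i₀) ∈ O' := by
      have : algebraMap F F' (c i₀) = (c i₀ • (y : F')) * ((↑u⁻¹ : O') : F') := by
        rw [Algebra.smul_def, mul_assoc, mul_comm (y : F'), hinv, mul_one]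
      rw [this]
      exact O'.mul_mem _ _ h (↑u⁻¹ : O').2
    have hc' : c i₀ ∈ O := (S.mem_iff _).1 hc
    have : c i = (c i / c i₀) * c i₀ := by field_simp
    rw [this]
    exact O.mul_mem _ _ (hdiv i (Finset.mem_univ _)) hc'

/-- lifts of `κ`-independent residues are `F`-independent. -/
theorem linearIndependent_lift {ι : Type*} [Fintype ι] (x : ι → O')
    (hx : LinearIndependent κ (fun i => r' (x i))) :
    LinearIndependent F (fun i => (x i : F')) :=
  Fintype.linearIndependent_iff.2 fun c h => (S.coeff_mem x hx c).1 h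

/-- the fundamental inequality `[κ' : κ] ≤ [F' : F]`. -/
theorem finrank_residue_le [FiniteDimensional F F'] [FiniteDimensional κ κ'] :
    finrank κ κ' ≤ finrank F F' := by
  classical
  let b := Module.finBasis κ κ'
  choose x hx using fun i => S.surj' (b i)
  have hli : LinearIndependent κ (fun i => r' (x i)) := by
    have : (fun i => r' (x i)) = b := funext hx
    rw [this]
    exact b.linearIndependent
  have := (S.linearIndependent_lift x hli).fintype_card_le_finrank
  simpa using this

/-- **Basis.**  If `[F' : F] ≤ [κ' : κ]` there is an `F`-basis of `F'` inside `O'` reducing to a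
`κ`-basis of `κ'`, and coordinates of elements of `O'` are in `O`. -/
theorem exists_basis [FiniteDimensional F F'] [FiniteDimensional κ κ']
    (hdeg : finrank F F' ≤ finrank κ κ') :
    ∃ (b : Basis (Fin (finrank κ κ')) F F') (x : Fin (finrank κ κ') → O')
      (bk : Basis (Fin (finrank κ κ')) κ κ'),
      (∀ i, b i = (x i : F')) ∧ (∀ i, bk i = r' (x i)) ∧
      ∀ y : O', ∀ i, b.repr (y : F') i ∈ O := by
  classical
  let bk := Module.finBasis κ κ'
  choose x hx using fun i => S.surj' (bk i)
  have hfun : (fun i => r' (x i)) = bk := funext hx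
  have hli : LinearIndependent κ (fun i => r' (x i)) := by
    rw [hfun]
    exact bk.linearIndependent
  have hliF := S.linearIndependent_lift x hli
  have hcard : Fintype.card (Fin (finrank κ κ')) = finrank F F' := by
    rw [Fintype.card_fin]
    exact le_antisymm S.finrank_residue_le hdeg
  haveI : Nonempty (Fin (finrank κ κ')) := ⟨⟨0, Module.finrank_pos⟩⟩
  let b : Basis (Fin (finrank κ κ')) F F' := basisOfLinearIndependentOfCardEqFinrank hliF hcard
  have hb : ∀ i, b i = (x i : F') := fun i => by
    simp only [b, coe_basisOfLinearIndependentOfCardEqFinrank]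
  refine ⟨b, x, bk, hb, fun i => (hx i).symm, fun y i => ?_⟩
  have hy : ∑ j, b.repr (y : F') j • (x j : F') ∈ O' := by
    have : ∑ j, b.repr (y : F') j • (x j : F') = (y : F') := by
      conv_rhs => rw [← b.sum_repr (y : F')]
      exact Finset.sum_congr rfl fun j _ => by rw [hb j]
    rw [this]
    exact y.2
  exact (S.coeff_mem x hli (fun j => b.repr (y : F') j)).2 hy i

/-- **The trace of an integral element is integral, and the trace commutes with reduction.** -/
theorem trace_mem_and_red [FiniteDimensional F F'] [FiniteDimensional κ κ']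
    (hdeg : finrank F F' ≤ finrank κ κ') (y : O') :
    ∃ h : Algebra.trace F F' (y : F') ∈ O,
      r ⟨Algebra.trace F F' (y : F'), h⟩ = Algebra.trace κ κ' (r' y) := by
  classical
  obtain ⟨b, x, bk, hb, hbk, hrepr⟩ := S.exists_basis hdeg
  -- the matrix of multiplication by `y`
  let a : Fin (finrank κ κ') → Fin (finrank κ κ') → O := fun i j =>
    ⟨b.repr ((y * x j : O') : F') i, hrepr _ i⟩
  have htr : Algebra.trace F F' (y : F') = ∑ i, (a i i : F) := by
    rw [Algebra.trace_eq_matrix_trace b, Matrix.trace]
    refine Finset.sum_congr rfl fun i _ => ?_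
    rw [Matrix.diag_apply, Algebra.leftMulMatrix_eq_repr_mul, hb i]
    rfl
  have hmem : Algebra.trace F F' (y : F') ∈ O := by
    rw [htr]
    exact O.toSubring.sum_mem fun i _ => (a i i).2
  refine ⟨hmem, ?_⟩
  have h1 : (⟨Algebra.trace F F' (y : F'), hmem⟩ : O) = ∑ i, a i i := by
    apply Subtype.ext
    rw [show ((∑ i, a i i : O) : F) = ∑ i, (a i i : F) from map_sum O.subtype _ _]
    exact htr
  rw [h1, map_sum]
  -- the reduced matrix
  have hmul : ∀ j, r' y * bk j = ∑ i, r (a i j) • bk i := by
    intro j
    have hyx : (y * x j : O') = ∑ i, S.incl (a i j) * x i := by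
      apply Subtype.ext
      rw [show ((∑ i, S.incl (a i j) * x i : O') : F') =
        ∑ i, ((S.incl (a i j) * x i : O') : F') from map_sum O'.subtype _ _]
      conv_lhs => rw [← b.sum_repr ((y * x j : O') : F')]
      refine Finset.sum_congr rfl fun i _ => ?_
      rw [hb i, Algebra.smul_def]
      rfl
    rw [hbk j, ← map_mul, hyx, map_sum]
    refine Finset.sum_congr rfl fun i _ => ?_
    rw [map_mul, S.r'_incl, hbk i, Algebra.smul_def]
  rw [Algebra.trace_eq_matrix_trace bk, Matrix.trace]
  refine Finset.sum_congr rfl fun i _ => ?_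
  rw [Matrix.diag_apply, Algebra.leftMulMatrix_eq_repr_mul, hmul i]
  simp only [map_sum, map_smul, Basis.repr_self, Finsupp.coe_finsetSum, Finsupp.coe_smul,
    Finset.sum_apply, Pi.smul_apply, smul_eq_mul]
  rw [Finset.sum_eq_single i]
  · simp
  · intro j _ hji
    simp [hji]
  · intro h
    exact absurd (Finset.mem_univ i) h

theorem trace_mem [FiniteDimensional F F'] [FiniteDimensional κ κ']
    (hdeg : finrank F F' ≤ finrank κ κ') (y : O') : Algebra.trace F F' (y : F') ∈ O :=
  (S.trace_mem_and_red hdeg y).1

theorem red_trace [FiniteDimensional F F'] [FiniteDimensional κ κ']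
    (hdeg : finrank F F' ≤ finrank κ κ') (y : O') :
    r ⟨Algebra.trace F F' (y : F'), S.trace_mem hdeg y⟩ = Algebra.trace κ κ' (r' y) :=
  (S.trace_mem_and_red hdeg y).2

/-- If the residue of `y` comes from `κ`, the residue of the trace is `[F' : F]` times it. -/
theorem red_trace_of_mem [FiniteDimensional F F'] [FiniteDimensional κ κ']
    (hdeg : finrank F F' ≤ finrank κ κ') (y : O') (c : κ) (hc : r' y = algebraMap κ κ' c) :
    r ⟨Algebra.trace F F' (y : F'), S.trace_mem hdeg y⟩ = (finrank F F' : κ) * c := by
  rw [S.red_trace hdeg y, hc, Algebra.trace_algebraMap,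
    le_antisymm S.finrank_residue_le hdeg, nsmul_eq_mul]

end Setup

end Fermat.Agent.S40x.C2.TraceRed
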